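import Fermat.Agent.LL.Blocks
import Fermat.Agent.TWMod.GrpRing

set_option autoImplicit false

/-!
# Automorphic output at one Taylor--Wiles level

The structures below describe what the automorphic side of the argument (twisted cohomology of
`Γ₀(N)`) provides, in a form independent of its construction.
-/

open IsLocalRing Polynomial

namespace Fermat.Agent.LL

local notation "Γℚ" => (AlgebraicClosure ℚ ≃ₐ[ℚ] AlgebraicClosure ℚ)

/-- A representation attached to an eigensystem `t` (away from `S`), with coefficients in a finite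
extension of `𝒪` embedded in `ℂ`. -/
structure Pt {𝒪 : Type} [CommRing 𝒪] [IsLocalRing 𝒪] (j : 𝒪 →+* ℂ)
    (ρbar : ResidualGaloisRep (ResidueField 𝒪)) (S : Finset ℕ) (t : ℕ → ℂ) where
  R : Type
  [commRing : CommRing R]
  [isDomain : IsDomain R]
  [isDVR : IsDiscreteValuationRing R]
  [isAdicComplete : IsAdicComplete (maximalIdeal R) R]
  [finiteRes : Finite (ResidueField R)]
  [charZero : CharZero R]
  [algebra : Algebra 𝒪 R]
  [finite : Module.Finite 𝒪 R]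
  [isLocalHom : IsLocalHom (algebraMap 𝒪 R)]
  /-- the embedding into the complex numbers -/
  ι : R →+* ℂ
  ι_inj : Function.Injective ι
  ι_comp : ι.comp (algebraMap 𝒪 R) = j
  ρ : GaloisRepAdic R
  /-- traces of Frobenius -/
  tr : ℕ → R
  ι_tr : ∀ ℓ : ℕ, ℓ.Prime → ℓ ∉ S → ι (tr ℓ) = t ℓ
  frob : FrobChar ρ S tr
  residual : ρ.residual.IsEquiv (ρbar.baseChangeAlong (ResidueField.map (algebraMap 𝒪 R)))

attribute [instance] Pt.commRing Pt.isDomain Pt.isDVR Pt.isAdicComplete Pt.finiteRes Pt.charZero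
  Pt.algebra Pt.finite Pt.isLocalHom

/-- A free module over `Λ` with Hecke operators, together with a separating family of
eigenfunctionals. -/
structure AutMod {𝒪 : Type} [CommRing 𝒪] (j : 𝒪 →+* ℂ) (Λ : Type) [CommRing Λ] [Algebra 𝒪 Λ]
    (S : Finset ℕ) where
  M : Type
  [addCommGroup : AddCommGroup M]
  [module : Module Λ M]
  [free : Module.Free Λ M]
  [finite : Module.Finite Λ M]
  /-- Hecke operators -/
  T : ℕ → Module.End Λ M
  T_comm : ∀ ℓ ℓ', T ℓ * T ℓ' = T ℓ' * T ℓ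
  /-- index set of the eigenfunctionals -/
  I : Type
  lam : I → M →+ ℂ
  psi : I → Λ →+* ℂ
  ev : I → ℕ → ℂ
  psi_comp : ∀ i, (psi i).comp (algebraMap 𝒪 Λ) = j
  lam_smul : ∀ i (r : Λ) (m : M), lam i (r • m) = psi i r * lam i m
  lam_T : ∀ i (ℓ : ℕ), ℓ.Prime → ℓ ∉ S → ∀ m : M, lam i (T ℓ m) = ev i ℓ * lam i m
  lam_ne : ∀ i, ∃ m, lam i m ≠ 0
  sep : ∀ m : M, (∀ i, lam i m = 0) → m = 0

attribute [instance] AutMod.addCommGroup AutMod.module AutMod.free AutMod.finite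

/-- Automorphic output at the Taylor--Wiles level given by the primes `qv k`, for patching at the
primes of `T`.  `U` is the module with ramified characters at the primes of `T`, `V` the module
without them; they are isomorphic modulo `ϖ`. `PC` is the local condition at `p`. -/
structure AutOutP {𝒪 : Type} [CommRing 𝒪] [IsLocalRing 𝒪] (p : ℕ) (j : 𝒪 →+* ℂ)
    (ρbar : ResidualGaloisRep (ResidueField 𝒪)) (PC : TW.LCond) (ϖ : 𝒪) (Smin T : Finset ℕ)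
    {r : ℕ} (qv : Fin r → ℕ) (S : Finset ℕ) (D : ℕ) where
  /-- `p ^ a k` is the exact power of `p` dividing `qv k - 1` -/
  a : Fin r → ℕ
  a_dvd : ∀ k, p ^ a k ∣ qv k - 1
  a_max : ∀ k, ¬ p ^ (a k + 1) ∣ qv k - 1
  G : TWMod.GrpRing 𝒪 p a
  U : AutMod j G.Λ S
  V : AutMod j G.Λ S
  rank_pos : 0 < Module.finrank G.Λ U.M
  rank_le : Module.finrank G.Λ U.M ≤ D
  /-- the common reduction modulo `ϖ` -/
  Z : Type
  [addCommGroupZ : AddCommGroup Z]
  [moduleZ : Module 𝒪 Z]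
  TZ : ℕ → Z →+ Z
  πU : U.M →+ Z
  πV : V.M →+ Z
  πU_surj : Function.Surjective πU
  πV_surj : Function.Surjective πV
  πU_smul : ∀ (c : 𝒪) (m : U.M), πU (algebraMap 𝒪 G.Λ c • m) = c • πU m
  πV_smul : ∀ (c : 𝒪) (m : V.M), πV (algebraMap 𝒪 G.Λ c • m) = c • πV m
  πU_zero : ∀ m, πU m = 0 ↔ ∃ m', m = algebraMap 𝒪 G.Λ ϖ • m'
  πV_zero : ∀ m, πV m = 0 ↔ ∃ m', m = algebraMap 𝒪 G.Λ ϖ • m'
  πU_T : ∀ (ℓ : ℕ), ℓ.Prime → ℓ ∉ S → ∀ m, πU (U.T ℓ m) = TZ ℓ (πU m)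
  πV_T : ∀ (ℓ : ℕ), ℓ.Prime → ℓ ∉ S → ∀ m, πV (V.T ℓ m) = TZ ℓ (πV m)
  /-- the representations attached to the points -/
  ptU : ∀ i, Pt j ρbar S (U.ev i)
  ptV : ∀ i, Pt j ρbar S (V.ev i)
  condU : ∀ i, TW.CondType 𝒪 p Smin PC (T ∪ Finset.univ.image qv) (ptU i).ρ
  condV : ∀ i, TW.CondType 𝒪 p Smin PC (T ∪ Finset.univ.image qv) (ptV i).ρ
  unrU : ∀ i k, U.psi i (G.d k) = 1 → (ptU i).ρ.IsUnramifiedAt (qv k)
  ramU : ∀ i k, U.psi i (G.d k) ≠ 1 → ¬ (ptU i).ρ.IsUnipotentOnInertiaAt (qv k)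
  TU : ∀ i, ∀ l ∈ T, ¬ (ptU i).ρ.IsUnipotentOnInertiaAt l
  TV : ∀ i, ∀ l ∈ T, ∀ P : ValuationSubring (AlgebraicClosure ℚ), P.LiesOverPrime l →
      ∀ σ : Γℚ, P.IsFrobeniusAt σ l →
        LinearMap.charpoly ((ptV i).ρ.ρ σ) = X ^ 2 - C ((l : (ptV i).R) + 1) * X + C (l : (ptV i).R) ∨
        LinearMap.charpoly ((ptV i).ρ.ρ σ) = X ^ 2 + C ((l : (ptV i).R) + 1) * X + C (l : (ptV i).R)

attribute [instance] AutOutP.addCommGroupZ AutOutP.moduleZ

/-- the automorphic output with the flat condition at `p` -/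
abbrev AutOut {𝒪 : Type} [CommRing 𝒪] [IsLocalRing 𝒪] (p : ℕ) (j : 𝒪 →+* ℂ)
    (ρbar : ResidualGaloisRep (ResidueField 𝒪)) (ϖ : 𝒪) (Smin T : Finset ℕ) {r : ℕ}
    (qv : Fin r → ℕ) (S : Finset ℕ) (D : ℕ) : Type 1 :=
  AutOutP p j ρbar (fun _ _ _ ρ' => ρ'.IsFlatAt p) ϖ Smin T qv S D

end Fermat.Agent.LL
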