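import Fermat.Agent.LL.Occ
import Fermat.Agent.LL.AutOut

set_option autoImplicit false
set_option linter.unusedSectionVars false

/-!
# Eigenfunctionals on the local component
-/

open CongruenceSubgroup Fermat.Agent.Top MvPolynomial IsLocalRing Fermat.Agent.TWMod
open scoped MatrixGroups TensorProduct

namespace Fermat.Agent.LL

section Inv

variable {Λ : Type} [CommRing Λ] [IsLocalRing Λ] {K : Type} [Field K] {ψ : Λ →+* K}
  {N : ℕ} [NeZero N] {S : Set ℕ} {a : Pr S → ResidueField Λ}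
  {χ₁ χ₂ χ : DirichletCharacter Λ N} {E : MvPolynomial (Pr S) Λ}

/-- Hecke polynomials with nonzero residue are injective on the local component at a point. -/
theorem eq_zero_of_MP (hE : IsLoc χ₁ χ₂ S a E)
    (hχ : χ ∈ ({χ₁, χ₂} : Set (DirichletCharacter Λ N))) {P : MvPolynomial (Pr S) Λ}
    (hP : resE S a P ≠ 0) {x : H1 (kap (χ.ringHomComp ψ)) (PtMod ψ)} (hx : x ∈ MP ψ χ S E)
    (h : ev (χ.ringHomComp ψ) S (PtMod ψ) (MvPolynomial.map ψ P) x = 0) : x = 0 := by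
  obtain ⟨y, rfl⟩ := (chg (sameOn_pt ψ χ)).surjective x
  rw [chg_mem_iff] at hx
  rw [← chg_ev_pt, map_eq_zero_iff _ (chg (sameOn_pt ψ χ)).injective] at h
  obtain ⟨Q, hQ⟩ := hE.exists_inv hE.two hE.three hχ (PtMod ψ) hP
  have h1 := hQ y hx
  rw [h, map_zero] at h1
  rw [← h1, map_zero]

/-- the Hecke operators preserve the local component at a point -/
theorem hk_mem_MP (ℓ : Pr S) {x : H1 (kap (χ.ringHomComp ψ)) (PtMod ψ)} (hx : x ∈ MP ψ χ S E) :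
    hk (χ.ringHomComp ψ) (PtMod ψ) ℓ.2.1 x ∈ MP ψ χ S E := by
  obtain ⟨y, rfl⟩ := hx
  refine ⟨hk (χ.ringHomComp ψ) (PtMod ψ) ℓ.2.1 y, ?_⟩
  have h1 : ∀ z, ev (χ.ringHomComp ψ) S (PtMod ψ) (X ℓ) z =
      hk (χ.ringHomComp ψ) (PtMod ψ) ℓ.2.1 z := fun z ↦ by rw [ev_X]; rfl
  rw [← h1, ← h1, ← Module.End.mul_apply, ← Module.End.mul_apply, ← map_mul, ← map_mul, mul_comm]

theorem spc_hk (ℓ : Pr S) (x : H1 (kap χ) Λ) :
    spc ψ χ (hk χ Λ ℓ.2.1 x) = hk (χ.ringHomComp ψ) (PtMod ψ) ℓ.2.1 (spc ψ χ x) := by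
  have h := spc_ev ψ χ S (X ℓ) x
  rw [map_X, ev_X, ev_X] at h
  exact h

end Inv

section Fun

variable {𝒪 : Type} [CommRing 𝒪] [IsLocalRing 𝒪] {p r : ℕ} {av : Fin r → ℕ} (G : GrpRing 𝒪 p av)
  {j : 𝒪 →+* ℂ} (hj : Function.Injective j)
  {N : ℕ} [NeZero N] {S : Finset ℕ} {a : Pr (↑S : Set ℕ) → ResidueField G.Λ}
  {χ₁ χ₂ : DirichletCharacter G.Λ N} {E : MvPolynomial (Pr (↑S : Set ℕ)) G.Λ}
  (hE : IsLoc χ₁ χ₂ ↑S a E)
  {χ : DirichletCharacter G.Λ N} (hχ : χ ∈ ({χ₁, χ₂} : Set (DirichletCharacter G.Λ N)))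

open Classical in
/-- Hecke operators on the local component, indexed by all integers -/
noncomputable def TM (χ : DirichletCharacter G.Λ N) (S : Finset ℕ)
    (E : MvPolynomial (Pr (↑S : Set ℕ)) G.Λ) (ℓ : ℕ) : Module.End G.Λ (MM G.Λ χ ↑S E) :=
  if h : ℓ.Prime ∧ ℓ ∉ (↑S : Set ℕ) then
    (ev χ ↑S G.Λ (X ⟨ℓ, h⟩)).restrict (fun _ hx ↦ ev_mem_MM G.Λ (X ⟨ℓ, h⟩) hx)
  else 0

theorem coe_TM {ℓ : ℕ} (h : ℓ.Prime ∧ ℓ ∉ (↑S : Set ℕ)) (x : MM G.Λ χ ↑S E) :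
    ((TM G χ S E ℓ x : MM G.Λ χ ↑S E) : H1 (kap χ) G.Λ) = hk χ G.Λ h.1 x := by
  rw [TM, dif_pos h, LinearMap.coe_restrict_apply, ev_X]
  rfl

theorem TM_comm (ℓ ℓ' : ℕ) : TM G χ S E ℓ * TM G χ S E ℓ' = TM G χ S E ℓ' * TM G χ S E ℓ := by
  by_cases h : ℓ.Prime ∧ ℓ ∉ (↑S : Set ℕ)
  · by_cases h' : ℓ'.Prime ∧ ℓ' ∉ (↑S : Set ℕ)
    · refine LinearMap.ext fun x ↦ Subtype.ext ?_
      rw [Module.End.mul_apply, Module.End.mul_apply, coe_TM G h, coe_TM G h', coe_TM G h',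
        coe_TM G h]
      exact hk_comm χ G.Λ h.1 h'.1 x.1
    · rw [TM, TM, dif_neg h', zero_mul, mul_zero]
  · rw [TM, dif_neg h, zero_mul, mul_zero]

/-- points over `j` -/
abbrev Pts (G : GrpRing 𝒪 p av) (j : 𝒪 →+* ℂ) : Type :=
  {ψ : G.Λ →+* ℂ // ψ.comp (algebraMap 𝒪 G.Λ) = j}

/-- a basis of eigenvectors -/
theorem exists_eig_basis {K V : Type} [Field K] [AddCommGroup V] [Module K V] (W : Submodule K V)
    (P : V → Prop) (h : W = Submodule.span K {x | x ∈ W ∧ P x}) :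
    ∃ (ι : Type) (b : Module.Basis ι K W), ∀ c, P (b c : W) := by
  have h1 : (⊤ : Submodule K W) ≤ Submodule.span K {x : W | P x} := by
    rintro ⟨x, hx⟩ -
    have hx' := hx
    rw [h] at hx'
    have key : ∀ y ∈ Submodule.span K {x | x ∈ W ∧ P x}, ∀ hy : y ∈ W,
        (⟨y, hy⟩ : W) ∈ Submodule.span K {x : W | P x} := by
      intro y hy
      induction hy using Submodule.span_induction with
      | mem y hy => exact fun _ ↦ Submodule.subset_span hy.2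
      | zero => exact fun _ ↦ Submodule.zero_mem _
      | add y z hy hz ihy ihz =>
        intro _
        have hy' : y ∈ W := by rw [h]; exact hy
        have hz' : z ∈ W := by rw [h]; exact hz
        exact Submodule.add_mem _ (ihy hy') (ihz hz')
      | smul c y hy ih =>
        intro _
        have hy' : y ∈ W := by rw [h]; exact hy
        exact Submodule.smul_mem _ c (ih hy')
    exact key x hx' hx
  exact ⟨_, Module.Basis.ofSpan h1, fun c ↦ Module.Basis.ofSpan_subset h1 ⟨c, rfl⟩⟩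

theorem coord_eig {K V ι : Type} [Field K] [AddCommGroup V] [Module K V]
    (b : Module.Basis ι K V) (T : Module.End K V) (α : ι → K) (h : ∀ c, T (b c) = α c • b c)
    (c : ι) (y : V) : b.coord c (T y) = α c * b.coord c y := by
  have h3 : ((b.coord c).comp T) = α c • b.coord c := by
    refine b.ext fun c' ↦ ?_
    rw [LinearMap.comp_apply, h, map_smul, LinearMap.smul_apply, Module.Basis.coord_apply,
      Module.Basis.repr_self]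
    by_cases hc : c' = c
    · subst hc; rfl
    · rw [Finsupp.single_eq_of_ne (Ne.symm hc), smul_zero, smul_zero]
  exact LinearMap.congr_fun h3 y

/-- The automorphic module with its functionals; the functionals are indexed by points `ψ` and
eigenvectors at `ψ`. -/
structure EigData (χ : DirichletCharacter G.Λ N) (S : Finset ℕ)
    (E : MvPolynomial (Pr (↑S : Set ℕ)) G.Λ) (ψ : G.Λ →+* ℂ) where
  ι : Type
  b : Module.Basis ι ℂ (MP ψ χ ↑S E)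
  α : ι → Pr (↑S : Set ℕ) → ℂ
  eig : ∀ c, IsEigP ψ χ ↑S (α c) ((b c : MP ψ χ ↑S E) : H1 _ _)

theorem nonempty_eigData {ψ : G.Λ →+* ℂ}
    (h : MP ψ χ ↑S E = Submodule.span ℂ {x | x ∈ MP ψ χ ↑S E ∧ ∃ α, IsEigP ψ χ ↑S α x}) :
    Nonempty (EigData G χ S E ψ) := by
  obtain ⟨ι, b, hb⟩ := exists_eig_basis (MP ψ χ ↑S E) (fun x ↦ ∃ α, IsEigP ψ χ ↑S α x) h
  choose α hα using hb
  exact ⟨ι, b, α, hα⟩

variable {G} (D : ∀ ψ : Pts G j, EigData G χ S E ψ.1)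

/-- specialisation on the local component -/
noncomputable def spM (χ : DirichletCharacter G.Λ N) (S : Finset ℕ)
    (E : MvPolynomial (Pr (↑S : Set ℕ)) G.Λ) (ψ : G.Λ →+* ℂ) :
    MM G.Λ χ ↑S E →+ MP ψ χ ↑S E where
  toFun m := ⟨spc ψ χ m.1, spc_mem ψ χ m.2⟩
  map_zero' := Subtype.ext (map_zero (spc ψ χ))
  map_add' m m' := Subtype.ext (map_add (spc ψ χ) m.1 m'.1)

theorem spM_smul (ψ : G.Λ →+* ℂ) (t : G.Λ) (m : MM G.Λ χ ↑S E) :
    spM χ S E ψ (t • m) = ψ t • spM χ S E ψ m :=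
  Subtype.ext (spc_smul ψ χ t m.1)

/-- the functional -/
noncomputable def lamF (ψ : Pts G j) (c : (D ψ).ι) : MM G.Λ χ ↑S E →+ ℂ :=
  ((D ψ).b.coord c).toAddMonoidHom.comp (spM χ S E ψ.1)

theorem lamF_apply (ψ : Pts G j) (c : (D ψ).ι) (m : MM G.Λ χ ↑S E) :
    lamF D ψ c m = (D ψ).b.coord c (spM χ S E ψ.1 m) := rfl

theorem lamF_smul (ψ : Pts G j) (c : (D ψ).ι) (t : G.Λ) (m : MM G.Λ χ ↑S E) :
    lamF D ψ c (t • m) = ψ.1 t * lamF D ψ c m := by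
  rw [lamF_apply, lamF_apply, spM_smul, map_smul]
  rfl

/-- the eigenvalues -/
noncomputable def evF (ψ : Pts G j) (c : (D ψ).ι) (ℓ : ℕ) : ℂ :=
  open Classical in
  if h : ℓ.Prime ∧ ℓ ∉ (↑S : Set ℕ) then (D ψ).α c ⟨ℓ, h⟩ else 0

theorem evF_of {ℓ : ℕ} (h : ℓ.Prime ∧ ℓ ∉ (↑S : Set ℕ)) (ψ : Pts G j) (c : (D ψ).ι) :
    evF D ψ c ℓ = (D ψ).α c ⟨ℓ, h⟩ := dif_pos h

/-- the Hecke operator on the component at a point, as an endomorphism -/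
noncomputable def hkMP (χ : DirichletCharacter G.Λ N) (S : Finset ℕ)
    (E : MvPolynomial (Pr (↑S : Set ℕ)) G.Λ) (ψ : G.Λ →+* ℂ) (ℓ : Pr (↑S : Set ℕ)) :
    Module.End ℂ (MP ψ χ ↑S E) :=
  (hk (χ.ringHomComp ψ) (PtMod ψ) ℓ.2.1).restrict (fun _ hx ↦ hk_mem_MP ℓ hx)

theorem spM_T {ℓ : ℕ} (h : ℓ.Prime ∧ ℓ ∉ (↑S : Set ℕ)) (ψ : G.Λ →+* ℂ)
    (m : MM G.Λ χ ↑S E) : spM χ S E ψ (TM G χ S E ℓ m) = hkMP χ S E ψ ⟨ℓ, h⟩ (spM χ S E ψ m) := by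
  refine Subtype.ext ?_
  have h1 := spc_hk (ψ := ψ) (χ := χ) ⟨ℓ, h⟩ m.1
  change spc ψ χ ((TM G χ S E ℓ m : MM G.Λ χ ↑S E) : H1 _ _) =
    hk (χ.ringHomComp ψ) (PtMod ψ) h.1 (spc ψ χ m.1)
  rw [coe_TM G h]
  exact h1

theorem coord_hkMP (ψ : G.Λ →+* ℂ) (d : EigData G χ S E ψ) (c : d.ι) (ℓ : Pr (↑S : Set ℕ))
    (y : MP ψ χ ↑S E) : d.b.coord c (hkMP χ S E ψ ℓ y) = d.α c ℓ * d.b.coord c y :=
  coord_eig d.b (hkMP χ S E ψ ℓ) (fun c ↦ d.α c ℓ) (fun c' ↦ Subtype.ext (d.eig c' ℓ)) c y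

theorem lamF_T {ℓ : ℕ} (h : ℓ.Prime ∧ ℓ ∉ (↑S : Set ℕ)) (ψ : Pts G j) (c : (D ψ).ι)
    (m : MM G.Λ χ ↑S E) : lamF D ψ c (TM G χ S E ℓ m) = evF D ψ c ℓ * lamF D ψ c m := by
  rw [evF_of D h]
  exact (congrArg ((D ψ).b.coord c) (spM_T h ψ.1 m)).trans (coord_hkMP ψ.1 (D ψ) c ⟨ℓ, h⟩ _)

include hj hE hχ

theorem lamF_sep [Module.Free G.Λ (MM G.Λ χ ↑S E)] [Module.Finite G.Λ (MM G.Λ χ ↑S E)]
    (m : MM G.Λ χ ↑S E) (h : ∀ ψ c, lamF D ψ c m = 0) : m = 0 := by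
  refine eq_zero_of_spc hE.toIsProj hE.two hE.three hχ (Ψ := {ψ | ψ.comp (algebraMap 𝒪 G.Λ) = j})
    (fun r hr ↦ G.sep j hj r hr) fun ψ hψ ↦ ?_
  have h1 : spM χ S E ψ m = 0 := by
    apply (D ⟨ψ, hψ⟩).b.repr.injective
    rw [map_zero]
    ext c
    exact h ⟨ψ, hψ⟩ c
  exact congrArg Subtype.val h1

omit hj in
theorem lamF_ne [Module.Free G.Λ (MM G.Λ χ ↑S E)] [Module.Finite G.Λ (MM G.Λ χ ↑S E)]
    (ψ : Pts G j) (c : (D ψ).ι) : ∃ m, lamF D ψ c m ≠ 0 := by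
  by_contra hcon
  push Not at hcon
  let b := Module.Free.chooseBasis G.Λ (MM G.Λ χ ↑S E)
  obtain ⟨b', hb'⟩ := exists_basis_pt ψ.1 hE.toIsProj hE.two hE.three hχ b
  have h1 : (D ψ).b.coord c = 0 := by
    refine b'.ext fun i ↦ ?_
    have h2 : b' i = spM χ S E ψ.1 (b i) := Subtype.ext (hb' i)
    rw [h2]
    exact hcon (b i)
  have h3 := LinearMap.congr_fun h1 ((D ψ).b c)
  rw [Module.Basis.coord_apply, Module.Basis.repr_self, Finsupp.single_eq_same] at h3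
  exact one_ne_zero h3

/-- **The automorphic module.** -/
noncomputable def autMod [Module.Free G.Λ (MM G.Λ χ ↑S E)]
    [Module.Finite G.Λ (MM G.Λ χ ↑S E)] : AutMod j G.Λ S where
  M := MM G.Λ χ ↑S E
  T := TM G χ S E
  T_comm := TM_comm G
  I := Σ ψ : Pts G j, (D ψ).ι
  lam i := lamF D i.1 i.2
  psi i := i.1.1
  ev i := evF D i.1 i.2
  psi_comp i := i.1.2
  lam_smul i := lamF_smul D i.1 i.2
  lam_T i _ h1 h2 m := lamF_T D ⟨h1, fun h ↦ h2 (Finset.mem_coe.1 h)⟩ i.1 i.2 m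
  lam_ne i := lamF_ne hE hχ D i.1 i.2
  sep m hm := lamF_sep hj hE hχ D m fun ψ c ↦ hm ⟨ψ, c⟩

end Fun

end Fermat.Agent.LL
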