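import Fermat.Agent.LL.AutOut

set_option autoImplicit false

/-!
# Automorphic output for the raising steps (S59, steps M and R)

The level structures at the primes `ql 0, ql 1, …, ql (m - 1)` (at which the residual
representation is unramified) are switched on one after the other: `A i` is the local component
of the (twisted) cohomology of level `N₀ * ql 0 * … * ql (i - 1) * ∏ qv k`.
-/

open IsLocalRing Polynomial

namespace Fermat.Agent.LL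

local notation "Γℚ" => (AlgebraicClosure ℚ ≃ₐ[ℚ] AlgebraicClosure ℚ)

/-- Steinberg up to an unramified quadratic twist. -/
def IsSt {R : Type} [CommRing R] [IsLocalRing R] (ρ : GaloisRepAdic R) (q : ℕ) : Prop :=
  ρ.IsUnipotentOnInertiaAt q ∧
    ∀ P : ValuationSubring (AlgebraicClosure ℚ), P.LiesOverPrime q →
      ∀ σ : Γℚ, P.IsFrobeniusAt σ q →
        LinearMap.charpoly (ρ.ρ σ) = X ^ 2 - C ((q : R) + 1) * X + C (q : R) ∨
        LinearMap.charpoly (ρ.ρ σ) = X ^ 2 + C ((q : R) + 1) * X + C (q : R)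

/-- Automorphic output at the Taylor--Wiles level given by the primes `qv k`, for the raising
steps at the primes `ql 0, …, ql (m - 1)` (one of them can be `p`).  `P i` is the local condition
at `p` at stage `i` (flat, or strictly ordinary, or flat for `i ≤ i₀` and ordinary for `i₀ < i` if
`ql i₀ = p`). `F` is a polynomial in the Hecke operators `T ℓ`, `ℓ ∉ S m`, `ℓ ≠ p`, which
kills the space of modular forms of level `N₀ * ∏ ql i`. The sets `S i` need not contain `p`. -/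
structure AutChain {𝒪 : Type} [CommRing 𝒪] [IsLocalRing 𝒪] (p : ℕ) (j : 𝒪 →+* ℂ)
    (ρbar : ResidualGaloisRep (ResidueField 𝒪)) (P : ℕ → TW.LCond) (Smin : Finset ℕ) {m : ℕ}
    (ql : Fin m → ℕ) {r : ℕ} (qv : Fin r → ℕ) (F : MvPolynomial ℕ 𝒪) (D : ℕ) where
  /-- `p ^ a k` is the exact power of `p` dividing `qv k - 1` -/
  a : Fin r → ℕ
  a_dvd : ∀ k, p ^ a k ∣ qv k - 1
  a_max : ∀ k, ¬ p ^ (a k + 1) ∣ qv k - 1
  G : TWMod.GrpRing 𝒪 p a
  /-- bad primes at stage `i` -/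
  S : ℕ → Finset ℕ
  S_mono : ∀ i, S i ⊆ S (i + 1)
  ql_notMem : ∀ i : Fin m, ql i ∉ S i
  F_vars : ∀ ℓ ∈ F.vars, ℓ.Prime ∧ ℓ ∉ insert p (S m)
  A : ∀ i, AutMod j G.Λ (S i)
  rank_pos : 0 < Module.finrank G.Λ (A 0).M
  rank_le : ∀ i ≤ m, Module.finrank G.Λ (A i).M ≤ D
  /-- degeneracy maps -/
  α : ∀ i, Fin 2 → ((A i).M →ₗ[G.Λ] (A (i + 1)).M)
  α_T : ∀ i < m, ∀ (k : Fin 2) (ℓ : ℕ), ℓ.Prime → ℓ ∉ S (i + 1) → ∀ v,
    α i k ((A i).T ℓ v) = (A (i + 1)).T ℓ (α i k v)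
  /-- a retraction (over `Λ`) of the degeneracy maps -/
  ret : ∀ i, Fin 2 → ((A (i + 1)).M →ₗ[G.Λ] (A i).M)
  ret_α : ∀ i < m, ∀ (k l : Fin 2) v, ret i k (α i l v) = if k = l then v else 0
  /-- traces -/
  τ : ∀ i, Fin 2 → ((A (i + 1)).M →ₗ[G.Λ] (A i).M)
  τ_T : ∀ i < m, ∀ (k : Fin 2) (ℓ : ℕ), ℓ.Prime → ℓ ∉ S (i + 1) → ∀ v,
    τ i k ((A (i + 1)).T ℓ v) = (A i).T ℓ (τ i k v)
  τ_surj : ∀ i < m, ∀ v w, ∃ z, τ i 0 z = v ∧ τ i 1 z = w
  τ_α : ∀ (i : Fin m) (k l : Fin 2) v,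
    τ i k (α i l v) = if k = l then ((ql i + 1 : ℕ) : G.Λ) • v else (A i).T (ql i) v
  /-- the eigenfunctionals which are new at `ql i` -/
  new : ∀ i, Set (A (i + 1)).I
  new_sep : ∀ i < m, ∀ v : (A (i + 1)).M, (∀ x ∈ new i, (A (i + 1)).lam x v = 0) →
    ∃ v₀ v₁, v = α i 0 v₀ + α i 1 v₁
  new_α : ∀ i < m, ∀ x ∈ new i, ∀ (k : Fin 2) v, (A (i + 1)).lam x (α i k v) = 0
  /-- the representations attached to the points -/
  pt : ∀ i x, Pt j ρbar (insert p (S i)) ((A i).ev x)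
  cond : ∀ i ≤ m, ∀ x, TW.CondType 𝒪 p Smin (P i) (Finset.univ.image ql ∪ Finset.univ.image qv)
    (pt i x).ρ
  /-- Taylor--Wiles primes -/
  unr : ∀ i ≤ m, ∀ x k, (A i).psi x (G.d k) = 1 → (pt i x).ρ.IsUnramifiedAt (qv k)
  ram : ∀ i ≤ m, ∀ x k, (A i).psi x (G.d k) ≠ 1 → ¬ (pt i x).ρ.IsUnipotentOnInertiaAt (qv k)
  /-- the primes `ql k` different from `p` -/
  ql_unr : ∀ i ≤ m, ∀ x (k : Fin m), ql k ≠ p → i ≤ k → (pt i x).ρ.IsUnramifiedAt (ql k)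
  ql_st : ∀ i ≤ m, ∀ x (k : Fin m), ql k ≠ p → (k : ℕ) < i →
    (pt i x).ρ.IsUnramifiedAt (ql k) ∨ IsSt (pt i x).ρ (ql k)
  new_st : ∀ i : Fin m, ql i ≠ p → ∀ x ∈ new i, IsSt (pt (i + 1) x).ρ (ql i)
  /-- the points without ramification at the Taylor--Wiles primes are killed by `F` -/
  F_ev : ∀ x, (∀ k, (A m).psi x (G.d k) = 1) → MvPolynomial.eval₂ j ((A m).ev x) F = 0

end Fermat.Agent.LL
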