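import Fermat.Agent.LL.AutBuild
import Fermat.Agent.LL.AutChain

set_option autoImplicit false
set_option linter.unusedSectionVars false

/-!
# The levels and the module part of `AutChain`
-/

open CongruenceSubgroup Fermat.Agent.Top IsLocalRing Fermat.Agent.TWMod
open scoped MatrixGroups TensorProduct

namespace Fermat.Agent.LL

section

variable {p : ℕ} {𝒪 : Type} [CommRing 𝒪] [IsDomain 𝒪] [IsDiscreteValuationRing 𝒪]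
    [IsAdicComplete (maximalIdeal 𝒪) 𝒪] [Finite (ResidueField 𝒪)] [CharZero 𝒪]
    {r : ℕ} {av : Fin r → ℕ}

/-- The levels `N i` of a chain (constant for `i ≥ m`), with characters `z` at the primes of `F`,
and the projector `E` to the local components. -/
structure CLev (G : GrpRing 𝒪 p av) (b : ℕ → 𝒪) {m : ℕ} (ql : Fin m → ℕ) (S : ℕ → Finset ℕ)
    (N : ℕ → ℕ) [∀ i, NeZero (N i)] (F : Finset ℕ) (z : ℕ → G.Λ)
    (E : MvPolynomial (Pr (↑(S m) : Set ℕ)) G.Λ) : Prop where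
  lev : ∀ i, Lev G (S i) (N i) F z
  S_mono : ∀ i, S i ⊆ S (i + 1)
  S_top : ∀ i, S i ⊆ S m
  ql_prime : ∀ i, (ql i).Prime
  ql_N : ∀ i : Fin m, ¬ ql i ∣ N i
  ql_S : ∀ i : Fin m, ql i ∉ S i
  step : ∀ i : Fin m, N (i + 1) = ql i * N i
  loc : ∀ i, IsLoc (chz (N i) F z) (chz (N i) F z) ↑(S m) (aL G (S m) b) E

/-- The module part of `AutChain`. -/
structure ModChain (j : 𝒪 →+* ℂ) (G : GrpRing 𝒪 p av) {m : ℕ} (ql : Fin m → ℕ)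
    (S : ℕ → Finset ℕ) (N : ℕ → ℕ) [∀ i, NeZero (N i)] (F : Finset ℕ) (z : ℕ → G.Λ)
    (E : MvPolynomial (Pr (↑(S m) : Set ℕ)) G.Λ) where
  A : ∀ i, AutMod j G.Λ (S i)
  /-- degeneracy maps -/
  α : ∀ i, Fin 2 → ((A i).M →ₗ[G.Λ] (A (i + 1)).M)
  α_T : ∀ i < m, ∀ (k : Fin 2) (ℓ : ℕ), ℓ.Prime → ℓ ∉ S (i + 1) → ∀ v,
    α i k ((A i).T ℓ v) = (A (i + 1)).T ℓ (α i k v)
  /-- a retraction (over `Λ`) of the degeneracy maps -/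
  ret : ∀ i, Fin 2 → ((A (i + 1)).M →ₗ[G.Λ] (A i).M)
  ret_α : ∀ i < m, ∀ (k l : Fin 2) v, ret i k (α i l v) = if k = l then v else 0
  /-- traces -/
  τ : ∀ i, Fin 2 → ((A (i + 1)).M →ₗ[G.Λ] (A i).M)
  τ_T : ∀ i < m, ∀ (k : Fin 2) (ℓ : ℕ), ℓ.Prime → ℓ ∉ S (i + 1) → ∀ v,
    τ i k ((A (i + 1)).T ℓ v) = (A i).T ℓ (τ i k v)
  τ_surj : ∀ i < m, ∀ v w, ∃ z, τ i 0 z = v ∧ τ i 1 z = w
  τ_α : ∀ (i : Fin m) (k l : Fin 2) v,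
    τ i k (α i l v) = if k = l then ((ql i + 1 : ℕ) : G.Λ) • v else (A i).T (ql i) v
  /-- the eigenfunctionals which are new at `ql i` -/
  new : ∀ i, Set (A (i + 1)).I
  new_sep : ∀ i < m, ∀ v : (A (i + 1)).M, (∀ x ∈ new i, (A (i + 1)).lam x v = 0) →
    ∃ v₀ v₁, v = α i 0 v₀ + α i 1 v₁
  new_α : ∀ i < m, ∀ x ∈ new i, ∀ (k : Fin 2) v, (A (i + 1)).lam x (α i k v) = 0
  /-- the rank at points -/
  rank : ∀ i (ψ : G.Λ →+* ℂ), Module.finrank G.Λ (A i).M =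
    Module.finrank ℂ (MP ψ (chz (N i) F z) ↑(S m) E)
  /-- eigenvectors -/
  vec : ∀ i (x : (A i).I), ∃ (β : Pr (↑(S i) : Set ℕ) → ℂ)
    (v : H1 (kap ((chz (N i) F z).ringHomComp ((A i).psi x))) (PtMod ((A i).psi x))),
    IsEigP ((A i).psi x) (chz (N i) F z) ↑(S i) β v ∧ v ≠ 0 ∧
    v ∈ MP ((A i).psi x) (chz (N i) F z) ↑(S m) E ∧
    ∀ ℓ (h : ℓ.Prime ∧ ℓ ∉ (↑(S i) : Set ℕ)), (A i).ev x ℓ = β ⟨ℓ, h⟩
  /-- the newforms attached to new eigenfunctionals have level divisible by `ql i` -/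
  new_dvd : ∀ (i : Fin m), ∀ x ∈ new i, ∀ (M : ℕ) (_ : NeZero M) (g : CuspForm (Gamma0 M) 2),
    g.IsNewform → (∀ ℓ : ℕ, ℓ.Prime → ℓ ∉ S (i + 1) →
      ModularFormClass.qCoeff g ℓ = (A (i + 1)).ev x ℓ) → ql i ∣ M

/-- Statement of the module part: to be proved by `Deg`. -/
def ModChainStmt : Prop := ∀ {p : ℕ} {𝒪 : Type} [CommRing 𝒪] [IsDomain 𝒪]
    [IsDiscreteValuationRing 𝒪] [IsAdicComplete (maximalIdeal 𝒪) 𝒪] [Finite (ResidueField 𝒪)]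
    [CharZero 𝒪] {j : 𝒪 →+* ℂ} {ρbar : ResidualGaloisRep (ResidueField 𝒪)} {S0 : Finset ℕ}
    {b : ℕ → 𝒪} (_ : Ctx p j ρbar S0 b) {r : ℕ} {av : Fin r → ℕ} {G : GrpRing 𝒪 p av} {m : ℕ}
    {ql : Fin m → ℕ} {S : ℕ → Finset ℕ} {N : ℕ → ℕ} [∀ i, NeZero (N i)] {F : Finset ℕ}
    {z : ℕ → G.Λ} {E : MvPolynomial (Pr (↑(S m) : Set ℕ)) G.Λ}
    (_ : CLev G b ql S N F z E) (_ : SpecSS) (_ : SpecNew),
    Nonempty (ModChain j G ql S N F z E)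

end

end Fermat.Agent.LL
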