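import Fermat.Agent.TWMod.Spec
import Fermat.Agent.TW.Main
import Fermat.Prelude.Def_GaloisRep_Flat
import Fermat.Prelude.Def_CuspForm_HeckeGaloisRepDatum
import Fermat.Prelude.Def_FLTPrelim_ModularRep

set_option autoImplicit false

/-!
# Block interfaces for level lowering (S43) by patching

Every `def ... : Prop` below is a block to be proved independently.
-/

open IsLocalRing Polynomial Fermat.Agent.DefRing

namespace Fermat.Agent.LL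

local notation "Γℚ" => (AlgebraicClosure ℚ ≃ₐ[ℚ] AlgebraicClosure ℚ)

/-- characteristic polynomials of Frobenius away from `S` -/
def FrobChar {A : Type} [CommRing A] [IsLocalRing A] (ρ : GaloisRepAdic A) (S : Finset ℕ)
    (t : ℕ → A) : Prop :=
  ∀ ℓ : ℕ, ℓ.Prime → ℓ ∉ S → ∀ P : ValuationSubring (AlgebraicClosure ℚ), P.LiesOverPrime ℓ →
    ∀ σ : Γℚ, P.IsFrobeniusAt σ ℓ →
      LinearMap.charpoly (ρ.ρ σ) = X ^ 2 - C (t ℓ) * X + C (ℓ : A)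

/-- the same for residual representations -/
def FrobCharRes {k : Type} [Field k] (ρ : ResidualGaloisRep k) (S : Finset ℕ)
    (t : ℕ → k) : Prop :=
  ∀ ℓ : ℕ, ℓ.Prime → ℓ ∉ S → ∀ P : ValuationSubring (AlgebraicClosure ℚ), P.LiesOverPrime ℓ →
    ∀ σ : Γℚ, P.IsFrobeniusAt σ ℓ →
      LinearMap.charpoly (ρ.ρ σ) = X ^ 2 - C (t ℓ) * X + C (ℓ : k)

/-- **Block GLUE** (gluing a representation over `T` from representations over points). -/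
def GlueStmt : Prop :=
  ∀ {𝒪 : Type} [CommRing 𝒪] [IsDomain 𝒪] [IsDiscreteValuationRing 𝒪]
    [IsAdicComplete (maximalIdeal 𝒪) 𝒪] [Finite (ResidueField 𝒪)]
    (ρbar : ResidualGaloisRep (ResidueField 𝒪)), (2 : ResidueField 𝒪) ≠ 0 →
    ρbar.IsAbsolutelyIrreducible → ρbar.IsOdd →
  ∀ (T : Type) [CommRing T] [IsLocalRing T] [IsNoetherianRing T]
    [IsAdicComplete (maximalIdeal T) T] [Algebra 𝒪 T] [IsLocalHom (algebraMap 𝒪 T)],
    Function.Surjective (residue T ∘ algebraMap 𝒪 T) →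
  ∀ (S : Finset ℕ) (t : ℕ → T) (a : ℕ → ResidueField 𝒪), FrobCharRes ρbar S a →
    (∀ ℓ : ℕ, ℓ.Prime → ℓ ∉ S → residue T (t ℓ) = ResidueField.map (algebraMap 𝒪 T) (a ℓ)) →
  ∀ (I : Type) [Finite I] (O : I → Type) [∀ i, CommRing (O i)] [∀ i, IsDomain (O i)]
    [∀ i, IsDiscreteValuationRing (O i)] [∀ i, IsAdicComplete (maximalIdeal (O i)) (O i)]
    [∀ i, Finite (ResidueField (O i))] (φ : ∀ i, T →+* O i), (∀ i, IsLocalHom (φ i)) →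
    (∀ x : T, (∀ i, φ i x = 0) → x = 0) →
    (∀ i, ∃ ρ : GaloisRepAdic (O i), FrobChar ρ S (fun ℓ => φ i (t ℓ))) →
  ∃ ρ : GaloisRepAdic T, FrobChar ρ S t ∧
    ρ.residual.IsEquiv (ρbar.baseChangeAlong (ResidueField.map (algebraMap 𝒪 T)))

/-- **Block OJ**: a complete discrete valuation ring inside `ℂ`, compatible with a given maximal
ideal of the ring of algebraic integers and containing given algebraic integers. -/
def OJStmt : Prop :=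
  ∀ (p : ℕ), p.Prime → ∀ (𝔪 : Ideal (integralClosure ℤ ℂ)), 𝔪.IsMaximal →
    (p : integralClosure ℤ ℂ) ∈ 𝔪 → ∀ F : Finset (integralClosure ℤ ℂ),
  ∃ (𝒪 : Type) (_ : CommRing 𝒪) (_ : IsDomain 𝒪) (_ : IsDiscreteValuationRing 𝒪)
    (_ : IsAdicComplete (maximalIdeal 𝒪) 𝒪) (_ : Finite (ResidueField 𝒪)) (_ : CharZero 𝒪)
    (_ : (p : 𝒪) ∈ maximalIdeal 𝒪) (j : 𝒪 →+* ℂ)
    (ι : ResidueField 𝒪 →+* (integralClosure ℤ ℂ ⧸ 𝔪)),
    Function.Injective j ∧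
    (∀ z ∈ F, ∃ a : 𝒪, j a = z) ∧
    (∀ (a : 𝒪) (z : integralClosure ℤ ℂ), j a = z → ι (residue 𝒪 a) = Ideal.Quotient.mk 𝔪 z)

/-- **Block DVREXT**: normalisation of a finite domain extension. -/
def DVRExtStmt : Prop :=
  ∀ {𝒪 : Type} [CommRing 𝒪] [IsDomain 𝒪] [IsDiscreteValuationRing 𝒪]
    [IsAdicComplete (maximalIdeal 𝒪) 𝒪] [Finite (ResidueField 𝒪)] [CharZero 𝒪]
    (D : Type) [CommRing D] [IsDomain D] [Algebra 𝒪 D] [Module.Finite 𝒪 D],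
    Function.Injective (algebraMap 𝒪 D) →
  ∃ (R : Type) (_ : CommRing R) (_ : IsDomain R) (_ : IsDiscreteValuationRing R)
    (_ : IsAdicComplete (maximalIdeal R) R) (_ : Finite (ResidueField R)) (_ : CharZero R)
    (f : D →+* R), Function.Injective f ∧ IsLocalHom f ∧ IsLocalHom (f.comp (algebraMap 𝒪 D))

/-- **Block NF0**: existence of the representation attached to a newform (from S30). -/
def NF0Stmt : Prop :=
  ∀ {M : ℕ} [NeZero M] {g : CuspForm (CongruenceSubgroup.Gamma0 M) 2}, g.IsNewform →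
  ∀ (p : ℕ), p.Prime → ∀ (S : Finset ℕ), p ∈ S → (∀ q : ℕ, q.Prime → q ∣ M → q ∈ S) →
  ∀ (R : Type) [CommRing R] [IsDomain R] [IsDiscreteValuationRing R]
    [IsAdicComplete (maximalIdeal R) R] [Finite (ResidueField R)] [CharZero R],
    (p : R) ∈ maximalIdeal R → ∀ (D : Subring ℂ) (ι : D →+* R)
    (hD : ∀ ℓ : ℕ, ℓ.Prime → ℓ ∉ S → ModularFormClass.qCoeff g ℓ ∈ D),
  ∃ (R' : Type) (_ : CommRing R') (_ : IsDomain R') (_ : IsDiscreteValuationRing R')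
    (_ : IsAdicComplete (maximalIdeal R') R') (_ : Finite (ResidueField R')) (_ : CharZero R')
    (f : R →+* R'), Function.Injective f ∧ IsLocalHom f ∧ ∃ ρ : GaloisRepAdic R',
      ∀ ℓ : ℕ, ∀ hℓ : ℓ.Prime, ∀ hS : ℓ ∉ S, ∀ P : ValuationSubring (AlgebraicClosure ℚ),
        P.LiesOverPrime ℓ → ∀ σ : Γℚ, P.IsFrobeniusAt σ ℓ →
        LinearMap.charpoly (ρ.ρ σ) = X ^ 2 - C (f (ι ⟨_, hD ℓ hℓ hS⟩)) * X + C (ℓ : R')

/-- **Block NF**: local properties of any representation attached to a newform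
(from S31, S34, S35, S36, S32 and uniqueness of `ρ`). -/
def NFStmt : Prop :=
  ∀ {M : ℕ} [NeZero M] {g : CuspForm (CongruenceSubgroup.Gamma0 M) 2}, g.IsNewform →
  ∀ (p : ℕ), p.Prime → p ≠ 2 → ∀ (S : Finset ℕ), p ∈ S → (∀ q : ℕ, q.Prime → q ∣ M → q ∈ S) →
  ∀ (R : Type) [CommRing R] [IsDomain R] [IsDiscreteValuationRing R]
    [IsAdicComplete (maximalIdeal R) R] [Finite (ResidueField R)] [CharZero R],
    (p : R) ∈ maximalIdeal R → ∀ (D : Subring ℂ) (ι : D →+* R)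
    (hD : ∀ ℓ : ℕ, ℓ.Prime → ℓ ∉ S → ModularFormClass.qCoeff g ℓ ∈ D)
    (ρ : GaloisRepAdic R),
    (∀ ℓ : ℕ, ∀ hℓ : ℓ.Prime, ∀ hS : ℓ ∉ S, ∀ P : ValuationSubring (AlgebraicClosure ℚ),
        P.LiesOverPrime ℓ → ∀ σ : Γℚ, P.IsFrobeniusAt σ ℓ →
        LinearMap.charpoly (ρ.ρ σ) = X ^ 2 - C (ι ⟨_, hD ℓ hℓ hS⟩) * X + C (ℓ : R)) →
    ρ.residual.IsAbsolutelyIrreducible → ρ.residual.IsOdd →
  ρ.DetIsCyclotomic p ∧
  (∀ q : ℕ, q.Prime → q ≠ p → ¬ q ∣ M → ρ.IsUnramifiedAt q) ∧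
  (∀ q : ℕ, q.Prime → q ≠ p → q ∣ M → ¬ q ^ 2 ∣ M → ρ.IsUnipotentOnInertiaAt q ∧
    ∀ P : ValuationSubring (AlgebraicClosure ℚ), P.LiesOverPrime q →
      ∀ σ : Γℚ, P.IsFrobeniusAt σ q →
        LinearMap.charpoly (ρ.ρ σ) = X ^ 2 - C ((q : R) + 1) * X + C (q : R) ∨
        LinearMap.charpoly (ρ.ρ σ) = X ^ 2 + C ((q : R) + 1) * X + C (q : R)) ∧
  (∀ q : ℕ, q.Prime → q ≠ p → M.factorization q = 2 → ¬ ρ.IsUnipotentOnInertiaAt q) ∧
  (¬ p ∣ M → ρ.IsFlatAt p)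

/-- Generators of the pro-`p` quotient of the local Galois group at `l ≠ p`. -/
structure LocGen (l p : ℕ) where
  P : ValuationSubring (AlgebraicClosure ℚ)
  hP : P.LiesOverPrime l
  /-- Frobenius -/
  φ : Γℚ
  hφ : P.IsFrobeniusAt φ l
  /-- tame generator -/
  τ : Γℚ
  hτ : τ ∈ P.inertiaSubgroupIn ℚ
  gen : ∀ (M : Type) [Group M] (h : Γℚ →* M), GaloisFactorsThroughFiniteLevel h →
    (∀ σ ∈ P.inertiaSubgroupIn ℚ, ∃ k, h σ ^ p ^ k = 1) →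
    (∀ σ ∈ P.inertiaSubgroupIn ℚ, h σ ∈ Subgroup.zpowers (h τ)) ∧
    h (φ * τ * φ⁻¹) = h τ ^ l ∧
    (∀ σ ∈ P.decompositionSubgroup ℚ, h σ ∈ Subgroup.closure {h φ, h τ})

/-- **Block LOCGEN** -/
def LocGenStmt : Prop := ∀ l p : ℕ, l.Prime → p.Prime → l ≠ p → Nonempty (LocGen l p)

/-- **Block GEN** (Taylor-Wiles primes and generators of deformation rings), with unrestricted
deformations at the primes of `T`, where the residual representation is scalar. -/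
def GenStmt (p : ℕ) [Fact p.Prime] : Prop :=
  ∀ {𝒪 : Type} [CommRing 𝒪] [IsDomain 𝒪] [IsDiscreteValuationRing 𝒪]
    [IsAdicComplete (maximalIdeal 𝒪) 𝒪] [Finite (ResidueField 𝒪)],
    (p : 𝒪) ∈ maximalIdeal 𝒪 →
  ∀ (ρbar : ResidualGaloisRep (ResidueField 𝒪)), ρbar.IsAbsolutelyIrreducible →
    (GaloisRepAdic.ofResidualGaloisRep ρbar).DetIsCyclotomic p →
    (∀ σ : Γℚ, ∃ α β : ResidueField 𝒪,
      LinearMap.charpoly (ρbar.ρ σ) = (X - C α) * (X - C β)) →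
    (∀ (K : Type) [Field K] [Algebra (ResidueField 𝒪) K] (G : Subgroup Γℚ), G.index = 2 →
      ∀ V : Submodule K (ρbar.baseChange K).V,
        (∀ σ ∈ G, ∀ x ∈ V, (ρbar.baseChange K).ρ σ x ∈ V) → V = ⊥ ∨ V = ⊤) →
  ∀ (Smin T : Finset ℕ), p ∈ Smin → (∀ q ∈ Smin, q.Prime) →
    (∀ q : ℕ, q.Prime → q ≠ p → (q ∈ Smin ↔ ¬ ρbar.IsUnramifiedAt q)) →
    (∀ l ∈ T, l.Prime ∧ l ∉ Smin ∧ p ∣ l - 1 ∧
      ∀ P : ValuationSubring (AlgebraicClosure ℚ), P.LiesOverPrime l →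
        ∀ σ : Γℚ, P.IsFrobeniusAt σ l → ∃ c : ResidueField 𝒪, ρbar.ρ σ = c • 1) →
  ∀ L : ∀ l : T, LocGen (l : ℕ) p,
  ∃ g : ℕ, ∀ (S : Finset ℕ) (n : ℕ), ∃ qv : Fin (3 * T.card + g) → ℕ,
    Function.Injective qv ∧
    (∀ i, (qv i).Prime ∧ qv i ∉ S ∧ p ^ (n + 1) ∣ qv i - 1) ∧
    (∀ i, ∀ P : ValuationSubring (AlgebraicClosure ℚ), P.LiesOverPrime (qv i) →
      ∀ σ : Γℚ, P.IsFrobeniusAt σ (qv i) → ∃ α β : ResidueField 𝒪, α ≠ β ∧
        LinearMap.charpoly (ρbar.ρ σ) = (X - C α) * (X - C β)) ∧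
    ∀ (A : Type) [CommRing A] [IsLocalRing A] [IsNoetherianRing A]
      [IsAdicComplete (maximalIdeal A) A] [Algebra 𝒪 A] [IsLocalHom (algebraMap 𝒪 A)],
      Function.Surjective (residue A ∘ algebraMap 𝒪 A) →
    ∀ ρ : GaloisRepAdic A,
      TW.CondType 𝒪 p Smin (fun _ _ _ ρ' => ρ'.IsFlatAt p) (T ∪ Finset.univ.image qv) ρ →
      ρ.residual.IsEquiv (ρbar.baseChangeAlong (ResidueField.map (algebraMap 𝒪 A))) →
      (∀ (B : Type) [CommRing B] [IsLocalRing B] [Algebra 𝒪 B] (f g : A →ₐ[𝒪] B)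
        (hf : IsLocalHom (f : A →+* B)) (hg : IsLocalHom (g : A →+* B)),
        (ρ.baseChangeAlong (f : A →+* B) hf).IsEquiv (ρ.baseChangeAlong (g : A →+* B) hg) →
        f = g) →
    ∀ r : Γℚ → Matrix (Fin 2) (Fin 2) A, Realizes ρ r →
      ∃ γ : MvPowerSeries ((T × Bool × Fin 3) ⊕ Fin g) 𝒪 →ₐ[𝒪] A, Function.Surjective γ ∧
        ∀ (l : T) (b : Bool), let m := r (if b then (L l).τ else (L l).φ);
          2 * γ (MvPowerSeries.X (Sum.inl (l, b, 0))) = m 0 0 - m 1 1 ∧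
          γ (MvPowerSeries.X (Sum.inl (l, b, 1))) = m 0 1 ∧
          γ (MvPowerSeries.X (Sum.inl (l, b, 2))) = m 1 0

/-- **Block MP** (Mazur's principle, `q ≠ p`): if the residual eigensystem of `f` (level `N`,
`q ∥ N`) is unramified at `q` and does not occur at level `N / q`, then `q ≡ 1 mod p` and Frobenius
at `q` is scalar, `± 1`. -/
def MPStmt : Prop :=
  ∀ (N q p : ℕ) [NeZero N], q.Prime → p.Prime → p ≠ 2 → q ≠ p → q ∣ N → ¬ q ^ 2 ∣ N →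
  ∀ (K : Type) [Field K] [CharP K p] (ψ : integralClosure ℤ ℂ →+* K)
    (f : CuspForm (CongruenceSubgroup.Gamma0 N) 2), f.IsNormalizedEigenform →
  ∀ ρbar : ResidualGaloisRep K, ρbar.IsAbsolutelyIrreducible →
    (∀ ℓ : ℕ, ℓ.Prime → ¬ ℓ ∣ N → ℓ ≠ p → ∀ P : ValuationSubring (AlgebraicClosure ℚ),
      P.LiesOverPrime ℓ → ∀ σ : Γℚ, P.IsFrobeniusAt σ ℓ → ∀ a : integralClosure ℤ ℂ,
      (a : ℂ) = ModularFormClass.qCoeff f ℓ →
      LinearMap.charpoly (ρbar.ρ σ) = X ^ 2 - C (ψ a) * X + C (ℓ : K)) →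
    ρbar.IsUnramifiedAt q →
    (∀ (L : Type) [Field L] [Algebra K L] (ψ' : integralClosure ℤ ℂ →+* L)
      (g : CuspForm (CongruenceSubgroup.Gamma0 (N / q)) 2), g.IsNormalizedEigenform →
      ∃ ℓ : ℕ, ℓ.Prime ∧ ¬ ℓ ∣ N ∧ ℓ ≠ p ∧ ∃ a b : integralClosure ℤ ℂ,
        (a : ℂ) = ModularFormClass.qCoeff f ℓ ∧ (b : ℂ) = ModularFormClass.qCoeff g ℓ ∧
        ψ' b ≠ algebraMap K L (ψ a)) →
  (q : K) = 1 ∧ ∀ P : ValuationSubring (AlgebraicClosure ℚ), P.LiesOverPrime q →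
    ∀ σ : Γℚ, P.IsFrobeniusAt σ q → ρbar.ρ σ = 1 ∨ ρbar.ρ σ = -1

/-- **Block FREYRES**: the residual representation of the Frey curve over a large coefficient
field. -/
def FreyResStmt : Prop :=
  ∀ P : FreyPackage, 17 ≤ P.p →
    WeierstrassCurve.Affine.Point.GaloisRepIsIrreducible (K := AlgebraicClosure ℚ) ℚ
      P.freyCurve P.p →
  ∀ (k : Type) [Field k] [CharP k P.p],
    (∀ a b : ℤ, ∃ α β : k, (X ^ 2 - C (a : k) * X + C (b : k) : Polynomial k) =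
      (X - C α) * (X - C β)) →
  ∃ ρbar : ResidualGaloisRep k, ρbar.IsAbsolutelyIrreducible ∧ ρbar.IsOdd ∧
    (GaloisRepAdic.ofResidualGaloisRep ρbar).DetIsCyclotomic P.p ∧
    (∀ σ : Γℚ, ∃ α β : k, LinearMap.charpoly (ρbar.ρ σ) = (X - C α) * (X - C β)) ∧
    (∀ (K : Type) [Field K] [Algebra k K] (G : Subgroup Γℚ), G.index = 2 →
      ∀ V : Submodule K (ρbar.baseChange K).V,
        (∀ σ ∈ G, ∀ x ∈ V, (ρbar.baseChange K).ρ σ x ∈ V) → V = ⊥ ∨ V = ⊤) ∧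
    (∀ q : ℕ, q.Prime → (ρbar.IsUnramifiedAt q ↔ P.GaloisRepUnramifiedAt q)) ∧
    ∀ W : WeierstrassCurve ℤ, W.IsIntegralModelOf P.freyCurve → ∀ ℓ : ℕ, ℓ.Prime →
      W.IsGoodPrimeFor ℓ → ℓ ≠ P.p → ∀ A : ValuationSubring (AlgebraicClosure ℚ),
      A.LiesOverPrime ℓ → ∀ σ : Γℚ, A.IsFrobeniusAt σ ℓ →
      LinearMap.charpoly (ρbar.ρ σ) = X ^ 2 - C ((W.apOfModel ℓ : ℤ) : k) * X + C (ℓ : k)

end Fermat.Agent.LL
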