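import Fermat.Agent.LL.ChainNs
import Fermat.Agent.PPart.BlockExists
import Fermat.Agent.PPart.Residual

set_option autoImplicit false
set_option linter.unusedSectionVars false

/-!
# The block of a chain at `p` (peu ramifié case)
-/

open IsLocalRing GaloisRep Polynomial

namespace Fermat.Agent.LL

open Fermat.Agent.DefRing Fermat.Agent Fermat.Agent.CFT.Loc Fermat.Agent.CFT Fermat.Agent.Flat
  Fermat.Agent.PPart Fermat.Agent.TW

local notation "Γℚ" => (AlgebraicClosure ℚ ≃ₐ[ℚ] AlgebraicClosure ℚ)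
local notation "M₂" => Matrix (Fin 2) (Fin 2)
local notation "Qb" => AlgebraicClosure ℚ

/-- a representation over a complete local ring -/
structure LPt where
  R : Type
  [commRing : CommRing R]
  [isLocalRing : IsLocalRing R]
  [isHausdorff : IsHausdorff (maximalIdeal R) R]
  fin : ∀ n, Finite (R ⧸ maximalIdeal R ^ n)
  ρ : GaloisRepAdic R

attribute [instance] LPt.commRing LPt.isLocalRing LPt.isHausdorff

variable {𝒪 : Type} [CommRing 𝒪] [IsDomain 𝒪] [IsDiscreteValuationRing 𝒪]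
  [IsAdicComplete (maximalIdeal 𝒪) 𝒪] [Finite (ResidueField 𝒪)] [CharZero 𝒪]
  {p : ℕ} {j : 𝒪 →+* ℂ} {ρbar : ResidualGaloisRep (ResidueField 𝒪)} {P : ℕ → TW.LCond}
  {Smin : Finset ℕ} {m : ℕ} {ql : Fin m → ℕ} {r : ℕ} {qv : Fin r → ℕ} {F : MvPolynomial ℕ 𝒪}
  {D : ℕ} {W : AutChain p j ρbar P Smin ql qv F D} {P' : TW.LCond} {ρW : GaloisRepAdic 𝒪}
  {tW : ℕ → 𝒪}

theorem ChainRing.φW_loc (H : ChainRing W P' ρW tW) :
    IsLocalHom (H.φW : H.A →+* 𝒪) := by
  constructor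
  intro x hx
  have hx' : IsUnit (H.φW x) := hx
  by_contra h
  have h1 : x - algebraMap 𝒪 H.A (H.φW x) ∈ maximalIdeal H.A := by
    rw [mem_maximalIdeal, mem_nonunits_iff]
    intro hu
    have h2 := hu.map H.φW
    rw [map_sub, AlgHom.commutes, Algebra.algebraMap_self_apply, sub_self] at h2
    exact not_isUnit_zero h2
  have h2 : algebraMap 𝒪 H.A (H.φW x) ∈ maximalIdeal H.A := by
    have h3 := (maximalIdeal H.A).sub_mem (show x ∈ maximalIdeal H.A from h) h1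
    rwa [sub_sub_cancel] at h3
  exact h2 (hx'.map (algebraMap 𝒪 H.A))

/-- **The block at `p`.** -/
theorem ChainRing.exists_pBlock [hpp : Fact p.Prime] (H : ChainRing W P' ρW tW) (hp2 : p ≠ 2)
    (hp𝒪 : (p : 𝒪) ∈ maximalIdeal 𝒪) {k : Fin m} (hk : ql k = p)
    (hflat : ∀ i : Fin (m + 1), (i : ℕ) ≤ k → ∀ l : H.I i, (W.pt i l).ρ.IsFlatAt p)
    (hfs : ∀ i : Fin (m + 1), (k : ℕ) < i → ∀ l : H.I i,
      (W.pt i l).ρ.IsFlatAt p ∨ (W.pt i l).ρ.IsStrictOrdinaryAt p)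
    (hnew : ∀ l : H.I (k.succ : Fin (m + 1)), (l : (W.A k.succ).I) ∈ W.new k →
      (W.pt k.succ l).ρ.IsStrictOrdinaryAt p)
    (hWs : ρW.IsStrictOrdinaryAt p)
    (hcrys : ∀ l : H.I (k.castSucc : Fin (m + 1)),
      CrysAt p (W.pt k.castSucc l).ι (W.pt k.castSucc l).ρ ((W.A k.castSucc).ev l p))
    {π : PadicAlgCl p} (hπ : IsPi π) {s₁ : GalLoc p} (hs₁ : IsSigma π s₁)
    (hs₁' : ρbar.ρ (localGaloisToGlobal p s₁) = 1) (c : 𝒪) :
    ∃ K : SBlock H k c, ∀ θ : H.A →ₐ[𝒪] DualNumber (ResidueField 𝒪),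
      IsLocalHom (θ : H.A →+* DualNumber (ResidueField 𝒪)) → θ K.x = 0 → θ K.nn = 0 →
      θ K.b = 0 → OrdOn (fun σ => (H.R σ).map θ) (padicPlace p) ∧
        (H.R (localGaloisToGlobal p s₁)).map θ = 1 := by
  classical
  let I : Type := (Σ i : Fin (m + 1), {x // x ∈ H.I i}) ⊕ Unit
  let pt : I → LPt := Sum.elim
    (fun q => { R := (W.pt q.1 q.2).R, fin := fun n => finite_quotient_pow_of_dvr n,
                ρ := (W.pt q.1 q.2).ρ })
    (fun _ => { R := 𝒪, fin := fun n => finite_quotient_pow_of_dvr n, ρ := ρW })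
  let φ : ∀ i : I, H.A →+* (pt i).R := fun i => match i with
    | Sum.inl q => (H.φ q.1 q.2 : H.A →+* (W.pt q.1 q.2).R)
    | Sum.inr _ => (H.φW : H.A →+* 𝒪)
  have hφ : ∀ i, IsLocalHom (φ i) := fun i => match i with
    | Sum.inl q => H.φ_loc q.1 q.2
    | Sum.inr _ => H.φW_loc
  have hinj : ∀ x : H.A, (∀ i, φ i x = 0) → x = 0 := fun x hx =>
    H.inj x (fun i l => hx (Sum.inl ⟨i, l⟩)) (hx (Sum.inr ()))
  have hRi : ∀ i, Realizes (pt i).ρ (fun σ => (H.R σ).map (φ i)) := fun i => match i with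
    | Sum.inl q => H.φ_R q.1 q.2
    | Sum.inr _ => H.φW_R
  have hloc : ∀ i, (pt i).ρ.IsFlatAt p ∨ (pt i).ρ.IsStrictOrdinaryAt p := fun i => match i with
    | Sum.inl q => (lt_or_ge (k : ℕ) (q.1 : ℕ)).elim (fun h => hfs q.1 h q.2)
        (fun h => Or.inl (hflat q.1 h q.2))
    | Sum.inr _ => Or.inr hWs
  have hfinA : ∀ n, Finite (H.A ⧸ maximalIdeal H.A ^ n) := fun n =>
    finite_quotient_maximalIdeal_pow (𝒪 := 𝒪) H.res_surj n
  obtain ⟨B⟩ := PPart.exists_pBlock (p := p) (I := I) (O := fun i => (pt i).R) hfinA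
    (fun i n => (pt i).fin n) φ hφ hinj H.hR H.cond.1.1 (ρ := fun i => (pt i).ρ) hRi hp2 hloc
    (Sum.inr ()) hWs hπ hs₁
    (sub_one_mem_of_rho H.hR (ResidueField.map (algebraMap 𝒪 H.A)) H.residual hs₁')
  obtain ⟨st⟩ := H.nonempty_step' k (by rw [hk]; exact hpp.out) B.Tp (fun l => by
    have h1 := B.crys (Sum.inl ⟨k.castSucc, l⟩) (hflat k.castSucc (le_refl _) l)
      (W.pt k.castSucc l).ι _ (hcrys l)
    rw [hk]
    exact h1)
  refine ⟨{
    x := B.x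
    nn := B.y
    b := 0
    x_mem := B.x_mem
    nn_mem := B.y_mem
    b_mem := Ideal.zero_mem _
    T := B.Tp
    step := st
    nn_zero := fun i hi l => B.y_flat (Sum.inl ⟨i, l⟩) (hflat i hi l)
    b_zero := fun i hi l => map_zero _
    nn_b := fun i hi l => by rw [mul_zero, map_zero]
    nn_x := fun i hi l => ?_
    b_x := fun i hi l => by rw [zero_mul, map_zero]
    det := ?_
    new_zero := fun l hl => ?_
    wW_x := B.x_strict (Sum.inr ()) hWs
    wW_b := map_zero _ }, fun θ hθ hx hn _ => ?_⟩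
  · rw [map_mul]
    rcases hfs i hi l with h | h
    · have h1 : H.φ i l B.y = 0 := B.y_flat (Sum.inl ⟨i, l⟩) h
      rw [h1, zero_mul]
    · have h1 : H.φ i l B.x = 0 := B.x_strict (Sum.inl ⟨i, l⟩) h
      rw [h1, mul_zero]
  · obtain ⟨a, ha⟩ := B.det
    exact ⟨a, by rw [hk]; exact ha⟩
  · have h1 : H.φ k.succ l B.x = 0 := B.x_strict (Sum.inl ⟨k.succ, l⟩) (hnew l hl)
    rw [map_mul, h1, zero_mul]
  · have hpk : (p : ResidueField 𝒪) = 0 := by
      rw [← map_natCast (residue 𝒪), residue_eq_zero_iff]; exact hp𝒪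
    exact B.gen (ResidueField 𝒪) hpk (θ : H.A →+* DualNumber (ResidueField 𝒪)) hθ hx hn

end Fermat.Agent.LL
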