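import Fermat.Agent.LL.RaiseFS
import Fermat.Agent.LL.ChainPeu
import Fermat.Agent.GenW.Modes

set_option autoImplicit false
set_option linter.unusedSectionVars false

/-!
# Level raising: the peu ramifié case
-/

open IsLocalRing GaloisRep Polynomial

namespace Fermat.Agent.LL

open Fermat.Agent.DefRing Fermat.Agent Fermat.Agent.CFT.Loc Fermat.Agent.CFT Fermat.Agent.Flat
  Fermat.Agent.PPart

local notation "Γℚ" => (AlgebraicClosure ℚ ≃ₐ[ℚ] AlgebraicClosure ℚ)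
local notation "M₂" => Matrix (Fin 2) (Fin 2)
local notation "Qb" => AlgebraicClosure ℚ

/-- the local data at `p` of a chain with `ql k0 = p` -/
structure PeuEx {𝒪 : Type} [CommRing 𝒪] [IsLocalRing 𝒪] {p : ℕ} [Fact p.Prime] {j : 𝒪 →+* ℂ}
    {ρbar : ResidualGaloisRep (ResidueField 𝒪)} {P : ℕ → TW.LCond} {Smin : Finset ℕ} {m : ℕ}
    {ql : Fin m → ℕ} {r : ℕ} {qv : Fin r → ℕ} {F : MvPolynomial ℕ 𝒪} {D : ℕ}
    (W : AutChain p j ρbar P Smin ql qv F D) (k0 : Fin m) : Prop where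
  flat : ∀ i : ℕ, i ≤ k0 → ∀ x, (W.pt i x).ρ.IsFlatAt p
  fs : ∀ i ≤ m, ∀ x, (W.pt i x).ρ.IsFlatAt p ∨ (W.pt i x).ρ.IsStrictOrdinaryAt p
  strict : ∀ x ∈ W.new k0, (W.pt (k0 + 1) x).ρ.IsStrictOrdinaryAt p
  crys : ∀ x, CrysAt p (W.pt k0 x).ι (W.pt k0 x).ρ ((W.A k0).ev x p)

theorem glueStable_true (p : ℕ) : GlueStable p (fun _ _ _ _ => True) :=
  fun _ _ _ _ _ _ _ _ _ _ _ _ _ _ _ _ _ _ _ _ _ _ _ _ _ _ => trivial

theorem baseChange_self {𝒪 : Type} [CommRing 𝒪] [IsLocalRing 𝒪]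
    {ρbar : ResidualGaloisRep (ResidueField 𝒪)} {ρW : GaloisRepAdic 𝒪}
    (h : ρW.residual.IsEquiv (ρbar.baseChangeAlong (ResidueField.map (algebraMap 𝒪 𝒪)))) :
    ρW.residual.IsEquiv ρbar := by
  obtain ⟨rb, hrb⟩ := exists_realizesRes ρbar
  obtain ⟨r, hr⟩ := exists_realizes ρW
  have h1 := hrb.baseChangeAlong (ResidueField.map (algebraMap 𝒪 𝒪))
  have h2 : ∀ x : ResidueField 𝒪, ResidueField.map (algebraMap 𝒪 𝒪) x = x := by
    intro x
    obtain ⟨y, rfl⟩ := residue_surjective x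
    rfl
  have h3 : (fun σ => (rb σ).map (ResidueField.map (algebraMap 𝒪 𝒪))) = rb := by
    funext σ
    ext i j
    exact h2 _
  rw [h3] at h1
  exact hr.residual.isEquiv ((hr.residual.of_isEquiv h).of_isEquiv (h1.isEquiv hrb))

/-- **Level raising, peu ramifié case.** -/
theorem raise_peu {𝒪 : Type} [CommRing 𝒪] [IsDomain 𝒪] [IsDiscreteValuationRing 𝒪]
    [IsAdicComplete (maximalIdeal 𝒪) 𝒪] [Finite (ResidueField 𝒪)] [CharZero 𝒪]
    {p : ℕ} [hpp : Fact p.Prime] (hp2 : p ≠ 2) (hp𝒪 : (p : 𝒪) ∈ maximalIdeal 𝒪)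
    {j : 𝒪 →+* ℂ} (hj : Function.Injective j)
    {ρbar : ResidualGaloisRep (ResidueField 𝒪)} (habs : ρbar.IsAbsolutelyIrreducible)
    (hdet : (GaloisRepAdic.ofResidualGaloisRep ρbar).DetIsCyclotomic p)
    (hsplit : ∀ σ : Γℚ, ∃ α β : ResidueField 𝒪,
      LinearMap.charpoly (ρbar.ρ σ) = (X - C α) * (X - C β))
    (hind : ∀ (K : Type) [Field K] [Algebra (ResidueField 𝒪) K] (G : Subgroup Γℚ), G.index = 2 →
      ∀ V : Submodule K (ρbar.baseChange K).V,
        (∀ σ ∈ G, ∀ x ∈ V, (ρbar.baseChange K).ρ σ x ∈ V) → V = ⊥ ∨ V = ⊤)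
    {Smin : Finset ℕ} (hpS : p ∈ Smin)
    (hSmin : ∀ q : ℕ, q.Prime → q ≠ p → (q ∈ Smin ↔ ¬ ρbar.IsUnramifiedAt q))
    {m : ℕ} {ql : Fin m → ℕ} (hinj : Function.Injective ql)
    (hql : ∀ k, (ql k).Prime) (hqlS : ∀ k, ql k ≠ p → ql k ∉ Smin) {k0 : Fin m}
    (hk0 : ql k0 = p) {P : ℕ → TW.LCond}
    {ρW : GaloisRepAdic 𝒪} {tW : ℕ → 𝒪} {S₁ : Finset ℕ} (hW : FrobChar ρW S₁ tW)
    (hWres : ρW.residual.IsEquiv (ρbar.baseChangeAlong (ResidueField.map (algebraMap 𝒪 𝒪))))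
    (hWcond : TW.CondType 𝒪 p Smin (fun _ _ _ _ => True) (Finset.univ.image ql) ρW)
    (hWs : ρW.IsStrictOrdinaryAt p) (hWst : ∀ k, ql k ≠ p → IsSt ρW (ql k))
    {F : MvPolynomial ℕ 𝒪} (hF : MvPolynomial.eval tW F ≠ 0) (S₀ : Finset ℕ) (D : ℕ → ℕ)
    (hchain : ∀ (r : ℕ) (qv : Fin r → ℕ), Function.Injective qv →
      (∀ i, (qv i).Prime ∧ qv i ∉ S₀ ∧ p ∣ qv i - 1) →
      (∀ i, ∀ P : ValuationSubring Qb, P.LiesOverPrime (qv i) →
        ∀ σ : Γℚ, P.IsFrobeniusAt σ (qv i) → ∃ α β : ResidueField 𝒪, α ≠ β ∧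
          LinearMap.charpoly (ρbar.ρ σ) = (X - C α) * (X - C β)) →
      ∃ W : AutChain p j ρbar P Smin ql qv F (D r), S₁ ⊆ W.SS m ∧ PeuEx W k0) : False := by
  classical
  have hp : p.Prime := hpp.out
  have hur : ∀ k, ql k ≠ p → ρbar.IsUnramifiedAt (ql k) := fun k hkp => by
    by_contra h
    exact hqlS k hkp ((hSmin _ (hql k) hkp).mpr h)
  let scal : Fin m → Prop := fun k => ql k ≠ p ∧ ScalAt ρbar (ql k)
  let Tsc : Finset ℕ := (Finset.univ.filter scal).image ql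
  let Tns : Finset ℕ := (Finset.univ.filter fun k => ¬ scal k ∧ ql k ≠ p).image ql
  have hsc : ∀ l ∈ Tsc, l.Prime ∧ l ∉ Smin ∧ ScalAt ρbar l := by
    intro l hl
    obtain ⟨k, hk, rfl⟩ := Finset.mem_image.mp hl
    have hk' := (Finset.mem_filter.mp hk).2
    exact ⟨hql k, hqlS k hk'.1, hk'.2⟩
  have hns : ∀ l ∈ Tns, ∃ k, ¬ scal k ∧ ql k = l := by
    intro l hl
    obtain ⟨k, hk, rfl⟩ := Finset.mem_image.mp hl
    exact ⟨k, (Finset.mem_filter.mp hk).2.1, rfl⟩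
  have hns' : ∀ l ∈ Tns, ∃ k, ¬ ScalAt ρbar (ql k) ∧ ql k ≠ p ∧ ql k = l := by
    intro l hl
    obtain ⟨k, hk, rfl⟩ := Finset.mem_image.mp hl
    have hk' := (Finset.mem_filter.mp hk).2
    exact ⟨k, fun h => hk'.1 ⟨hk'.2, h⟩, hk'.2, rfl⟩
  have hG : TW.GenWHyp p ρbar Smin Tsc Tns :=
    { hp2 := hp2
      hp𝒪 := hp𝒪
      habs := habs
      hdet := hdet
      hsplit := hsplit
      hTW := hind
      hpSmin := hpS
      hmin := hSmin
      hsc := hsc
      hns := by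
        intro l hl
        obtain ⟨k, hk, hkp, rfl⟩ := hns' l hl
        exact ⟨hql k, hqlS k hkp, fun P hP σ hσ c =>
          not_scalAt (hql k) (hur k hkp) hk P hP σ hσ c⟩ }
  have hmem : ∀ k, ql k ≠ p → ql k ∈ Tsc ∪ Tns := by
    intro k hkp
    by_cases h : scal k
    · exact Finset.mem_union_left _ (Finset.mem_image_of_mem _
        (Finset.mem_filter.mpr ⟨Finset.mem_univ k, h⟩))
    · exact Finset.mem_union_right _ (Finset.mem_image_of_mem _
        (Finset.mem_filter.mpr ⟨Finset.mem_univ k, h, hkp⟩))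
  have hLn : ∀ l, l ∈ Tsc ∪ Tns → Nonempty (LocGen l p) := by
    intro l hl
    rcases Finset.mem_union.mp hl with h | h
    · exact locGenStmt l p (hsc l h).1 hp (fun hh => (hsc l h).2.1 (hh ▸ hpS))
    · obtain ⟨k, -, hkp, rfl⟩ := hns' l h
      exact locGenStmt _ p (hql k) hp hkp
  let L : ∀ l, l ∈ Tsc ∪ Tns → LocGen l p := fun l hl => (hLn l hl).some
  obtain ⟨u, hu⟩ := exists_half (𝒪 := 𝒪) hp hp2 hp𝒪
  choose e' he' hWt' using fun k : {k // ql k ≠ p} =>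
    exists_sign (hWst k k.2) (L (ql k) (hmem k k.2))
  let e : Fin m → 𝒪 := fun k => if h : ql k ≠ p then e' ⟨k, h⟩ else 1
  have hee : ∀ k (h : ql k ≠ p), e k = e' ⟨k, h⟩ := fun k h => dif_pos h
  have he : ∀ k, e k ^ 2 = 1 := by
    intro k
    by_cases h : ql k ≠ p
    · rw [hee k h]; exact he' _
    · have : e k = 1 := dif_neg h
      rw [this, one_pow]
  have hWt : ∀ k (h : ql k ≠ p), LinearMap.charpoly (ρW.ρ (L (ql k) (hmem k h)).φ) =
      X ^ 2 - C (e k * ((ql k : 𝒪) + 1)) * X + C (ql k : 𝒪) := by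
    intro k h
    rw [hee k h]
    exact hWt' ⟨k, h⟩
  have hB : ∀ k (h : ql k ≠ p),
      BlkHyp p ρbar Smin ρW (ql k) (L (ql k) (hmem k h)) u (e k) := fun k h =>
    { hp2 := hp2
      hp𝒪 := hp𝒪
      hpS := hpS
      hSmin := hSmin
      hq := hql k
      hqS := hqlS k h
      hu := hu
      he := he k
      hWu := (hWst k h).1
      hWt := hWt k h }
  have hone : ∀ k, scal k → ((ql k : 𝒪) - 1) ∈ maximalIdeal 𝒪 := by
    intro k hk
    obtain ⟨c, hc⟩ := hk.2 _ (L (ql k) (hmem k hk.1)).hP _ (L (ql k) (hmem k hk.1)).hφ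
    exact scalar_one hWres hc (he k) (hWt k hk.1)
  let hh : Fin m → 𝒪 := fun k => if scal k then u * e k * ((ql k : 𝒪) - 1) else 0
  have hhk : ∀ k, scal k → hh k = u * e k * ((ql k : 𝒪) - 1) := fun k hk => if_pos hk
  -- the local data at `p`
  have hord := TW.exists_ordMat_of_point (baseChange_self hWres) hWs
  obtain ⟨π, hπ⟩ := exists_isPi (p := p)
  obtain ⟨s₁, hs₁⟩ := exists_isSigma hπ
  have hs₁' : ρbar.ρ (localGaloisToGlobal p s₁) = 1 := by
    obtain ⟨W, -, hEx⟩ := hchain 0 Fin.elim0 (fun i => i.elim0) (fun i => i.elim0)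
      (fun i => i.elim0)
    have hne : Nonempty (W.A 0).I := by
      by_contra hne
      rw [not_nonempty_iff] at hne
      have h1 := W.rank_pos
      have h2 : Subsingleton (W.A 0).M := ⟨fun a b => by
        rw [← sub_eq_zero]
        exact (W.A 0).sep _ fun x => (hne.false x).elim⟩
      rw [Module.finrank_zero_of_subsingleton] at h1
      exact lt_irrefl _ h1
    obtain ⟨x⟩ := hne
    exact rho_sigma_eq_one hord _ (hEx.flat 0 (Nat.zero_le _) x) (W.cond 0 (Nat.zero_le _) x).1.1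
      (W.pt 0 x).residual hπ hs₁
  obtain ⟨w, hw⟩ := IsAlgClosed.exists_pow_nat_eq (p : PadicAlgCl p) hp.pos
  have hGen := TW.genW_peu hG L hord hs₁' hw (hs₁.move w hw)
  refine raise_of_blocks hj hinj (P := P) (P' := fun _ _ _ _ => True) (glueStable_true p)
    (fun _ _ _ _ _ _ _ => trivial) scal hG
    rfl hns (wp := 1) ?_ ?_ L hGen
    (Or.inl ⟨k0, fun h => h.1 hk0, hk0⟩) hh (fun k => cPar p (ql k) (e k)) ?_
    (fun k => cPar_mem hp𝒪) (fun k => cPar_ne hp.ne_zero (he k)) hW hWres hWcond hF S₀ D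
    (fun _ _ W => PeuEx W k0) hchain ?_ ?_
  · have h1 : (Finset.univ.filter fun k : Fin m => ¬ scal k) =
        insert k0 (Finset.univ.filter fun k : Fin m => ¬ scal k ∧ ql k ≠ p) := by
      ext k
      rw [Finset.mem_insert, Finset.mem_filter, Finset.mem_filter]
      constructor
      · rintro ⟨-, h⟩
        by_cases hkp : ql k = p
        · exact Or.inl (hinj (hkp.trans hk0.symm))
        · exact Or.inr ⟨Finset.mem_univ _, h, hkp⟩
      · rintro (rfl | h)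
        · exact ⟨Finset.mem_univ _, fun h => h.1 hk0⟩
        · exact ⟨Finset.mem_univ _, h.2.1⟩
    have h2 : k0 ∉ Finset.univ.filter fun k : Fin m => ¬ scal k ∧ ql k ≠ p := fun h =>
      (Finset.mem_filter.mp h).2.2 hk0
    rw [Fintype.card_subtype, h1, Finset.card_insert_of_notMem h2,
      Finset.card_image_of_injective _ hinj]
  · intro k
    by_cases h : ql k = p
    · rw [h]; exact Finset.mem_union_left _ hpS
    · exact Finset.mem_union_right _ (hmem k h)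
  · intro k
    by_cases hk : scal k
    · rw [hhk k hk]
      exact Ideal.mul_mem_left _ _ (hone k hk)
    · have : hh k = 0 := if_neg hk
      rw [this]
      exact zero_mem _
  · intro r qv W _ H k hk
    obtain ⟨c, hc⟩ := hk.2 _ (L (ql k) (hmem k hk.1)).hP _ (L (ql k) (hmem k hk.1)).hφ
    obtain ⟨K, hK⟩ := (hB k hk.1).exists_scBlock H hc (hone k hk)
    rw [hhk k hk]
    exact ⟨K, fun θ h1 h2 hl => hK θ h1 h2⟩
  · intro r qv W hEx H k hk
    by_cases hkp : ql k = p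
    · obtain rfl : k = k0 := hinj (hkp.trans hk0.symm)
      obtain ⟨K, hK⟩ := H.exists_pBlock hp2 hp𝒪 hk0 (fun i hi l => hEx.flat i hi l)
        (fun i _ l => hEx.fs i (by omega) l) (fun l hl => hEx.strict l.1 hl) hWs
        (fun l => hEx.crys l.1) hπ hs₁ hs₁' (cPar p (ql k) (e k))
      refine ⟨K, fun θ hθ h1 h2 h3 => ⟨fun hl => ?_, fun _ => hK θ hθ h1 h2 h3⟩⟩
      obtain ⟨k', -, hk', hkk⟩ := hns' _ hl
      exact absurd (hkk.trans hkp) hk'
    · obtain ⟨K, hK⟩ := (hB k hkp).exists_sBlock H (fun c =>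
        not_scalAt (hql k) (hur k hkp) (fun h => hk ⟨hkp, h⟩) _
        (L (ql k) (hmem k hkp)).hP _ (L (ql k) (hmem k hkp)).hφ c)
      exact ⟨K, fun θ hθ h1 h2 h3 => ⟨fun hl => hK θ hθ h1 h2 h3, fun h => absurd h hkp⟩⟩

end Fermat.Agent.LL
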