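import Fermat.Agent.RepTwo.TraceForm
import Fermat.Agent.Cheb.Charpoly

set_option autoImplicit false

/-!
# Absolutely irreducible two-dimensional representations are determined by their traces
-/

open Module
open scoped TensorProduct

namespace Fermat.Agent.LL

local notation "Γℚ" => (AlgebraicClosure ℚ ≃ₐ[ℚ] AlgebraicClosure ℚ)

section Abstract

variable {k : Type*} [Field k] {G : Type*} [Group G] {V W : Type*} [AddCommGroup V] [Module k V]
  [AddCommGroup W] [Module k W] [FiniteDimensional k V] [FiniteDimensional k W]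

/-- Brauer--Nesbitt for an absolutely irreducible representation -/
theorem exists_equiv_of_trace (ρ : G →* Module.End k V) (ρ' : G →* Module.End k W)
    (hdim : finrank k W = finrank k V) (hspan : Submodule.span k (Set.range ρ) = ⊤)
    (htr : ∀ g, LinearMap.trace k V (ρ g) = LinearMap.trace k W (ρ' g)) :
    ∃ e : V ≃ₗ[k] W, ∀ g x, e (ρ g x) = ρ' g (e x) := by
  classical
  let φ : MonoidAlgebra k G →ₐ[k] Module.End k V := MonoidAlgebra.lift k _ G ρ
  let φ' : MonoidAlgebra k G →ₐ[k] Module.End k W := MonoidAlgebra.lift k _ G ρ'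
  have hφ : ∀ g, φ (MonoidAlgebra.of k G g) = ρ g := fun g ↦ MonoidAlgebra.lift_of _ _
  have hφ' : ∀ g, φ' (MonoidAlgebra.of k G g) = ρ' g := fun g ↦ MonoidAlgebra.lift_of _ _
  have htr' : ∀ x, LinearMap.trace k V (φ x) = LinearMap.trace k W (φ' x) := by
    intro x
    induction x using MonoidAlgebra.induction_on with
    | of g => exact (congrArg _ (hφ g)).trans ((htr g).trans (congrArg _ (hφ' g)).symm)
    | add x y hx hy => rw [map_add, map_add, map_add, map_add, hx, hy]
    | smul a x hx => rw [map_smul, map_smul, map_smul, map_smul, hx]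
  have hsurj : Function.Surjective φ := by
    rw [← AlgHom.range_eq_top, eq_top_iff]
    intro y _
    have hy : y ∈ Submodule.span k (Set.range ρ) := by rw [hspan]; trivial
    have hle : Submodule.span k (Set.range ρ) ≤ Subalgebra.toSubmodule φ.range := by
      rw [Submodule.span_le]
      rintro _ ⟨g, rfl⟩
      exact ⟨_, hφ g⟩
    exact hle hy
  have hker : ∀ x, φ' x = 0 → φ x = 0 := by
    intro x hx
    refine RepTwo.eq_zero_of_trace_mul_eq_zero _ fun g ↦ ?_
    obtain ⟨y, rfl⟩ := hsurj g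
    rw [← map_mul, htr', map_mul, hx, mul_zero, map_zero]
  -- the graph
  let P : Subalgebra k (Module.End k W × Module.End k V) := (φ'.prod φ).range
  let f1 : P →ₐ[k] Module.End k W := (AlgHom.fst k _ _).comp P.val
  let f2 : P →ₐ[k] Module.End k V := (AlgHom.snd k _ _).comp P.val
  have h1 : Function.Injective f1 := by
    rw [injective_iff_map_eq_zero]
    rintro ⟨_, x, rfl⟩ hx
    have hx' : φ' x = 0 := hx
    exact Subtype.ext (Prod.ext hx' (hker x hx'))
  have h2 : Function.Surjective f2 := by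
    intro y
    obtain ⟨x, rfl⟩ := hsurj y
    exact ⟨⟨_, x, rfl⟩, rfl⟩
  have hE : finrank k (Module.End k W) = finrank k (Module.End k V) := by
    rw [Module.finrank_linearMap, Module.finrank_linearMap, hdim]
  have h3 : finrank k P ≤ finrank k (Module.End k W) :=
    LinearMap.finrank_le_finrank_of_injective (f := f1.toLinearMap) h1
  have h4 : finrank k (Module.End k V) ≤ finrank k P :=
    LinearMap.finrank_le_finrank_of_surjective (f := f2.toLinearMap) h2
  have h5 : Function.Bijective f1 :=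
    ⟨h1, (LinearMap.injective_iff_surjective_of_finrank_eq_finrank
      (f := f1.toLinearMap) (le_antisymm h3 (hE ▸ h4))).1 h1⟩
  have h6 : Function.Bijective f2 :=
    ⟨(LinearMap.injective_iff_surjective_of_finrank_eq_finrank
      (f := f2.toLinearMap) (le_antisymm (hE ▸ h3) h4)).2 h2, h2⟩
  let e : Module.End k V ≃ₐ[k] Module.End k W :=
    (AlgEquiv.ofBijective f2 h6).symm.trans (AlgEquiv.ofBijective f1 h5)
  have he : ∀ x, e (φ x) = φ' x := by
    intro x
    have h7 : (AlgEquiv.ofBijective f2 h6).symm (φ x) = ⟨(φ' x, φ x), x, rfl⟩ := by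
      rw [AlgEquiv.symm_apply_eq]
      rfl
    change (AlgEquiv.ofBijective f1 h5) ((AlgEquiv.ofBijective f2 h6).symm (φ x)) = _
    rw [h7]
    rfl
  obtain ⟨T, hT⟩ := AlgEquiv.eq_linearEquivConjAlgEquiv e
  refine ⟨T, fun g x ↦ ?_⟩
  have h8 := he (MonoidAlgebra.of k G g)
  rw [hφ, hφ', hT, LinearEquiv.conjAlgEquiv_apply] at h8
  rw [← h8]
  simp

end Abstract

section Residual

variable {k : Type} [Field k]

theorem span_range_of_absIrr (ρ : ResidualGaloisRep k) (h : ρ.IsAbsolutelyIrreducible) :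
    Submodule.span k (Set.range ρ.ρ) = ⊤ := by
  classical
  set K := AlgebraicClosure k with hK
  let b1 : Basis (Fin 2) k ρ.V := finBasisOfFinrankEq k ρ.V ρ.finrank_eq
  let b2 : Basis (Fin 2) K (ρ.baseChange K).V := Algebra.TensorProduct.basis K b1
  have : Nontrivial (ρ.baseChange K).V :=
    nontrivial_of_finrank_pos (R := K) (by rw [(ρ.baseChange K).finrank_eq]; norm_num)
  have hB : Submodule.span K (Set.range (ρ.baseChange K).ρ) = ⊤ :=
    RepTwo.span_range_eq_top (K := K) (V := (ρ.baseChange K).V) (ρ.baseChange K).ρ h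
  rw [RepTwo.span_eq_top_iff_coord b2] at hB
  rw [RepTwo.span_eq_top_iff_coord b1]
  apply RepTwo.span_eq_top_of_field_ext (K := K)
  have hmat : ∀ g p, RepTwo.coordEquiv b2 ((ρ.baseChange K).ρ g) p =
      algebraMap k K (RepTwo.coordEquiv b1 (ρ.ρ g) p) := by
    intro g p
    have h1 := LinearMap.toMatrix_baseChange K (ρ.ρ g) b1 b1
    calc RepTwo.coordEquiv b2 ((ρ.baseChange K).ρ g) p
        = LinearMap.toMatrix (Algebra.TensorProduct.basis K b1)
          (Algebra.TensorProduct.basis K b1) ((ρ.ρ g).baseChange K) p.1 p.2 := rfl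
      _ = _ := by rw [h1]; rfl
  have himg : (fun x : Fin 2 × Fin 2 → k => fun i => algebraMap k K (x i)) ''
        (RepTwo.coordEquiv b1 '' Set.range ρ.ρ) =
      RepTwo.coordEquiv b2 '' Set.range (ρ.baseChange K).ρ := by
    ext x
    constructor
    · rintro ⟨_, ⟨_, ⟨g, rfl⟩, rfl⟩, rfl⟩
      refine ⟨_, ⟨g, rfl⟩, ?_⟩
      ext p
      rw [hmat]
    · rintro ⟨_, ⟨g, rfl⟩, rfl⟩
      refine ⟨_, ⟨_, ⟨g, rfl⟩, rfl⟩, ?_⟩
      ext p
      rw [hmat]
  rw [himg]
  exact hB

theorem span_range_baseChange {k' : Type} [Field k'] [Algebra k k'] (ρ : ResidualGaloisRep k)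
    (h : Submodule.span k (Set.range ρ.ρ) = ⊤) :
    Submodule.span k' (Set.range (ρ.baseChange k').ρ) = ⊤ := by
  classical
  let b1 : Basis (Fin 2) k ρ.V := finBasisOfFinrankEq k ρ.V ρ.finrank_eq
  let b2 : Basis (Fin 2) k' (ρ.baseChange k').V := Algebra.TensorProduct.basis k' b1
  rw [RepTwo.span_eq_top_iff_coord b2]
  rw [RepTwo.span_eq_top_iff_coord b1] at h
  have hmat : ∀ g, RepTwo.coordEquiv b2 ((ρ.baseChange k').ρ g) =
      fun p ↦ algebraMap k k' (RepTwo.coordEquiv b1 (ρ.ρ g) p) := by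
    intro g
    ext p
    have h1 := LinearMap.toMatrix_baseChange k' (ρ.ρ g) b1 b1
    calc RepTwo.coordEquiv b2 ((ρ.baseChange k').ρ g) p
        = LinearMap.toMatrix (Algebra.TensorProduct.basis k' b1)
          (Algebra.TensorProduct.basis k' b1) ((ρ.ρ g).baseChange k') p.1 p.2 := rfl
      _ = _ := by rw [h1]; rfl
  have key : ∀ x ∈ Submodule.span k (RepTwo.coordEquiv b1 '' Set.range ρ.ρ),
      (fun p ↦ algebraMap k k' (x p)) ∈
        Submodule.span k' (RepTwo.coordEquiv b2 '' Set.range (ρ.baseChange k').ρ) := by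
    intro x hx
    induction hx using Submodule.span_induction with
    | mem x hx =>
      obtain ⟨_, ⟨g, rfl⟩, rfl⟩ := hx
      rw [← hmat]
      exact Submodule.subset_span ⟨_, ⟨g, rfl⟩, rfl⟩
    | zero =>
      convert Submodule.zero_mem _ using 1
      ext p
      simp
    | add x y _ _ hx hy =>
      convert Submodule.add_mem _ hx hy using 1
      ext p
      simp
    | smul a x _ hx =>
      convert Submodule.smul_mem _ (algebraMap k k' a) hx using 1
      ext p
      simp
  rw [eq_top_iff]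
  intro y _
  rw [pi_eq_sum_univ' y]
  refine Submodule.sum_mem _ fun p _ ↦ Submodule.smul_mem _ _ ?_
  have h2 := key (Pi.single p 1) (by rw [h]; trivial)
  convert h2 using 1
  ext p'
  by_cases hp : p' = p
  · subst hp; simp
  · simp [hp]

theorem span_range_baseChangeAlong {k' : Type} [Field k'] (φ : k →+* k') (ρ : ResidualGaloisRep k)
    (h : Submodule.span k (Set.range ρ.ρ) = ⊤) :
    Submodule.span k' (Set.range (ρ.baseChangeAlong φ).ρ) = ⊤ := by
  let _ : Algebra k k' := φ.toAlgebra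
  exact span_range_baseChange ρ h

theorem absIrr_of_span (ρ : ResidualGaloisRep k) (h : Submodule.span k (Set.range ρ.ρ) = ⊤) :
    ρ.IsAbsolutelyIrreducible := by
  intro W hW
  have h1 := span_range_baseChange (k' := AlgebraicClosure k) ρ h
  have h2 : ∀ T : Module.End (AlgebraicClosure k) (ρ.baseChange (AlgebraicClosure k)).V,
      ∀ x ∈ W, T x ∈ W := by
    intro T x hx
    have hT : T ∈ Submodule.span (AlgebraicClosure k)
        (Set.range (ρ.baseChange (AlgebraicClosure k)).ρ) := by rw [h1]; trivial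
    induction hT using Submodule.span_induction with
    | mem T hT =>
      obtain ⟨σ, rfl⟩ := hT
      exact hW σ x hx
    | zero => exact W.zero_mem
    | add T T' _ _ h h' => exact W.add_mem h h'
    | smul a T _ h => exact W.smul_mem a h
  by_cases hne : W = ⊥
  · exact Or.inl hne
  · right
    obtain ⟨w, hw, hw0⟩ := Submodule.exists_mem_ne_zero_of_ne_bot hne
    rw [eq_top_iff]
    intro v _
    obtain ⟨f, hf⟩ := Module.Projective.exists_dual_ne_zero (AlgebraicClosure k) hw0
    have h3 := h2 ((f w)⁻¹ • LinearMap.smulRight f v) w hw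
    have h4 : ((f w)⁻¹ • LinearMap.smulRight f v) w = v := by
      rw [LinearMap.smul_apply, LinearMap.smulRight_apply, smul_smul, inv_mul_cancel₀ hf, one_smul]
    rwa [h4] at h3

theorem span_of_isEquiv {ρ ρ' : ResidualGaloisRep k} (e : ρ.IsEquiv ρ')
    (h : Submodule.span k (Set.range ρ.ρ) = ⊤) : Submodule.span k (Set.range ρ'.ρ) = ⊤ := by
  obtain ⟨e⟩ := e
  have h1 : Submodule.map (e.toLinearEquiv.conj : Module.End k ρ.V →ₗ[k] Module.End k ρ'.V)
      (Submodule.span k (Set.range ρ.ρ)) = Submodule.span k (Set.range ρ'.ρ) := by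
    rw [Submodule.map_span, ← Set.range_comp]
    congr 2
    ext σ x
    change e.toLinearEquiv (ρ.ρ σ (e.toLinearEquiv.symm x)) = ρ'.ρ σ x
    rw [e.map_apply, LinearEquiv.apply_symm_apply]
  rw [← h1, h, Submodule.map_top, LinearEquiv.range]

theorem absIrr_of_isEquiv {k' : Type} [Field k'] (φ : k →+* k') {ρ : ResidualGaloisRep k}
    (h : ρ.IsAbsolutelyIrreducible) {ρ' : ResidualGaloisRep k'}
    (e : ρ'.IsEquiv (ρ.baseChangeAlong φ)) : ρ'.IsAbsolutelyIrreducible :=
  absIrr_of_span _ (span_of_isEquiv (e.elim fun e ↦ ⟨e.symm⟩)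
    (span_range_baseChangeAlong φ ρ (span_range_of_absIrr ρ h)))

/-- **Brauer--Nesbitt**, Galois version, with Chebotarev. -/
theorem residual_isEquiv_of_frob {k' : Type} [Field k'] (φ : k →+* k') (ρ : ResidualGaloisRep k)
    (habs : ρ.IsAbsolutelyIrreducible) (ρ' : ResidualGaloisRep k') (S : Finset ℕ)
    (h : ∀ ℓ : ℕ, ℓ.Prime → ℓ ∉ S → ∀ P : ValuationSubring (AlgebraicClosure ℚ),
      P.LiesOverPrime ℓ → ∀ σ : Γℚ, P.IsFrobeniusAt σ ℓ →
      LinearMap.charpoly ((ρ.baseChangeAlong φ).ρ σ) = LinearMap.charpoly (ρ'.ρ σ)) :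
    ρ'.IsEquiv (ρ.baseChangeAlong φ) := by
  have h1 := Cheb.residual_charpoly_eq_of_frobenius (ρ.baseChangeAlong φ) ρ' S h
  obtain ⟨e, he⟩ := exists_equiv_of_trace (ρ.baseChangeAlong φ).ρ ρ'.ρ
    (by rw [ρ'.finrank_eq, (ρ.baseChangeAlong φ).finrank_eq])
    (span_range_baseChangeAlong φ ρ (span_range_of_absIrr ρ habs)) (fun g ↦
      (Cheb.trace_det_of_charpoly_eq (ρ.baseChangeAlong φ).finrank_eq _
        ((h1 g).trans (Cheb.charpoly_eq ρ'.finrank_eq _))).1)
  exact ⟨ResidualGaloisRep.Equiv.symm ⟨e, he⟩⟩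

end Residual

end Fermat.Agent.LL
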