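import Fermat.Agent.LL.Blocks
import Fermat.Agent.TWMod.Idem
import Fermat.Prelude.Thm_IsLocalRing_isAdicComplete_of_module_finite

set_option autoImplicit false

/-!
# Normalisation of a finite domain extension of a complete discrete valuation ring
-/

open IsLocalRing

namespace Fermat.Agent.LL

section LocalRing

/-- A finite domain extension of a complete noetherian local ring is local. -/
theorem isLocalRing_of_finite_domain {Λ : Type} [CommRing Λ] [IsLocalRing Λ] [IsNoetherianRing Λ]
    [IsAdicComplete (maximalIdeal Λ) Λ] (B : Type) [CommRing B] [IsDomain B] [Algebra Λ B]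
    [Module.Finite Λ B] : IsLocalRing B := by
  obtain ⟨𝔪, h𝔪⟩ := Ideal.exists_maximal B
  obtain ⟨e, he1, he2, he3⟩ := TWMod.exists_idempotent (Λ := Λ) B 𝔪
  have he : e = 1 := by
    have h1 : e * (1 - e) = 0 := by rw [mul_sub, mul_one, he1, sub_self]
    rcases mul_eq_zero.mp h1 with h | h
    · rw [h, sub_zero] at he2
      exact absurd ((Ideal.eq_top_iff_one _).mpr he2) h𝔪.ne_top
    · exact (sub_eq_zero.mp h).symm
  subst he
  refine IsLocalRing.of_unique_max_ideal ⟨𝔪, h𝔪, ?_⟩
  intro J hJ
  refine hJ.eq_of_le h𝔪.ne_top ?_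
  intro b hb
  by_contra hb'
  obtain ⟨c, hc⟩ := he3 b hb'
  rw [mul_one] at hc
  exact hJ.ne_top ((Ideal.eq_top_iff_one _).mpr (hc ▸ J.mul_mem_left c hb))

theorem isLocalHom_of_isIntegral_injective {A B : Type*} [CommRing A] [CommRing B]
    (f : A →+* B) (hf : f.IsIntegral) (hinj : Function.Injective f) : IsLocalHom f := by
  constructor
  intro a ha
  obtain ⟨u, hu⟩ := ha
  letI := f.toAlgebra
  have hint : IsIntegral A ((↑u⁻¹ : B)) := hf _
  -- `u⁻¹ ^ n = ...`
  by_contra hna
  obtain ⟨𝔫, h𝔫, ha𝔫⟩ := exists_max_ideal_of_mem_nonunits (mem_nonunits_iff.mpr hna)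
  haveI : Algebra.IsIntegral A B := ⟨fun x ↦ hf x⟩
  haveI : FaithfulSMul A B := (faithfulSMul_iff_algebraMap_injective A B).mpr hinj
  obtain ⟨Q, hQ, hQ'⟩ := Ideal.exists_ideal_over_maximal_of_isIntegral (S := B) 𝔫 (by
    rw [(RingHom.injective_iff_ker_eq_bot (algebraMap A B)).mp hinj]
    exact bot_le)
  have h1 : f a ∈ Q := by
    have : a ∈ Ideal.comap (algebraMap A B) Q := by rw [hQ']; exact ha𝔫
    exact this
  have h2 : IsUnit (f a) := ⟨u, hu⟩
  exact hQ.ne_top (Ideal.eq_top_of_isUnit_mem _ h1 h2)

end LocalRing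

section DVR

variable {𝒪 : Type} [CommRing 𝒪] [IsDomain 𝒪] [IsDiscreteValuationRing 𝒪]
    [IsAdicComplete (maximalIdeal 𝒪) 𝒪] [CharZero 𝒪]
variable (K L : Type) [Field K] [Algebra 𝒪 K] [IsFractionRing 𝒪 K] [Field L] [Algebra K L]
  [Algebra 𝒪 L] [IsScalarTower 𝒪 K L] [FiniteDimensional K L]

include K

theorem finite_integralClosure : Module.Finite 𝒪 (integralClosure 𝒪 L) := by
  haveI : CharZero K := charZero_of_injective_algebraMap (IsFractionRing.injective 𝒪 K)
  exact IsIntegralClosure.finite 𝒪 K L (integralClosure 𝒪 L)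

theorem isLocalRing_integralClosure : IsLocalRing (integralClosure 𝒪 L) :=
  haveI := finite_integralClosure (𝒪 := 𝒪) K L
  isLocalRing_of_finite_domain (Λ := 𝒪) _

theorem isDVR_integralClosure : IsDiscreteValuationRing (integralClosure 𝒪 L) := by
  haveI : CharZero K := charZero_of_injective_algebraMap (IsFractionRing.injective 𝒪 K)
  haveI := isLocalRing_integralClosure (𝒪 := 𝒪) K L
  haveI := integralClosure.isDedekindDomain 𝒪 K L
  haveI : FaithfulSMul 𝒪 (integralClosure 𝒪 L) := by
    rw [faithfulSMul_iff_algebraMap_injective]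
    have h : Function.Injective (algebraMap 𝒪 L) := by
      rw [IsScalarTower.algebraMap_eq 𝒪 K L]
      exact (algebraMap K L).injective.comp (IsFractionRing.injective 𝒪 K)
    intro x y hxy
    exact h (congrArg (algebraMap (integralClosure 𝒪 L) L) hxy)
  have hnf : ¬ IsField (integralClosure 𝒪 L) := by
    intro h
    exact IsDiscreteValuationRing.not_isField 𝒪
      (isField_of_isIntegral_of_isField (R := 𝒪) (S := integralClosure 𝒪 L)
        (FaithfulSMul.algebraMap_injective _ _) h)
  exact ((IsDiscreteValuationRing.TFAE (integralClosure 𝒪 L) hnf).out 0 2).mpr ‹IsDedekindDomain (integralClosure 𝒪 L)›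

theorem isLocalHom_integralClosure : IsLocalHom (algebraMap 𝒪 (integralClosure 𝒪 L)) := by
  have h : Function.Injective (algebraMap 𝒪 L) := by
    rw [IsScalarTower.algebraMap_eq 𝒪 K L]
    exact (algebraMap K L).injective.comp (IsFractionRing.injective 𝒪 K)
  refine isLocalHom_of_isIntegral_injective _ (algebraMap_isIntegral_iff.mpr inferInstance) ?_
  intro x y hxy
  exact h (congrArg (algebraMap (integralClosure 𝒪 L) L) hxy)

theorem isAdicComplete_integralClosure :
    letI := isLocalRing_integralClosure (𝒪 := 𝒪) K L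
    IsAdicComplete (maximalIdeal (integralClosure 𝒪 L)) (integralClosure 𝒪 L) := by
  letI := isLocalRing_integralClosure (𝒪 := 𝒪) K L
  have := finite_integralClosure (𝒪 := 𝒪) K L
  have := isLocalHom_integralClosure (𝒪 := 𝒪) K L
  exact IsLocalRing.isAdicComplete_of_module_finite (𝒪 := 𝒪)

theorem finite_residueField_integralClosure [Finite (ResidueField 𝒪)] :
    letI := isLocalRing_integralClosure (𝒪 := 𝒪) K L
    Finite (ResidueField (integralClosure 𝒪 L)) := by
  letI := isLocalRing_integralClosure (𝒪 := 𝒪) K L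
  have := finite_integralClosure (𝒪 := 𝒪) K L
  have := isLocalHom_integralClosure (𝒪 := 𝒪) K L
  have h1 : Module.Finite 𝒪 (ResidueField (integralClosure 𝒪 L)) :=
    Module.Finite.of_surjective
      (IsScalarTower.toAlgHom 𝒪 (integralClosure 𝒪 L)
        (ResidueField (integralClosure 𝒪 L))).toLinearMap residue_surjective
  have h2 : Module.Finite (ResidueField 𝒪) (ResidueField (integralClosure 𝒪 L)) :=
    Module.Finite.of_restrictScalars_finite 𝒪 _ _
  exact Module.finite_of_finite (ResidueField 𝒪)

end DVR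

/-- **Block DVREXT**. -/
theorem dvrExt : DVRExtStmt := by
  intro 𝒪 _ _ _ _ _ _ D _ _ _ _ hinj
  haveI : FaithfulSMul 𝒪 D := (faithfulSMul_iff_algebraMap_injective 𝒪 D).mpr hinj
  haveI : FaithfulSMul 𝒪 (FractionRing D) := by
    rw [faithfulSMul_iff_algebraMap_injective, IsScalarTower.algebraMap_eq 𝒪 D (FractionRing D)]
    exact (IsFractionRing.injective D (FractionRing D)).comp hinj
  letI : Algebra (FractionRing 𝒪) (FractionRing D) := FractionRing.liftAlgebra 𝒪 (FractionRing D)
  haveI : IsScalarTower 𝒪 (FractionRing 𝒪) (FractionRing D) :=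
    FractionRing.isScalarTower_liftAlgebra 𝒪 (FractionRing D)
  haveI : FiniteDimensional (FractionRing 𝒪) (FractionRing D) :=
    .of_isLocalization 𝒪 D (nonZeroDivisors 𝒪)
  have hC : CharZero (FractionRing D) :=
    charZero_of_injective_algebraMap (FaithfulSMul.algebraMap_injective 𝒪 (FractionRing D))
  let f : D →ₐ[𝒪] integralClosure 𝒪 (FractionRing D) :=
    (IsScalarTower.toAlgHom 𝒪 D (FractionRing D)).codRestrict
      (integralClosure 𝒪 (FractionRing D)) (fun x ↦ by
        have := (Algebra.IsIntegral.isIntegral (R := 𝒪) x)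
        exact this.map (IsScalarTower.toAlgHom 𝒪 D (FractionRing D)))
  have hf : Function.Injective f := by
    intro x y hxy
    exact IsFractionRing.injective D (FractionRing D) (congrArg Subtype.val hxy)
  refine ⟨integralClosure 𝒪 (FractionRing D), inferInstance, inferInstance,
    isDVR_integralClosure (FractionRing 𝒪) (FractionRing D),
    isAdicComplete_integralClosure (FractionRing 𝒪) (FractionRing D),
    finite_residueField_integralClosure (FractionRing 𝒪) (FractionRing D), inferInstance,
    f, hf, ?_, ?_⟩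
  · refine isLocalHom_of_isIntegral_injective _ ?_ hf
    intro x
    have := (Algebra.IsIntegral.isIntegral (R := 𝒪) x)
    obtain ⟨P, hP, hP'⟩ := this
    refine ⟨P.map (algebraMap 𝒪 D), hP.map _, ?_⟩
    rw [Polynomial.eval₂_map]
    convert hP'
    exact f.comp_algebraMap
  · have := isLocalHom_integralClosure (𝒪 := 𝒪) (FractionRing 𝒪) (FractionRing D)
    have h2 : (f : D →+* integralClosure 𝒪 (FractionRing D)).comp (algebraMap 𝒪 D) =
      algebraMap 𝒪 (integralClosure 𝒪 (FractionRing D)) := f.comp_algebraMap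
    rw [h2]
    exact this

end Fermat.Agent.LL
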