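import Fermat.Agent.LL.Blocks
import Fermat.Agent.QComp.S34Final
import Fermat.Agent.QComp.S35Final
import Fermat.Agent.QComp.S36Final
import Fermat.Agent.Cheb.DetCyc
import Fermat.Agent.Eigenform.Converse
import Fermat.Agent.S32Lib.Main
import Fermat.Agent.QComp.ModMain

/-!
# Blocks NF0 and NF: the representations attached to newforms
-/

set_option autoImplicit false

open IsLocalRing Polynomial ModularFormClass

namespace Fermat.Agent.LL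

open Fermat.Agent.QComp Fermat.Agent.RepTwo

local notation "Γℚ" => (AlgebraicClosure ℚ ≃ₐ[ℚ] AlgebraicClosure ℚ)

/-- The eigencharacter of a normalised eigenform, with values in a subring. -/
theorem exists_chig {M : ℕ} [NeZero M] {g : CuspForm (CongruenceSubgroup.Gamma0 M) 2}
    (hg : g.IsNormalizedEigenform) (S : Finset ℕ) (hMS : ∀ q : ℕ, q.Prime → q ∣ M → q ∈ S)
    (D : Subring ℂ) (hD : ∀ ℓ : ℕ, ℓ.Prime → ℓ ∉ S → qCoeff g ℓ ∈ D) :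
    ∃ chig : CuspForm.heckeAlgebra M 2 (↑S : Set ℕ) →+* ℂ,
      (∀ (ℓ : ℕ) (hℓ : ℓ.Prime) (hℓM : ¬ ℓ ∣ M) (hℓS : ℓ ∉ (↑S : Set ℕ)),
        chig (CuspForm.heckeAlgebra.T hℓ hℓM hℓS) = qCoeff g ℓ) ∧ chig.range ≤ D := by
  obtain ⟨χ, hχ⟩ := Eigenform.exists_eigenChar hg (↑S : Set ℕ)
  have hg0 := Eigenform.ne_zero_of_isNormalizedEigenform hg
  have huniq : ∀ {x y : ℂ}, x • g = y • g → x = y := fun h => smul_left_injective ℂ hg0 h
  refine ⟨(algebraMap (integralClosure ℤ ℂ) ℂ).comp χ, ?_, ?_⟩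
  · intro ℓ hℓ hℓM hℓS
    apply huniq
    rw [← Eigenform.heckeTLin_eigen hg hℓ hℓM]
    exact (hχ _).symm
  · rintro _ ⟨⟨t, ht⟩, rfl⟩
    have key : ∃ c ∈ D, t g = c • g := by
      induction ht using Algebra.adjoin_induction with
      | mem x hx =>
        rcases hx with ⟨ℓ, hℓ, hℓN, hℓS, rfl⟩ | ⟨q, hqN, hq, hqS, rfl⟩
        · exact ⟨qCoeff g ℓ, hD ℓ hℓ (fun h => hℓS (Finset.mem_coe.mpr h)),
            Eigenform.heckeTLin_eigen hg hℓ hℓN⟩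
        · exact absurd (Finset.mem_coe.mpr (hMS q hq hqN)) hqS
      | algebraMap r => exact ⟨r, intCast_mem D r, by
          simp only [Module.algebraMap_end_apply]; rw [Int.cast_smul_eq_zsmul]⟩
      | add x y hx hy h1 h2 =>
        obtain ⟨a, ha, ha'⟩ := h1
        obtain ⟨b, hb, hb'⟩ := h2
        exact ⟨a + b, D.add_mem ha hb, by rw [LinearMap.add_apply, ha', hb', add_smul]⟩
      | mul x y hx hy h1 h2 =>
        obtain ⟨a, ha, ha'⟩ := h1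
        obtain ⟨b, hb, hb'⟩ := h2
        exact ⟨a * b, D.mul_mem ha hb, by
          rw [Module.End.mul_apply, hb', map_smul, ha', smul_smul, mul_comm]⟩
    obtain ⟨c, hc, hc'⟩ := key
    have e : (χ ⟨t, ht⟩ : ℂ) = c := huniq ((hχ ⟨t, ht⟩).symm.trans hc')
    change (χ ⟨t, ht⟩ : ℂ) ∈ D
    rw [e]
    exact hc

/-- **Block NF0**. -/
theorem nf0 : NF0Stmt := by
  intro M _ g hg p hp S hpS hMS R _ _ _ _ _ _ hpR D ι hD
  have : Fact p.Prime := ⟨hp⟩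
  obtain ⟨chig, hchig, hrange⟩ := exists_chig hg.isNormalizedEigenform S hMS D hD
  obtain ⟨ρ, h1, -⟩ := exists_padic_rep hp hpS hMS
    (fun n => (jZeroGeom M p).nonempty_esModule (↑S : Set ℕ) n) R hpR
    ((ι.comp (Subring.inclusion hrange)).comp chig.rangeRestrict)
  refine ⟨R, inferInstance, inferInstance, inferInstance, inferInstance, inferInstance,
    inferInstance, RingHom.id R, Function.injective_id, inferInstance, ρ, ?_⟩
  intro ℓ hℓ hS P hP σ hσ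
  rw [h1 ℓ hℓ (fun h => hS (hMS ℓ hℓ h)) (fun h => hS (Finset.mem_coe.mp h)) P hP σ hσ]
  congr 4
  rw [RingHom.id_apply, RingHom.comp_apply, RingHom.comp_apply]
  congr 1
  exact Subtype.ext (hchig ℓ hℓ _ _)

/-- Flatness at `p` at a point of the Hecke algebra of level prime to `p`. -/
def FlatPoint : Prop :=
  ∀ (p N : ℕ) [NeZero N] (S : Finset ℕ), p.Prime → p ≠ 2 → ¬ p ∣ N → p ∈ S →
    (∀ q : ℕ, q.Prime → q ∣ N → q ∈ S) →
  ∀ (R : Type) [CommRing R] [IsDomain R] [IsDiscreteValuationRing R]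
    [IsAdicComplete (maximalIdeal R) R] [Finite (ResidueField R)] [CharZero R],
    (p : R) ∈ maximalIdeal R → ∀ (π : CuspForm.heckeAlgebra N 2 (↑S : Set ℕ) →+* R)
    (ρ : GaloisRepAdic R),
    (∀ (ℓ : ℕ) (hℓ : ℓ.Prime) (hℓN : ¬ ℓ ∣ N) (hℓS : ℓ ∉ (↑S : Set ℕ)),
      ∀ A : ValuationSubring (AlgebraicClosure ℚ), A.LiesOverPrime ℓ →
        ∀ σ : Γℚ, A.IsFrobeniusAt σ ℓ →
          LinearMap.charpoly (ρ.ρ σ) =
            X ^ 2 - C (π (CuspForm.heckeAlgebra.T hℓ hℓN hℓS)) * X + C ((ℓ : R))) →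
    ρ.residual.IsAbsolutelyIrreducible → ρ.IsFlatAt p

theorem flatPoint : FlatPoint := by
  intro p N _ S hp _ hpN hpS hNS R _ _ _ _ _ _ hpR π ρ hρ habs
  exact S32Lib.isFlatAt hp hpN hpR hpS hNS π ρ (fun ℓ hℓ hℓN hℓS _ => hρ ℓ hℓ hℓN hℓS) habs

/-- **Block NF** from the geometric inputs. -/
theorem nf_of
    (h34 : ∀ (N q p : ℕ), N ≠ 0 → q.Prime → p.Prime → q ≠ p → q ∣ N → ¬ q ^ 2 ∣ N → A34 N q p)
    (h35 : ∀ (M q p : ℕ) [NeZero M] [NeZero q], q.Prime → p.Prime → ¬ q ∣ M → q ≠ p →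
      A35 M q p)
    (h36 : ∀ p : ℕ, p.Prime → p ≠ 2 → A36Input p) (h32 : FlatPoint) : NFStmt := by
  intro M _ g hg p hp hp2 S hpS hMS R _ _ _ _ _ _ hpR D ι hD ρ hρ habs hodd
  have : Fact p.Prime := ⟨hp⟩
  obtain ⟨chig, hchig, hrange⟩ := exists_chig hg.isNormalizedEigenform S hMS D hD
  set iota : chig.range →+* R := ι.comp (Subring.inclusion hrange) with hiota
  set χ := iota.comp chig.rangeRestrict with hχ
  have hχT : ∀ (ℓ : ℕ) (hℓ : ℓ.Prime) (hℓM : ¬ ℓ ∣ M) (hℓS : ℓ ∉ (↑S : Set ℕ)) (hS : ℓ ∉ S),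
      χ (CuspForm.heckeAlgebra.T hℓ hℓM hℓS) = ι ⟨_, hD ℓ hℓ hS⟩ := by
    intro ℓ hℓ hℓM hℓS hS
    rw [hχ, hiota, RingHom.comp_apply, RingHom.comp_apply]
    congr 1
    exact Subtype.ext (hchig ℓ hℓ hℓM hℓS)
  have hρχ : ∀ (ℓ : ℕ) (hℓ : ℓ.Prime) (hℓM : ¬ ℓ ∣ M) (hℓS : ℓ ∉ (↑S : Set ℕ)),
      ∀ A : ValuationSubring (AlgebraicClosure ℚ), A.LiesOverPrime ℓ →
        ∀ σ : Γℚ, A.IsFrobeniusAt σ ℓ →
          LinearMap.charpoly (ρ.ρ σ) =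
            X ^ 2 - C (χ (CuspForm.heckeAlgebra.T hℓ hℓM hℓS)) * X + C ((ℓ : R)) := by
    intro ℓ hℓ hℓM hℓS A hA σ hσ
    have hS : ℓ ∉ S := fun h => hℓS (Finset.mem_coe.mpr h)
    rw [hρ ℓ hℓ hS A hA σ hσ, hχT ℓ hℓ hℓM hℓS hS]
  have hES : ∀ n, Nonempty (ESModule M p (↑S : Set ℕ) n) :=
    fun n => (jZeroGeom M p).nonempty_esModule (↑S : Set ℕ) n
  have hcmp : ∀ ρ' : GaloisRepAdic R,
      (∀ (ℓ : ℕ) (hℓ : ℓ.Prime) (hℓM : ¬ ℓ ∣ M) (hℓS : ℓ ∉ (↑S : Set ℕ)),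
        ∀ A : ValuationSubring (AlgebraicClosure ℚ), A.LiesOverPrime ℓ →
          ∀ σ : Γℚ, A.IsFrobeniusAt σ ℓ →
            LinearMap.charpoly (ρ'.ρ σ) =
              X ^ 2 - C (χ (CuspForm.heckeAlgebra.T hℓ hℓM hℓS)) * X + C ((ℓ : R))) →
      ∀ σ : Γℚ, LinearMap.charpoly (ρ.ρ σ) = LinearMap.charpoly (ρ'.ρ σ) := by
    intro ρ' h' σ
    refine Cheb.charpoly_eq_of_frobenius ρ ρ' S (fun ℓ hℓ hS P hP φ hφ => ?_) σ
    have hℓM : ¬ ℓ ∣ M := fun h => hS (hMS ℓ hℓ h)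
    have hℓS : ℓ ∉ (↑S : Set ℕ) := fun h => hS (Finset.mem_coe.mp h)
    rw [h' ℓ hℓ hℓM hℓS P hP φ hφ, hρχ ℓ hℓ hℓM hℓS P hP φ hφ]
  refine ⟨?_, ?_, ?_, ?_, ?_⟩
  · -- determinant
    refine Cheb.detIsCyclotomic_of_frobenius ρ hp hpR S fun ℓ hℓ hS P hP φ hφ => ?_
    exact (trace_det_of_charpoly ρ.finrank_eq (hρ ℓ hℓ hS P hP φ hφ)).2
  · -- unramified
    intro q hq hqp hqM
    exact isUnramifiedAt_of_ES frobeniusDensity hp hpR hpS hMS hES χ ρ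
      (fun ℓ hℓ hℓM hℓS _ => hρχ ℓ hℓ hℓM hℓS) habs q hq hqM hqp
  · -- `q ∥ M`
    intro q hq hqp hqM hq2
    refine ⟨?_, ?_⟩
    · obtain ⟨c, hc⟩ := ((jZeroGeom M p).isES (↑S : Set ℕ)).exists_realized
      refine isUnipotentOnInertiaAt_of_sq hp hpR hpS hMS χ ρ
        (fun ℓ hℓ hℓN hℓS _ => hρχ ℓ hℓ hℓN hℓS) q hq hqp fun n => ?_
      obtain ⟨E, ⟨R⟩⟩ := hc n
      refine ⟨E, fun A hA s hs v => R.inj ?_⟩
      rw [map_zero, map_add, map_sub, map_sub, R.act, R.act]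
      exact h34 M q p (NeZero.ne M) hq hp hqp hqM hq2 A hA s hs (R.j v)
        ⟨_, (R.mem_range _).mpr ⟨v, rfl⟩⟩
    · obtain ⟨ρ', h1, h2⟩ := s35_of_A35 hg p S R hpR chig hchig iota hpS hMS
        (fun M' q _ _ hq hqM' hqp => h35 M' q p hq hp hqM' hqp)
      intro P hP σ hσ
      rw [hcmp ρ' h1 σ]
      exact h2 q hq hqp hqM hq2 P hP σ hσ
  · -- `q² ∥ M`
    intro q hq hqp hqM hun
    obtain ⟨ρ', h1, h2⟩ := s36_of_A36 hg p S R hpR hp2 chig hchig iota hpS hMS (h36 p hp hp2)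
    refine h2 q hq hqp hqM fun P hP σ hσ => ?_
    rw [← hcmp ρ' h1 σ]
    exact hun P hP σ hσ
  · -- flatness
    intro hpM
    exact h32 p M S hp hp2 hpM hpS hMS R hpR χ ρ hρχ habs

/-- **Block NF** from (A36). -/
theorem nf_of_a36 (h36 : ∀ p : ℕ, p.Prime → p ≠ 2 → A36Rigid p) : NFStmt := by
  refine nf_of ?_ ?_ (fun p hp hp2 => a36Input_of_rigid (h36 p hp hp2)) flatPoint
  · intro N q p hN hq hp hqp hqN hq2
    obtain ⟨M', rfl⟩ : ∃ M', N = M' * q := ⟨N / q, (Nat.div_mul_cancel hqN).symm⟩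
    have i1 : NeZero M' := ⟨fun h => hN (by rw [h, zero_mul])⟩
    have i2 : NeZero q := ⟨hq.ne_zero⟩
    have i3 : Fact q.Prime := ⟨hq⟩
    exact a34 (fun h => hq2 (by rw [pow_two]; exact Nat.mul_dvd_mul_right h q)) hp hqp.symm
  · intro M q p i1 i2 hq hp hqM hqp
    have i3 : Fact q.Prime := ⟨hq⟩
    exact a35 hqM hp hqp.symm

end Fermat.Agent.LL
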