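import Fermat.Agent.LL.S59Case
import Fermat.Agent.LL.RaisePeu
import Fermat.Agent.PPart.CrysNF

set_option autoImplicit false

/-!
# The peu ramifie case of (59C)
-/

open CongruenceSubgroup IsLocalRing Polynomial ModularFormClass

namespace Fermat.Agent.LL

open Fermat.Agent.TWMod

local notation "Γℚ" => (AlgebraicClosure ℚ ≃ₐ[ℚ] AlgebraicClosure ℚ)
local notation "Qb" => AlgebraicClosure ℚ

/-- flat or strict at every point -/
theorem ChainForms.peuEx {p : ℕ} [hpF : Fact p.Prime] (hp2 : p ≠ 2) {N0 : ℕ}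
    {𝒪 : Type} [CommRing 𝒪] [IsDomain 𝒪] [IsDiscreteValuationRing 𝒪]
    [IsAdicComplete (maximalIdeal 𝒪) 𝒪] [Finite (ResidueField 𝒪)] [CharZero 𝒪]
    {j : 𝒪 →+* ℂ} {ρbar : ResidualGaloisRep (ResidueField 𝒪)} {Pc : ℕ → TW.LCond}
    {S0 Smin : Finset ℕ} {m : ℕ} {ql : Fin m → ℕ} {r : ℕ} {qv : Fin r → ℕ}
    {F : MvPolynomial ℕ 𝒪} {D : ℕ} {C : AutChain p j ρbar Pc Smin ql qv F D}
    (h : ChainForms N0 C) (hO : NFOrdStmt) (hp𝒪 : (p : 𝒪) ∈ maximalIdeal 𝒪)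
    (habs : ρbar.IsAbsolutelyIrreducible) {k0 : Fin m} (hk0 : ql k0 = p)
    (hinj : Function.Injective ql) (hql : ∀ k, (ql k).Prime) (hpN : ¬ p ∣ N0)
    (hS : ∀ i, C.S i = sS S0 qv ql i) : PeuEx C k0 := by
  have hpp : p.Prime := hpF.out
  have hlv : ∀ i : ℕ, i ≤ k0 → ¬ p ∣ lvN N0 ql i := by
    intro i hi h1
    rw [lvN] at h1
    rcases hpp.dvd_mul.1 h1 with h2 | h2
    · exact hpN h2
    · obtain ⟨k, hk, hk'⟩ := (hpp.prime.dvd_finsetProd_iff _).1 h2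
      rw [Nat.prime_dvd_prime_iff_eq hpp (hql k), ← hk0] at hk'
      have h3 := hinj hk'
      rw [Finset.mem_filter] at hk
      rw [← h3] at hk
      omega
  have hflat : ∀ i : ℕ, i ≤ k0 → ∀ x, (C.pt i x).ρ.IsFlatAt p := by
    intro i hi x
    obtain ⟨M, _, g, hg, hMS, hgt, hP, hp2M, hpM, -⟩ := h.form i x
    exact hP.flat fun h1 ↦ hlv i hi (hpM h1)
  have hstr : ∀ (i : ℕ) (x : (C.A i).I) (M : ℕ) (_ : NeZero M) (g : CuspForm (Gamma0 M) 2),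
      g.IsNewform → (∀ q : ℕ, q.Prime → q ∣ M → q ∈ C.S i) →
      (∀ ℓ : ℕ, ℓ.Prime → ℓ ∉ C.S i → qCoeff g ℓ = (C.A i).ev x ℓ) → ¬ p ^ 2 ∣ M → p ∣ M →
      (C.pt i x).ρ.IsStrictOrdinaryAt p := by
    intro i x M _ g hg hMS hgt hp2M hpM
    exact (C.pt i x).isStrictOrdinaryAt hO hpp hp2 hp𝒪 habs hg (Finset.mem_insert_self _ _)
      (fun q hq hqM ↦ Finset.mem_insert_of_mem (hMS q hq hqM))
      (fun ℓ hℓ hℓS ↦ hgt ℓ hℓ fun h1 ↦ hℓS (Finset.mem_insert_of_mem h1)) hpM hp2M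
  refine ⟨hflat, ?_, ?_, ?_⟩
  · intro i _ x
    obtain ⟨M, _, g, hg, hMS, hgt, hP, hp2M, -, -⟩ := h.form i x
    by_cases hpM : p ∣ M
    · exact Or.inr (hstr i x M inferInstance g hg hMS hgt hp2M hpM)
    · exact Or.inl (hP.flat hpM)
  · intro x hx
    obtain ⟨M, _, g, hg, hMS, hgt, hP, hp2M, -, -⟩ := h.form (k0 + 1) x
    exact hstr _ x M inferInstance g hg hMS hgt hp2M (hk0 ▸ h.new k0 x hx M inferInstance g hg hgt)
  · intro x
    obtain ⟨M, _, g, hg, hMS, hgt, hP, hp2M, hpM, -⟩ := h.form k0 x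
    have hpS : p ∉ C.S k0 := by
      rw [hS, mem_sS]
      exact fun h1 ↦ h1.2 k0 le_rfl hk0.symm
    rw [← hgt p hpp hpS]
    exact PPart.crysAt_pt hp2 hg.isNormalizedEigenform (fun h1 ↦ hlv k0 le_rfl (hpM h1))
      (fun q hq hqM ↦ Finset.mem_insert_of_mem (hMS q hq hqM)) hp𝒪 habs (C.pt k0 x)
      (fun ℓ hℓ hℓS ↦ (hgt ℓ hℓ fun h1 ↦ hℓS (Finset.mem_insert_of_mem h1)).symm)

theorem casePeuB (I : Inputs) (hSS : SpecSS) (hNew : SpecNew) (hLow : TWLow.SpecLowerStrong)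
    (hO : NFOrdStmt) : CasePeu := by
  classical
  intro p hpF W H N0 𝒪 _ _ _ _ _ _ _ j S0 Smin m ql F St hp
  obtain ⟨hpN, hpW⟩ := hp
  have hpp : p.Prime := Fact.out
  have hp2 : p ≠ 2 := by rcases H.h35 with rfl | rfl <;> norm_num
  obtain ⟨habs, hodd, hcyc, hspl, hind, -⟩ :=
    Wire.curveRes59 (k := ResidueField 𝒪) H.h35 H.Δ_ne H.ss H.two H.three H.irr St.split
  obtain ⟨ρW, hρW⟩ := ECRep.exists_curvePt p W H.Δ_ne 𝒪 St.mem
  have B := St.base (fun _ _ _ _ _ ↦ True) fun i _ S t P M _ g _ _ _ _ _ _ _ ↦ trivial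
  choose D hD using fun r => exists_autChain B I hSS hNew hLow r
  have hqlW : ∀ k, (ql k : ℤ) ∣ W.Δ := fun k ↦ by
    rw [← Wire.dvd_cond H.Δ_ne (St.ql_prime k), ← St.lev]
    exact (Finset.dvd_prod_of_mem ql (Finset.mem_univ k)).mul_left _
  obtain ⟨k0, hk0⟩ : ∃ k0, ql k0 = p := by
    have h1 : p ∣ N0 * ∏ k, ql k := by
      rw [St.lev]
      exact (Wire.dvd_cond H.Δ_ne hpp).2 hpW
    obtain ⟨k, -, hk⟩ := (hpp.prime.dvd_finsetProd_iff _).1 ((hpp.dvd_mul.1 h1).resolve_left hpN)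
    rw [Nat.prime_dvd_prime_iff_eq hpp (St.ql_prime k)] at hk
    exact ⟨k, hk.symm⟩
  refine raise_peu hp2 St.mem St.inj habs hcyc hspl hind St.Smin_p St.Smin_iff St.ql_inj
    St.ql_prime St.ql_notMem hk0 (P := fun _ _ _ _ _ ↦ True)
    (hρW.frobChar St.S0_p St.S0_bad) hρW.res' ?_ (hρW.strict hpW (H.ss p hpp hpW)) ?_ St.F_W
    (S0 ∪ F.vars) D ?_
  · refine hρW.condType H.ss (P := fun _ _ _ _ ↦ True) trivial ?_
      (Finset.mem_union_left _ St.Smin_p)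
    intro q hq hqW
    by_cases hqp : q = p
    · exact Finset.mem_union_left _ (hqp ▸ St.Smin_p)
    · have h1 : q ∣ N0 * ∏ k, ql k := by
        rw [St.lev]
        exact (Wire.dvd_cond H.Δ_ne hq).2 hqW
      rcases hq.dvd_mul.1 h1 with h | h
      · exact Finset.mem_union_left _ ((St.dvd_iff q hq hqp).1 h)
      · obtain ⟨k, -, hk⟩ := (hq.prime.dvd_finsetProd_iff _).1 h
        rw [Nat.prime_dvd_prime_iff_eq hq (St.ql_prime k)] at hk
        exact Finset.mem_union_right _ (Finset.mem_image.2 ⟨k, Finset.mem_univ k, hk.symm⟩)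
  · intro k hk
    exact ⟨hρW.unip _ (St.ql_prime k) hk (hqlW k) (H.ss _ (St.ql_prime k) (hqlW k)),
      hρW.frobSt _ (St.ql_prime k) hk (hqlW k) (H.ss _ (St.ql_prime k) (hqlW k))⟩
  · intro r qv h1 h2 h3
    have hTW : TWP p (rhoBar59 p W H.Δ_ne 𝒪) S0 qv :=
      { inj := h1
        prime := fun k ↦ (h2 k).1
        notin := fun k h ↦ (h2 k).2.1 (Finset.mem_union_left _ h)
        one := fun k ↦ (h2 k).2.2
        dist := h3 }
    obtain ⟨C, hC, hCF⟩ := hD r qv hTW (fun ℓ hℓ k hk ↦ (h2 k).2.1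
      (Finset.mem_union_right _ (hk ▸ hℓ)))
    refine ⟨C, ?_, ChainForms.peuEx hp2 hCF hO St.mem habs hk0 St.ql_inj St.ql_prime hpN hC⟩
    intro q hq
    have h4 : C.S m = S0 ∪ Finset.univ.image qv := (hC m).trans (sS_top le_rfl)
    have h5 : q ∈ insert p (C.S m) :=
      Finset.mem_insert_of_mem (h4 ▸ Finset.mem_union_left _ hq)
    exact h5

end Fermat.Agent.LL
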