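import Fermat.Agent.LL.Glue
import Fermat.Agent.Flat.Global

set_option autoImplicit false

/-!
# Flatness of a glued representation
-/

open IsLocalRing GaloisRep

namespace Fermat.Agent.LL

open Fermat.Agent.DefRing Fermat.Agent Fermat.Agent.Flat

local notation "Γℚ" => (AlgebraicClosure ℚ ≃ₐ[ℚ] AlgebraicClosure ℚ)
local notation "M₂" => Matrix (Fin 2) (Fin 2)

/-- the Galois action on column vectors -/
noncomputable def mv {B : Type} [CommRing B] (r : Γℚ →* M₂ B) : Γℚ →* AddMonoid.End (Fin 2 → B) where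
  toFun σ := (Matrix.mulVecLin (r σ)).toAddMonoidHom
  map_one' := by
    apply AddMonoidHom.ext
    intro x
    show (r 1).mulVec x = x
    rw [map_one, Matrix.one_mulVec]
  map_mul' σ τ := by
    apply AddMonoidHom.ext
    intro x
    show (r (σ * τ)).mulVec x = (r σ).mulVec ((r τ).mulVec x)
    rw [map_mul, Matrix.mulVec_mulVec]

theorem mv_apply {B : Type} [CommRing B] (r : Γℚ →* M₂ B) (σ : Γℚ) (x : Fin 2 → B) :
    mv r σ x = (r σ).mulVec x := rfl

/-- change of coefficients for a matrix representation -/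
noncomputable def mapRep {A B : Type} [CommRing A] [CommRing B] (f : A →+* B) (r : Γℚ →* M₂ A) : Γℚ →* M₂ B :=
  ((f.mapMatrix : M₂ A →+* M₂ B) : M₂ A →* M₂ B).comp r

theorem mapRep_apply {A B : Type} [CommRing A] [CommRing B] (f : A →+* B) (r : Γℚ →* M₂ A)
    (σ : Γℚ) : mapRep f r σ = (r σ).map f := rfl

/-- the matrices of a representation as a homomorphism -/
def repHom {A : Type} [CommRing A] [IsLocalRing A] {ρ : GaloisRepAdic A} {r : Γℚ → M₂ A}
    (h : Realizes ρ r) : Γℚ →* M₂ A where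
  toFun := r
  map_one' := h.map_one
  map_mul' := h.map_mul

theorem map_mulVec {A B : Type} [CommRing A] [CommRing B] (f : A →+* B) (M : M₂ A)
    (x : Fin 2 → A) : (M.map f).mulVec (fun i => f (x i)) = fun i => f (M.mulVec x i) := by
  funext i
  simp [Matrix.mulVec, dotProduct, Fin.sum_univ_two]

section Level

variable {A : Type} [CommRing A] [IsLocalRing A] {ρ : GaloisRepAdic A} {r : Γℚ → M₂ A}

/-- comparison of the level structure with vectors -/
theorem exists_levelEquiv (h : Realizes ρ r) (I : Ideal A) :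
    ∃ e : (ρ.V ⧸ (I • (⊤ : Submodule A ρ.V))) ≃+ (Fin 2 → A ⧸ I),
      ∀ σ x, e (levelHom ρ I σ x) = mv (mapRep (Ideal.Quotient.mk I) (repHom h)) σ (e x) := by
  obtain ⟨b, hb⟩ := id h
  let e₀ : ρ.V →ₗ[A] (Fin 2 → A ⧸ I) :=
    (LinearMap.pi fun i => (Ideal.Quotient.mkₐ A I).toLinearMap ∘ₗ LinearMap.proj i) ∘ₗ
      (b.equivFun : ρ.V →ₗ[A] (Fin 2 → A))
  have he₀ : ∀ v i, e₀ v i = Ideal.Quotient.mk I (b.repr v i) := fun v i => rfl
  have hker : LinearMap.ker e₀ = I • (⊤ : Submodule A ρ.V) := by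
    apply le_antisymm
    · intro v hv
      rw [LinearMap.mem_ker] at hv
      have h1 : ∀ i, b.repr v i ∈ I := fun i => by
        rw [← Ideal.Quotient.eq_zero_iff_mem, ← he₀, hv]; rfl
      rw [← b.sum_repr v]
      exact Submodule.sum_mem _ fun i _ => Submodule.smul_mem_smul (h1 i) trivial
    · rw [Submodule.smul_le]
      intro a ha v _
      rw [LinearMap.mem_ker]
      funext i
      rw [he₀, map_smul, Finsupp.smul_apply, smul_eq_mul]
      exact Ideal.Quotient.eq_zero_iff_mem.mpr (Ideal.mul_mem_right _ _ ha)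
  have hsurj : Function.Surjective e₀ := by
    intro y
    choose z hz using fun i => Ideal.Quotient.mk_surjective (I := I) (y i)
    refine ⟨b.equivFun.symm z, ?_⟩
    funext i
    rw [he₀, ← hz i]
    congr 1
    have : b.equivFun (b.equivFun.symm z) i = z i := by rw [LinearEquiv.apply_symm_apply]
    exact this
  let e₁ : (ρ.V ⧸ (I • (⊤ : Submodule A ρ.V))) ≃ₗ[A] (Fin 2 → A ⧸ I) :=
    (Submodule.quotEquivOfEq _ _ hker.symm).trans (LinearMap.quotKerEquivOfSurjective e₀ hsurj)
  have he₁ : ∀ v, e₁ (Submodule.mkQ _ v) = e₀ v := fun v => rfl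
  refine ⟨e₁.toAddEquiv, fun σ x => ?_⟩
  obtain ⟨v, rfl⟩ := Submodule.mkQ_surjective _ x
  show e₁ (Submodule.mkQ _ (ρ.ρ σ v)) = ((r σ).map (Ideal.Quotient.mk I)).mulVec (e₁ (Submodule.mkQ _ v))
  rw [he₁, he₁]
  have h2 : (e₀ v : Fin 2 → A ⧸ I) = fun i => Ideal.Quotient.mk I (b.repr v i) := rfl
  rw [h2, map_mulVec]
  funext i
  rw [he₀]
  congr 1
  rw [← hb σ]
  have h3 := LinearMap.toMatrix_mulVec_repr b b (ρ.ρ σ) v
  exact (congrFun h3 i).symm

theorem isFlatAt_iff_mv (h : Realizes ρ r) (p : ℕ) :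
    ρ.IsFlatAt p ↔ Finite (IsLocalRing.ResidueField A) ∧ ∀ I : Ideal A, Finite (A ⧸ I) →
      IsFlat (ratLocalizedAt p) (Ω := AlgebraicClosure ℚ)
        (mv (mapRep (Ideal.Quotient.mk I) (repHom h))) := by
  rw [Flat.isFlatAt_iff]
  refine and_congr_right fun _ => forall_congr' fun I => imp_congr_right fun hI => ?_
  obtain ⟨e, he⟩ := exists_levelEquiv h I
  constructor
  · intro h1
    refine h1.of_injective e.symm.toAddMonoidHom e.symm.injective fun σ x => ?_
    show e.symm _ = levelHom ρ I σ (e.symm x)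
    rw [AddEquiv.symm_apply_eq, he, AddEquiv.apply_symm_apply]
  · intro h1
    exact h1.of_injective e.toAddMonoidHom e.injective he

end Level

theorem exists_maximalIdeal_pow_le {A : Type*} [CommRing A] [IsLocalRing A] (I : Ideal A)
    [Finite (A ⧸ I)] : ∃ j : ℕ, IsLocalRing.maximalIdeal A ^ j ≤ I := by
  by_cases hI : I = ⊤
  · exact ⟨0, by rw [hI]; exact le_top⟩
  have : Nontrivial (A ⧸ I) := Ideal.Quotient.nontrivial_iff.mpr hI
  have : IsLocalRing (A ⧸ I) := IsLocalRing.of_surjective' (Ideal.Quotient.mk I)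
    Ideal.Quotient.mk_surjective
  have : IsArtinianRing (A ⧸ I) := inferInstance
  obtain ⟨j, hj⟩ := IsArtinianRing.isNilpotent_jacobson_bot (R := A ⧸ I)
  refine ⟨j, ?_⟩
  have h1 : (IsLocalRing.maximalIdeal A).map (Ideal.Quotient.mk I) ≤
      Ideal.jacobson (⊥ : Ideal (A ⧸ I)) := by
    rw [IsLocalRing.jacobson_eq_maximalIdeal _ bot_ne_top, Ideal.map_le_iff_le_comap]
    intro x hx
    rw [Ideal.mem_comap]
    rw [IsLocalRing.mem_maximalIdeal] at hx ⊢
    intro hu
    apply hx
    have : IsLocalHom (Ideal.Quotient.mk I) :=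
      IsLocalHom.of_surjective _ Ideal.Quotient.mk_surjective
    exact isUnit_of_map_unit (Ideal.Quotient.mk I) x hu
  have h2 : (IsLocalRing.maximalIdeal A ^ j).map (Ideal.Quotient.mk I) ≤ ⊥ := by
    rw [Ideal.map_pow]
    exact (Ideal.pow_right_mono h1 j).trans hj.le
  rw [Ideal.map_le_iff_le_comap] at h2
  intro x hx
  have h3 := h2 hx
  rw [Ideal.mem_comap, Ideal.mem_bot, Ideal.Quotient.eq_zero_iff_mem] at h3
  exact h3

/-- **flatness of a glued representation** -/
theorem isFlatAt_glue {T : Type} [CommRing T] [IsLocalRing T]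
    [IsAdicComplete (maximalIdeal T) T] (hfin : ∀ n, Finite (T ⧸ maximalIdeal T ^ n))
    {I : Type} [Finite I] {O : I → Type} [∀ i, CommRing (O i)] [∀ i, IsLocalRing (O i)]
    [∀ i, IsHausdorff (maximalIdeal (O i)) (O i)]
    (hfinO : ∀ i n, Finite (O i ⧸ maximalIdeal (O i) ^ n)) (φ : ∀ i, T →+* O i)
    (hφ : ∀ i, IsLocalHom (φ i)) (hinj : ∀ x : T, (∀ i, φ i x = 0) → x = 0)
    {ρT : GaloisRepAdic T} {R : Γℚ → M₂ T} (hR : Realizes ρT R) {ρ : ∀ i, GaloisRepAdic (O i)}
    (hRi : ∀ i, Realizes (ρ i) (fun σ => (R σ).map (φ i))) {p : ℕ}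
    (hflat : ∀ i, (ρ i).IsFlatAt p) : ρT.IsFlatAt p := by
  classical
  rw [isFlatAt_iff_mv hR]
  refine ⟨?_, fun J hJ => ?_⟩
  · have := hfin 1
    rw [pow_one] at this
    exact this
  obtain ⟨n, hn⟩ := exists_maximalIdeal_pow_le J
  obtain ⟨m, hm⟩ := exists_chevalley hfin φ hφ hinj n
  have hflat' : ∀ i, IsFlat (ratLocalizedAt p) (Ω := AlgebraicClosure ℚ)
      (mv (mapRep (Ideal.Quotient.mk (maximalIdeal (O i) ^ m)) (repHom (hRi i)))) := fun i =>
    ((isFlatAt_iff_mv (hRi i) p).mp (hflat i)).2 _ (hfinO i m)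
  let Jm : I → Ideal T := fun i => (maximalIdeal (O i) ^ m).comap (φ i)
  have key : ∀ s : Finset I, IsFlat (ratLocalizedAt p) (Ω := AlgebraicClosure ℚ)
      (mv (mapRep (Ideal.Quotient.mk (s.inf Jm)) (repHom hR))) := by
    intro s
    induction s using Finset.induction_on with
    | empty =>
      have : Subsingleton (T ⧸ (∅ : Finset I).inf Jm) := by
        rw [Finset.inf_empty, Ideal.Quotient.subsingleton_iff]
      exact isFlat_of_subsingleton
    | insert i s his ih =>
      have hle1 : (insert i s).inf Jm ≤ s.inf Jm := Finset.inf_mono (Finset.subset_insert i s)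
      have hle2 : (insert i s).inf Jm ≤ Jm i := Finset.inf_le (Finset.mem_insert_self i s)
      let f1 : (T ⧸ (insert i s).inf Jm) →+* (T ⧸ s.inf Jm) := Ideal.Quotient.factor hle1
      let f2 : (T ⧸ (insert i s).inf Jm) →+* (O i ⧸ maximalIdeal (O i) ^ m) :=
        (Ideal.quotientMap (maximalIdeal (O i) ^ m) (φ i) le_rfl).comp (Ideal.Quotient.factor hle2)
      let p1 : (Fin 2 → T ⧸ (insert i s).inf Jm) →+ (Fin 2 → T ⧸ s.inf Jm) :=
        { toFun := fun x k => f1 (x k)
          map_zero' := by funext k; simp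
          map_add' := fun x y => by funext k; simp }
      let p2 : (Fin 2 → T ⧸ (insert i s).inf Jm) →+ (Fin 2 → O i ⧸ maximalIdeal (O i) ^ m) :=
        { toFun := fun x k => f2 (x k)
          map_zero' := by funext k; simp
          map_add' := fun x y => by funext k; simp }
      refine IsFlat.of_pair ih (hflat' i) p1 p2 ?_ ?_ ?_
      · intro σ x
        show (fun k => f1 (((R σ).map (Ideal.Quotient.mk _)).mulVec x k)) =
          ((R σ).map (Ideal.Quotient.mk _)).mulVec (fun k => f1 (x k))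
        rw [← map_mulVec]
        rfl
      · intro σ x
        show (fun k => f2 (((R σ).map (Ideal.Quotient.mk _)).mulVec x k)) =
          (((R σ).map (φ i)).map (Ideal.Quotient.mk _)).mulVec (fun k => f2 (x k))
        rw [← map_mulVec]
        rfl
      · intro x y h1 h2
        funext k
        have h3 : f1 (x k) = f1 (y k) := congrFun h1 k
        have h4 : f2 (x k) = f2 (y k) := congrFun h2 k
        obtain ⟨a, ha⟩ := Ideal.Quotient.mk_surjective (x k)
        obtain ⟨b, hb⟩ := Ideal.Quotient.mk_surjective (y k)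
        rw [← ha, ← hb] at h3 h4 ⊢
        have h5 : a - b ∈ s.inf Jm := Ideal.Quotient.eq.mp h3
        have h6 : φ i a - φ i b ∈ maximalIdeal (O i) ^ m := Ideal.Quotient.eq.mp h4
        rw [Ideal.Quotient.eq, Finset.inf_insert]
        refine ⟨?_, h5⟩
        show φ i (a - b) ∈ maximalIdeal (O i) ^ m
        rw [map_sub]
        exact h6
  have := Fintype.ofFinite I
  have hle : Finset.univ.inf Jm ≤ J := by
    refine le_trans ?_ hn
    intro x hx
    apply hm
    intro i
    exact (Finset.inf_le (Finset.mem_univ i) : Finset.univ.inf Jm ≤ Jm i) hx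
  have hge : maximalIdeal T ^ m ≤ Finset.univ.inf Jm := by
    refine Finset.le_inf fun i _ => ?_
    intro x hx
    exact map_mem_maximalIdeal_pow (φ i) (hφ i) hx
  have hfinJ : Finite (T ⧸ Finset.univ.inf Jm) := by
    have := hfin m
    exact Finite.of_surjective _ (Ideal.Quotient.factor_surjective hge)
  let q : (Fin 2 → T ⧸ Finset.univ.inf Jm) →+ (Fin 2 → T ⧸ J) :=
    { toFun := fun x k => Ideal.Quotient.factor hle (x k)
      map_zero' := by funext k; simp
      map_add' := fun x y => by funext k; simp }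
  refine IsFlat.of_surjective (key Finset.univ) q ?_ ?_
  · intro y
    choose z hz using fun k => Ideal.Quotient.factor_surjective hle (y k)
    exact ⟨z, funext hz⟩
  · intro σ x
    show (fun k => Ideal.Quotient.factor hle (((R σ).map (Ideal.Quotient.mk _)).mulVec x k)) =
      ((R σ).map (Ideal.Quotient.mk _)).mulVec (fun k => Ideal.Quotient.factor hle (x k))
    rw [← map_mulVec]
    rfl

end Fermat.Agent.LL
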