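import Mathlib

set_option autoImplicit false

/-!
# Irreducibility on normal subgroups, in the presence of a transvection
-/

open Matrix

namespace Fermat.Agent.LL

section

variable {F : Type*} [Field F]

/-- two vectors killed by a nonzero matrix are proportional -/
theorem det_eq_zero_of_mulVec {N : Matrix (Fin 2) (Fin 2) F} (hN : N ≠ 0) {u v : Fin 2 → F}
    (hu : N *ᵥ u = 0) (hv : N *ᵥ v = 0) : u 0 * v 1 = u 1 * v 0 := by
  have h1 : ∀ i, N i 0 * u 0 + N i 1 * u 1 = 0 := fun i => by
    have := congrFun hu i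
    simpa [Matrix.mulVec, dotProduct, Fin.sum_univ_two] using this
  have h2 : ∀ i, N i 0 * v 0 + N i 1 * v 1 = 0 := fun i => by
    have := congrFun hv i
    simpa [Matrix.mulVec, dotProduct, Fin.sum_univ_two] using this
  by_contra hne
  have hne' : u 0 * v 1 - u 1 * v 0 ≠ 0 := sub_ne_zero.mpr hne
  apply hN
  ext i j
  fin_cases j
  · have : N i 0 * (u 0 * v 1 - u 1 * v 0) = 0 := by linear_combination v 1 * h1 i - u 1 * h2 i
    simpa using (mul_eq_zero.mp this).resolve_right hne'
  · have : N i 1 * (u 0 * v 1 - u 1 * v 0) = 0 := by linear_combination u 0 * h2 i - v 0 * h1 i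
    simpa using (mul_eq_zero.mp this).resolve_right hne'

theorem exists_smul_of_det {u v : Fin 2 → F} (hv : v ≠ 0) (h : u 0 * v 1 = u 1 * v 0) :
    ∃ c : F, u = c • v := by
  by_cases h0 : v 0 = 0
  · have h1 : v 1 ≠ 0 := by
      intro h1
      apply hv
      ext i
      fin_cases i
      · exact h0
      · exact h1
    refine ⟨u 1 / v 1, ?_⟩
    ext i
    fin_cases i
    · simp only [Fin.zero_eta, Pi.smul_apply, smul_eq_mul, h0, mul_zero]
      rw [h0, mul_zero] at h
      exact (mul_eq_zero.mp h).resolve_right h1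
    · simp only [Fin.mk_one, Pi.smul_apply, smul_eq_mul]
      field_simp
  · refine ⟨u 0 / v 0, ?_⟩
    ext i
    fin_cases i
    · simp only [Fin.zero_eta, Pi.smul_apply, smul_eq_mul]
      field_simp
    · simp only [Fin.mk_one, Pi.smul_apply, smul_eq_mul]
      field_simp
      linear_combination -h

end

variable {F K : Type*} [Field F] [Field K] [Algebra F K] {Γ : Type*} [Group Γ]

theorem mulVec_map_eq_zero {N : Matrix (Fin 2) (Fin 2) F} {v : Fin 2 → F}
    (h : N.map (algebraMap F K) *ᵥ (fun i => algebraMap F K (v i)) = 0) : N *ᵥ v = 0 := by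
  ext i
  have h1 := congrFun h i
  apply (algebraMap F K).injective
  have h2 : algebraMap F K ((N *ᵥ v) i) =
      (N.map (algebraMap F K) *ᵥ (fun i => algebraMap F K (v i))) i := by
    exact RingHom.map_mulVec (algebraMap F K) N v i
  rw [h2, h1]
  simp

/-- **No eigenvector for a normal subgroup.** -/
theorem false_of_eigenvector (h2 : (2 : F) ≠ 0) (R : Γ →* Matrix (Fin 2) (Fin 2) F)
    (hirr : ∀ v : Fin 2 → F, v ≠ 0 → ∃ γ, ∀ c : F, R γ *ᵥ v ≠ c • v)
    {σ : Γ} (hN : (R σ - 1) * (R σ - 1) = 0) (hσ : R σ ≠ 1)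
    (G : Subgroup Γ) (hG : ∀ γ, γ * σ ^ 2 * γ⁻¹ ∈ G)
    {w : Fin 2 → K} (hw : w ≠ 0)
    (hGw : ∀ g ∈ G, ∃ c : K, ((R g).map (algebraMap F K)) *ᵥ w = c • w) : False := by
  set N := R σ - 1 with hNdef
  have hN0 : N ≠ 0 := sub_ne_zero.mpr hσ
  set M := N.map (algebraMap F K) with hMdef
  have hMM : M * M = 0 := by
    rw [hMdef, ← RingHom.mapMatrix_apply, ← map_mul, hN, map_zero]
  have hM0 : M ≠ 0 := by
    intro h
    apply hN0
    ext i j
    have := congrFun (congrFun h i) j
    rw [hMdef, Matrix.map_apply] at this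
    simpa using this
  have h2K : (2 : K) ≠ 0 := by
    have h0 := (map_ne_zero (algebraMap F K)).mpr h2
    rwa [map_ofNat] at h0
  have hσ2 : R (σ ^ 2) = 1 + (2 : F) • N := by
    have h1 : R σ = 1 + N := by rw [hNdef]; abel
    rw [map_pow, h1, pow_two, mul_add, mul_one, add_mul, one_mul, hN, add_zero, two_smul]
    abel
  let RK : Γ →* Matrix (Fin 2) (Fin 2) K :=
    (((algebraMap F K).mapMatrix (m := Fin 2)).toMonoidHom).comp R
  have hRK : ∀ γ, RK γ = (R γ).map (algebraMap F K) := fun γ => rfl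
  -- `M` kills all conjugates
  have hkill : ∀ γ, M *ᵥ (RK γ *ᵥ w) = 0 := by
    intro γ
    obtain ⟨c, hc⟩ := hGw _ (hG γ⁻¹)
    rw [← hRK, inv_inv, map_mul, map_mul] at hc
    have h3 : RK (σ ^ 2) = 1 + (2 : K) • M := by
      rw [hRK, hσ2, ← RingHom.mapMatrix_apply, map_add, map_one, RingHom.mapMatrix_apply]
      congr 1
      rw [hMdef]
      ext i j
      simp only [Matrix.map_apply, Matrix.smul_apply, smul_eq_mul, map_mul, map_ofNat]
    rw [h3, mul_add, mul_one, add_mul, ← map_mul, inv_mul_cancel, map_one, mul_smul_comm,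
      smul_mul_assoc, Matrix.add_mulVec, Matrix.one_mulVec, Matrix.smul_mulVec] at hc
    set C := RK γ⁻¹ * M * RK γ with hC
    have hCC : C * C = 0 := by
      have : C * C = RK γ⁻¹ * M * (RK γ * RK γ⁻¹) * M * RK γ := by
        rw [hC]; simp only [mul_assoc]
      rw [this, ← map_mul, mul_inv_cancel, map_one, mul_one, mul_assoc (RK γ⁻¹), hMM, mul_zero,
        zero_mul]
    have h4 : (2 : K) • (C *ᵥ w) = (c - 1) • w := by
      rw [sub_smul, one_smul, ← hc]
      abel
    have h5 : (c - 1) • ((c - 1) • w) = 0 := by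
      rw [← h4, smul_comm, ← Matrix.mulVec_smul, ← h4, Matrix.mulVec_smul, Matrix.mulVec_mulVec,
        hCC, Matrix.zero_mulVec, smul_zero, smul_zero]
    have h6 : c - 1 = 0 := by
      by_contra h6
      exact hw ((smul_eq_zero.mp ((smul_eq_zero.mp h5).resolve_left h6)).resolve_left h6)
    rw [h6, zero_smul] at h4
    have h7 : C *ᵥ w = 0 := (smul_eq_zero.mp h4).resolve_left h2K
    have h8 : RK γ *ᵥ (C *ᵥ w) = M *ᵥ (RK γ *ᵥ w) := by
      rw [Matrix.mulVec_mulVec, Matrix.mulVec_mulVec, hC, ← mul_assoc, ← mul_assoc, ← map_mul,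
        mul_inv_cancel, map_one, one_mul]
    rw [← h8, h7, Matrix.mulVec_zero]
  -- a rational vector in the kernel
  obtain ⟨j, hj⟩ : ∃ j, N.col j ≠ 0 := by
    by_contra hcon
    push Not at hcon
    apply hN0
    ext i j
    exact congrFun (hcon j) i
  set v : Fin 2 → F := N.col j with hv
  have hNv : N *ᵥ v = 0 := by
    have : N *ᵥ v = (N * N).col j := by
      ext i
      simp [hv, Matrix.mulVec, dotProduct, Matrix.mul_apply, Matrix.col_apply]
    rw [this, hN]
    rfl
  let vK : Fin 2 → K := fun i => algebraMap F K (v i)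
  have hvK : vK ≠ 0 := by
    intro h
    apply hj
    ext i
    exact (map_eq_zero (algebraMap F K)).mp (congrFun h i)
  have hMv : M *ᵥ vK = 0 := by
    ext i
    have := RingHom.map_mulVec (algebraMap F K) N v i
    change (M *ᵥ vK) i = 0
    rw [hNv] at this
    rw [hMdef]
    refine this.symm.trans ?_
    simp
  obtain ⟨c, hc⟩ := exists_smul_of_det hvK (det_eq_zero_of_mulVec hM0 (by simpa using hkill 1) hMv)
  have hc0 : c ≠ 0 := by
    rintro rfl
    apply hw
    rw [hc, zero_smul]
  obtain ⟨γ, hγ⟩ := hirr v hj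
  have h9 : N *ᵥ (R γ *ᵥ v) = 0 := by
    apply mulVec_map_eq_zero (K := K)
    have h10 := hkill γ
    rw [hc, Matrix.mulVec_smul, Matrix.mulVec_smul] at h10
    have h11 := (smul_eq_zero.mp h10).resolve_left hc0
    convert h11 using 2
    ext i
    exact RingHom.map_mulVec (algebraMap F K) (R γ) v i
  obtain ⟨d, hd⟩ := exists_smul_of_det hj (det_eq_zero_of_mulVec hN0 h9 hNv)
  exact hγ d hd

end Fermat.Agent.LL
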