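import Fermat.Agent.LL.S59Occ
import Fermat.Agent.Wire.Final59C

set_option autoImplicit false

/-!
# Interfaces for the modularity lifting theorem (59C)
-/

open CongruenceSubgroup IsLocalRing Polynomial ModularFormClass

namespace Fermat.Agent.LL

/-- the hypotheses on the curve -/
structure Hyp59 (p : ℕ) (W : WeierstrassCurve ℤ) : Prop where
  h35 : p = 3 ∨ p = 5
  Δ_ne : W.Δ ≠ 0
  ss : W.IsSemistableModel
  irr : W.ModRepIsIrreducible p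
  two : (2 : ℤ) ∣ W.Δ
  three : p = 3 → ¬ 3 ∣ padicValInt 2 W.Δ

/-- `M` is a squarefree number all of whose prime factors are bad for `W` -/
def LevOK (W : WeierstrassCurve ℤ) (M : ℕ) : Prop :=
  Squarefree M ∧ ∀ q : ℕ, q.Prime → q ∣ M → (q : ℤ) ∣ W.Δ

/-- the integral system of `W` -/
noncomputable def cW (W : WeierstrassCurve ℤ) (ℓ : ℕ) : ℤ := W.apOfModel ℓ

/-- **Step L** (level lowering at `q ≠ p`: Mazur's principle and patching). -/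
def StepLStmt : Prop :=
  ∀ (p : ℕ) (W : WeierstrassCurve ℤ), Hyp59 p W → ∀ M₀ : ℕ, Squarefree M₀ → OccZ p (cW W) M₀ →
    (p ∣ M₀ → (p : ℤ) ∣ W.Δ) →
  ∃ N0 : ℕ, OccZ p (cW W) N0 ∧ LevOK W N0 ∧
    (∀ q : ℕ, q.Prime → q ∣ N0 → q ≠ p → ¬ p ∣ padicValInt q W.Δ) ∧
    (p = 3 → 2 ∣ N0) ∧
    (p ∣ N0 → ∀ M : ℕ, LevOK W M → OccZ p (cW W) M → p ∣ M)

/-- **Start**: the congruence with a modular curve. -/
def StartStmt : Prop :=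
  ∀ (p : ℕ) (W W₀ : WeierstrassCurve ℤ), Hyp59 p W → W₀.Δ ≠ 0 →
    ((p : ℤ) ∣ W₀.Δ → (p : ℤ) ∣ W.Δ) →
    (∀ ℓ : ℕ, ℓ.Prime → W.IsGoodPrimeFor ℓ → W₀.IsGoodPrimeFor ℓ → ℓ ≠ p →
      (p : ℤ) ∣ (W₀.apOfModel ℓ - W.apOfModel ℓ)) →
    Mlc1IsModularModelOfExactConductorLevel W₀ →
  ∃ M₀ : ℕ, Squarefree M₀ ∧ OccZ p (cW W) M₀ ∧ (p ∣ M₀ → (p : ℤ) ∣ W.Δ)

end Fermat.Agent.LL
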