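import Fermat.Agent.LL.TWPrime

set_option autoImplicit false

/-!
# Relations at the primes of `T`
-/

open IsLocalRing GaloisRep Polynomial

namespace Fermat.Agent.LL

open Fermat.Agent.DefRing Fermat.Agent

local notation "Γℚ" => (AlgebraicClosure ℚ ≃ₐ[ℚ] AlgebraicClosure ℚ)
local notation "M₂" => Matrix (Fin 2) (Fin 2)
local notation "Qb" => AlgebraicClosure ℚ

theorem sq_eq {R : Type*} [CommRing R] (Y : M₂ R) :
    Y * Y = Y.trace • Y - Y.det • (1 : M₂ R) := by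
  ext i k
  fin_cases i <;> fin_cases k <;>
    simp [Matrix.mul_apply, Fin.sum_univ_two, Matrix.trace_fin_two, Matrix.det_fin_two] <;> ring

/-- traces of powers in terms of an eigenvalue -/
theorem trace_pow_eq {R K : Type*} [CommRing R] [Field K] (ι : R →+* K) {Y : M₂ R}
    (hdet : Y.det = 1) {ζ : K} (hζ0 : ζ ≠ 0) (hζ : ι Y.trace = ζ + ζ⁻¹) (n : ℕ) :
    ι (Y ^ n).trace = ζ ^ n + (ζ ^ n)⁻¹ := by
  induction n using Nat.twoStepInduction with
  | zero =>
    rw [pow_zero, pow_zero, inv_one, Matrix.trace_one, Fintype.card_fin, Nat.cast_ofNat,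
      map_ofNat]
    norm_num
  | one => simpa using hζ
  | more n ih1 ih2 =>
    have h1 : Y ^ (n + 2) = Y.trace • Y ^ (n + 1) - Y ^ n := by
      rw [pow_add, sq, sq_eq, hdet, one_smul, mul_sub, mul_one, mul_smul_comm, ← pow_succ]
    rw [h1, Matrix.trace_sub, Matrix.trace_smul, smul_eq_mul, map_sub, map_mul, ih1, ih2, hζ]
    field_simp
    ring

theorem det_sub_one {R : Type*} [CommRing R] (Y : M₂ R) (hdet : Y.det = 1) :
    (Y - 1).det = 2 - Y.trace := by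
  rw [Matrix.det_fin_two] at hdet ⊢
  rw [Matrix.trace_fin_two]
  simp only [Matrix.sub_apply, Matrix.one_apply_eq,
    Matrix.one_apply_ne (show (0 : Fin 2) ≠ 1 by decide),
    Matrix.one_apply_ne (show (1 : Fin 2) ≠ 0 by decide)]
  linear_combination hdet

/-- **the relation at a prime of `T`** -/
theorem t_rel {R : Type} [CommRing R] [IsDomain R] [IsLocalRing R] {p : ℕ} (hp : p.Prime)
    (hp2 : p ≠ 2) (hpR : (p : R) ∈ maximalIdeal R) {K : Type*} [Field K] [IsAlgClosed K]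
    (ι : R →+* K) (hι : Function.Injective ι) {Φ Y : M₂ R} (hΦ : IsUnit Φ.det)
    (hY : MI (maximalIdeal R) (Y - 1)) (hdet : Y.det = 1) {l v : ℕ} (hl : l ≠ 0)
    (hrel : Φ * Y = Y ^ l * Φ) (hpl : p ∣ l - 1) (hv : p ^ v ∣ l - 1)
    (hv' : ¬ p ^ (v + 1) ∣ l - 1) (htr : Y.trace ≠ 2) :
    Φ * Y = Y * Φ ∧ ∃ ζ : K, ζ ≠ 0 ∧ ζ ^ p ^ v = 1 ∧ ζ ≠ 1 ∧ ι Y.trace = ζ + ζ⁻¹ := by
  -- the eigenvalue
  obtain ⟨ζ, hζ⟩ : ∃ ζ : K, ζ ^ 2 - ι Y.trace * ζ + 1 = 0 := by
    obtain ⟨ζ, hζ⟩ := IsAlgClosed.exists_root (X ^ 2 - C (ι Y.trace) * X + C 1 : K[X]) (by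
      have : (X ^ 2 - C (ι Y.trace) * X + C 1 : K[X]) = X ^ 2 + (- (C (ι Y.trace) * X) + C 1) := by
        ring
      rw [this, degree_add_eq_left_of_degree_lt]
      · rw [degree_X_pow]; norm_num
      · rw [degree_X_pow]
        refine lt_of_le_of_lt (degree_add_le _ _) (max_lt ?_ ?_)
        · rw [degree_neg]
          exact lt_of_le_of_lt (degree_C_mul_X_le _) (by norm_num)
        · exact lt_of_le_of_lt degree_C_le (by norm_num))
    refine ⟨ζ, ?_⟩
    simpa [IsRoot.def] using hζ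
  have hζ0 : ζ ≠ 0 := by
    rintro rfl
    simp at hζ
  have ht : ι Y.trace = ζ + ζ⁻¹ := by
    field_simp
    linear_combination -hζ
  have htp := trace_pow_eq ι hdet hζ0 ht
  have hΦi : Φ * Φ⁻¹ = 1 := Matrix.mul_nonsing_inv _ hΦ
  have htl : (Y ^ l).trace = Y.trace := by
    have h1 : Y ^ l = Φ * Y * Φ⁻¹ := by rw [hrel, Matrix.mul_assoc, hΦi, Matrix.mul_one]
    rw [h1, Matrix.trace_mul_comm, ← Matrix.mul_assoc, Matrix.nonsing_inv_mul _ hΦ, Matrix.one_mul]
  have h1 : (ζ ^ l - ζ) * (ζ ^ l - ζ⁻¹) = 0 := by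
    have h2 := htp l
    rw [htl, ht] at h2
    have h3 : ζ ^ l ≠ 0 := pow_ne_zero _ hζ0
    have h4 : (ζ ^ l) * (ζ + ζ⁻¹) = (ζ ^ l) * (ζ ^ l + (ζ ^ l)⁻¹) := by rw [h2]
    rw [mul_add, mul_add, mul_inv_cancel₀ h3] at h4
    have h5 : ζ * ζ⁻¹ = 1 := mul_inv_cancel₀ hζ0
    linear_combination h5 - h4
  obtain ⟨c, hc⟩ := hv
  have hpc : ¬ p ∣ c := by
    rintro ⟨c', rfl⟩
    apply hv'
    rw [hc, pow_succ]
    exact ⟨c', by ring⟩
  have hpl1 : ¬ p ∣ l + 1 := by
    intro h2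
    have h3 : p ∣ (l + 1) - (l - 1) := Nat.dvd_sub h2 hpl
    have h4 : (l + 1) - (l - 1) = 2 := by omega
    rw [h4] at h3
    exact hp2 ((Nat.prime_dvd_prime_iff_eq hp Nat.prime_two).mp h3)
  have hpm : ¬ p ∣ c * (l + 1) := fun h2 => (hp.dvd_mul.mp h2).elim hpc hpl1
  have hN : ζ ^ (p ^ v * (c * (l + 1))) = 1 := by
    rw [← mul_assoc, ← hc]
    rcases mul_eq_zero.mp h1 with h2 | h2
    · have h3 : ζ ^ (l - 1) = 1 := by
        have h4 : ζ ^ (l - 1) * ζ = 1 * ζ := by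
          rw [← pow_succ, Nat.sub_add_cancel (Nat.one_le_iff_ne_zero.mpr hl), one_mul]
          exact sub_eq_zero.mp h2
        exact mul_right_cancel₀ hζ0 h4
      rw [pow_mul, h3, one_pow]
    · have h3 : ζ ^ (l + 1) = 1 := by
        rw [pow_succ, sub_eq_zero.mp h2, inv_mul_cancel₀ hζ0]
      rw [mul_comm, pow_mul, h3, one_pow]
  -- `p`-power order
  have hζv : ζ ^ p ^ v = 1 := by
    set Z := Y ^ p ^ v with hZ
    set m := c * (l + 1) with hm
    have hZ1 : MI (maximalIdeal R) (Z - 1) := hY.pow_sub_one _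
    have hZdet : Z.det = 1 := by rw [hZ, Matrix.det_pow, hdet, one_pow]
    have h2 : (Z ^ m - 1).det = 0 := by
      rw [det_sub_one _ (by rw [Matrix.det_pow, hZdet, one_pow])]
      apply hι
      rw [map_sub, map_ofNat, map_zero, hZ, ← pow_mul, htp, hN]
      norm_num
    have h3 : (Z ^ m - 1) = (∑ i ∈ Finset.range m, Z ^ i) * (Z - 1) := (geom_sum_mul Z m).symm
    have h4 : IsUnit (∑ i ∈ Finset.range m, Z ^ i).det := by
      have h5 : MI (maximalIdeal R) ((∑ i ∈ Finset.range m, Z ^ i) - (m : R) • (1 : M₂ R)) := by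
        have h6 : (∑ i ∈ Finset.range m, Z ^ i) - (m : R) • (1 : M₂ R) =
            ∑ i ∈ Finset.range m, (Z ^ i - 1) := by
          rw [Finset.sum_sub_distrib, Finset.sum_const, Finset.card_range, Nat.cast_smul_eq_nsmul]
        rw [h6]
        exact MI.sum _ _ fun i _ => hZ1.pow_sub_one i
      have h6 : (∑ i ∈ Finset.range m, Z ^ i).det - (m : R) * m ∈ maximalIdeal R := by
        have e00 := h5 0 0
        have e01 := h5 0 1
        have e11 := h5 1 1
        simp only [Matrix.sub_apply, Matrix.smul_apply, Matrix.one_apply_eq, smul_eq_mul, mul_one,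
          Matrix.one_apply_ne (show (0 : Fin 2) ≠ 1 by decide), mul_zero, sub_zero] at e00 e01 e11
        rw [Matrix.det_fin_two]
        generalize (∑ i ∈ Finset.range m, Z ^ i) = W at e00 e01 e11 ⊢
        have h7 : W 0 0 * W 1 1 - W 0 1 * W 1 0 - (m : R) * m =
            (W 0 0 - m) * W 1 1 + (W 1 1 - m) * m - W 0 1 * W 1 0 := by ring
        rw [h7]
        exact Ideal.sub_mem _ (Ideal.add_mem _ (Ideal.mul_mem_right _ _ e00)
          (Ideal.mul_mem_right _ _ e11)) (Ideal.mul_mem_right _ _ e01)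
      have h7 : IsUnit ((m : R) * m) := (isUnit_natCast_of_not_dvd hp hpR hpm).mul
        (isUnit_natCast_of_not_dvd hp hpR hpm)
      by_contra hcon
      have h8 : (∑ i ∈ Finset.range m, Z ^ i).det ∈ maximalIdeal R := hcon
      have h9 := Ideal.sub_mem _ h8 h6
      rw [sub_sub_cancel] at h9
      exact h9 h7
    have h5 : (Z - 1).det = 0 := by
      rw [h3, Matrix.det_mul] at h2
      exact (h4.mul_right_eq_zero).mp h2
    rw [det_sub_one _ hZdet, sub_eq_zero] at h5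
    have h6 := htp (p ^ v)
    rw [← hZ, ← h5, map_ofNat] at h6
    have h7 : ζ ^ p ^ v ≠ 0 := pow_ne_zero _ hζ0
    have h8 : (ζ ^ p ^ v - 1) ^ 2 = 0 := by
      have h9 : (ζ ^ p ^ v) * 2 = (ζ ^ p ^ v) * (ζ ^ p ^ v + (ζ ^ p ^ v)⁻¹) := by rw [← h6]
      rw [mul_add, mul_inv_cancel₀ h7] at h9
      linear_combination -h9
    exact sub_eq_zero.mp (pow_eq_zero_iff (two_ne_zero)|>.mp h8)
  have hζ1 : ζ ≠ 1 := by
    rintro rfl
    apply htr
    apply hι
    rw [ht, map_ofNat]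
    norm_num
  have hζl1 : ζ ^ (l - 1) = 1 := by rw [hc, pow_mul, hζv, one_pow]
  have hζl : ζ ^ l = ζ := by
    rw [← Nat.sub_add_cancel (Nat.one_le_iff_ne_zero.mpr hl), pow_succ, hζl1, one_mul]
  have hζζ : ζ - ζ⁻¹ ≠ 0 := by
    intro h2
    have h3 : ζ ^ 2 = 1 := by
      rw [sq]; nth_rewrite 2 [sub_eq_zero.mp h2]; exact mul_inv_cancel₀ hζ0
    apply hζ1
    have hcop : Nat.Coprime 2 (p ^ v) := Nat.Coprime.pow_right _
      ((Nat.coprime_primes Nat.prime_two hp).mpr (Ne.symm hp2))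
    have h4 := pow_gcd_eq_one.mpr ⟨h3, hζv⟩
    have h5 : Nat.gcd 2 (p ^ v) = 1 := hcop
    rw [h5, pow_one] at h4
    exact h4
  -- `Y ^ l = Y`
  have hYl : Y ^ l = Y := by
    have hinj : Function.Injective (fun M : M₂ R => M.map ι) := Matrix.map_injective hι
    apply hinj
    show (Y ^ l).map ι = Y.map ι
    have hpw : (Y ^ l).map ι = (Y.map ι) ^ l := map_pow ι.mapMatrix Y l
    rw [hpw]
    set y : M₂ K := Y.map ι with hy
    have hytr : y.trace = ζ + ζ⁻¹ := by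
      rw [← ht, hy, Matrix.trace_fin_two, Matrix.trace_fin_two, map_add]; rfl
    have hydet : y.det = 1 := by
      have : y.det = ι Y.det := by rw [RingHom.map_det]; rfl
      rw [this, hdet, map_one]
    have hyy := sq_eq y
    rw [hytr, hydet, one_smul] at hyy
    have hw : y * (y - ζ⁻¹ • (1 : M₂ K)) = ζ • (y - ζ⁻¹ • (1 : M₂ K)) := by
      rw [mul_sub, hyy, mul_smul_comm, mul_one, smul_sub, smul_smul, mul_inv_cancel₀ hζ0, one_smul,
        add_smul]
      abel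
    have hz : y * (y - ζ • (1 : M₂ K)) = ζ⁻¹ • (y - ζ • (1 : M₂ K)) := by
      rw [mul_sub, hyy, mul_smul_comm, mul_one, smul_sub, smul_smul, inv_mul_cancel₀ hζ0, one_smul,
        add_smul]
      abel
    have hwn : ∀ n : ℕ, y ^ n * (y - ζ⁻¹ • (1 : M₂ K)) = ζ ^ n • (y - ζ⁻¹ • (1 : M₂ K)) := by
      intro n
      induction n with
      | zero => simp
      | succ n ih => rw [pow_succ', mul_assoc, ih, mul_smul_comm, hw, smul_smul, pow_succ]
    have hzn : ∀ n : ℕ, y ^ n * (y - ζ • (1 : M₂ K)) = ζ⁻¹ ^ n • (y - ζ • (1 : M₂ K)) := by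
      intro n
      induction n with
      | zero => simp
      | succ n ih => rw [pow_succ', mul_assoc, ih, mul_smul_comm, hz, smul_smul, pow_succ]
    have hζil : ζ⁻¹ ^ l = ζ⁻¹ := by rw [inv_pow, hζl]
    have h2 : (ζ - ζ⁻¹) • y ^ l = (ζ - ζ⁻¹) • y := by
      have h3 : ∀ M : M₂ K, (ζ - ζ⁻¹) • M = M * (y - ζ⁻¹ • (1 : M₂ K)) - M * (y - ζ • (1 : M₂ K)) := by
        intro M
        rw [mul_sub, mul_sub, mul_smul_comm, mul_smul_comm, mul_one, sub_smul]
        abel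
      rw [h3, h3, hwn, hzn, hζl, hζil, ← hw, ← hz]
    exact smul_right_injective _ hζζ h2
  refine ⟨?_, ζ, hζ0, hζv, hζ1, ht⟩
  rw [hrel, hYl]

end Fermat.Agent.LL
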