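import Fermat.Agent.LL.FreeKappa
import Fermat.Agent.LL.TRel

set_option autoImplicit false

/-!
# Lemmas for the Galois side of level lowering
-/

open IsLocalRing GaloisRep Polynomial

namespace Fermat.Agent.LL

open Fermat.Agent.DefRing Fermat.Agent

local notation "Γℚ" => (AlgebraicClosure ℚ ≃ₐ[ℚ] AlgebraicClosure ℚ)
local notation "M₂" => Matrix (Fin 2) (Fin 2)
local notation "Qb" => AlgebraicClosure ℚ

/-- finitely many functionals suffice -/
theorem exists_finite_sep {𝒪 : Type} [CommRing 𝒪] (j : 𝒪 →+* ℂ) {M : Type} [AddCommGroup M]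
    [Module 𝒪 M] [Module.Finite 𝒪 M] {I : Type} (lam : I → M →+ ℂ)
    (hlam : ∀ i (c : 𝒪) m, lam i (c • m) = j c * lam i m)
    (sep : ∀ m : M, (∀ i, lam i m = 0) → m = 0) :
    ∃ s : Finset I, ∀ m : M, (∀ i ∈ s, lam i m = 0) → m = 0 := by
  classical
  obtain ⟨n, e, he⟩ := Module.Finite.exists_fin (R := 𝒪) (M := M)
  let v : I → (Fin n → ℂ) := fun i k => lam i (e k)
  have hfg : (Submodule.span ℂ (Set.range v)).FG := IsNoetherian.noetherian _
  rw [Submodule.fg_span_iff_fg_span_finset_subset] at hfg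
  obtain ⟨s', hs', hspan⟩ := hfg
  choose w hw using hs'
  refine ⟨s'.attach.image fun x => w x.2, fun m hm => sep m fun i => ?_⟩
  have hmspan : m ∈ Submodule.span 𝒪 (Set.range e) := by rw [he]; trivial
  rw [Submodule.mem_span_range_iff_exists_fun] at hmspan
  obtain ⟨c, rfl⟩ := hmspan
  let ℓ : (Fin n → ℂ) →ₗ[ℂ] ℂ := ∑ k, (j (c k)) • LinearMap.proj k
  have hℓ : ∀ i, ℓ (v i) = lam i (∑ k, c k • e k) := by
    intro i
    simp only [ℓ, LinearMap.sum_apply, LinearMap.smul_apply, LinearMap.proj_apply, smul_eq_mul,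
      map_sum, hlam, v]
  rw [← hℓ]
  have h1 : Submodule.span ℂ (Set.range v) ≤ LinearMap.ker ℓ := by
    rw [hspan, Submodule.span_le]
    intro x hx
    have h2 : v (w hx) = x := hw hx
    show ℓ x = 0
    rw [← h2, hℓ]
    exact hm _ (Finset.mem_image.mpr ⟨⟨x, hx⟩, Finset.mem_attach _ _, rfl⟩)
  exact h1 (Submodule.subset_span ⟨i, rfl⟩)

section Residual

variable {k : Type} [Field k] {ρbar : ResidualGaloisRep k} {rb : Γℚ → M₂ k}
  {A : Type} [CommRing A] [IsLocalRing A] {ρ : GaloisRepAdic A} {r : Γℚ → M₂ A}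

theorem residual_compare (hr : Realizes ρ r) (hrb : RealizesRes ρbar rb)
    (ψ : k →+* ResidueField A) (h : ρ.residual.IsEquiv (ρbar.baseChangeAlong ψ)) (σ : Γℚ) :
    residue A (r σ).trace = ψ (rb σ).trace ∧ residue A (r σ).det = ψ (rb σ).det ∧
      (ρbar.ρ σ = 1 → MI (maximalIdeal A) (r σ - 1)) := by
  obtain ⟨P, hP, hconj⟩ := RealizesRes.exists_conj (hr.residual.of_isEquiv h)
    (hrb.baseChangeAlong ψ)
  have hPi : P * P⁻¹ = 1 := Matrix.mul_nonsing_inv _ hP
  have h1 : (r σ).map (residue A) = P * (rb σ).map ψ * P⁻¹ := by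
    have h2 : P * (rb σ).map ψ = (r σ).map (residue A) * P := hconj σ
    rw [h2, Matrix.mul_assoc, hPi, Matrix.mul_one]
  refine ⟨?_, ?_, ?_⟩
  · have h2 : residue A (r σ).trace = ((r σ).map (residue A)).trace := by
      rw [Matrix.trace_fin_two, Matrix.trace_fin_two, map_add]; rfl
    rw [h2, h1, Matrix.trace_mul_comm, ← Matrix.mul_assoc, Matrix.nonsing_inv_mul _ hP,
      Matrix.one_mul, Matrix.trace_fin_two, Matrix.trace_fin_two, map_add]
    rfl
  · have h2 : residue A (r σ).det = ((r σ).map (residue A)).det := by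
      rw [RingHom.map_det]; rfl
    rw [h2, h1, Matrix.det_mul, Matrix.det_mul, mul_comm, ← mul_assoc, ← Matrix.det_mul,
      Matrix.nonsing_inv_mul _ hP, Matrix.det_one, one_mul, RingHom.map_det]
    rfl
  · intro hσ
    have h2 : rb σ = 1 := by
      obtain ⟨b, hb⟩ := hrb
      rw [← hb, hσ]
      exact LinearMap.toMatrix_one b
    rw [h2, Matrix.map_one _ (map_zero _) (map_one _), Matrix.mul_one, hPi] at h1
    intro i j
    rw [← residue_eq_zero_iff, Matrix.sub_apply, map_sub]
    have h3 := congrFun (congrFun h1 i) j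
    rw [Matrix.map_apply] at h3
    rw [h3, Matrix.one_apply, Matrix.one_apply]
    split_ifs <;> simp

theorem residual_charpoly (hr : Realizes ρ r) (ψ : k →+* ResidueField A)
    (h : ρ.residual.IsEquiv (ρbar.baseChangeAlong ψ)) {σ : Γℚ} {α β : k}
    (hσ : LinearMap.charpoly (ρbar.ρ σ) = (X - C α) * (X - C β)) :
    ((r σ).map (residue A)).charpoly = (X - C (ψ α)) * (X - C (ψ β)) := by
  obtain ⟨rb, hrb⟩ := exists_realizesRes ρbar
  obtain ⟨h1, h2, -⟩ := residual_compare hr hrb ψ h σ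
  have h3 : (rb σ).charpoly = (X - C α) * (X - C β) := by
    obtain ⟨b, hb⟩ := hrb
    rw [← hb, LinearMap.charpoly_toMatrix, hσ]
  have h4 : (X - C α) * (X - C β) = (X ^ 2 - C (α + β) * X + C (α * β) : k[X]) := by
    rw [map_add, map_mul]; ring
  rw [Matrix.charpoly_fin_two, h4] at h3
  obtain ⟨h5, h6⟩ := poly2_inj h3
  have h7 : ((r σ).map (residue A)).trace = residue A (r σ).trace := by
    rw [Matrix.trace_fin_two, Matrix.trace_fin_two, map_add]; rfl
  have h8 : ((r σ).map (residue A)).det = residue A (r σ).det := by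
    rw [RingHom.map_det]; rfl
  rw [Matrix.charpoly_fin_two, h7, h8, h1, h2, h5, h6, map_add, map_mul, map_add, map_mul]
  ring

end Residual

/-- the cyclotomic determinant is trivial on inertia away from `p` -/
theorem det_inertia {A : Type} [CommRing A] [IsLocalRing A] [IsHausdorff (maximalIdeal A) A]
    {ρ : GaloisRepAdic A} {r : Γℚ → M₂ A} (hr : Realizes ρ r) {p : ℕ} (hp : p.Prime)
    (h : ρ.DetIsCyclotomic p) {q : ℕ} (hq : q.Prime) (hqp : q ≠ p)
    {P : ValuationSubring Qb} (hP : P.LiesOverPrime q) {σ : Γℚ}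
    (hσ : σ ∈ P.inertiaSubgroupIn ℚ) : (r σ).det = 1 := by
  rw [← sub_eq_zero]
  apply IsHausdorff.haus' (I := maximalIdeal A)
  intro n
  rw [SModEq.zero, smul_eq_mul, Ideal.mul_top]
  have h1 := h.2 n σ 1 (fun μ hμ => by
    rw [pow_one]
    exact CFT.inertia_apply_rootOfUnity hq hP (fun hd =>
      hqp ((Nat.prime_dvd_prime_iff_eq hq hp).mp (hq.dvd_of_dvd_pow hd))) hσ hμ)
  rw [← Realizes.det_eq hr, Nat.cast_one] at h1
  have h2 : Ideal.span {((p ^ n : ℕ) : A)} ≤ maximalIdeal A ^ n := by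
    rw [Ideal.span_singleton_le_iff_mem, Nat.cast_pow]
    exact Ideal.pow_mem_pow h.1 n
  exact h2 h1

/-- complex conjugation has determinant `-1` -/
theorem det_complexConjugation {k : Type} [Field k] {ρbar : ResidualGaloisRep k} {p : ℕ}
    (hp : p.Prime) (h : (GaloisRepAdic.ofResidualGaloisRep ρbar).DetIsCyclotomic p) :
    LinearMap.det (ρbar.ρ complexConjugation) = -1 := by
  have h1 := h.2 1 complexConjugation (p - 1) (fun μ hμ => by
    rw [pow_one] at hμ
    have hμ0 : μ ≠ 0 := by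
      rintro rfl
      rw [zero_pow hp.ne_zero] at hμ
      exact zero_ne_one hμ
    have h2 : μ ^ (p - 1) = μ⁻¹ := by
      apply eq_inv_of_mul_eq_one_left
      rw [← pow_succ, Nat.sub_add_cancel hp.one_le, hμ]
    rw [h2]
    apply complexEmbedding.injective
    show complexEmbedding (complexConjugation μ) = complexEmbedding μ⁻¹
    rw [complexEmbedding_complexConjugation, map_inv₀]
    have h3 : (complexEmbedding μ) ^ p = 1 := by rw [← map_pow, hμ, map_one]
    have h4 : ‖complexEmbedding μ‖ = 1 := Complex.norm_eq_one_of_pow_eq_one h3 hp.ne_zero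
    exact (Complex.inv_eq_conj h4).symm)
  have hpk : (p : k) = 0 := by
    have := h.1
    rw [IsLocalRing.maximalIdeal_eq_bot] at this
    exact this
  rw [pow_one, hpk, Ideal.span_singleton_zero, Ideal.mem_bot, sub_eq_zero] at h1
  rw [Nat.cast_sub hp.one_le, hpk, Nat.cast_one, zero_sub] at h1
  exact h1

end Fermat.Agent.LL
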