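import Fermat.Agent.LL.S59Glue
import Fermat.Agent.LL.AutBuild
import Fermat.Agent.LL.GalLem
import Fermat.Agent.LL.DVRExt
import Fermat.Agent.LL.NF
import Fermat.Agent.QComp.A36Final
import Fermat.Agent.TW.Closure

set_option autoImplicit false
set_option linter.unusedSectionVars false

/-!
# Primes at which the residual representation is ramified divide all levels
-/

open IsLocalRing Polynomial ModularFormClass CongruenceSubgroup Fermat.Agent.DefRing

namespace Fermat.Agent.LL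

local notation "Γℚ" => (AlgebraicClosure ℚ ≃ₐ[ℚ] AlgebraicClosure ℚ)
local notation "M₂" => Matrix (Fin 2) (Fin 2)

/-- Block NF. -/
theorem nfStmt : NFStmt := nf_of_a36 fun _ hp _ ↦ QComp.a36Rigid hp

/-- All the inputs on representations attached to newforms. -/
theorem inputs : Inputs := ⟨dvrExt, nf0, nfStmt⟩

/-- an element acting trivially on a representation acts trivially on the residual one -/
theorem residual_eq_one {k : Type} [Field k] {ρbar : ResidualGaloisRep k} {A : Type} [CommRing A]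
    [IsLocalRing A] {ρ : GaloisRepAdic A} (ψ : k →+* ResidueField A)
    (h : ρ.residual.IsEquiv (ρbar.baseChangeAlong ψ)) {σ : Γℚ} (hσ : ρ.ρ σ = 1) :
    ρbar.ρ σ = 1 := by
  obtain ⟨r, hr⟩ := exists_realizes ρ
  obtain ⟨rb, hrb⟩ := exists_realizesRes ρbar
  obtain ⟨P, hP, hconj⟩ := RealizesRes.exists_conj (hr.residual.of_isEquiv h)
    (hrb.baseChangeAlong ψ)
  have h1 : r σ = 1 := (Realizes.eq_one_iff hr σ).mp hσ
  have h2 : P * (rb σ).map ψ = (r σ).map (residue A) * P := hconj σ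
  rw [h1, Matrix.map_one _ (map_zero _) (map_one _), Matrix.one_mul] at h2
  have h3 : (rb σ).map ψ = 1 := by
    have h4 := congrArg (fun M => P⁻¹ * M) h2
    beta_reduce at h4
    rwa [← Matrix.mul_assoc, Matrix.nonsing_inv_mul _ hP, Matrix.one_mul] at h4
  obtain ⟨b, hb⟩ := hrb
  apply (LinearMap.toMatrix b b).injective
  rw [hb, LinearMap.toMatrix_one]
  ext i k'
  apply ψ.injective
  have h4 := congrFun (congrFun h3 i) k'
  rw [Matrix.map_apply] at h4
  rw [h4, Matrix.one_apply, Matrix.one_apply]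
  split_ifs <;> simp

/-- unramified representations have unramified residual representations -/
theorem unr_of_residual {k : Type} [Field k] {ρbar : ResidualGaloisRep k} {A : Type} [CommRing A]
    [IsLocalRing A] {ρ : GaloisRepAdic A} (ψ : k →+* ResidueField A)
    (h : ρ.residual.IsEquiv (ρbar.baseChangeAlong ψ)) {q : ℕ} (hq : ρ.IsUnramifiedAt q) :
    ρbar.IsUnramifiedAt q :=
  fun P hP σ hσ ↦ residual_eq_one ψ h (hq P hP σ hσ)

section

variable {p : ℕ} {𝒪 : Type} [CommRing 𝒪] [IsDomain 𝒪] [IsDiscreteValuationRing 𝒪]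
    [IsAdicComplete (maximalIdeal 𝒪) 𝒪] [Finite (ResidueField 𝒪)] [CharZero 𝒪] {j : 𝒪 →+* ℂ}
    {ρbar : ResidualGaloisRep (ResidueField 𝒪)} {S0 : Finset ℕ} {b : ℕ → 𝒪}

/-- a congruent newform has level divisible by the primes at which `ρbar` is ramified -/
theorem Ctx.dvd_of_ramified (C : Ctx p j ρbar S0 b) (I : Inputs) {S : Finset ℕ} (hS0 : S0 ⊆ S)
    {M : ℕ} [NeZero M] {g : CuspForm (Gamma0 M) 2} (hg : g.IsNewform)
    (hc : CongTo j b S (fun ℓ ↦ qCoeff g ℓ)) {q : ℕ} (hq : q.Prime) (hqp : q ≠ p)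
    (hram : ¬ ρbar.IsUnramifiedAt q) : q ∣ M := by
  classical
  by_contra hqM
  apply hram
  obtain ⟨A, i1, i2, i3, i4, i5, φ, t', hφ, ht⟩ := hc
  obtain ⟨P, hP⟩ := exists_pt_of_congTo C I (S := S ∪ M.primeFactors)
    (hS0.trans Finset.subset_union_left)
    ⟨A, i1, i2, i3, i4, i5, φ, t', hφ, fun ℓ h1 h2 ↦ ht ℓ h1 fun h ↦
      h2 (Finset.mem_union_left _ h)⟩ hg
    (fun q hq hqM ↦ Finset.mem_union_right _ (Nat.mem_primeFactors.2 ⟨hq, hqM, NeZero.ne M⟩))
    (fun _ _ _ ↦ rfl)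
  exact unr_of_residual _ P.residual (hP.unr q hq hqp hqM)

end

/-- **(U4)** the primes at which `W[p]` is ramified divide all the levels at which `W[p]` occurs. -/
theorem dvd_of_ramified {p : ℕ} [Fact p.Prime] {W : WeierstrassCurve ℤ} (hp2 : p ≠ 2)
    (hΔ : W.Δ ≠ 0) (hirr : W.ModRepIsIrreducible p) {M : ℕ}
    (hocc : OccZ p (fun ℓ ↦ W.apOfModel ℓ) M) {q : ℕ} (hq : q.Prime) (hqp : q ≠ p)
    (hram : ¬ (Wire.curveRho p W hΔ).IsUnramifiedAt q) : q ∣ M := by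
  classical
  have hp : p.Prime := Fact.out
  obtain ⟨hM, 𝔪, h𝔪, hpm, g, S, hg, hc⟩ := hocc
  obtain ⟨𝒪, i1, i2, i3, i4, i5, i6, hp𝒪, j, ι, b, hj, -, hι, hb⟩ :=
    exists_dvr_eigen hp 𝔪 h𝔪 hpm hg.isNormalizedEigenform ∅
  have hchar : CharP (ResidueField 𝒪) p := (CharP.charP_iff_prime_eq_zero hp).2 (by
    rw [← map_natCast (residue 𝒪), residue_eq_zero_iff]; exact hp𝒪)
  let _ : Algebra (ZMod p) (ResidueField 𝒪) := ZMod.algebra _ p
  have hres : ∀ ℓ : ℕ, ℓ.Prime → ℓ ∉ S →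
      residue 𝒪 (b ℓ) = ((W.apOfModel ℓ : ℤ) : ResidueField 𝒪) := fun ℓ hℓ hℓS ↦
    residue_of_dvr h𝔪.ne_top hι hg.isNormalizedEigenform hb hℓ (hc ℓ hℓ hℓS)
  let S0 : Finset ℕ := insert p (S ∪ (W.Δ.natAbs).primeFactors)
  have hΔS : ∀ q : ℕ, q.Prime → (q : ℤ) ∣ W.Δ → q ∈ S0 := fun q hq hd ↦
    Finset.mem_insert_of_mem (Finset.mem_union_right _ (Nat.mem_primeFactors.2
      ⟨hq, Int.natCast_dvd.1 hd, Int.natAbs_ne_zero.2 hΔ⟩))
  have C : Ctx p j ((Wire.curveRho p W hΔ).baseChange (ResidueField 𝒪)) S0 b :=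
    ctxW hp2 hp𝒪 hj hΔ hirr (Finset.mem_insert_self _ _) hΔS fun ℓ hℓ hℓS ↦
      hres ℓ hℓ fun h ↦ hℓS (Finset.mem_insert_of_mem (Finset.mem_union_left _ h))
  refine C.dvd_of_ramified inputs (Finset.Subset.refl S0) hg
    (congTo_of_eq (c := b) (fun ℓ hℓ _ ↦ hb ℓ hℓ) fun ℓ _ _ ↦ ?_) hq hqp ?_
  · rw [sub_self]; exact Ideal.zero_mem _
  · rwa [Wire.curve_unr_iff_base]

end Fermat.Agent.LL
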