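import Fermat.Agent.LL.S59Skel
import Fermat.Agent.LL.GalLem

set_option autoImplicit false

/-!
# Existence of the setup
-/

open CongruenceSubgroup IsLocalRing Polynomial ModularFormClass

namespace Fermat.Agent.LL

open Fermat.Agent.DefRing

local notation "Γℚ" => (AlgebraicClosure ℚ ≃ₐ[ℚ] AlgebraicClosure ℚ)

/-- if `ρ σ = 1` then the residual representation is trivial at `σ` -/
theorem residual_eq_one_pt {k : Type} [Field k] {ρbar : ResidualGaloisRep k} {A : Type} [CommRing A]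
    [IsLocalRing A] {ρ : GaloisRepAdic A} (ψ : k →+* ResidueField A)
    (h : ρ.residual.IsEquiv (ρbar.baseChangeAlong ψ)) {σ : Γℚ} (hσ : ρ.ρ σ = 1) :
    ρbar.ρ σ = 1 := by
  obtain ⟨e⟩ := h
  have h1 : ρ.residual.ρ σ = 1 := by
    change (ρ.ρ σ).baseChange (ResidueField A) = 1
    rw [hσ, LinearMap.baseChange_one]
  have h2 : (ρbar.baseChangeAlong ψ).ρ σ = 1 := by
    ext1 x
    obtain ⟨y, rfl⟩ := e.toLinearEquiv.surjective x
    rw [← e.map_apply, h1]
    rfl
  let _ : Algebra k (ResidueField A) := ψ.toAlgebra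
  let b : Module.Basis (Fin 2) k ρbar.V := Module.finBasisOfFinrankEq k ρbar.V ρbar.finrank_eq
  apply (LinearMap.toMatrix b b).injective
  have h4 := LinearMap.toMatrix_baseChange (A := ResidueField A) (ρbar.ρ σ) b b
  have h5 : (ρbar.ρ σ).baseChange (ResidueField A) = 1 := h2
  rw [h5, LinearMap.toMatrix_one] at h4
  rw [LinearMap.toMatrix_one]
  have h6 : (1 : Matrix (Fin 2) (Fin 2) k).map (algebraMap k (ResidueField A)) = 1 :=
    map_one ((algebraMap k (ResidueField A)).mapMatrix)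
  rw [← h6] at h4
  exact (Matrix.map_injective (algebraMap k (ResidueField A)).injective h4).symm

theorem Pt.unramified {𝒪 : Type} [CommRing 𝒪] [IsLocalRing 𝒪] {j : 𝒪 →+* ℂ}
    {ρbar : ResidualGaloisRep (ResidueField 𝒪)} {S : Finset ℕ} {t : ℕ → ℂ} (P : Pt j ρbar S t)
    {q : ℕ} (h : P.ρ.IsUnramifiedAt q) : ρbar.IsUnramifiedAt q :=
  fun A hA σ hσ ↦ residual_eq_one_pt _ P.residual (h A hA σ hσ)

/-- the primes of `c` not dividing `N0`, in increasing order -/
theorem exists_enum {N0 c : ℕ} (hc : Squarefree c) (h : N0 ∣ c) :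
    ∃ (m : ℕ) (ql : Fin m → ℕ), (∀ k, (ql k).Prime) ∧ Function.Injective ql ∧
      N0 * ∏ k, ql k = c ∧ ∀ k, ¬ ql k ∣ N0 := by
  obtain ⟨d, rfl⟩ := h
  obtain ⟨hcop, hsN, hsd⟩ := Nat.squarefree_mul_iff.1 hc
  refine ⟨d.primeFactors.card, fun k ↦ d.primeFactors.orderEmbOfFin rfl k, fun k ↦ ?_,
    (d.primeFactors.orderEmbOfFin rfl).injective, ?_, fun k hk ↦ ?_⟩
  · exact Nat.prime_of_mem_primeFactors (Finset.orderEmbOfFin_mem d.primeFactors rfl k)
  · congr 1
    conv_rhs => rw [← Nat.prod_primeFactors_of_squarefree hsd]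
    have h1 : d.primeFactors = Finset.univ.image (d.primeFactors.orderEmbOfFin rfl) := by
      apply Finset.coe_injective
      rw [Finset.coe_image, Finset.coe_univ, Set.image_univ]
      exact (Finset.range_orderEmbOfFin d.primeFactors rfl).symm
    conv_rhs => rw [h1]
    rw [Finset.prod_image (fun x _ y _ h ↦ (d.primeFactors.orderEmbOfFin rfl).injective h)]
  · have h1 : (d.primeFactors.orderEmbOfFin rfl k) ∈ d.primeFactors :=
      Finset.orderEmbOfFin_mem d.primeFactors rfl k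
    have h2 := Nat.prime_of_mem_primeFactors h1
    have h3 := Nat.dvd_gcd hk (Nat.dvd_of_mem_primeFactors h1)
    rw [Nat.Coprime.gcd_eq_one hcop] at h3
    exact h2.one_lt.ne' (Nat.dvd_one.1 h3)

theorem setupStmt (I : Inputs) : SetupStmt := by
  classical
  intro p hpF W H hmod N0 hocc hlev hram htwo hpmin
  have hp : p.Prime := hpF.out
  have hp2 : p ≠ 2 := by rcases H.h35 with rfl | rfl <;> norm_num
  obtain ⟨hN0, 𝔪, h𝔪, hpm, f, S1, hf, hcong⟩ := id hocc
  have hfe : f.IsNormalizedEigenform := hf.isNormalizedEigenform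
  obtain ⟨𝒪, i1, i2, i3, i4, i5, i6, hp𝒪, j, ι, b, hj, -, hι, hb, hsplit⟩ :=
    exists_dvr59 hp 𝔪 h𝔪 hpm hfe ∅
  have hchar : CharP (ResidueField 𝒪) p := charP_residueField hp hp𝒪
  let ialg : Algebra (ZMod p) (ResidueField 𝒪) := ZMod.algebra _ p
  obtain ⟨habs, hodd, hcyc, hspl, hind, hunr, hunri, h32, hfrob⟩ :=
    Wire.curveRes59 (k := ResidueField 𝒪) H.h35 H.Δ_ne H.ss H.two H.three H.irr hsplit
  -- the set `S0`
  obtain ⟨S0, hS0⟩ : ∃ S0, S0 = insert p ((Wire.cond W).primeFactors ∪ S1) := ⟨_, rfl⟩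
  have hS0_p : p ∈ S0 := hS0 ▸ Finset.mem_insert_self _ _
  have hS0_bad : ∀ q : ℕ, q.Prime → (q : ℤ) ∣ W.Δ → q ∈ S0 := by
    intro q hq hqW
    rw [hS0]
    exact Finset.mem_insert_of_mem (Finset.mem_union_left _ (Nat.mem_primeFactors.2
      ⟨hq, (Wire.dvd_cond H.Δ_ne hq).2 hqW, Wire.cond_ne_zero W⟩))
  have hS0_1 : S1 ⊆ S0 := by
    rw [hS0]
    exact (Finset.subset_union_right).trans (Finset.subset_insert _ _)
  have hgood : ∀ ℓ : ℕ, ℓ.Prime → ℓ ∉ S0 → W.IsGoodPrimeFor ℓ := fun ℓ hℓ hℓS h ↦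
    hℓS (hS0_bad ℓ hℓ h)
  have hne_p : ∀ ℓ : ℕ, ℓ ∉ S0 → ℓ ≠ p := fun ℓ hℓS h ↦ hℓS (h ▸ hS0_p)
  -- the context
  have hCtx : Ctx p j (rhoBar59 p W H.Δ_ne 𝒪) S0 (fun ℓ ↦ ((W.apOfModel ℓ : ℤ) : 𝒪)) := by
    refine { prime := hp, ne2 := hp2, mem := hp𝒪, inj := hj, abs := habs, odd := hodd,
             frob := ?_, pS := hS0_p, noneis := ?_ }
    · intro ℓ hℓ hℓS P hP σ hσ
      beta_reduce
      rw [map_intCast]
      exact hfrob ℓ hℓ (hne_p ℓ hℓS) (hgood ℓ hℓ hℓS) P hP σ hσ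
    · intro S m hm
      obtain ⟨ℓ, h1, h2, h3, -, h4⟩ := Wire.noneis_W (k := ResidueField 𝒪) W hp2 H.Δ_ne H.irr S hm
      refine ⟨ℓ, h1, h2, h3, ?_⟩
      beta_reduce
      rw [map_intCast]
      exact h4
  -- the form
  obtain ⟨hbc, hcongTo⟩ := congTo_of_occ (c := cW W) h𝔪 hι hfe hb hcong
  have hcongTo0 : CongTo j (fun ℓ ↦ ((W.apOfModel ℓ : ℤ) : 𝒪)) S0 (fun ℓ ↦ qCoeff f ℓ) := by
    obtain ⟨A, i1, i2, i3, i4, i5, φ, t', h1, h2⟩ := hcongTo
    exact ⟨A, i1, i2, i3, i4, i5, φ, t', h1, fun ℓ hℓ hℓS ↦ h2 ℓ hℓ fun h ↦ hℓS (hS0_1 h)⟩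
  have hcN : N0 ∣ Wire.cond W := Wire.dvd_cond_of_squarefree H.Δ_ne hlev.1 hlev.2
  obtain ⟨P, hP⟩ := exists_pt_of_congTo hCtx I (Finset.Subset.refl S0) hcongTo0 hf
    (fun q hq hqN ↦ hS0_bad q hq (hlev.2 q hq hqN)) (fun ℓ _ _ ↦ rfl)
  -- `Smin`
  obtain ⟨Smin, hSmin⟩ : ∃ Smin : Finset ℕ, Smin = insert p ((Wire.cond W).primeFactors.filter
    (fun q ↦ q ≠ p ∧ ¬ (rhoBar59 p W H.Δ_ne 𝒪).IsUnramifiedAt q)) := ⟨_, rfl⟩
  have hSmin_iff : ∀ q : ℕ, q.Prime → q ≠ p →
      (q ∈ Smin ↔ ¬ (rhoBar59 p W H.Δ_ne 𝒪).IsUnramifiedAt q) := by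
    intro q hq hqp
    rw [hSmin, Finset.mem_insert, Finset.mem_filter, Nat.mem_primeFactors]
    constructor
    · rintro (h | h)
      · exact absurd h hqp
      · exact h.2.2
    · intro h
      refine Or.inr ⟨⟨hq, ?_, Wire.cond_ne_zero W⟩, hqp, h⟩
      rw [Wire.dvd_cond H.Δ_ne hq]
      by_contra h1
      exact h (hunr q hq hqp h1)
  have hSmin_prime : ∀ q ∈ Smin, q.Prime := by
    intro q hq
    rw [hSmin, Finset.mem_insert, Finset.mem_filter] at hq
    rcases hq with rfl | h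
    · exact hp
    · exact Nat.prime_of_mem_primeFactors h.1
  have hSS0 : Smin ⊆ S0 := by
    intro q hq
    rw [hSmin, Finset.mem_insert, Finset.mem_filter] at hq
    rcases hq with rfl | h
    · exact hS0_p
    · exact hS0_bad q (Nat.prime_of_mem_primeFactors h.1)
        ((Wire.dvd_cond H.Δ_ne (Nat.prime_of_mem_primeFactors h.1)).1
          (Nat.dvd_of_mem_primeFactors h.1))
  have hdvd_iff : ∀ q : ℕ, q.Prime → q ≠ p → (q ∣ N0 ↔ q ∈ Smin) := by
    intro q hq hqp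
    rw [hSmin_iff q hq hqp]
    constructor
    · intro h
      rw [hunri q hq hqp (hlev.2 q hq h)]
      exact hram q hq h hqp
    · intro h
      by_contra h1
      exact h (P.unramified (hP.unr q hq hqp h1))
  obtain ⟨m, ql, hqlp, hqli, hprod, hqlN⟩ := exists_enum (Wire.squarefree_cond W) hcN
  obtain ⟨F, hFv, hF0, hFW, -⟩ := Wire.exists_F' H.Δ_ne hmod S0 j
  refine ⟨𝒪, i1, i2, i3, i4, i5, i6, ialg, j, S0, Smin, m, ql, F,
    { mem := hp𝒪, inj := hj, split := hsplit, ql_prime := hqlp, ql_inj := hqli, lev := hprod,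
      S0_bad := hS0_bad, S0_p := hS0_p, Smin_p := hSmin ▸ Finset.mem_insert_self _ _,
      Smin_prime := hSmin_prime, Smin_iff := hSmin_iff, dvd_iff := hdvd_iff, ql_notMem := ?_,
      base := ?_, F_W := hFW }⟩
  · intro k hk h
    exact hqlN k ((hdvd_iff (ql k) (hqlp k) hk).2 h)
  · intro Pc hPc
    exact
      { hCtx with
        ql_prime := hqlp
        sqf := by rw [hprod]; exact Wire.squarefree_cond W
        three := by
          by_cases h3 : p = 3
          · exact Or.inr ⟨2, Nat.prime_two, rfl, htwo h3⟩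
          · exact Or.inl h3
        memS := fun q hq h ↦ hS0_bad q hq ((Wire.dvd_cond H.Δ_ne hq).1 (hprod ▸ h))
        form := ⟨f, hfe, hcongTo0⟩
        Sp := hSmin ▸ Finset.mem_insert_self _ _
        SS0 := hSS0
        SN := by
          intro q hq hqN
          by_cases hqp : q = p
          · rw [hqp, hSmin]
            exact Finset.mem_insert_self _ _
          · exact (hdvd_iff q hq hqp).1 hqN
        pmin := by
          intro hpN S hS M _ g hg hM hc
          rw [hprod] at hM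
          refine hpmin hpN M ⟨(Wire.squarefree_cond W).squarefree_of_dvd hM, fun q hq hqM ↦
            (Wire.dvd_cond H.Δ_ne hq).1 (hqM.trans hM)⟩ ?_
          exact OccZ.of_congTo hp hp𝒪 (c := cW W) (fun ℓ _ _ ↦ by
            rw [cW, sub_self]; exact Ideal.zero_mem _) hg hc
        pcond := hPc
        F_vars := hFv
        F_zero := by
          intro M hM g hg hMd
          rw [hprod] at hMd
          exact hF0 M hM g hg hMd }

end Fermat.Agent.LL
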