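import Fermat.Agent.LL.CondGlue

set_option autoImplicit false

/-!
# Conditions which can be checked on points
-/

open IsLocalRing GaloisRep Polynomial

namespace Fermat.Agent.LL

open Fermat.Agent.DefRing Fermat.Agent

local notation "Γℚ" => (AlgebraicClosure ℚ ≃ₐ[ℚ] AlgebraicClosure ℚ)
local notation "M₂" => Matrix (Fin 2) (Fin 2)
local notation "Qb" => AlgebraicClosure ℚ

/-- a condition which holds for a glued representation if it holds for the points -/
def GlueStable (p : ℕ) (P : TW.LCond) : Prop :=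
  ∀ (T : Type) [CommRing T] [IsLocalRing T] [IsNoetherianRing T]
    [IsAdicComplete (maximalIdeal T) T], (∀ n, Finite (T ⧸ maximalIdeal T ^ n)) →
  ∀ (I : Type) [Finite I] (O : I → Type) [∀ i, CommRing (O i)] [∀ i, IsDomain (O i)]
    [∀ i, CharZero (O i)] [∀ i, IsLocalRing (O i)]
    [∀ i, IsHausdorff (maximalIdeal (O i)) (O i)],
    (∀ i n, Finite (O i ⧸ maximalIdeal (O i) ^ n)) → ∀ (φ : ∀ i, T →+* O i),
    (∀ i, IsLocalHom (φ i)) → (∀ x : T, (∀ i, φ i x = 0) → x = 0) →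
    ∀ (ρT : GaloisRepAdic T) (R : Γℚ → M₂ T), Realizes ρT R → ∀ (ρ : ∀ i, GaloisRepAdic (O i)),
    (∀ i, Realizes (ρ i) (fun σ => (R σ).map (φ i))) → ρT.DetIsCyclotomic p →
    (∀ i, (ρ i).DetIsCyclotomic p) → (∀ i, P (ρ i)) → P ρT

theorem glueStable_flat (p : ℕ) : GlueStable p (fun _ _ _ ρ => ρ.IsFlatAt p) := by
  intro T _ _ _ _ hfin I _ O _ _ _ _ _ hfinO φ hφ hinj ρT R hR ρ hRi _ _ h
  exact isFlatAt_glue hfin hfinO φ hφ hinj hR hRi h

/-- the deformation condition for a glued representation -/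
theorem condType_glueP {𝒪 : Type} [CommRing 𝒪] {T : Type} [CommRing T] [IsLocalRing T]
    [IsNoetherianRing T] [Algebra 𝒪 T] [IsAdicComplete (maximalIdeal T) T]
    (hfin : ∀ n, Finite (T ⧸ maximalIdeal T ^ n))
    {I : Type} [Finite I] {O : I → Type} [∀ i, CommRing (O i)] [∀ i, IsDomain (O i)]
    [∀ i, CharZero (O i)] [∀ i, IsLocalRing (O i)]
    [∀ i, Algebra 𝒪 (O i)] [∀ i, IsHausdorff (maximalIdeal (O i)) (O i)]
    (hfinO : ∀ i n, Finite (O i ⧸ maximalIdeal (O i) ^ n)) (φ : ∀ i, T →+* O i)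
    (hφ : ∀ i, IsLocalHom (φ i)) (hinj : ∀ x : T, (∀ i, φ i x = 0) → x = 0)
    {ρT : GaloisRepAdic T} {R : Γℚ → M₂ T} (hR : Realizes ρT R) {ρ : ∀ i, GaloisRepAdic (O i)}
    (hRi : ∀ i, Realizes (ρ i) (fun σ => (R σ).map (φ i))) {p : ℕ} [Fact p.Prime]
    (hpT : (p : T) ∈ maximalIdeal T) {S : Finset ℕ} {t : ℕ → T} (hfrob : FrobChar ρT S t)
    {P : TW.LCond} (hP : GlueStable p P) {Smin Q : Finset ℕ}
    (hcond : ∀ i, TW.CondType 𝒪 p Smin P Q (ρ i)) :
    TW.CondType 𝒪 p Smin P Q ρT := by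
  have hext : ∀ x y : T, (∀ i, φ i x = φ i y) → x = y := fun x y h => by
    rw [← sub_eq_zero]
    apply hinj
    intro i
    rw [map_sub, h i, sub_self]
  have hdet := detIsCyclotomic_of_frobChar hpT hfrob
  refine ⟨⟨hdet, ?_, ?_⟩, ?_⟩
  · exact hP T hfin I O hfinO φ hφ hinj ρT R hR ρ hRi hdet (fun i => (hcond i).1.1)
      (fun i => (hcond i).1.2.1)
  · intro q hq hqS P hP σ hσ
    rw [Realizes.eq_one_iff hR]
    ext a b
    apply hext
    intro i
    have h1 := (hcond i).1.2.2 q hq hqS P hP σ hσ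
    rw [Realizes.eq_one_iff (hRi i)] at h1
    have h2 := congrFun (congrFun h1 a) b
    rw [Matrix.map_apply] at h2
    rw [h2, Matrix.one_apply, Matrix.one_apply]
    split_ifs <;> simp
  · intro q hqS hq hqp P hP σ hσ
    rw [charpoly_unip_iff hR]
    have h1 : ∀ i, ((R σ).map (φ i)).trace = 2 ∧ ((R σ).map (φ i)).det = 1 := fun i =>
      (charpoly_unip_iff (hRi i) σ).mp ((hcond i).2 q hqS hq hqp P hP σ hσ)
    refine ⟨hext _ _ fun i => ?_, hext _ _ fun i => ?_⟩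
    · rw [map_ofNat, ← (h1 i).1, Matrix.trace_fin_two, Matrix.trace_fin_two, map_add]; rfl
    · rw [map_one, ← (h1 i).2, RingHom.map_det]; rfl

end Fermat.Agent.LL
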