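import Mathlib
import Fermat.Agent.LL.GlueP
import Fermat.Agent.TW.Cyc
import Fermat.Agent.TW.Closure

/-!
# Strictly ordinary points glue to a strictly ordinary representation
-/

set_option autoImplicit false
set_option linter.style.haveILetI false
set_option linter.unusedSectionVars false

open IsLocalRing GaloisRep Matrix

namespace Fermat.Agent.LL

open Fermat.Agent.DefRing Fermat.Agent Fermat.Agent.TW Fermat.Agent.CFT Fermat.Agent.CFT.Loc

local notation "Γℚ" => (AlgebraicClosure ℚ ≃ₐ[ℚ] AlgebraicClosure ℚ)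
local notation "M₂" => Matrix (Fin 2) (Fin 2)
local notation "Qb" => AlgebraicClosure ℚ

theorem exists_cyc_exp (p n : ℕ) (hp : p.Prime) (σ : Γℚ) :
    ∃ a : ℕ, ∀ μ : Qb, μ ^ p ^ n = 1 → σ μ = μ ^ a := by
  haveI : NeZero (p ^ n) := ⟨pow_ne_zero n hp.ne_zero⟩
  obtain ⟨ζ, hζ⟩ := HasEnoughRootsOfUnity.exists_primitiveRoot Qb (p ^ n)
  have h1 : σ ζ ^ p ^ n = 1 := by rw [← map_pow, hζ.pow_eq_one, map_one]
  obtain ⟨a, -, ha⟩ := hζ.eq_pow_of_pow_eq_one h1
  refine ⟨a, fun μ hμ => ?_⟩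
  obtain ⟨i, -, rfl⟩ := hζ.eq_pow_of_pow_eq_one hμ
  rw [map_pow, ← ha, ← pow_mul, ← pow_mul, mul_comm]

/-- the mod `p` cyclotomic character is not trivial on inertia at any place over `p` -/
theorem exists_inertia_cyclo_ne' {p : ℕ} [Fact p.Prime] (hp2 : p ≠ 2)
    (P : ValuationSubring Qb) (hP : P.LiesOverPrime p) :
    ∃ h ∈ P.inertiaSubgroupIn ℚ, (ExtCitation.cycloChar p h : ZMod p) ≠ 1 := by
  obtain ⟨τ, hτ, hτχ⟩ := exists_inertia_cyclo_ne (p := p) hp2
  obtain ⟨g, rfl⟩ := Frob.exists_smul_eq Fact.out (padicPlace_liesOverPrime p) hP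
  refine ⟨g * localGaloisToGlobal p τ * g⁻¹, ?_, ?_⟩
  · rw [Frob.mem_inertiaSubgroupIn_smul_iff]
    have : g⁻¹ * (g * localGaloisToGlobal p τ * g⁻¹) * g = localGaloisToGlobal p τ := by group
    rw [this]
    exact (localGaloisToGlobal_mem_inertia_iff p τ).2 hτ
  · rw [map_mul, map_mul, map_inv, mul_comm, ← mul_assoc, inv_mul_cancel, one_mul]
    exact hτχ

theorem ext_fin_two {T : Type*} {A B : M₂ T} (h00 : A 0 0 = B 0 0) (h01 : A 0 1 = B 0 1)
    (h10 : A 1 0 = B 1 0) (h11 : A 1 1 = B 1 1) : A = B := by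
  ext i j; fin_cases i <;> fin_cases j
  exacts [h00, h01, h10, h11]

theorem mul_apply_two {T : Type*} [CommRing T] (A B : M₂ T) (i j : Fin 2) :
    (A * B) i j = A i 0 * B 0 j + A i 1 * B 1 j := by
  rw [mul_apply, Fin.sum_univ_two]

/-- an idempotent of trace `1` over a local ring is conjugate to the standard one -/
theorem exists_conj_idem {T : Type*} [CommRing T] [IsLocalRing T] (e : M₂ T) (he : e * e = e)
    (htr : e.trace = 1) :
    ∃ X X' : M₂ T, X * X' = 1 ∧ X' * X = 1 ∧ X * e * X' = !![1, 0; 0, 0] := by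
  have e00 : e 0 0 * e 0 0 + e 0 1 * e 1 0 = e 0 0 := by
    have := congrFun (congrFun he 0) 0
    rwa [mul_apply_two] at this
  have e11 : e 1 0 * e 0 1 + e 1 1 * e 1 1 = e 1 1 := by
    have := congrFun (congrFun he 1) 1
    rwa [mul_apply_two] at this
  rw [trace_fin_two] at htr
  have h01 : e 0 0 * e 1 1 = e 0 1 * e 1 0 := by linear_combination e 0 0 * htr - e00
  have key : ∀ X X' : M₂ T, X * X' = 1 → X * e = !![1, 0; 0, 0] * X →
      ∃ X X' : M₂ T, X * X' = 1 ∧ X' * X = 1 ∧ X * e * X' = !![1, 0; 0, 0] := by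
    intro X X' h h'
    refine ⟨X, X', h, mul_eq_one_comm.1 h, ?_⟩
    rw [h', mul_assoc, h, mul_one]
  have hor : IsUnit (e 0 0) ∨ IsUnit (e 1 1) :=
    IsLocalRing.isUnit_or_isUnit_of_isUnit_add (by rw [htr]; exact isUnit_one)
  rcases hor with h | h
  · obtain ⟨u, hu⟩ := h
    have hui : (e 0 0) * (↑u⁻¹ : T) = 1 := by rw [← hu]; exact u.mul_inv
    set v : T := ↑u⁻¹ with hv
    refine key !![1, v * e 0 1; -(v * e 1 0), 1] !![e 0 0, - e 0 1; e 1 0, e 0 0]
      (ext_fin_two ?_ ?_ ?_ ?_) (ext_fin_two ?_ ?_ ?_ ?_) <;> rw [mul_apply_two]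
    · show 1 * e 0 0 + v * e 0 1 * e 1 0 = 1
      linear_combination e 1 1 * hui + htr - v * h01
    · show 1 * -e 0 1 + v * e 0 1 * e 0 0 = 0
      linear_combination e 0 1 * hui
    · show -(v * e 1 0) * e 0 0 + 1 * e 1 0 = 0
      linear_combination - e 1 0 * hui
    · show -(v * e 1 0) * -e 0 1 + 1 * e 0 0 = 1
      linear_combination e 1 1 * hui + htr - v * h01
    · rw [mul_apply_two]
      show 1 * e 0 0 + v * e 0 1 * e 1 0 = 1 * 1 + 0 * -(v * e 1 0)
      linear_combination e 1 1 * hui + htr - v * h01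
    · rw [mul_apply_two]
      show 1 * e 0 1 + v * e 0 1 * e 1 1 = 1 * (v * e 0 1) + 0 * 1
      linear_combination e 0 1 * v * htr - e 0 1 * hui
    · rw [mul_apply_two]
      show -(v * e 1 0) * e 0 0 + 1 * e 1 0 = 0 * 1 + 0 * -(v * e 1 0)
      linear_combination - e 1 0 * hui
    · rw [mul_apply_two]
      show -(v * e 1 0) * e 0 1 + 1 * e 1 1 = 0 * (v * e 0 1) + 0 * 1
      linear_combination v * h01 - e 1 1 * hui
  · obtain ⟨u, hu⟩ := h
    have hui : (e 1 1) * (↑u⁻¹ : T) = 1 := by rw [← hu]; exact u.mul_inv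
    set v : T := ↑u⁻¹ with hv
    -- X' = (b d; d -c), X = v (c d; d -b)
    refine key !![v * e 1 0, 1; 1, -(v * e 0 1)] !![e 0 1, e 1 1; e 1 1, - e 1 0]
      (ext_fin_two ?_ ?_ ?_ ?_) (ext_fin_two ?_ ?_ ?_ ?_) <;> rw [mul_apply_two]
    · show v * e 1 0 * e 0 1 + 1 * e 1 1 = 1
      linear_combination e 0 0 * hui + htr - v * h01
    · show v * e 1 0 * e 1 1 + 1 * -e 1 0 = 0
      linear_combination e 1 0 * hui
    · show 1 * e 0 1 + -(v * e 0 1) * e 1 1 = 0
      linear_combination - e 0 1 * hui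
    · show 1 * e 1 1 + -(v * e 0 1) * -e 1 0 = 1
      linear_combination e 0 0 * hui + htr - v * h01
    · rw [mul_apply_two]
      show v * e 1 0 * e 0 0 + 1 * e 1 0 = 1 * (v * e 1 0) + 0 * 1
      linear_combination e 1 0 * v * htr - e 1 0 * hui
    · rw [mul_apply_two]
      show v * e 1 0 * e 0 1 + 1 * e 1 1 = 1 * 1 + 0 * -(v * e 0 1)
      linear_combination e 0 0 * hui + htr - v * h01
    · rw [mul_apply_two]
      show 1 * e 0 0 + -(v * e 0 1) * e 1 0 = 0 * (v * e 1 0) + 0 * 1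
      linear_combination v * h01 - e 0 0 * hui
    · rw [mul_apply_two]
      show 1 * e 0 1 + -(v * e 0 1) * e 1 1 = 0 * 1 + 0 * -(v * e 0 1)
      linear_combination - e 0 1 * hui

section Point

variable {A : Type} [CommRing A] [IsLocalRing A] {ρ : GaloisRepAdic A} {r : Γℚ → M₂ A}
  {p : ℕ} {P : ValuationSubring Qb}

theorem realizes_isUnit_det (hr : Realizes ρ r) (σ : Γℚ) : IsUnit (r σ).det := by
  have h := congrArg det (hr.map_mul σ σ⁻¹)
  rw [mul_inv_cancel, hr.map_one, det_one, det_mul] at h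
  exact IsUnit.of_mul_eq_one _ h.symm

/-- the unramified quotient of a strictly ordinary representation with cyclotomic determinant has
order dividing two -/
theorem sq_eq_one_of_ordMat [IsHausdorff (maximalIdeal A) A] (hp : p.Prime) (hr : Realizes ρ r)
    (ho : OrdMat p P r) (hd : ρ.DetIsCyclotomic p) {σ : Γℚ}
    (hσ : σ ∈ P.decompositionSubgroup ℚ) : r σ 1 1 * r σ 1 1 = 1 := by
  obtain ⟨hpA, hdet⟩ := (realizes_detIsCyclotomic_iff hr p).1 hd
  rw [← sub_eq_zero]
  apply IsHausdorff.haus (I := maximalIdeal A) inferInstance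
  intro n
  rw [SModEq.zero, smul_eq_mul, Ideal.mul_top]
  rcases Nat.eq_zero_or_pos n with rfl | hn
  · simp
  obtain ⟨a, ha⟩ := exists_cyc_exp p n hp σ
  obtain ⟨c, hc⟩ := Ideal.mem_span_singleton.1 (hdet n σ a ha)
  obtain ⟨c', hc'⟩ := Ideal.mem_span_singleton.1 (ho.cyc σ hσ n a ha)
  have hpn : ((p ^ n : ℕ) : A) ∈ maximalIdeal A ^ n := by
    push_cast
    exact Ideal.pow_mem_pow hpA n
  have hua : IsUnit (a : A) := by
    by_contra h
    have h1 : (a : A) ∈ maximalIdeal A := h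
    have h2 : (r σ).det ∈ maximalIdeal A := by
      rw [sub_eq_iff_eq_add.1 hc]
      exact Ideal.add_mem _ (Ideal.mul_mem_right _ _ (Ideal.pow_le_self hn.ne' hpn)) h1
    exact h2 (realizes_isUnit_det hr σ)
  rw [det_fin_two, ho.dec σ hσ, mul_zero, sub_zero] at hc
  have h3 : (a : A) * (r σ 1 1 * r σ 1 1 - 1) = ((p ^ n : ℕ) : A) * (c - c' * r σ 1 1) := by
    linear_combination hc - hc' * r σ 1 1
  have h4 : (a : A) * (r σ 1 1 * r σ 1 1 - 1) ∈ maximalIdeal A ^ n := by
    rw [h3]; exact Ideal.mul_mem_right _ _ hpn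
  exact (Ideal.unit_mul_mem_iff_mem _ hua).1 h4

theorem apply_zero_zero_of_ordMat [IsHausdorff (maximalIdeal A) A] (hp : p.Prime)
    (hr : Realizes ρ r) (ho : OrdMat p P r) (hd : ρ.DetIsCyclotomic p) {σ : Γℚ}
    (hσ : σ ∈ P.decompositionSubgroup ℚ) : r σ 0 0 = r σ 1 1 * (r σ).det := by
  have h1 := sq_eq_one_of_ordMat hp hr ho hd hσ
  rw [det_fin_two, ho.dec σ hσ]
  linear_combination - r σ 0 0 * h1

end Point

section Glue

variable {T : Type} [CommRing T] [IsLocalRing T] {I : Type} {O : I → Type}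
  [∀ i, CommRing (O i)] [∀ i, IsLocalRing (O i)] [∀ i, IsHausdorff (maximalIdeal (O i)) (O i)]
  (φ : ∀ i, T →+* O i) (hinj : ∀ x : T, (∀ i, φ i x = 0) → x = 0)
  {R : Γℚ → M₂ T} {ρ : ∀ i, GaloisRepAdic (O i)} {p : ℕ} [Fact p.Prime]
  {P : ValuationSubring Qb}

/-- the relation of strictly ordinary points -/
theorem mul_eq_zero_point {A : Type} [CommRing A] [IsLocalRing A]
    [IsHausdorff (maximalIdeal A) A] (hp : p.Prime) {ρ : GaloisRepAdic A} {R r : Γℚ → M₂ A}
    (hR : Realizes ρ R) (hr : Realizes ρ r) (ho : OrdMat p P r) (hd : ρ.DetIsCyclotomic p)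
    {σ τ : Γℚ} (hσ : σ ∈ P.decompositionSubgroup ℚ) (hτ : τ ∈ P.decompositionSubgroup ℚ) :
    (R σ - (r σ 1 1 * (R σ).det) • (1 : M₂ A)) * (R τ - (r τ 1 1) • (1 : M₂ A)) = 0 ∧
      (R σ).trace = r σ 1 1 * (1 + (R σ).det) := by
  obtain ⟨X, hX, hXc⟩ := hR.exists_conj hr
  have hdet : ∀ σ, (R σ).det = (r σ).det := fun σ => by
    rw [← realizes_det hR, ← realizes_det hr]
  have h00 := apply_zero_zero_of_ordMat hp hr ho hd hσ
  have hXX : X * X⁻¹ = 1 := Matrix.mul_nonsing_inv X hX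
  refine ⟨?_, ?_⟩
  · have h1 : ∀ (σ : Γℚ) (c : A), (R σ - c • (1 : M₂ A)) * X = X * (r σ - c • (1 : M₂ A)) := by
      intro σ c
      rw [sub_mul, mul_sub, hXc, smul_mul_assoc, one_mul, mul_smul_comm, mul_one]
    have h2 : (r σ - (r σ 1 1 * (R σ).det) • (1 : M₂ A)) * (r τ - (r τ 1 1) • (1 : M₂ A)) = 0 := by
      rw [hdet, ← h00]
      refine ext_fin_two ?_ ?_ ?_ ?_ <;> rw [mul_apply_two] <;>
        simp [ho.dec σ hσ, ho.dec τ hτ]
    calc (R σ - (r σ 1 1 * (R σ).det) • (1 : M₂ A)) * (R τ - (r τ 1 1) • (1 : M₂ A))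
        = (R σ - (r σ 1 1 * (R σ).det) • (1 : M₂ A)) * ((R τ - (r τ 1 1) • (1 : M₂ A)) * X) *
            X⁻¹ := by
          rw [mul_assoc _ (_ * X) X⁻¹, mul_assoc (R τ - _) X X⁻¹, hXX, mul_one]
      _ = X * ((r σ - (r σ 1 1 * (R σ).det) • (1 : M₂ A)) *
            (r τ - (r τ 1 1) • (1 : M₂ A))) * X⁻¹ := by
          rw [h1 τ, ← mul_assoc _ X, h1 σ, ← mul_assoc X]
      _ = 0 := by rw [h2, mul_zero, zero_mul]
  · have h1 : (R σ).trace = (r σ).trace := by
      have h2 : R σ = X * r σ * X⁻¹ := by rw [hXc, mul_assoc, hXX, mul_one]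
      rw [h2, Matrix.trace_mul_comm, ← mul_assoc, Matrix.nonsing_inv_mul X hX, one_mul]
    rw [h1, hdet, trace_fin_two, h00]
    ring

end Glue

/-- **Strictly ordinary points glue.** -/
theorem glueStable_strict {p : ℕ} [Fact p.Prime] (hp2 : p ≠ 2) :
    GlueStable p (fun _ _ _ ρ => ρ.IsStrictOrdinaryAt p) := by
  classical
  intro T _ _ _ _ hfin I _ O _ _ _ _ _ hfinO φ hφ hinj ρT R hR ρ hRi hdT hdO hord
  have hp : p.Prime := Fact.out
  obtain ⟨hpT, hdet⟩ := (realizes_detIsCyclotomic_iff hR p).1 hdT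
  refine (isStrictOrdinaryAt_iff ρT p).2 ⟨hpT, fun P hP => ?_⟩
  have hext : ∀ x y : T, (∀ i, φ i x = φ i y) → x = y := fun x y h => by
    rw [← sub_eq_zero]
    apply hinj
    intro i
    rw [map_sub, h i, sub_self]
  have hex : ∀ i, ∃ r, Realizes (ρ i) r ∧ OrdMat p P r := fun i =>
    ((isStrictOrdinaryAt_iff (ρ i) p).1 (hord i)).2 P hP
  choose r hr ho using hex
  have hdR : ∀ i σ, ((R σ).map (φ i)).det = φ i (R σ).det := fun i σ => by
    rw [RingHom.map_det]; rfl
  have htrR : ∀ i σ, ((R σ).map (φ i)).trace = φ i (R σ).trace := fun i σ => by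
    rw [trace_fin_two, trace_fin_two, map_add]; rfl
  have htr : ∀ i, ∀ σ ∈ P.decompositionSubgroup ℚ,
      φ i (R σ).trace = r i σ 1 1 * (1 + φ i (R σ).det) := fun i σ hσ => by
    rw [← htrR, ← hdR]
    exact (mul_eq_zero_point hp (hRi i) (hr i) (ho i) (hdO i) hσ hσ).2
  -- an element of inertia
  obtain ⟨h, hhI, hhχ⟩ := exists_inertia_cyclo_ne' hp2 P hP
  have hhD : h ∈ P.decompositionSubgroup ℚ := ((Frob.mem_inertiaSubgroupIn_iff _ _).1 hhI).1
  have hu : IsUnit ((R h).det - 1) := by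
    by_contra hnu
    have h1 : (R h).det - 1 ∈ maximalIdeal T := hnu
    have h2 := hdet 1 h ((ExtCitation.cycloChar p h : ZMod p).val) (fun μ hμ => by
      rw [pow_one] at hμ
      exact CycChar.apply_eq_pow_cycloChar p _ hμ)
    have h3 : (R h).det - (((ExtCitation.cycloChar p h : ZMod p).val : ℕ) : T) ∈
        maximalIdeal T := by
      refine (Ideal.span_le.2 ?_) h2
      rintro _ rfl
      rw [pow_one]
      exact hpT
    have h4 : ((((ExtCitation.cycloChar p h : ZMod p).val : ℕ) : ℕ) : T) - 1 ∈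
        maximalIdeal T := by
      have := Ideal.sub_mem _ h1 h3
      rwa [sub_sub_sub_cancel_left] at this
    rw [← residue_eq_zero_iff, map_sub, map_natCast, map_one, sub_eq_zero] at h4
    have hpk : (p : ResidueField T) = 0 := by
      rw [← map_natCast (residue T), residue_eq_zero_iff]; exact hpT
    haveI : CharP (ResidueField T) p := (CharP.charP_iff_prime_eq_zero hp).2 hpk
    rw [← Nat.cast_one, CharP.natCast_eq_natCast (ResidueField T) p] at h4
    apply hhχ
    rw [← ZMod.natCast_zmod_val (ExtCitation.cycloChar p h : ZMod p), ← Nat.cast_one,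
      ZMod.natCast_eq_natCast_iff]
    exact h4
  -- the unramified character
  have hz : ∀ σ : Γℚ, ∃ s : T, σ ∈ P.decompositionSubgroup ℚ → ∀ i, φ i s = r i σ 1 1 := by
    intro σ
    by_cases hσ : σ ∈ P.decompositionSubgroup ℚ
    swap
    · exact ⟨0, fun h => absurd h hσ⟩
    by_cases h1 : IsUnit (1 + (R σ).det)
    · obtain ⟨u, hu'⟩ := h1
      refine ⟨(R σ).trace * (↑u⁻¹ : T), fun _ i => ?_⟩
      have h2 : φ i (1 + (R σ).det) * φ i (↑u⁻¹ : T) = 1 := by
        rw [← map_mul, ← hu', u.mul_inv, map_one]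
      rw [map_add, map_one] at h2
      rw [map_mul, htr i σ hσ, mul_assoc, h2, mul_one]
    · have h3 : IsUnit (1 + (R (σ * h)).det) := by
        by_contra h4
        have h5 : (1 + (R σ).det) * (R h).det ∈ maximalIdeal T := Ideal.mul_mem_right _ _ h1
        have h6 : (R h).det - 1 ∈ maximalIdeal T := by
          have : (R h).det - 1 = (1 + (R σ).det) * (R h).det - (1 + (R (σ * h)).det) := by
            rw [hR.map_mul, det_mul]; ring
          rw [this]
          exact Ideal.sub_mem _ h5 h4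
        exact h6 hu
      obtain ⟨u, hu'⟩ := h3
      refine ⟨(R (σ * h)).trace * (↑u⁻¹ : T), fun _ i => ?_⟩
      have h2 : φ i (1 + (R (σ * h)).det) * φ i (↑u⁻¹ : T) = 1 := by
        rw [← map_mul, ← hu', u.mul_inv, map_one]
      rw [map_add, map_one] at h2
      rw [map_mul, htr i _ (mul_mem hσ hhD), mul_assoc, h2, mul_one, (hr i).map_mul,
        mul_apply_two, (ho i).dec σ hσ, zero_mul, zero_add, (ho i).ine h hhI, mul_one]
  choose s hs using hz
  have hsI : ∀ σ ∈ P.inertiaSubgroupIn ℚ, s σ = 1 := fun σ hσ => hext _ _ fun i => by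
    rw [hs σ (((Frob.mem_inertiaSubgroupIn_iff _ _).1 hσ).1) i, (ho i).ine σ hσ, map_one]
  have hs2 : ∀ σ ∈ P.decompositionSubgroup ℚ, s σ * s σ = 1 := fun σ hσ => hext _ _ fun i => by
    rw [map_mul, hs σ hσ i, map_one]
    exact sq_eq_one_of_ordMat hp (hr i) (ho i) (hdO i) hσ
  have hrel : ∀ σ ∈ P.decompositionSubgroup ℚ, ∀ τ ∈ P.decompositionSubgroup ℚ,
      (R σ - (s σ * (R σ).det) • (1 : M₂ T)) * (R τ - (s τ) • (1 : M₂ T)) = 0 := by
    intro σ hσ τ hτ
    ext a b
    apply hext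
    intro i
    have h1 := (mul_eq_zero_point hp (hRi i) (hr i) (ho i) (hdO i) hσ hτ).1
    have h2 : ((R σ - (s σ * (R σ).det) • (1 : M₂ T)) * (R τ - (s τ) • (1 : M₂ T))).map (φ i) =
        0 := by
      rw [Matrix.map_mul, ← h1, ← hs σ hσ i, ← hs τ hτ i, hdR, ← map_mul]
      congr 1
      · ext a b
        simp only [Matrix.map_apply, Matrix.sub_apply, Matrix.smul_apply, smul_eq_mul, map_sub,
          map_mul, Matrix.one_apply, apply_ite (φ i), map_one, map_zero]
      · ext a b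
        simp only [Matrix.map_apply, Matrix.sub_apply, Matrix.smul_apply, smul_eq_mul, map_sub,
          map_mul, Matrix.one_apply, apply_ite (φ i), map_one, map_zero]
    have h3 := congrFun (congrFun h2 a) b
    rw [Matrix.zero_apply, map_zero]
    exact h3
  have htrh : (R h).trace = 1 + (R h).det := hext _ _ fun i => by
    rw [htr i h hhD, (ho i).ine h hhI, one_mul, map_add, map_one]
  -- the idempotent
  obtain ⟨u, hu'⟩ := hu
  set v : T := ↑u⁻¹ with hv
  have huv : ((R h).det - 1) * v = 1 := by rw [← hu', u.mul_inv]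
  have hN : (R h - 1) * (R h - 1) = ((R h).det - 1) • (R h - 1) := by
    have h1 := hrel h hhD h hhD
    rw [hsI h hhI, one_mul, one_smul] at h1
    have h2 : R h - (R h).det • (1 : M₂ T) = (R h - 1) - ((R h).det - 1) • (1 : M₂ T) := by
      rw [sub_smul, one_smul]; abel
    rw [h2, sub_mul, smul_mul_assoc, one_mul, sub_eq_zero] at h1
    exact h1
  have hidem : (v • (R h - 1)) * (v • (R h - 1)) = v • (R h - 1) := by
    rw [smul_mul_smul_comm, hN, smul_smul]
    congr 1
    linear_combination v * huv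
  have htr1 : (v • (R h - 1)).trace = 1 := by
    rw [trace_smul, trace_sub, htrh, trace_one, Fintype.card_fin, smul_eq_mul]
    push_cast
    linear_combination huv
  obtain ⟨X, X', hXX', hX'X, hXe⟩ := exists_conj_idem _ hidem htr1
  have hXh : X * (R h - 1) * X' = ((R h).det - 1) • (!![1, 0; 0, 0] : M₂ T) := by
    rw [← hXe, mul_smul_comm, smul_mul_assoc, smul_smul, huv, one_smul]
  -- the realisation
  refine ⟨fun σ => X * R σ * X', ?_, ?_⟩
  · have h1 := hR.conj X' (by
      have := congrArg det hX'X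
      rw [det_mul, det_one] at this
      exact IsUnit.of_mul_eq_one _ this)
    have h2 : X'⁻¹ = X := Matrix.inv_eq_left_inv hXX'
    rw [h2] at h1
    exact h1
  have hrow : ∀ τ ∈ P.decompositionSubgroup ℚ, (X * R τ * X') 1 0 = 0 ∧
      (X * R τ * X') 1 1 = s τ := by
    intro τ hτ
    have h1 := hrel h hhD τ hτ
    rw [hsI h hhI, one_mul] at h1
    have h2 : R h - (R h).det • (1 : M₂ T) = (R h - 1) - ((R h).det - 1) • (1 : M₂ T) := by
      rw [sub_smul, one_smul]; abel
    rw [h2] at h1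
    have h3 : (((R h).det - 1) • (!![1, 0; 0, 0] : M₂ T) - ((R h).det - 1) • (1 : M₂ T)) *
        (X * R τ * X' - s τ • (1 : M₂ T)) = 0 := by
      have e1 : X * ((R h - 1) - ((R h).det - 1) • (1 : M₂ T)) * X' =
          ((R h).det - 1) • (!![1, 0; 0, 0] : M₂ T) - ((R h).det - 1) • (1 : M₂ T) := by
        rw [mul_sub, sub_mul, hXh, mul_smul_comm, mul_one, smul_mul_assoc, hXX']
      have e2 : X * (R τ - s τ • (1 : M₂ T)) * X' = X * R τ * X' - s τ • (1 : M₂ T) := by
        rw [mul_sub, sub_mul, mul_smul_comm, mul_one, smul_mul_assoc, hXX']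
      rw [← e1, ← e2]
      calc X * ((R h - 1) - ((R h).det - 1) • (1 : M₂ T)) * X' *
            (X * (R τ - s τ • (1 : M₂ T)) * X')
          = X * (((R h - 1) - ((R h).det - 1) • (1 : M₂ T)) * (X' * X) *
            (R τ - s τ • (1 : M₂ T))) * X' := by noncomm_ring
        _ = 0 := by rw [hX'X, mul_one, h1, mul_zero, zero_mul]
    have h4 : ∀ j, ((R h).det - 1) * (X * R τ * X' - s τ • (1 : M₂ T)) 1 j = 0 := by
      intro j
      have h6 := congrFun (congrFun h3 1) j
      rw [mul_apply_two] at h6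
      have e1 : (((R h).det - 1) • (!![1, 0; 0, 0] : M₂ T) -
          ((R h).det - 1) • (1 : M₂ T)) 1 0 = 0 := by
        rw [Matrix.sub_apply, Matrix.smul_apply, Matrix.smul_apply,
          Matrix.one_apply_ne (by decide)]
        show ((R h).det - 1) * 0 - ((R h).det - 1) * 0 = 0
        ring
      have e2 : (((R h).det - 1) • (!![1, 0; 0, 0] : M₂ T) -
          ((R h).det - 1) • (1 : M₂ T)) 1 1 = - ((R h).det - 1) := by
        rw [Matrix.sub_apply, Matrix.smul_apply, Matrix.smul_apply, Matrix.one_apply_eq]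
        show ((R h).det - 1) * 0 - ((R h).det - 1) * 1 = - ((R h).det - 1)
        ring
      rw [e1, e2, zero_mul, zero_add, neg_mul, Matrix.zero_apply, neg_eq_zero] at h6
      exact h6
    have h5 : ∀ j, (X * R τ * X' - s τ • (1 : M₂ T)) 1 j = 0 := by
      intro j
      have h6 := congrArg (v * ·) (h4 j)
      simp only [mul_zero] at h6
      rw [← mul_assoc, mul_comm v, huv, one_mul] at h6
      exact h6
    refine ⟨?_, ?_⟩
    · have := h5 0
      rw [Matrix.sub_apply, Matrix.smul_apply, Matrix.one_apply_ne (by decide), smul_zero,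
        sub_zero] at this
      exact this
    · have := h5 1
      rw [Matrix.sub_apply, Matrix.smul_apply, Matrix.one_apply_eq, smul_eq_mul, mul_one,
        sub_eq_zero] at this
      exact this
  refine ⟨fun τ hτ => (hrow τ hτ).1, fun τ hτ => ?_, fun τ hτ n a ha => ?_⟩
  · rw [(hrow τ (((Frob.mem_inertiaSubgroupIn_iff _ _).1 hτ).1)).2, hsI τ hτ]
  · have h1 : (X * R τ * X').det = (R τ).det := by
      rw [det_mul, det_mul, mul_comm, ← mul_assoc, ← det_mul, hX'X, det_one, one_mul]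
    have h2 := h1
    rw [det_fin_two, (hrow τ hτ).1, (hrow τ hτ).2, mul_zero, sub_zero] at h2
    have h3 : (X * R τ * X') 0 0 - (a : T) * (X * R τ * X') 1 1 = s τ * ((R τ).det - a) := by
      rw [(hrow τ hτ).2]
      linear_combination s τ * h2 - (X * R τ * X') 0 0 * hs2 τ hτ
    rw [h3]
    exact Ideal.mul_mem_left _ _ (hdet n τ a ha)

end Fermat.Agent.LL
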