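import Fermat.Agent.LL.Blocks
import Fermat.Agent.LL.GlueP
import Fermat.Agent.GenW.Modes

set_option autoImplicit false

/-!
# Generators of deformation rings for a general condition at `p`
-/

open IsLocalRing Polynomial Fermat.Agent.DefRing

namespace Fermat.Agent.LL

local notation "Γℚ" => (AlgebraicClosure ℚ ≃ₐ[ℚ] AlgebraicClosure ℚ)

/-- **Block GEN** with a general condition at `p`. -/
def GenStmtP (p : ℕ) [Fact p.Prime] (PC : TW.LCond) : Prop :=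
  ∀ {𝒪 : Type} [CommRing 𝒪] [IsDomain 𝒪] [IsDiscreteValuationRing 𝒪]
    [IsAdicComplete (maximalIdeal 𝒪) 𝒪] [Finite (ResidueField 𝒪)],
    (p : 𝒪) ∈ maximalIdeal 𝒪 →
  ∀ (ρbar : ResidualGaloisRep (ResidueField 𝒪)), ρbar.IsAbsolutelyIrreducible →
    (GaloisRepAdic.ofResidualGaloisRep ρbar).DetIsCyclotomic p →
    (∀ σ : Γℚ, ∃ α β : ResidueField 𝒪,
      LinearMap.charpoly (ρbar.ρ σ) = (X - C α) * (X - C β)) →
    (∀ (K : Type) [Field K] [Algebra (ResidueField 𝒪) K] (G : Subgroup Γℚ), G.index = 2 →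
      ∀ V : Submodule K (ρbar.baseChange K).V,
        (∀ σ ∈ G, ∀ x ∈ V, (ρbar.baseChange K).ρ σ x ∈ V) → V = ⊥ ∨ V = ⊤) →
  ∀ (Smin T : Finset ℕ), p ∈ Smin → (∀ q ∈ Smin, q.Prime) →
    (∀ q : ℕ, q.Prime → q ≠ p → (q ∈ Smin ↔ ¬ ρbar.IsUnramifiedAt q)) →
    (∀ l ∈ T, l.Prime ∧ l ∉ Smin ∧ p ∣ l - 1 ∧
      ∀ P : ValuationSubring (AlgebraicClosure ℚ), P.LiesOverPrime l →
        ∀ σ : Γℚ, P.IsFrobeniusAt σ l → ∃ c : ResidueField 𝒪, ρbar.ρ σ = c • 1) →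
  ∀ L : ∀ l : T, LocGen (l : ℕ) p,
  ∃ g : ℕ, ∀ (S : Finset ℕ) (n : ℕ), ∃ qv : Fin (3 * T.card + g) → ℕ,
    Function.Injective qv ∧
    (∀ i, (qv i).Prime ∧ qv i ∉ S ∧ p ^ (n + 1) ∣ qv i - 1) ∧
    (∀ i, ∀ P : ValuationSubring (AlgebraicClosure ℚ), P.LiesOverPrime (qv i) →
      ∀ σ : Γℚ, P.IsFrobeniusAt σ (qv i) → ∃ α β : ResidueField 𝒪, α ≠ β ∧
        LinearMap.charpoly (ρbar.ρ σ) = (X - C α) * (X - C β)) ∧
    ∀ (A : Type) [CommRing A] [IsLocalRing A] [IsNoetherianRing A]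
      [IsAdicComplete (maximalIdeal A) A] [Algebra 𝒪 A] [IsLocalHom (algebraMap 𝒪 A)],
      Function.Surjective (residue A ∘ algebraMap 𝒪 A) →
    ∀ ρ : GaloisRepAdic A,
      TW.CondType 𝒪 p Smin PC (T ∪ Finset.univ.image qv) ρ →
      ρ.residual.IsEquiv (ρbar.baseChangeAlong (ResidueField.map (algebraMap 𝒪 A))) →
      (∀ (B : Type) [CommRing B] [IsLocalRing B] [Algebra 𝒪 B] (f g : A →ₐ[𝒪] B)
        (hf : IsLocalHom (f : A →+* B)) (hg : IsLocalHom (g : A →+* B)),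
        (ρ.baseChangeAlong (f : A →+* B) hf).IsEquiv (ρ.baseChangeAlong (g : A →+* B) hg) →
        f = g) →
    ∀ r : Γℚ → Matrix (Fin 2) (Fin 2) A, Realizes ρ r →
      ∃ γ : MvPowerSeries ((T × Bool × Fin 3) ⊕ Fin g) 𝒪 →ₐ[𝒪] A, Function.Surjective γ ∧
        ∀ (l : T) (b : Bool), let m := r (if b then (L l).τ else (L l).φ);
          2 * γ (MvPowerSeries.X (Sum.inl (l, b, 0))) = m 0 0 - m 1 1 ∧
          γ (MvPowerSeries.X (Sum.inl (l, b, 1))) = m 0 1 ∧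
          γ (MvPowerSeries.X (Sum.inl (l, b, 2))) = m 1 0

theorem genStmtP_of_genStmt {p : ℕ} [Fact p.Prime] (h : GenStmt p) :
    GenStmtP p (fun _ _ _ ρ' => ρ'.IsFlatAt p) := h

/-- the flat case -/
theorem genStmtP_flat (p : ℕ) [Fact p.Prime] (hp2 : p ≠ 2) :
    GenStmtP p (fun _ _ _ ρ' => ρ'.IsFlatAt p) :=
  genStmtP_of_genStmt (TW.genStmt p hp2 (CFT.gwExists p hp2) (TW.flatExists p hp2))

open TW in
/-- the block `GEN` from the version with weights, without nonscalar primes -/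
theorem genStmtP_of_genW (p : ℕ) [hpp : Fact p.Prime] (hp2 : p ≠ 2) {PC : TW.LCond}
    (h : ∀ {𝒪 : Type} [CommRing 𝒪] [IsDomain 𝒪] [IsDiscreteValuationRing 𝒪]
      [IsAdicComplete (maximalIdeal 𝒪) 𝒪] [Finite (ResidueField 𝒪)]
      (ρbar : ResidualGaloisRep (ResidueField 𝒪)) (Smin T : Finset ℕ),
      TW.GenWHyp p ρbar Smin T ∅ → ∀ L : ∀ l : ℕ, l ∈ T ∪ ∅ → LocGen l p,
        TW.GenWConcl p ρbar Smin T ∅ L 0 0 PC (fun _ => True)) : GenStmtP p PC := by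
  intro 𝒪 _ _ _ _ _ hp𝒪 ρbar habs hdet hsplit hTW Smin T hpSmin hSp hmin hT L
  have hTp : ∀ q ∈ T, q.Prime := fun q hq => (hT q hq).1
  have hur : ∀ q ∈ T, ρbar.IsUnramifiedAt q := fun q hq => by
    by_contra h
    have hqp : q ≠ p := fun h' => (hT q hq).2.1 (h' ▸ hpSmin)
    exact (hT q hq).2.1 ((hmin q (hTp q hq) hqp).2 h)
  have hscal : ∀ q ∈ T, ∀ A : ValuationSubring (AlgebraicClosure ℚ), A.LiesOverPrime q →
      ∀ σ ∈ A.decompositionSubgroup ℚ, ∃ c : ResidueField 𝒪, ρbar.ρ σ = c • 1 :=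
    fun q hq A hA σ hσ => scal_of_frob (hTp q hq) (L ⟨q, hq⟩) (hur q hq) (hT q hq).2.2.2 A hA σ hσ
  have hmem : ∀ {l : ℕ}, l ∈ T ∪ ∅ → l ∈ T := fun {l} hl => by simpa using hl
  let L' : ∀ l : ℕ, l ∈ T ∪ ∅ → LocGen l p := fun l hl => L ⟨l, hmem hl⟩
  obtain ⟨g, hg⟩ := h ρbar Smin T
    { hp2 := hp2, hp𝒪 := hp𝒪, habs := habs, hdet := hdet, hsplit := hsplit, hTW := hTW,
      hpSmin := hpSmin, hmin := hmin, hsc := fun l hl => ⟨(hT l hl).1, (hT l hl).2.1,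
        (hT l hl).2.2.2⟩, hns := fun l hl => absurd hl (Finset.notMem_empty l) } L'
  refine ⟨g, fun S n => ?_⟩
  obtain ⟨qv, h1, h2, h3, h4⟩ := hg S n
  refine ⟨qv, h1, h2, h3, ?_⟩
  intro A _ _ _ _ _ _ hres ρ hof hρ hu r hr
  -- scalars
  let m : T → Bool → Matrix (Fin 2) (Fin 2) A := fun l b => r (if b then (L l).τ else (L l).φ)
  have hsc : ∀ (l : T) (b : Bool), ∃ c : ResidueField A,
      (m l b).map (residue A) = c • (1 : Matrix (Fin 2) (Fin 2) _) := by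
    intro l b
    have hD : (if b then (L l).τ else (L l).φ) ∈ (L l).P.decompositionSubgroup ℚ := by
      cases b
      · exact ((Frob.isFrobeniusAt_iff _ _ _).1 (L l).hφ).1
      · exact ((Frob.mem_inertiaSubgroupIn_iff _ _).1 (L l).hτ).1
    obtain ⟨c, hc⟩ := hscal l l.2 _ (L l).hP _ hD
    exact ⟨_, red_scalar hr hρ hc⟩
  -- `2` is invertible
  have h2u : IsUnit (2 : 𝒪) := by
    by_contra h
    have h1 : (2 : 𝒪) ∈ maximalIdeal 𝒪 := (mem_maximalIdeal _).mpr h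
    have h3 : IsCoprime (2 : ℤ) p := by
      rw [Int.isCoprime_iff_gcd_eq_one]
      exact_mod_cast (Nat.coprime_primes Nat.prime_two hpp.out).mpr (Ne.symm hp2)
    obtain ⟨x, y, hxy⟩ := h3
    have h4 : (1 : 𝒪) ∈ maximalIdeal 𝒪 := by
      have h5 := congrArg (Int.cast : ℤ → 𝒪) hxy
      push_cast at h5
      rw [← h5]
      exact Ideal.add_mem _ (Ideal.mul_mem_left _ _ h1) (Ideal.mul_mem_left _ _ hp𝒪)
    exact (Ideal.ne_top_iff_one _).mp (maximalIdeal.isMaximal 𝒪).ne_top h4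
  obtain ⟨u, hu'⟩ := h2u.exists_left_inv
  let v : A := algebraMap 𝒪 A u
  have hv : v * 2 = 1 := by
    rw [← map_ofNat (algebraMap 𝒪 A) 2, ← map_mul, hu', map_one]
  -- the elements
  let y : T × Bool × Fin 3 → A := fun x =>
    ![v * (m x.1 x.2.1 0 0 - m x.1 x.2.1 1 1), m x.1 x.2.1 0 1, m x.1 x.2.1 1 0] x.2.2
  have hy : ∀ x, y x ∈ maximalIdeal A := by
    rintro ⟨l, b, i⟩
    obtain ⟨c, hc⟩ := hsc l b
    have e : ∀ i j, residue A (m l b i j) = (c • (1 : Matrix (Fin 2) (Fin 2) _)) i j :=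
      fun i j => congrFun (congrFun hc i) j
    fin_cases i
    · refine Ideal.mul_mem_left _ _ ?_
      show m l b 0 0 - m l b 1 1 ∈ _
      rw [← residue_eq_zero_iff, map_sub, e, e]
      simp
    · show m l b 0 1 ∈ _
      rw [← residue_eq_zero_iff, e]
      simp
    · show m l b 1 0 ∈ _
      rw [← residue_eq_zero_iff, e]
      simp
  have hofT : CondTypeT 𝒪 p Smin (T ∪ ∅) (fun _ _ _ _ => True) (Finset.univ.image qv) ρ := by
    obtain ⟨⟨c1, -, c3⟩, c4⟩ := hof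
    refine ⟨⟨c1, trivial, fun q hq hq' => c3 q hq ?_⟩, c4⟩
    rwa [Finset.union_empty, Finset.union_assoc] at hq'
  have hkey : ∀ θ : A →ₐ[𝒪] DualNumber (ResidueField 𝒪),
      IsLocalHom (θ : A →+* DualNumber (ResidueField 𝒪)) → (∀ j, θ (y j) = 0) →
      ∀ (l : ℕ) (hl : l ∈ T) (b : Bool), ∃ c : DualNumber (ResidueField 𝒪),
        (m ⟨l, hl⟩ b).map θ = c • (1 : Matrix (Fin 2) (Fin 2) (DualNumber (ResidueField 𝒪))) := by
    intro θ hθ hy l hl b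
    refine ⟨θ (m ⟨l, hl⟩ b 0 0), ?_⟩
    have z0 : θ (v * (m ⟨l, hl⟩ b 0 0 - m ⟨l, hl⟩ b 1 1)) = 0 := hy (⟨l, hl⟩, b, 0)
    have z1 : θ (m ⟨l, hl⟩ b 0 1) = 0 := hy (⟨l, hl⟩, b, 1)
    have z2 : θ (m ⟨l, hl⟩ b 1 0) = 0 := hy (⟨l, hl⟩, b, 2)
    have z3 : θ (m ⟨l, hl⟩ b 1 1) = θ (m ⟨l, hl⟩ b 0 0) := by
      have h8 : θ (2 * (v * (m ⟨l, hl⟩ b 0 0 - m ⟨l, hl⟩ b 1 1))) = 0 := by
        rw [map_mul, z0, mul_zero]
      rw [← mul_assoc, mul_comm 2 v, hv, one_mul, map_sub, sub_eq_zero] at h8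
      exact h8.symm
    ext i j : 1
    rw [Matrix.map_apply, Matrix.smul_apply, Matrix.one_apply]
    fin_cases i <;> fin_cases j
    · simp
    · simpa using z1
    · simpa using z2
    · simpa using z3
  obtain ⟨z, -, -, hz⟩ := h4 A hres ρ hofT hof.1.2.1 hρ hu r hr (T × Bool × Fin 3) y hy
    (fun θ hθ hy => ⟨fun l hl => ⟨hkey θ hθ hy l (hmem (Finset.mem_union_left _ hl)) false,
      hkey θ hθ hy l (hmem (Finset.mem_union_left _ hl)) true⟩,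
      fun l hl => absurd hl (Finset.notMem_empty l), trivial⟩)
  obtain ⟨γ, hγ, hγy, -⟩ := hz inferInstance
  refine ⟨γ, hγ, fun l b => ⟨?_, hγy (l, b, 1), hγy (l, b, 2)⟩⟩
  have h5 : γ (MvPowerSeries.X (Sum.inl (l, b, 0))) =
      v * (m l b 0 0 - m l b 1 1) := hγy (l, b, 0)
  rw [h5, ← mul_assoc, mul_comm 2 v, hv, one_mul]

/-- the strictly ordinary case -/
theorem genStmtP_strict (p : ℕ) [Fact p.Prime] (hp2 : p ≠ 2) :
    GenStmtP p (fun _ _ _ ρ' => ρ'.IsStrictOrdinaryAt p) :=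
  genStmtP_of_genW p hp2 fun _ _ _ H L => TW.genW_ord H L

end Fermat.Agent.LL
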