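import Fermat.Agent.LL.GalDatum
import Fermat.Agent.LL.GenP

set_option autoImplicit false

/-!
# The set of level-lowering primes is empty
-/

open IsLocalRing GaloisRep Polynomial

namespace Fermat.Agent.LL

open Fermat.Agent.DefRing Fermat.Agent

local notation "Γℚ" => (AlgebraicClosure ℚ ≃ₐ[ℚ] AlgebraicClosure ℚ)
local notation "Qb" => AlgebraicClosure ℚ

/-- **Conclusion of the patching argument**, for a general condition `PC` at `p`: if the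
automorphic output is available at all Taylor--Wiles levels, then there are no primes to be
removed by patching. -/
theorem no_TP {𝒪 : Type} [CommRing 𝒪] [IsDomain 𝒪] [IsDiscreteValuationRing 𝒪]
    [IsAdicComplete (maximalIdeal 𝒪) 𝒪] [Finite (ResidueField 𝒪)]
    {p : ℕ} [hpp : Fact p.Prime] (hp2 : p ≠ 2) {PC : TW.LCond}
    (hPC : GlueStable p PC) (hGen : GenStmtP p PC)
    (hp𝒪 : (p : 𝒪) ∈ maximalIdeal 𝒪)
    {j : 𝒪 →+* ℂ} (hj : Function.Injective j) {ρbar : ResidualGaloisRep (ResidueField 𝒪)}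
    (habs : ρbar.IsAbsolutelyIrreducible)
    (hcyc : (GaloisRepAdic.ofResidualGaloisRep ρbar).DetIsCyclotomic p)
    (hsplit : ∀ σ : Γℚ, ∃ α β : ResidueField 𝒪,
      LinearMap.charpoly (ρbar.ρ σ) = (X - C α) * (X - C β))
    (hind : ∀ (K : Type) [Field K] [Algebra (ResidueField 𝒪) K] (G : Subgroup Γℚ), G.index = 2 →
      ∀ V : Submodule K (ρbar.baseChange K).V,
        (∀ σ ∈ G, ∀ x ∈ V, (ρbar.baseChange K).ρ σ x ∈ V) → V = ⊥ ∨ V = ⊤)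
    {Smin T : Finset ℕ} (hpS : p ∈ Smin) (hSprime : ∀ q ∈ Smin, q.Prime)
    (hSmin : ∀ q : ℕ, q.Prime → q ≠ p → (q ∈ Smin ↔ ¬ ρbar.IsUnramifiedAt q))
    (hT : ∀ l ∈ T, l.Prime ∧ l ∉ Smin ∧ p ∣ l - 1 ∧
      ∀ P : ValuationSubring (AlgebraicClosure ℚ), P.LiesOverPrime l →
        ∀ σ : Γℚ, P.IsFrobeniusAt σ l → ∃ c : ResidueField 𝒪, ρbar.ρ σ = c • 1)
    {ϖ : 𝒪} (hϖ : Irreducible ϖ)
    {V : ℕ} (hV : ∀ l ∈ T, ∀ v, p ^ v ∣ l - 1 → v ≤ V)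
    (hμ : ∀ z : ℂ, z ^ p ^ V = 1 → ∃ o : 𝒪, j o = z)
    (S₀ : Finset ℕ) (D : ℕ → ℕ)
    (h : ∀ (r : ℕ) (qv : Fin r → ℕ), Function.Injective qv →
      (∀ i, (qv i).Prime ∧ qv i ∉ S₀ ∧ qv i ∉ Smin ∧ qv i ∉ T ∧ p ∣ qv i - 1) →
      (∀ i, ∀ P : ValuationSubring Qb, P.LiesOverPrime (qv i) →
        ∀ σ : Γℚ, P.IsFrobeniusAt σ (qv i) → ∃ α β : ResidueField 𝒪, α ≠ β ∧
          LinearMap.charpoly (ρbar.ρ σ) = (X - C α) * (X - C β)) →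
      ∃ S', Nonempty (AutOutP p j ρbar PC ϖ Smin T qv S' (D r))) : T = ∅ := by
  classical
  have hp : p.Prime := hpp.out
  by_contra hne
  obtain ⟨t₀, ht₀⟩ := Finset.nonempty_iff_ne_empty.mpr hne
  have hL : ∀ l : T, Nonempty (LocGen (l : ℕ) p) := fun l =>
    locGenStmt _ _ (hT l l.2).1 hp (fun h => (hT l l.2).2.1 (h ▸ hpS))
  let L : ∀ l : T, LocGen (l : ℕ) p := fun l => (hL l).some
  obtain ⟨g, hg⟩ := hGen hp𝒪 ρbar habs hcyc hsplit hind Smin T hpS hSprime hSmin hT L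
  -- `2` is invertible
  have h2 : IsUnit (2 : 𝒪) := by
    by_contra h
    have h1 : (2 : 𝒪) ∈ maximalIdeal 𝒪 := (mem_maximalIdeal _).mpr h
    have h3 : IsCoprime (2 : ℤ) p := by
      rw [Int.isCoprime_iff_gcd_eq_one]
      exact_mod_cast (Nat.coprime_primes Nat.prime_two hp).mpr (Ne.symm hp2)
    obtain ⟨x, y, hxy⟩ := h3
    have h4 : (1 : 𝒪) ∈ maximalIdeal 𝒪 := by
      have h5 := congrArg (Int.cast : ℤ → 𝒪) hxy
      push_cast at h5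
      rw [← h5]
      exact Ideal.add_mem _ (Ideal.mul_mem_left _ _ h1) (Ideal.mul_mem_left _ _ hp𝒪)
    exact (Ideal.ne_top_iff_one _).mp (maximalIdeal.isMaximal 𝒪).ne_top h4
  obtain ⟨u, hu⟩ := h2.exists_left_inv
  have hmax : maximalIdeal 𝒪 = Ideal.span {ϖ} := hϖ.maximalIdeal_eq
  refine Patch.main (𝒪 := 𝒪) hp𝒪 (T := T) ⟨t₀, ht₀⟩ (g := g) (r := 3 * T.card + g)
    (D := D (3 * T.card + g)) (by rw [Fintype.card_coe]) ϖ hϖ (BSet (p ^ V) u)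
    (BSet_prop hp hp2 hp𝒪 hu) ((u * ((t₀ : 𝒪) - 1)) ^ 2) ?_ (fun n => ?_)
  · have h1 : (t₀ : 𝒪) - 1 ∈ Ideal.span {ϖ} := by
      obtain ⟨c, hc⟩ := (hT t₀ ht₀).2.2.1
      have h2 : (t₀ : 𝒪) - 1 = p * c := by
        have h3 : ((t₀ - 1 : ℕ) : 𝒪) = p * c := by rw [hc]; push_cast; rfl
        rwa [Nat.cast_sub (hT t₀ ht₀).1.one_le, Nat.cast_one] at h3
      rw [h2, ← hmax]
      exact Ideal.mul_mem_right _ _ hp𝒪
    rw [sq]
    exact Ideal.mul_mem_left _ _ (Ideal.mul_mem_left _ _ h1)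
  · obtain ⟨qv, hinj, hq, hfr, hgen⟩ := hg (S₀ ∪ Smin ∪ T) n
    have hq1 : ∀ i, qv i ∉ S₀ ∧ qv i ∉ Smin ∧ qv i ∉ T := by
      intro i
      have h1 := (hq i).2.1
      simp only [Finset.mem_union, not_or] at h1
      exact ⟨h1.1.1, h1.1.2, h1.2⟩
    obtain ⟨S', ⟨W⟩⟩ := h _ qv hinj (fun i => ⟨(hq i).1, (hq1 i).1, (hq1 i).2.1, (hq1 i).2.2,
      dvd_trans (dvd_pow_self p (Nat.succ_ne_zero n)) (hq i).2.2⟩) hfr
    exact autOut_datum hp2 hp𝒪 hPC hj habs hcyc hpS hSmin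
      (fun l hl => ⟨(hT l hl).1, (hT l hl).2.1, (hT l hl).2.2.1⟩) L ⟨t₀, ht₀⟩
      (fun i => ⟨(hq i).1, (hq1 i).2.1, (hq i).2.2⟩) hfr hgen W hV hμ hu

/-- **Conclusion of the patching argument** for the flat condition at `p`: if the automorphic output is available at all
Taylor--Wiles levels, then there are no primes to be removed by patching. -/
theorem no_T {𝒪 : Type} [CommRing 𝒪] [IsDomain 𝒪] [IsDiscreteValuationRing 𝒪]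
    [IsAdicComplete (maximalIdeal 𝒪) 𝒪] [Finite (ResidueField 𝒪)]
    {p : ℕ} [hpp : Fact p.Prime] (hp2 : p ≠ 2) (hGen : GenStmt p)
    (hp𝒪 : (p : 𝒪) ∈ maximalIdeal 𝒪)
    {j : 𝒪 →+* ℂ} (hj : Function.Injective j) {ρbar : ResidualGaloisRep (ResidueField 𝒪)}
    (habs : ρbar.IsAbsolutelyIrreducible)
    (hcyc : (GaloisRepAdic.ofResidualGaloisRep ρbar).DetIsCyclotomic p)
    (hsplit : ∀ σ : Γℚ, ∃ α β : ResidueField 𝒪,
      LinearMap.charpoly (ρbar.ρ σ) = (X - C α) * (X - C β))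
    (hind : ∀ (K : Type) [Field K] [Algebra (ResidueField 𝒪) K] (G : Subgroup Γℚ), G.index = 2 →
      ∀ V : Submodule K (ρbar.baseChange K).V,
        (∀ σ ∈ G, ∀ x ∈ V, (ρbar.baseChange K).ρ σ x ∈ V) → V = ⊥ ∨ V = ⊤)
    {Smin T : Finset ℕ} (hpS : p ∈ Smin) (hSprime : ∀ q ∈ Smin, q.Prime)
    (hSmin : ∀ q : ℕ, q.Prime → q ≠ p → (q ∈ Smin ↔ ¬ ρbar.IsUnramifiedAt q))
    (hT : ∀ l ∈ T, l.Prime ∧ l ∉ Smin ∧ p ∣ l - 1 ∧
      ∀ P : ValuationSubring (AlgebraicClosure ℚ), P.LiesOverPrime l →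
        ∀ σ : Γℚ, P.IsFrobeniusAt σ l → ∃ c : ResidueField 𝒪, ρbar.ρ σ = c • 1)
    {ϖ : 𝒪} (hϖ : Irreducible ϖ)
    {V : ℕ} (hV : ∀ l ∈ T, ∀ v, p ^ v ∣ l - 1 → v ≤ V)
    (hμ : ∀ z : ℂ, z ^ p ^ V = 1 → ∃ o : 𝒪, j o = z)
    (S₀ : Finset ℕ) (D : ℕ → ℕ)
    (h : ∀ (r : ℕ) (qv : Fin r → ℕ), Function.Injective qv →
      (∀ i, (qv i).Prime ∧ qv i ∉ S₀ ∧ qv i ∉ Smin ∧ qv i ∉ T ∧ p ∣ qv i - 1) →
      (∀ i, ∀ P : ValuationSubring Qb, P.LiesOverPrime (qv i) →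
        ∀ σ : Γℚ, P.IsFrobeniusAt σ (qv i) → ∃ α β : ResidueField 𝒪, α ≠ β ∧
          LinearMap.charpoly (ρbar.ρ σ) = (X - C α) * (X - C β)) →
      ∃ S', Nonempty (AutOut p j ρbar ϖ Smin T qv S' (D r))) : T = ∅ :=
  no_TP hp2 (glueStable_flat p) (genStmtP_of_genStmt hGen) hp𝒪 hj habs hcyc hsplit hind hpS hSprime
    hSmin hT hϖ hV hμ S₀ D h

end Fermat.Agent.LL
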