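import Fermat.Agent.LL.S59PeuB
import Fermat.Agent.LL.S59SetupProof
import Fermat.Agent.Wire.StepLStmt
import Fermat.Agent.Wire.StartStmt

set_option autoImplicit false

/-!
# The modularity lifting theorem (59C)
-/

namespace Fermat.Agent.LL

/-- **The modularity lifting theorem**, for `p = 3, 5`. -/
theorem stmt59C : Wire.Stmt59C :=
  stmt59C_of Wire.startStmt Wire.stepLStmt (setupStmt inputs)
    (caseFlat inputs (TWMod.specSS Twist.specTwist) TWNew.specNew TWLow.specLowerStrong)
    (caseStrict inputs (TWMod.specSS Twist.specTwist) TWNew.specNew TWLow.specLowerStrong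
      S33Lib.nfOrdStmt)
    (casePeuB inputs (TWMod.specSS Twist.specTwist) TWNew.specNew TWLow.specLowerStrong
      S33Lib.nfOrdStmt)

end Fermat.Agent.LL
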