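import Fermat.Agent.LL.S59Tools
import Fermat.Agent.LL.CBase
import Fermat.Agent.Wire.ChooseF

set_option autoImplicit false

/-!
# The setup for the raising steps of the modularity lifting theorem (59C)
-/

open CongruenceSubgroup IsLocalRing Polynomial ModularFormClass

namespace Fermat.Agent.LL

local notation "Γℚ" => (AlgebraicClosure ℚ ≃ₐ[ℚ] AlgebraicClosure ℚ)

/-- the residual representation of the curve over the residue field of `𝒪` -/
noncomputable abbrev rhoBar59 (p : ℕ) [Fact p.Prime] (W : WeierstrassCurve ℤ) (hΔ : W.Δ ≠ 0)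
    (𝒪 : Type) [CommRing 𝒪] [IsLocalRing 𝒪] [Algebra (ZMod p) (ResidueField 𝒪)] :
    ResidualGaloisRep (ResidueField 𝒪) :=
  (Wire.curveRho p W hΔ).baseChange (ResidueField 𝒪)

/-- The output of Step L, the coefficient ring, the primes `ql` at which the level has to be raised,
and the polynomial `F`. -/
structure Setup59 (p : ℕ) [Fact p.Prime] (W : WeierstrassCurve ℤ) (hΔ : W.Δ ≠ 0) (N0 : ℕ)
    {𝒪 : Type} [CommRing 𝒪] [IsDomain 𝒪] [IsDiscreteValuationRing 𝒪]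
    [IsAdicComplete (maximalIdeal 𝒪) 𝒪] [Finite (ResidueField 𝒪)] [CharZero 𝒪]
    [Algebra (ZMod p) (ResidueField 𝒪)] (j : 𝒪 →+* ℂ) (S0 Smin : Finset ℕ) {m : ℕ}
    (ql : Fin m → ℕ) (F : MvPolynomial ℕ 𝒪) : Prop where
  mem : (p : 𝒪) ∈ maximalIdeal 𝒪
  inj : Function.Injective j
  split : ∀ a b : ℤ, ∃ α β : ResidueField 𝒪, (X ^ 2 - C (a : ResidueField 𝒪) * X +
      C (b : ResidueField 𝒪) : Polynomial (ResidueField 𝒪)) = (X - C α) * (X - C β)
  ql_prime : ∀ k, (ql k).Prime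
  ql_inj : Function.Injective ql
  /-- `N0 * ∏ ql` is the conductor of the curve -/
  lev : N0 * ∏ k, ql k = Wire.cond W
  /-- the primes in `S0` are the bad primes and `p`, and the exceptional primes of the form -/
  S0_bad : ∀ q : ℕ, q.Prime → (q : ℤ) ∣ W.Δ → q ∈ S0
  S0_p : p ∈ S0
  /-- `Smin` consists of `p` and of the primes where `ρbar` is ramified -/
  Smin_p : p ∈ Smin
  Smin_prime : ∀ q ∈ Smin, q.Prime
  Smin_iff : ∀ q : ℕ, q.Prime → q ≠ p →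
    (q ∈ Smin ↔ ¬ (rhoBar59 p W hΔ 𝒪).IsUnramifiedAt q)
  /-- the primes of `N0` other than `p` are exactly those in `Smin` -/
  dvd_iff : ∀ q : ℕ, q.Prime → q ≠ p → (q ∣ N0 ↔ q ∈ Smin)
  ql_notMem : ∀ k, ql k ≠ p → ql k ∉ Smin
  /-- the base data, for every choice of the conditions at `p` -/
  base : ∀ Pc : ℕ → TW.LCond, (∀ i ≤ m, PCond p j (rhoBar59 p W hΔ 𝒪) (Pc i)
      (fun M ↦ (p ∣ N0 → p ∣ M) ∧ (p ∣ M → p ∣ lvN N0 ql i))) →
    ChainBase p j (rhoBar59 p W hΔ 𝒪) S0 (fun ℓ ↦ ((W.apOfModel ℓ : ℤ) : 𝒪)) N0 Smin ql Pc F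
  F_W : MvPolynomial.eval (fun ℓ ↦ ((W.apOfModel ℓ : ℤ) : 𝒪)) F ≠ 0

/-- A contradiction from the setup, under a hypothesis `Q` on `p`, the curve and `N0`. -/
def CaseStmt (Q : ℕ → WeierstrassCurve ℤ → ℕ → Prop) : Prop :=
  ∀ (p : ℕ) [Fact p.Prime] (W : WeierstrassCurve ℤ) (H : Hyp59 p W) (N0 : ℕ) (𝒪 : Type)
    [CommRing 𝒪] [IsDomain 𝒪] [IsDiscreteValuationRing 𝒪] [IsAdicComplete (maximalIdeal 𝒪) 𝒪]
    [Finite (ResidueField 𝒪)] [CharZero 𝒪] [Algebra (ZMod p) (ResidueField 𝒪)] (j : 𝒪 →+* ℂ)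
    (S0 Smin : Finset ℕ) (m : ℕ) (ql : Fin m → ℕ) (F : MvPolynomial ℕ 𝒪),
    Setup59 p W H.Δ_ne N0 j S0 Smin ql F → Q p W N0 → False

/-- the flat case: `W` has good reduction at `p` -/
def CaseFlat : Prop := CaseStmt fun p W _ ↦ ¬ (p : ℤ) ∣ W.Δ

/-- the strict case: `p ∣ N0` -/
def CaseStrict : Prop := CaseStmt fun p _ N0 ↦ p ∣ N0

/-- the peu ramifie case: `W` has multiplicative reduction at `p`, and `p` does not divide `N0`;
then `p = ql k` for some `k` -/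
def CasePeu : Prop := CaseStmt fun p W N0 ↦ ¬ p ∣ N0 ∧ (p : ℤ) ∣ W.Δ

end Fermat.Agent.LL
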