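import Fermat.Agent.LL.PtExists

set_option autoImplicit false

/-!
# Taylor--Wiles primes cannot divide the level exactly once
-/

open IsLocalRing Polynomial

namespace Fermat.Agent.LL

local notation "Γℚ" => (AlgebraicClosure ℚ ≃ₐ[ℚ] AlgebraicClosure ℚ)

/-- distinct Frobenius eigenvalues at `q` -/
def DistAt {k : Type} [Field k] (ρbar : ResidualGaloisRep k) (q : ℕ) : Prop :=
  ∀ P : ValuationSubring (AlgebraicClosure ℚ), P.LiesOverPrime q →
      ∀ σ : Γℚ, P.IsFrobeniusAt σ q → ∃ α β : k, α ≠ β ∧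
        LinearMap.charpoly (ρbar.ρ σ) = (X - C α) * (X - C β)

theorem charpoly_of_isEquiv {k : Type} [Field k] {ρ ρ' : ResidualGaloisRep k} (e : ρ.IsEquiv ρ')
    (σ : Γℚ) : LinearMap.charpoly (ρ.ρ σ) = LinearMap.charpoly (ρ'.ρ σ) := by
  obtain ⟨e⟩ := e
  rw [← LinearEquiv.charpoly_conj e.toLinearEquiv]
  congr 1
  ext x
  simp [LinearEquiv.conj_apply, e.map_apply]

/-- the charpoly of the reduction of a point -/
theorem Pt.charpoly_map {𝒪 : Type} [CommRing 𝒪] [IsLocalRing 𝒪] {j : 𝒪 →+* ℂ}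
    {ρbar : ResidualGaloisRep (ResidueField 𝒪)} {S : Finset ℕ} {t : ℕ → ℂ} (P : Pt j ρbar S t)
    (σ : Γℚ) : (LinearMap.charpoly (P.ρ.ρ σ)).map (residue P.R) =
      (LinearMap.charpoly (ρbar.ρ σ)).map (ResidueField.map (algebraMap 𝒪 P.R)) := by
  rw [← charpoly_residual, ← charpoly_baseChangeAlong, charpoly_of_isEquiv P.residual]

theorem not_exactly_dvd {𝒪 : Type} [CommRing 𝒪] [IsLocalRing 𝒪] {j : 𝒪 →+* ℂ}
    {ρbar : ResidualGaloisRep (ResidueField 𝒪)} {S : Finset ℕ} {t : ℕ → ℂ} (P : Pt j ρbar S t)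
    {p M q : ℕ} (hP : NFProps p M P.ρ) (hp𝒪 : (p : 𝒪) ∈ maximalIdeal 𝒪) (hq : q.Prime)
    (hqp : q ≠ p) (hq1 : p ∣ q - 1) (hd : DistAt ρbar q) (h1 : q ∣ M) (h2 : ¬ q ^ 2 ∣ M) :
    False := by
  obtain ⟨A, hA⟩ := Fermat.Agent.Frob.exists_liesOverPrime (AlgebraicClosure ℚ) hq
  obtain ⟨σ, hσ⟩ := Fermat.Agent.Frob.exists_isFrobeniusAt A hq hA
  obtain ⟨α, β, hαβ, hch⟩ := hd A hA σ hσ
  have h3 := P.charpoly_map σ
  have hφ := (ResidueField.map (algebraMap 𝒪 P.R)).injective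
  have hne : ResidueField.map (algebraMap 𝒪 P.R) α ≠ ResidueField.map (algebraMap 𝒪 P.R) β :=
    fun h ↦ hαβ (hφ h)
  set α' := ResidueField.map (algebraMap 𝒪 P.R) α with hα'
  set β' := ResidueField.map (algebraMap 𝒪 P.R) β with hβ'
  have hpR : (p : P.R) ∈ maximalIdeal P.R := by
    have h := map_nonunit (algebraMap 𝒪 P.R) _ hp𝒪
    rwa [map_natCast] at h
  have hqR : (residue P.R) (q : P.R) = 1 := by
    obtain ⟨m, hm⟩ := hq1
    have h4 : q = p * m + 1 := by have := hq.one_le; omega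
    rw [h4]
    push_cast
    rw [map_add, map_one, map_mul, (residue_eq_zero_iff _).2 hpR, zero_mul, zero_add]
  rw [hch] at h3
  have e1 : ((X - C α) * (X - C β) : (ResidueField 𝒪)[X]).map
      (ResidueField.map (algebraMap 𝒪 P.R)) = X ^ 2 - C (α' + β') * X + C (α' * β') := by
    simp only [Polynomial.map_mul, Polynomial.map_sub, map_X, map_C, ← hα', ← hβ', C_add, C_mul]
    ring
  rw [e1] at h3
  have key : ∀ s : ResidueField P.R, s ^ 2 = 4 → (X ^ 2 - C s * X + C 1 : (ResidueField P.R)[X]) =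
      X ^ 2 - C (α' + β') * X + C (α' * β') → False := by
    intro s hs h
    have c1 := congrArg (fun f ↦ Polynomial.coeff f 1) h
    have c0 := congrArg (fun f ↦ Polynomial.coeff f 0) h
    simp only [coeff_add, coeff_sub, coeff_X_pow, coeff_C_mul, coeff_X_one, coeff_C,
      coeff_X_zero] at c1 c0
    norm_num at c1 c0
    apply hne
    have h5 : (α' - β') ^ 2 = 0 := by
      have h6 : (α' - β') ^ 2 = (α' + β') ^ 2 - 4 * (α' * β') := by ring
      rw [h6, ← c0, mul_one]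
      have h7 : α' + β' = s := by
        linear_combination c1
      rw [h7, hs, sub_self]
    exact sub_eq_zero.1 (pow_eq_zero_iff (two_ne_zero)|>.1 h5)
  have hq2 : (residue P.R) ((q : P.R) + 1) = 1 + 1 := by rw [map_add, hqR, map_one]
  rcases (hP.st q hq hqp h1 h2).2 A hA σ hσ with h4 | h4
  · rw [h4] at h3
    refine key (1 + 1) (by norm_num) ?_
    rw [← h3]
    simp only [Polynomial.map_add, Polynomial.map_sub, Polynomial.map_pow, Polynomial.map_mul,
      map_X, map_C, hqR, hq2]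
  · rw [h4] at h3
    refine key (-(1 + 1)) (by norm_num) ?_
    rw [← h3]
    simp only [Polynomial.map_add, Polynomial.map_pow, Polynomial.map_mul,
      map_X, map_C, hqR, hq2]
    rw [C_neg]
    ring

end Fermat.Agent.LL
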