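import Fermat.Agent.LL.LevelPt
import Fermat.Agent.LL.Excl
import Fermat.Agent.TWLow.Main

set_option autoImplicit false
set_option linter.unusedSectionVars false

/-!
# Points at the trivial character, and minimality
-/

open CongruenceSubgroup Fermat.Agent.Top IsLocalRing Fermat.Agent.TWMod
open scoped MatrixGroups TensorProduct

namespace Fermat.Agent.LL

theorem cond_eq_one {F : Finset ℕ} {z : ℕ → ℂ} (hz : ∀ q ∈ F, z q = 1) : cond F z = 1 := by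
  classical
  rw [cond, Finset.prod_eq_one]
  intro q hq
  rw [Finset.mem_filter] at hq
  exact absurd (hz q hq.1) hq.2

theorem chz_erase {R : Type} [CommRing R] {N' l : ℕ} {F : Finset ℕ} {z : ℕ → R} (hF : ∀ q ∈ F, q ∣ N' * l)
    (hF' : ∀ q ∈ F.erase l, q ∣ N') (hl : l.Prime) (hz : z l = 1) {u : ℕ}
    (hu : Nat.Coprime u (N' * l)) :
    chz (N' * l) F z (u : ZMod (N' * l)) = chz N' (F.erase l) z (u : ZMod N') := by
  have hu' : Nat.Coprime u N' := hu.coprime_dvd_right (dvd_mul_right N' l)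
  rw [chz_apply hF hu, chz_apply hF' hu']
  by_cases hlF : l ∈ F
  · rw [← Finset.mul_prod_erase F _ hlF]
    obtain ⟨k, hk⟩ := chq_unit hl (isUnit_natCast_of_dvd hu (dvd_mul_left l N'))
    rw [hk _ (by rw [hz, one_pow]), hz, one_pow, one_mul]
  · rw [Finset.erase_eq_of_notMem hlF]

section

variable {p : ℕ} {𝒪 : Type} [CommRing 𝒪] [IsDomain 𝒪] [IsDiscreteValuationRing 𝒪]
    [IsAdicComplete (maximalIdeal 𝒪) 𝒪] [Finite (ResidueField 𝒪)] [CharZero 𝒪] {j : 𝒪 →+* ℂ}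
    {ρbar : ResidualGaloisRep (ResidueField 𝒪)} {S0 : Finset ℕ} {b : ℕ → 𝒪}
    {r : ℕ} {av : Fin r → ℕ}
    {G : GrpRing 𝒪 p av} {S : Finset ℕ}

/-- congruence of a system given by a point of the Hecke algebra -/
theorem CongTo.congr {j : 𝒪 →+* ℂ} {t t' : ℕ → ℂ} (h : CongTo j b S t)
    (htt : ∀ ℓ : ℕ, ℓ.Prime → ℓ ∉ S → t ℓ = t' ℓ) : CongTo j b S t' := by
  obtain ⟨A, h1, h2, h3, h4, h5, φ, s, hφ, hs⟩ := h
  exact ⟨A, h1, h2, h3, h4, h5, φ, s, hφ, fun ℓ hℓ hℓS ↦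
    ⟨(hs ℓ hℓ hℓS).1, (hs ℓ hℓ hℓS).2.trans (htt ℓ hℓ hℓS)⟩⟩

section Main

variable {N : ℕ} {F : Finset ℕ} {z : ℕ → G.Λ}
  {χ₁ χ₂ : DirichletCharacter G.Λ N} {E : MvPolynomial (Pr (↑S : Set ℕ)) G.Λ}

/-- If the local component is nonzero at one point, it is nonzero at every point. -/
theorem exists_MP_ne_zero [NeZero N] (L : Lev G S N F z) (C : Ctx p j ρbar S0 b)
    (hE : IsLoc χ₁ χ₂ ↑S (aL G S b) E)
    (hχ : chz N F z ∈ ({χ₁, χ₂} : Set (DirichletCharacter G.Λ N)))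
    {ψ ψ₀ : G.Λ →+* ℂ} {x : H1 (kap ((chz N F z).ringHomComp ψ)) (PtMod ψ)}
    (hx : x ∈ MP ψ (chz N F z) ↑S E) (hx0 : x ≠ 0) :
    ∃ y ∈ MP ψ₀ (chz N F z) ↑S E, y ≠ 0 := by
  have hfree := L.free C hE hχ
  have hfin := finite_MM (χ := chz N F z) hE
  let B := Module.Free.chooseBasis G.Λ (MM G.Λ (chz N F z) ↑S E)
  obtain ⟨b₁, -⟩ := exists_basis_pt ψ hE.toIsProj hE.two hE.three hχ B
  obtain ⟨b₀, -⟩ := exists_basis_pt ψ₀ hE.toIsProj hE.two hE.three hχ B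
  have hne : Nonempty (Module.Free.ChooseBasisIndex G.Λ (MM G.Λ (chz N F z) ↑S E)) := by
    by_contra h
    rw [not_nonempty_iff] at h
    have h1 : (⟨x, hx⟩ : MP ψ (chz N F z) ↑S E) = 0 := b₁.repr.injective (Subsingleton.elim _ _)
    exact hx0 (congrArg Subtype.val h1)
  obtain ⟨i⟩ := hne
  exact ⟨(b₀ i : MP ψ₀ (chz N F z) ↑S E), (b₀ i).2, fun h ↦ b₀.ne_zero i (Subtype.ext h)⟩

/-- eigenvectors -/
theorem exists_eigP [NeZero N] (L : Lev G S N F z) (C : Ctx p j ρbar S0 b) (hSS : SpecSS)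
    (hE : IsLoc χ₁ χ₂ ↑S (aL G S b) E)
    (hχ : chz N F z ∈ ({χ₁, χ₂} : Set (DirichletCharacter G.Λ N)))
    {ψ : G.Λ →+* ℂ} {y : H1 (kap ((chz N F z).ringHomComp ψ)) (PtMod ψ)}
    (hy : y ∈ MP ψ (chz N F z) ↑S E) (hy0 : y ≠ 0) :
    ∃ x ∈ MP ψ (chz N F z) ↑S E, x ≠ 0 ∧ ∃ α, IsEigP ψ (chz N F z) ↑S α x := by
  have h := L.ss (ψ := ψ) C hSS hE hχ
  by_contra hcon
  push Not at hcon
  have h1 : MP ψ (chz N F z) ↑S E = ⊥ := by
    rw [h, Submodule.span_eq_bot]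
    rintro x ⟨hx, α, hα⟩
    by_contra hx0
    exact hcon x hx hx0 α hα
  rw [h1] at hy
  exact hy0 hy

open Classical in
/-- extension of a system to all integers -/
noncomputable def extS {S : Finset ℕ} (α : Pr (↑S : Set ℕ) → ℂ) (ℓ : ℕ) : ℂ :=
  if h : ℓ.Prime ∧ ℓ ∉ (↑S : Set ℕ) then α ⟨ℓ, h⟩ else 0

theorem extS_of {α : Pr (↑S : Set ℕ) → ℂ} {ℓ : ℕ} (h : ℓ.Prime ∧ ℓ ∉ (↑S : Set ℕ)) :
    extS α ℓ = α ⟨ℓ, h⟩ := dif_pos h

/-- A newform at the trivial character. -/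
theorem exists_newform_zero [NeZero N] (L : Lev G S N F z) (C : Ctx p j ρbar S0 b) (I : Inputs)
    (hS0 : S0 ⊆ S) (hSS : SpecSS) (hNew : SpecNew) (hE : IsLoc χ₁ χ₂ ↑S (aL G S b) E)
    (hχ : chz N F z ∈ ({χ₁, χ₂} : Set (DirichletCharacter G.Λ N)))
    {ψ ψ₀ : G.Λ →+* ℂ} (hψ₀ : ψ₀.comp (algebraMap 𝒪 G.Λ) = j) (hz : ∀ q ∈ F, ψ₀ (z q) = 1)
    {x : H1 (kap ((chz N F z).ringHomComp ψ)) (PtMod ψ)}
    (hx : x ∈ MP ψ (chz N F z) ↑S E) (hx0 : x ≠ 0) :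
    ∃ (M : ℕ) (_ : NeZero M) (g : CuspForm (Gamma0 M) 2), g.IsNewform ∧ M ∣ N ∧
      CongTo j b S (fun ℓ ↦ ModularFormClass.qCoeff g ℓ) ∧
      ∀ q : ℕ, q.Prime → q ≠ p → p ∣ q - 1 → DistAt ρbar q → ¬ q ∣ M := by
  obtain ⟨y, hy, hy0⟩ := exists_MP_ne_zero (ψ₀ := ψ₀) L C hE hχ hx hx0
  obtain ⟨v, hv, hv0, α, hα⟩ := exists_eigP L C hSS hE hχ hy hy0
  have hc := congTo_of_eig hE hχ hψ₀ hα hv0 hv (t := extS α) (fun ℓ h ↦ extS_of h)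
  obtain ⟨M, hM, g, hg, hMd, -, hgt, P, hP⟩ := L.point C I hS0 hNew hE hχ hψ₀ hα hv0 hv
    (t := extS α) (fun ℓ h ↦ extS_of h)
  rw [cond_eq_one hz, mul_one] at hMd
  refine ⟨M, hM, g, hg, hMd, hc.congr fun ℓ h1 h2 ↦ (hgt ℓ h1 h2).symm, ?_⟩
  intro q hq hqp hq1 hd hqM
  exact not_exactly_dvd P hP C.mem hq hqp hq1 hd hqM fun h ↦
    (Nat.squarefree_iff_prime_squarefree.1 (L.sqf.squarefree_of_dvd hMd)) q hq (by rwa [← sq])

end Main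

theorem three_of_mul {Λ : Type} [CommRing Λ] {N' l : ℕ} (h : Three Λ (N' * l)) (hl : l.Prime)
    (h3 : IsUnit (3 : Λ) ∨ l % 3 ≠ 2) : Three Λ N' := by
  rcases h with h | ⟨r, hr, hr3, hrN⟩
  · exact Or.inl h
  · rcases h3 with h3 | h3
    · exact Or.inl h3
    · rcases hr.dvd_mul.1 hrN with h | h
      · exact Or.inr ⟨r, hr, hr3, h⟩
      · rw [(Nat.prime_dvd_prime_iff_eq hr hl).1 h] at hr3
        exact absurd hr3 h3

/-- lowering the level of `Lev` -/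
theorem Lev.erase {N' l : ℕ} {F : Finset ℕ} {z : ℕ → G.Λ} (L : Lev G S (N' * l) F z)
    (hl : l.Prime) (h3 : IsUnit (3 : G.Λ) ∨ l % 3 ≠ 2) : Lev G S N' (F.erase l) z where
  sqf := L.sqf.squarefree_of_dvd (dvd_mul_right N' l)
  mem q hq hqN := L.mem q hq (hqN.mul_right l)
  three := three_of_mul L.three hl h3
  dvd q hq := by
    have h1 := L.dvd q (Finset.mem_of_mem_erase hq)
    rcases (L.prime q (Finset.mem_of_mem_erase hq)).dvd_mul.1 h1 with h | h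
    · exact h
    · exact absurd ((Nat.prime_dvd_prime_iff_eq (L.prime q (Finset.mem_of_mem_erase hq)) hl).1 h)
        (Finset.ne_of_mem_erase hq)
  prime q hq := L.prime q (Finset.mem_of_mem_erase hq)
  one q hq := L.one q (Finset.mem_of_mem_erase hq)
  pow q hq := L.pow q (Finset.mem_of_mem_erase hq)
  res q hq := L.res q (Finset.mem_of_mem_erase hq)

/-- **Minimality.** A point with trivial character at `l` whose newform has level prime to `l`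
gives a newform of level dividing `N / l`. -/
theorem exists_newform_lower {N : ℕ} [NeZero N] {F : Finset ℕ} {z : ℕ → G.Λ}
    {χ₁ χ₂ : DirichletCharacter G.Λ N} {E : MvPolynomial (Pr (↑S : Set ℕ)) G.Λ}
    (L : Lev G S N F z) (C : Ctx p j ρbar S0 b) (I : Inputs)
    (hS0 : S0 ⊆ S) (hSS : SpecSS) (hNew : SpecNew) (hLow : SpecLower)
    (hE : IsLoc χ₁ χ₂ ↑S (aL G S b) E)
    (hχ : chz N F z ∈ ({χ₁, χ₂} : Set (DirichletCharacter G.Λ N)))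
    {ψ ψ₀ : G.Λ →+* ℂ}
    (hψ₀ : ψ₀.comp (algebraMap 𝒪 G.Λ) = j) (hz : ∀ q ∈ F, ψ₀ (z q) = 1)
    {α : Pr (↑S : Set ℕ) → ℂ} {x : H1 (kap ((chz N F z).ringHomComp ψ)) (PtMod ψ)}
    (hx : IsEigP ψ (chz N F z) ↑S α x) (hx0 : x ≠ 0)
    (hxM : x ∈ MP ψ (chz N F z) ↑S E) {l : ℕ} (hl : l.Prime)
    (h3 : IsUnit (3 : G.Λ) ∨ l % 3 ≠ 2) (hlN : l ∣ N) (hzl : z l = 1)
    {M : ℕ} [NeZero M] {g : CuspForm (Gamma0 M) 2} (hg : g.IsNewform)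
    (hgt : ∀ ℓ (h : ℓ.Prime ∧ ℓ ∉ (↑S : Set ℕ)), ModularFormClass.qCoeff g ℓ = α ⟨ℓ, h⟩)
    (hlM : ¬ l ∣ M) :
    ∃ (M' : ℕ) (_ : NeZero M') (g' : CuspForm (Gamma0 M') 2), g'.IsNewform ∧ M' * l ∣ N ∧
      CongTo j b S (fun ℓ ↦ ModularFormClass.qCoeff g' ℓ) ∧
      ∀ q : ℕ, q.Prime → q ≠ p → p ∣ q - 1 → DistAt ρbar q → ¬ q ∣ M' := by
  classical
  obtain ⟨N', hN'⟩ : ∃ N', N = N' * l := by
    obtain ⟨c, hc⟩ := hlN
    exact ⟨c, by rw [hc, mul_comm]⟩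
  subst hN'
  have hN'0 : NeZero N' := ⟨fun h ↦ NeZero.ne (N' * l) (by rw [h, zero_mul])⟩
  have L' := L.erase hl h3
  have hlN' : ¬ l ∣ N' := by
    intro h
    have h1 := Nat.squarefree_iff_prime_squarefree.1 L.sqf l hl
    exact h1 (Nat.mul_dvd_mul h dvd_rfl)
  have hT : TwHyp (N' * l) (cond F (fun q ↦ ψ (z q))) ((chz (N' * l) F z).ringHomComp ψ) := by
    rw [L.comp]
    exact L.twHyp C
  have hNE := nonEis_of_eig C hE hχ hx hx0 hxM (t := extS α) (fun ℓ h ↦ extS_of h)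
  obtain ⟨y, hy0, hy⟩ := hLow N' l _ ((chz (N' * l) F z).ringHomComp ψ)
    ((chz N' (F.erase l) z).ringHomComp ψ) hT hl hlN' (fun u hu ↦ by
      rw [MulChar.ringHomComp_apply, MulChar.ringHomComp_apply,
        chz_erase L.dvd L'.dvd hl hzl hu]) S L.mem (extS α) hNE x hx0 (fun ℓ hℓ hℓS ↦ by
      have h : ℓ.Prime ∧ ℓ ∉ (↑S : Set ℕ) := ⟨hℓ, fun h ↦ hℓS (Finset.mem_coe.1 h)⟩
      rw [extS_of h]
      exact hx ⟨ℓ, h⟩) M inferInstance g hg (fun ℓ hℓ hℓS ↦ by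
      have h : ℓ.Prime ∧ ℓ ∉ (↑S : Set ℕ) := ⟨hℓ, fun h ↦ hℓS (Finset.mem_coe.1 h)⟩
      rw [extS_of h]
      exact hgt ℓ h) hlM
  have hyP : IsEigP ψ (chz N' (F.erase l) z) ↑S α y := by
    intro ℓ
    have h1 := hy ℓ.1 ℓ.2.1 (fun h ↦ ℓ.2.2 (Finset.mem_coe.2 h))
    exact h1.trans (congrArg (· • y) (extS_of ℓ.2))
  -- the local Hecke algebra at level `N' * l`
  have hloc := isLocalRing_TT hE
  have hlocΛ := isLocalHom_algebraMap_TT hE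
  have hψ' : (ptT hE hχ hx hx0 hxM).comp (algebraMap G.Λ (TT χ₁ χ₂ ↑S E)) = ψ := by
    ext u
    exact ptT_algebraMap hE hχ hx hx0 hxM u
  have ht : ∀ ℓ : Pr (↑S : Set ℕ), residue (TT χ₁ χ₂ ↑S E)
      (Ideal.Quotient.mk _ (MvPolynomial.X ℓ)) =
      ResidueField.map (algebraMap G.Λ (TT χ₁ χ₂ ↑S E)) (aL G S b ℓ) := by
    intro ℓ
    rw [aL, ResidueField.map_residue, ← sub_eq_zero, ← map_sub, residue_eq_zero_iff,
      mem_maximalIdeal_TT hE, map_sub, resT_mk, resE_X, resT_algebraMap, aL, sub_self]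
  have hα : ∀ ℓ : Pr (↑S : Set ℕ), ptT hE hχ hx hx0 hxM
      (Ideal.Quotient.mk _ (MvPolynomial.X ℓ)) = α ℓ := by
    intro ℓ
    rw [ptT_mk, MvPolynomial.eval₂_X]
  have hocc := occ_of_eig hψ' (S := (↑S : Set ℕ)) (a := aL G S b) ht
    (χ := chz N' (F.erase l) z) hα hE.two L'.three hyP hy0
  obtain ⟨E', hE'⟩ := exists_isLoc (N := N') (S := S) C L'.three (χ₁ := chz N' (F.erase l) z)
    (χ₂ := chz N' (F.erase l) z) (fun P h _ ↦ hocc P h)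
  have hyM := mem_MP_of_eig hψ' ht hα hE' (Or.inl rfl) hyP hy0
  obtain ⟨M', hM', g', h1, h2, h3, h4⟩ := exists_newform_zero L' C I hS0 hSS hNew hE'
    (Or.inl rfl) hψ₀ (fun q hq ↦ hz q (Finset.mem_of_mem_erase hq)) hyM hy0
  exact ⟨M', hM', g', h1, Nat.mul_dvd_mul h2 dvd_rfl, h3, h4⟩

end

end Fermat.Agent.LL
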