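import Fermat.Agent.LL.LevelPt
import Fermat.Agent.TWLow.Main

set_option autoImplicit false
set_option linter.unusedSectionVars false

/-!
# Bounding the rank of the local component
-/

open CongruenceSubgroup Fermat.Agent.Top IsLocalRing Fermat.Agent.TWMod MvPolynomial
open scoped MatrixGroups

namespace Fermat.Agent.LL

section Sys

variable {K V V' σ : Type} [Field K] [AddCommGroup V] [Module K V] [AddCommGroup V'] [Module K V']

/-- product of commuting operators kills a vector killed by one factor -/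
theorem exists_sys (T : MvPolynomial σ K →ₐ[K] Module.End K V)
    (T' : MvPolynomial σ K →ₐ[K] Module.End K V') (W : Submodule K V) [Module.Finite K W]
    (hW : W = Submodule.span K {x | x ∈ W ∧ ∃ α : σ → K, ∀ i, T (X i) x = α i • x})
    {y : V'} (hy : y ≠ 0) {β : σ → K} (hyβ : ∀ i, T' (X i) y = β i • y)
    (hann : ∀ P, (∀ x ∈ W, T P x = 0) → T' P y = 0) :
    ∃ x ∈ W, x ≠ 0 ∧ ∀ i, T (X i) x = β i • x := by
  classical
  obtain ⟨ι, b, hb⟩ := exists_eig_basis W (fun x ↦ ∃ α : σ → K, ∀ i, T (X i) x = α i • x) hW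
  have hfin : Finite ι := Module.Finite.finite_basis b
  have := Fintype.ofFinite ι
  choose α hα using hb
  by_contra hcon
  push Not at hcon
  have h1 : ∀ c, ∃ i, α c i ≠ β i := by
    intro c
    by_contra h
    push Not at h
    obtain ⟨i, hi⟩ := hcon (b c) (b c).2 (fun h0 ↦ b.ne_zero c (Subtype.ext h0))
    exact hi (by rw [hα c i, h i])
  choose i hi using h1
  let P : MvPolynomial σ K := ∏ c, (X (i c) - C (α c (i c)))
  have hkill : ∀ x ∈ W, T P x = 0 := by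
    intro x hx
    have h2 : ∀ c, T P (b c) = 0 := by
      intro c
      have e : P = (∏ c' ∈ Finset.univ.erase c, (X (i c') - C (α c' (i c')))) *
          (X (i c) - C (α c (i c))) := (Finset.prod_erase_mul _ _ (Finset.mem_univ c)).symm
      rw [e, map_mul, Module.End.mul_apply, map_sub, LinearMap.sub_apply, hα,
        ← MvPolynomial.algebraMap_eq, AlgHom.commutes, Module.algebraMap_end_apply, sub_self,
        map_zero]
    have h3 : x = ((∑ c, b.repr ⟨x, hx⟩ c • b c : W) : V) := by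
      rw [b.sum_repr]
    rw [h3, Submodule.coe_sum, map_sum]
    refine Finset.sum_eq_zero fun c _ ↦ ?_
    rw [Submodule.coe_smul, map_smul, h2, smul_zero]
  have h4 := hann P hkill
  have h5 : T' P y = (∏ c, (β (i c) - α c (i c))) • y := by
    change T' (∏ c, (X (i c) - C (α c (i c)))) y = _
    have key : ∀ s : Finset ι, T' (∏ c ∈ s, (X (i c) - C (α c (i c)))) y =
        (∏ c ∈ s, (β (i c) - α c (i c))) • y := by
      intro s
      induction s using Finset.induction_on with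
      | empty => simp
      | insert c s hc ih =>
        rw [Finset.prod_insert hc, Finset.prod_insert hc, map_mul, Module.End.mul_apply, ih,
          map_smul, map_sub, LinearMap.sub_apply, hyβ, ← MvPolynomial.algebraMap_eq,
          AlgHom.commutes, Module.algebraMap_end_apply, ← sub_smul, smul_smul, mul_comm]
    exact key Finset.univ
  rw [h5] at h4
  rcases smul_eq_zero.1 h4 with h | h
  · obtain ⟨c, -, hc⟩ := Finset.prod_eq_zero_iff.1 h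
    exact hi c (sub_eq_zero.1 hc).symm
  · exact hy h

end Sys

/-- The trivial character satisfies the twisting hypothesis. -/
theorem twHyp_one {N : ℕ} [NeZero N] {χ : DirichletCharacter ℂ N} (h : χ = 1) : TwHyp N 1 χ := by
  refine ⟨Nat.pos_of_ne_zero (NeZero.ne N), one_dvd N, squarefree_one, Nat.coprime_one_left _,
    Nat.coprime_one_left _, ?_, ?_⟩
  · exact (DirichletCharacter.factorsThrough_one_iff χ).2 h
  · intro q hq hq1
    exact absurd (Nat.dvd_one.1 hq1) hq.ne_one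

/-- A set of Hecke relations forcing eigensystems to be attached to newforms of level prime to `Q`. -/
structure SysJ (S Q : Finset ℕ) (J : Set (MvPolynomial (Pr (↑S : Set ℕ)) ℂ)) : Prop where
  inv : ∀ m : ℕ, 0 < m → ∃ ℓ : Pr (↑S : Set ℕ), ℓ.1 ≡ 1 [MOD m] ∧
    ∃ P, P * (X ℓ - C (1 + (ℓ.1 : ℂ))) - 1 ∈ J
  good : ∀ β : Pr (↑S : Set ℕ) → ℂ, (∀ P ∈ J, eval β P = 0) → ∀ t : ℕ → ℂ,
    (∀ ℓ : Pr (↑S : Set ℕ), t ℓ.1 = β ℓ) → NonEis S t ∧ ∃ (M : ℕ) (_ : NeZero M)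
      (g : CuspForm (Gamma0 M) 2), g.IsNewform ∧
      (∀ ℓ : ℕ, ℓ.Prime → ℓ ∉ S → ModularFormClass.qCoeff g ℓ = t ℓ) ∧ ∀ q ∈ Q, ¬ q ∣ M

theorem ev_eig {N : ℕ} {χ : DirichletCharacter ℂ N} {S : Set ℕ} {α : Pr S → ℂ}
    {x : H1 (kap χ) ℂ} (hx : ∀ ℓ : Pr S, hk χ ℂ ℓ.2.1 x = α ℓ • x) (P : MvPolynomial (Pr S) ℂ) :
    ev χ S ℂ P x = eval α P • x :=
  ev_eigen χ S (a := α) hx P

theorem ev_comm {N N' : ℕ} {χ : DirichletCharacter ℂ N} {χ' : DirichletCharacter ℂ N'} {S : Set ℕ}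
    (t : H1 (kap χ) ℂ →ₗ[ℂ] H1 (kap χ') ℂ)
    (ht : ∀ (ℓ : Pr S) x, t (hk χ ℂ ℓ.2.1 x) = hk χ' ℂ ℓ.2.1 (t x))
    (P : MvPolynomial (Pr S) ℂ) (x : H1 (kap χ) ℂ) :
    t (ev χ S ℂ P x) = ev χ' S ℂ P (t x) :=
  evC_natural (hkE_comm χ S ℂ) (hkE_comm χ' S ℂ) t ht P x

theorem finite_H1C {N : ℕ} [NeZero N] (χ : DirichletCharacter ℂ N) :
    Module.Finite ℂ (H1 (kap χ) ℂ) :=
  finite_H1 (isGood_kap χ (IsUnit.mk0 _ two_ne_zero) (Or.inl (IsUnit.mk0 _ three_ne_zero))) ℂ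

theorem rank_bound (hSS : SpecSS) (hLow : TWLow.SpecLowerStrong) {S Q : Finset ℕ}
    {J : Set (MvPolynomial (Pr (↑S : Set ℕ)) ℂ)} (hJ : SysJ S Q J) {N₀ : ℕ} [NeZero N₀]
    (hN₀ : ∀ q : ℕ, q.Prime → q ∣ N₀ → q ∈ S) (hQS : Q ⊆ S) (hQ : ∀ q ∈ Q, q.Prime)
    (hQN : ∀ q ∈ Q, ¬ q ∣ N₀) (Q' : Finset ℕ) (hQ' : Q' ⊆ Q) :
    ∀ (n : ℕ) [NeZero n], n = N₀ * ∏ q ∈ Q', q → ∀ (χ : DirichletCharacter ℂ n), χ = 1 →
    ∀ W : Submodule ℂ (H1 (kap χ) ℂ),
      (∀ (ℓ : ℕ) (hℓ : ℓ.Prime), ℓ ∉ S → ∀ x ∈ W, hk χ ℂ hℓ x ∈ W) →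
      (∀ P ∈ J, ∀ x ∈ W, ev χ ↑S ℂ P x = 0) →
      Module.finrank ℂ W ≤ 2 ^ Q'.card *
        Module.finrank ℂ (H1 (kap (1 : DirichletCharacter ℂ N₀)) ℂ) := by
  classical
  induction Q' using Finset.induction_on with
  | empty =>
    intro n _ hn χ hχ W _ _
    rw [Finset.prod_empty, mul_one] at hn
    subst hn
    subst hχ
    rw [Finset.card_empty, pow_zero, one_mul]
    have := finite_H1C (1 : DirichletCharacter ℂ n)
    exact Submodule.finrank_le W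
  | insert q Q' hq ih =>
    intro n hn0 hn χ hχ W hWst hWJ
    have hqQ : q ∈ Q := hQ' (Finset.mem_insert_self _ _)
    have hQ'Q : Q' ⊆ Q := (Finset.subset_insert _ _).trans hQ'
    have hqp := hQ q hqQ
    rw [Finset.prod_insert hq, mul_comm q, ← mul_assoc] at hn
    obtain ⟨m, hm⟩ : ∃ m, m = N₀ * ∏ q ∈ Q', q := ⟨_, rfl⟩
    rw [← hm] at hn
    subst hn
    have hm0 : NeZero m := ⟨fun h ↦ hn0.1 (by rw [h, zero_mul])⟩
    have hqm : ¬ q ∣ m := by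
      rw [hm]
      intro h
      rcases hqp.dvd_mul.1 h with h | h
      · exact hQN q hqQ h
      · obtain ⟨q', hq', h'⟩ := (Prime.dvd_finsetProd_iff hqp.prime _).1 h
        rw [(Nat.prime_dvd_prime_iff_eq hqp (hQ q' (hQ'Q hq'))).1 h'] at hq
        exact hq hq'
    have hmS : ∀ l : ℕ, l.Prime → l ∣ m * q → l ∈ S := by
      intro l hl hd
      rcases hl.dvd_mul.1 hd with h | h
      · rw [hm] at h
        rcases hl.dvd_mul.1 h with h | h
        · exact hN₀ l hl h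
        · obtain ⟨q', hq', h'⟩ := (Prime.dvd_finsetProd_iff hl.prime _).1 h
          rw [(Nat.prime_dvd_prime_iff_eq hl (hQ q' (hQ'Q hq'))).1 h']
          exact hQS (hQ'Q hq')
      · rw [(Nat.prime_dvd_prime_iff_eq hl hqp).1 h]
        exact hQS hqQ
    have hyp : TwHyp (m * q) 1 χ := twHyp_one hχ
    obtain ⟨t₁, t₂, ht, hgood⟩ := hLow m q 1 χ 1 hyp hqp hqm (fun u hu ↦ by
      rw [hχ, MulChar.one_apply (isUnit_natCast hu),
        MulChar.one_apply (isUnit_natCast (hu.coprime_dvd_right (dvd_mul_right m q)))])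
    have hnd : ∀ ℓ : ℕ, ℓ.Prime → ℓ ∉ S → ¬ ℓ ∣ m * q := fun ℓ hℓ hℓS hd ↦ hℓS (hmS ℓ hℓ hd)
    -- Hecke polynomials commute with `t₁`, `t₂`
    have hnd' : ∀ ℓ : Pr (↑S : Set ℕ), ¬ ℓ.1 ∣ m * q := fun ℓ ↦
      hnd ℓ.1 ℓ.2.1 fun h ↦ ℓ.2.2 (Finset.mem_coe.2 h)
    have hev1 : ∀ (P : MvPolynomial (Pr (↑S : Set ℕ)) ℂ) x,
        t₁ (ev χ ↑S ℂ P x) = ev (1 : DirichletCharacter ℂ m) ↑S ℂ P (t₁ x) :=
      fun P x ↦ ev_comm t₁ (fun ℓ x ↦ (ht ℓ.1 ℓ.2.1 (hnd' ℓ) x).1) P x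
    have hev2 : ∀ (P : MvPolynomial (Pr (↑S : Set ℕ)) ℂ) x,
        t₂ (ev χ ↑S ℂ P x) = ev (1 : DirichletCharacter ℂ m) ↑S ℂ P (t₂ x) :=
      fun P x ↦ ev_comm t₂ (fun ℓ x ↦ (ht ℓ.1 ℓ.2.1 (hnd' ℓ) x).2) P x
    -- injectivity on `W`
    have hinj : ∀ x ∈ W, t₁ x = 0 → t₂ x = 0 → x = 0 := by
      let K : Submodule ℂ (H1 (kap χ) ℂ) := W ⊓ (LinearMap.ker t₁ ⊓ LinearMap.ker t₂)
      have hKst : ∀ (ℓ : ℕ) (hℓ : ℓ.Prime), ℓ ∉ S → ∀ x ∈ K, hk χ ℂ hℓ x ∈ K := by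
        rintro ℓ hℓ hℓS x ⟨hxW, hx1, hx2⟩
        rw [SetLike.mem_coe, LinearMap.mem_ker] at hx1 hx2
        have h3 := ht ℓ hℓ (hnd ℓ hℓ hℓS) x
        refine ⟨hWst ℓ hℓ hℓS x hxW, ?_, ?_⟩
        · rw [SetLike.mem_coe, LinearMap.mem_ker, h3.1, hx1, map_zero]
        · rw [SetLike.mem_coe, LinearMap.mem_ker, h3.2, hx2, map_zero]
      obtain ⟨ℓ, hℓ1, P, hP⟩ := hJ.inv (m * q * 1) (by
        rw [mul_one]
        exact Nat.pos_of_ne_zero hn0.1)
      have hspan := hSS (m * q) 1 χ hyp S hmS K hKst ⟨ℓ.1, ℓ.2.1,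
        fun h ↦ ℓ.2.2 (Finset.mem_coe.2 h), hℓ1, fun x hx he ↦ by
          have h4 := hWJ _ hP x hx.1
          have h5 : ev χ ↑S ℂ (X ℓ - C (1 + (ℓ.1 : ℂ))) x = 0 := by
            rw [map_sub, LinearMap.sub_apply, ev_C_apply, ev_X]
            exact sub_eq_zero.2 he
          rw [map_sub, map_one, map_mul, LinearMap.sub_apply, Module.End.mul_apply, h5, map_zero,
            zero_sub, neg_eq_zero] at h4
          exact h4⟩
      have hK0 : K = ⊥ := by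
        rw [hspan, Submodule.span_eq_bot]
        rintro x ⟨⟨hxW, hx1, hx2⟩, t, hxt⟩
        by_contra hx0
        have hβ : ∀ P ∈ J, eval (fun ℓ : Pr (↑S : Set ℕ) ↦ t ℓ.1) P = 0 := by
          intro P hP
          have h6 := hWJ P hP x hxW
          rw [ev_eig (α := fun ℓ ↦ t ℓ.1)
            (fun ℓ ↦ hxt ℓ.1 ℓ.2.1 fun h ↦ ℓ.2.2 (Finset.mem_coe.2 h))] at h6
          exact (smul_eq_zero.1 h6).resolve_right hx0
        obtain ⟨hNE, M, hM, g, hg, hgt, hgQ⟩ := hJ.good _ hβ t (fun _ ↦ rfl)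
        rcases hgood S hmS t hNE x hx0 hxt M hM g hg hgt (hgQ q hqQ) with h | h
        · exact h hx1
        · exact h hx2
      intro x hx h1 h2
      have : x ∈ K := ⟨hx, h1, h2⟩
      rw [hK0] at this
      exact this
    -- the image
    let W' : Submodule ℂ (H1 (kap (1 : DirichletCharacter ℂ m)) ℂ) :=
      W.map t₁ ⊔ W.map t₂
    have hW'st : ∀ (ℓ : ℕ) (hℓ : ℓ.Prime), ℓ ∉ S → ∀ x ∈ W', hk 1 ℂ hℓ x ∈ W' := by
      intro ℓ hℓ hℓS x hx
      obtain ⟨_, ⟨y, hy, rfl⟩, _, ⟨z, hz, rfl⟩, rfl⟩ := Submodule.mem_sup.1 hx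
      rw [map_add, ← (ht ℓ hℓ (hnd ℓ hℓ hℓS) y).1, ← (ht ℓ hℓ (hnd ℓ hℓ hℓS) z).2]
      exact Submodule.add_mem_sup ⟨_, hWst ℓ hℓ hℓS y hy, rfl⟩ ⟨_, hWst ℓ hℓ hℓS z hz, rfl⟩
    have hW'J : ∀ P ∈ J, ∀ x ∈ W', ev (1 : DirichletCharacter ℂ m) ↑S ℂ P x = 0 := by
      intro P hP x hx
      obtain ⟨_, ⟨y, hy, rfl⟩, _, ⟨z, hz, rfl⟩, rfl⟩ := Submodule.mem_sup.1 hx
      rw [map_add, ← hev1 P y, ← hev2 P z, hWJ P hP y hy, hWJ P hP z hz, map_zero, map_zero,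
        add_zero]
    have hdim := ih hQ'Q m hm 1 rfl W' hW'st hW'J
    have := finite_H1C (1 : DirichletCharacter ℂ m)
    have := finite_H1C χ
    -- the injection
    let φ : W →ₗ[ℂ] W' × W' :=
      { toFun := fun x ↦ (⟨t₁ x, Submodule.mem_sup_left ⟨_, x.2, rfl⟩⟩,
          ⟨t₂ x, Submodule.mem_sup_right ⟨_, x.2, rfl⟩⟩)
        map_add' := fun x y ↦ Prod.ext (Subtype.ext (map_add t₁ _ _)) (Subtype.ext (map_add t₂ _ _))
        map_smul' := fun c x ↦ Prod.ext (Subtype.ext (map_smul t₁ _ _))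
          (Subtype.ext (map_smul t₂ _ _)) }
    have hφ : Function.Injective φ := by
      rw [injective_iff_map_eq_zero]
      intro x hx
      have h1 := congrArg (fun z ↦ (z.1 : W').1) hx
      have h2 := congrArg (fun z ↦ (z.2 : W').1) hx
      exact Subtype.ext (hinj x x.2 h1 h2)
    have h7 := LinearMap.finrank_le_finrank_of_injective hφ
    rw [Module.finrank_prod] at h7
    rw [Finset.card_insert_of_notMem hq, pow_succ]
    calc Module.finrank ℂ W ≤ Module.finrank ℂ W' + Module.finrank ℂ W' := h7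
      _ = 2 * Module.finrank ℂ W' := by ring
      _ ≤ 2 * (2 ^ Q'.card * Module.finrank ℂ (H1 (kap (1 : DirichletCharacter ℂ N₀)) ℂ)) :=
        Nat.mul_le_mul_left 2 hdim
      _ = _ := by ring

end Fermat.Agent.LL
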