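import Fermat.Agent.LL.RedMod
import Fermat.Agent.LL.RankBd
import Fermat.Agent.LL.MinPt

set_option autoImplicit false
set_option linter.unusedSectionVars false

/-!
# The points of the automorphic modules: local conditions
-/

open CongruenceSubgroup Fermat.Agent.Top IsLocalRing Fermat.Agent.TWMod
open scoped MatrixGroups TensorProduct

namespace Fermat.Agent.LL

local notation "Γℚ" => (AlgebraicClosure ℚ ≃ₐ[ℚ] AlgebraicClosure ℚ)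

theorem unip_of_unr {R : Type} [CommRing R] [IsLocalRing R] {ρ : GaloisRepAdic R} {q : ℕ}
    (h : ρ.IsUnramifiedAt q) : ρ.IsUnipotentOnInertiaAt q := by
  intro P hP σ hσ
  rw [h P hP σ hσ, LinearMap.charpoly_one, ρ.finrank_eq]

section Arith

variable {N c M q : ℕ}

theorem factorization_eq_two (hN : Squarefree N) (hc : Squarefree c) (hM : M ∣ N * c)
    (hq : q.Prime) (hqM : q ^ 2 ∣ M) : M.factorization q = 2 := by
  have hN0 := hN.ne_zero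
  have hc0 := hc.ne_zero
  have hNc : N * c ≠ 0 := mul_ne_zero hN0 hc0
  have hM0 : M ≠ 0 := ne_zero_of_dvd_ne_zero hNc hM
  apply le_antisymm
  · have h1 := (Nat.factorization_le_iff_dvd hM0 hNc).2 hM q
    rw [Nat.factorization_mul hN0 hc0, Finsupp.add_apply] at h1
    have h2 := hN.natFactorization_le_one q
    have h3 := hc.natFactorization_le_one q
    omega
  · exact (hq.pow_dvd_iff_le_factorization hM0).1 hqM

theorem not_sq_dvd (hN : Squarefree N) (hM : M ∣ N * c) (hq : q.Prime) (hqc : ¬ q ∣ c) :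
    ¬ q ^ 2 ∣ M := by
  intro h
  have h1 : q ^ 2 ∣ N := (Nat.Coprime.pow_left 2
    ((Nat.Prime.coprime_iff_not_dvd hq).2 hqc)).dvd_of_dvd_mul_right (h.trans hM)
  rw [sq] at h1
  exact Nat.squarefree_iff_prime_squarefree.1 hN q hq h1

end Arith

section

variable {p : ℕ} {𝒪 : Type} [CommRing 𝒪] [IsDomain 𝒪] [IsDiscreteValuationRing 𝒪]
    [IsAdicComplete (maximalIdeal 𝒪) 𝒪] [Finite (ResidueField 𝒪)] [CharZero 𝒪] {j : 𝒪 →+* ℂ}
    {ρbar : ResidualGaloisRep (ResidueField 𝒪)} {S0 : Finset ℕ} {b : ℕ → 𝒪}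
    {r : ℕ} {av : Fin r → ℕ}
    {G : GrpRing 𝒪 p av} {S : Finset ℕ} {N : ℕ} {F : Finset ℕ} {z : ℕ → G.Λ}
  {χ₁ χ₂ : DirichletCharacter G.Λ N} {E : MvPolynomial (Pr (↑S : Set ℕ)) G.Λ}

/-- the data of the point attached to an eigenvector -/
theorem exists_autPt [NeZero N] (L : Lev G S N F z) (C : Ctx p j ρbar S0 b) (I : Inputs)
    (hS0 : S0 ⊆ S) (hNew : SpecNew) (hE : IsLoc χ₁ χ₂ ↑S (aL G S b) E)
    (hχ : chz N F z ∈ ({χ₁, χ₂} : Set (DirichletCharacter G.Λ N)))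
    (D : ∀ ψ : Pts G j, EigData G (chz N F z) S E ψ.1) (ψ : Pts G j) (c : (D ψ).ι) :
    ∃ (M : ℕ) (_ : NeZero M) (g : CuspForm (Gamma0 M) 2), g.IsNewform ∧
      M ∣ N * cond F (fun q ↦ ψ.1 (z q)) ∧
      (∀ q : ℕ, q.Prime → q ∣ cond F (fun q ↦ ψ.1 (z q)) → q ^ 2 ∣ M) ∧
      (∀ ℓ : ℕ, ℓ.Prime → ℓ ∉ S → ModularFormClass.qCoeff g ℓ = evF D ψ c ℓ) ∧
      ∃ P : Pt j ρbar S (evF D ψ c), NFProps p M P.ρ :=
  L.point C I hS0 hNew hE hχ ψ.2 ((D ψ).eig c)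
    (fun h ↦ (D ψ).b.ne_zero c (Subtype.ext h)) ((D ψ).b c).2 (fun _ h ↦ evF_of D h ψ c)

variable {R : Type} [CommRing R] [IsLocalRing R] [Algebra 𝒪 R] {ρ : GaloisRepAdic R} {M : ℕ}
  {ψ : G.Λ →+* ℂ}

theorem Lev.sqf_cond (L : Lev G S N F z) : Squarefree (cond F (fun q ↦ ψ (z q))) :=
  squarefree_cond L.prime

theorem Lev.dvd_of (L : Lev G S N F z) (hM : M ∣ N * cond F (fun q ↦ ψ (z q))) {q : ℕ}
    (hq : q.Prime) (hqM : q ∣ M) : q ∣ N := by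
  rcases hq.dvd_mul.1 (hqM.trans hM) with h | h
  · exact h
  · exact h.trans (cond_dvd L.dvd L.prime)

/-- deformation conditions at a point -/
theorem Lev.condType (L : Lev G S N F z) (hP : NFProps p M ρ)
    (hM : M ∣ N * cond F (fun q ↦ ψ (z q))) {Smin : Finset ℕ} (hpS : p ∈ Smin)
    (hSF : ∀ q ∈ Smin, q ∉ F) (hN : ∀ q : ℕ, q.Prime → q ∣ N → q ∈ Smin ∨ q ∈ F)
    {Pc : TW.LCond} (hPc : Pc ρ) :
    TW.CondType 𝒪 p Smin Pc F ρ := by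
  refine ⟨⟨hP.det, hPc, fun q hq hqS ↦ ?_⟩,
    fun q hqS hq hqp ↦ ?_⟩
  · rw [Finset.mem_union, not_or] at hqS
    refine hP.unr q hq (fun h ↦ hqS.1 (h ▸ hpS)) fun h ↦ ?_
    rcases hN q hq (L.dvd_of hM hq h) with h | h
    · exact hqS.1 h
    · exact hqS.2 h
  · by_cases hqM : q ∣ M
    · refine (hP.st q hq hqp hqM (not_sq_dvd L.sqf hM hq fun h ↦ ?_)).1
      exact hSF q hqS ((dvd_cond_iff L.prime hq).1 h).1
    · exact unip_of_unr (hP.unr q hq hqp hqM)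

/-- ramified primes -/
theorem Lev.ram (L : Lev G S N F z) (hP : NFProps p M ρ)
    (hM : M ∣ N * cond F (fun q ↦ ψ (z q)))
    (hsq : ∀ q : ℕ, q.Prime → q ∣ cond F (fun q ↦ ψ (z q)) → q ^ 2 ∣ M)
    {q : ℕ} (hq : q ∈ F) (hqp : q ≠ p) (hz : ψ (z q) ≠ 1) : ¬ ρ.IsUnipotentOnInertiaAt q := by
  have hqp' := L.prime q hq
  exact hP.ram q hqp' hqp (factorization_eq_two L.sqf L.sqf_cond hM hqp'
    (hsq q hqp' ((dvd_cond_iff L.prime hqp').2 ⟨hq, hz⟩)))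

/-- Taylor--Wiles primes with trivial character -/
theorem Lev.unr (L : Lev G S N F z) {S₁ : Finset ℕ} {t : ℕ → ℂ} (P : Pt j ρbar S₁ t)
    (hP : NFProps p M P.ρ)
    (hM : M ∣ N * cond F (fun q ↦ ψ (z q))) (hp𝒪 : (p : 𝒪) ∈ maximalIdeal 𝒪)
    {q : ℕ} (hq : q ∈ F) (hqp : q ≠ p) (hz : ψ (z q) = 1) (hd : DistAt ρbar q) :
    P.ρ.IsUnramifiedAt q := by
  have hqp' := L.prime q hq
  refine hP.unr q hqp' hqp fun h ↦ ?_
  exact not_exactly_dvd P hP hp𝒪 hqp' hqp (L.one q hq) hd h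
    (not_sq_dvd L.sqf hM hqp' fun h' ↦ ((dvd_cond_iff L.prime hqp').1 h').2 hz)

/-- the ranks -/
theorem finrank_MM_eq_MP [NeZero N] (hE : IsLoc χ₁ χ₂ ↑S (aL G S b) E)
    {χ : DirichletCharacter G.Λ N} (hχ : χ ∈ ({χ₁, χ₂} : Set (DirichletCharacter G.Λ N)))
    [Module.Free G.Λ (MM G.Λ χ ↑S E)] [Module.Finite G.Λ (MM G.Λ χ ↑S E)] (ψ : G.Λ →+* ℂ) :
    Module.finrank G.Λ (MM G.Λ χ ↑S E) = Module.finrank ℂ (MP ψ χ ↑S E) := by
  let B := Module.Free.chooseBasis G.Λ (MM G.Λ χ ↑S E)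
  obtain ⟨b₁, -⟩ := exists_basis_pt ψ hE.toIsProj hE.two hE.three hχ B
  rw [Module.finrank_eq_card_basis B, Module.finrank_eq_card_basis b₁]

theorem inv_MP [NeZero N] (hE : IsLoc χ₁ χ₂ ↑S (aL G S b) E)
    {χ : DirichletCharacter G.Λ N} (hχ : χ ∈ ({χ₁, χ₂} : Set (DirichletCharacter G.Λ N)))
    {P : MvPolynomial (Pr (↑S : Set ℕ)) G.Λ} (hP : resE ↑S (aL G S b) P ≠ 0) :
    ∃ Q : MvPolynomial (Pr (↑S : Set ℕ)) G.Λ, ∀ x ∈ MP ψ χ ↑S E,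
      ev (χ.ringHomComp ψ) ↑S (PtMod ψ) (MvPolynomial.map ψ (Q * P)) x = x := by
  obtain ⟨Q, hQ⟩ := hE.exists_inv hE.two hE.three hχ (PtMod ψ) hP
  refine ⟨Q, fun x hx ↦ ?_⟩
  obtain ⟨y, rfl⟩ := (chg (sameOn_pt ψ χ)).surjective x
  rw [chg_mem_iff] at hx
  rw [← chg_ev_pt, map_mul, Module.End.mul_apply, hQ y hx]

/-- the Hecke relations satisfied by the local component at `ψ₀` -/
theorem sysJ [NeZero N] (L : Lev G S N F z) (C : Ctx p j ρbar S0 b) (I : Inputs)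
    (hS0 : S0 ⊆ S) (hSS : SpecSS) (hNew : SpecNew) (hE : IsLoc χ₁ χ₂ ↑S (aL G S b) E)
    (hχ : chz N F z ∈ ({χ₁, χ₂} : Set (DirichletCharacter G.Λ N)))
    (hψ : ψ.comp (algebraMap 𝒪 G.Λ) = j) (hz : ∀ q ∈ F, ψ (z q) = 1) {Q : Finset ℕ}
    (hQ : ∀ q ∈ Q, q.Prime ∧ q ≠ p ∧ p ∣ q - 1 ∧ DistAt ρbar q) :
    SysJ S Q {P | ∀ x ∈ MP ψ (chz N F z) ↑S E,
      ev ((chz N F z).ringHomComp ψ) ↑S (PtMod ψ) P x = 0} where
  inv m hm := by
    obtain ⟨ℓ, hℓ1, hℓ2⟩ := exists_noneis C G S hm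
    obtain ⟨Q, hQ⟩ := inv_MP (ψ := ψ) hE hχ (resE_sub ℓ hℓ2)
    refine ⟨ℓ, hℓ1, MvPolynomial.map ψ Q, fun x hx ↦ ?_⟩
    have e : MvPolynomial.map ψ Q * (MvPolynomial.X ℓ - MvPolynomial.C (1 + (ℓ.1 : ℂ))) =
        MvPolynomial.map ψ (Q * (MvPolynomial.X ℓ - MvPolynomial.C (1 + (ℓ.1 : G.Λ)))) := by
      have e1 : ψ (1 + (ℓ.1 : G.Λ)) = 1 + (ℓ.1 : ℂ) := by rw [map_add, map_one, map_natCast]
      rw [map_mul, map_sub, MvPolynomial.map_X, MvPolynomial.map_C, e1]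
    rw [e, map_sub, map_one, LinearMap.sub_apply, hQ x hx]
    exact sub_self x
  good β hβ t ht := by
    have hfin : Module.Finite ℂ (H1 (kap ((chz N F z).ringHomComp ψ)) (PtMod ψ)) :=
      finite_H1C ((chz N F z).ringHomComp ψ)
    have hspan : MP ψ (chz N F z) ↑S E = Submodule.span ℂ
        {x | x ∈ MP ψ (chz N F z) ↑S E ∧ ∃ α : Pr (↑S : Set ℕ) → ℂ, ∀ i,
          ev ((chz N F z).ringHomComp ψ) ↑S (PtMod ψ) (MvPolynomial.X i) x = α i • x} := by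
      have h := L.ss (ψ := ψ) C hSS hE hχ
      refine h.trans (congrArg _ (Set.ext fun x ↦ and_congr_right fun _ ↦ exists_congr fun α ↦
        forall_congr' fun i ↦ ?_))
      rw [ev_X]
      rfl
    let T' : MvPolynomial (Pr (↑S : Set ℕ)) ℂ →ₐ[ℂ] Module.End ℂ ℂ :=
      (Algebra.lmul ℂ ℂ).comp (MvPolynomial.aeval β)
    have hT' : ∀ P (y : ℂ), T' P y = MvPolynomial.eval β P * y := fun P y ↦ by
      change (MvPolynomial.aeval β P) * y = _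
      rw [MvPolynomial.aeval_eq_eval]
    obtain ⟨x, hx, hx0, hxβ⟩ := exists_sys
      (ev ((chz N F z).ringHomComp ψ) ↑S (PtMod ψ)) T' (MP ψ (chz N F z) ↑S E) hspan
      (y := (1 : ℂ)) one_ne_zero (β := β) (fun i ↦ by
        rw [hT', MvPolynomial.eval_X, smul_eq_mul]) (fun P hP ↦ by
        rw [hT', hβ P hP, zero_mul])
    have hxP : IsEigP ψ (chz N F z) ↑S β x := by
      intro ℓ
      have h := hxβ ℓ
      rw [ev_X] at h
      exact h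
    have ht' : ∀ ℓ (h : ℓ.Prime ∧ ℓ ∉ (↑S : Set ℕ)), t ℓ = β ⟨ℓ, h⟩ := fun ℓ h ↦ ht ⟨ℓ, h⟩
    refine ⟨nonEis_of_eig C hE hχ hxP hx0 hx ht', ?_⟩
    obtain ⟨M, hM, g, hg, hMd, -, hgt, P, hP⟩ := L.point C I hS0 hNew hE hχ hψ hxP hx0 hx
      (t := t) ht'
    rw [cond_eq_one hz, mul_one] at hMd
    refine ⟨M, hM, g, hg, hgt, fun q hq hqM ↦ ?_⟩
    obtain ⟨h1, h2, h3, h4⟩ := hQ q hq
    exact not_exactly_dvd P hP C.mem h1 h2 h3 h4 hqM fun h ↦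
      (Nat.squarefree_iff_prime_squarefree.1 (L.sqf.squarefree_of_dvd hMd)) q h1 (by rwa [← sq])

end

end Fermat.Agent.LL
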