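import Fermat.Agent.LL.GalPoint
import Fermat.Agent.Supp.Spec

set_option autoImplicit false

/-!
# Local computations at the primes of level raising
-/

open IsLocalRing GaloisRep Polynomial

namespace Fermat.Agent.LL

open Fermat.Agent.DefRing Fermat.Agent

local notation "M₂" => Matrix (Fin 2) (Fin 2)

section

variable {O : Type*} [CommRing O]

theorem ch_two (F : M₂ O) : F * F = F.trace • F - F.det • (1 : M₂ O) := by
  rw [Matrix.det_fin_two, Matrix.trace_fin_two]
  ext a b
  fin_cases a <;> fin_cases b <;>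
    simp only [Matrix.mul_apply, Fin.sum_univ_two, Matrix.sub_apply, Matrix.smul_apply,
      smul_eq_mul, Matrix.one_apply, Fin.isValue, Fin.zero_eta, Fin.mk_one, if_true, if_false,
      zero_ne_one, one_ne_zero, mul_one, mul_zero] <;> ring

/-- powers of a unipotent matrix -/
theorem unip_pow {T : M₂ O} (h1 : T.trace = 2) (h2 : T.det = 1) (k : ℕ) :
    T ^ k = 1 + (k : O) • (T - 1) := by
  have hsq : (T - 1) * (T - 1) = 0 := by
    have h3 := ch_two T
    rw [h1, h2] at h3
    have h4 : (T - 1) * (T - 1) = T * T - (2 : O) • T + (1 : O) • 1 := by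
      rw [two_smul, one_smul]; noncomm_ring
    rw [h4, h3]
    abel
  induction k with
  | zero => simp
  | succ k ih =>
    rw [pow_succ, ih]
    have h5 : (1 + (k : O) • (T - 1)) * T = T + (k : O) • ((T - 1) * (T - 1)) +
        (k : O) • (T - 1) := by
      rw [add_mul, one_mul, smul_mul_assoc]
      have : (T - 1) * T = (T - 1) * (T - 1) + (T - 1) := by noncomm_ring
      rw [this, smul_add]
      abel
    rw [h5, hsq, smul_zero, add_zero, Nat.cast_succ, add_smul, one_smul]
    abel

/-- the tame relation for a unipotent element -/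
theorem tame_unip {F T : M₂ O} {q : ℕ} (h : F * T = T ^ q * F) (h1 : T.trace = 2)
    (h2 : T.det = 1) : F * (T - 1) = (q : O) • ((T - 1) * F) := by
  rw [unip_pow h1 h2, add_mul, one_mul, smul_mul_assoc] at h
  rw [mul_sub, mul_one, h]
  abel

theorem trace_sub_one {T : M₂ O} (h1 : T.trace = 2) : (T - 1).trace = 0 := by
  rw [Matrix.trace_sub, h1, Matrix.trace_one, Fintype.card_fin]
  norm_num

end

/-- **Steinberg points**: the monodromy operator. -/
theorem st_mul {O : Type*} [CommRing O] [IsDomain O] [CharZero O] {q : ℕ} (hq : 2 ≤ q) {e : O}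
    (he : e ^ 2 = 1) {F N : M₂ O} (hFN : F * N = (q : O) • (N * F)) (ht : F.trace = e * (q + 1))
    (hd : F.det = q) : N * F = e • N := by
  have hch := ch_two F
  rw [ht, hd] at hch
  set G := N * F - e • N with hG
  have ha : G * F = (e * q) • G := by
    rw [hG, sub_mul, Matrix.mul_assoc, hch, smul_mul_assoc, mul_sub, mul_smul_comm, mul_smul_comm,
      mul_one, smul_sub, smul_smul]
    have h1 : e * q * e = q := by linear_combination q * he
    rw [h1]
    have h2 : (e * ((q : O) + 1)) • (N * F) = (e * q) • (N * F) + e • (N * F) := by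
      rw [← add_smul]; congr 1; ring
    rw [h2]
    abel
  have hb : F * G = (q : O) • (G * F) := by
    rw [hG, mul_sub, mul_smul_comm, hFN, ← Matrix.mul_assoc, hFN, smul_mul_assoc, sub_mul,
      smul_sub, smul_mul_assoc, smul_comm e]
  rw [ha, smul_smul] at hb
  have hc : F * (F * G) = (e * (q + 1)) • (F * G) - (q : O) • G := by
    rw [← Matrix.mul_assoc, hch, sub_mul, smul_mul_assoc, smul_mul_assoc, one_mul]
  rw [hb, mul_smul_comm, hb, smul_smul, smul_smul] at hc
  have hd : ((q : O) * (q - 1) ^ 2 * (q + 1)) • G = 0 := by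
    have h1 : (q : O) * (e * q) * (q * (e * q)) - (e * (q + 1) * (q * (e * q)) - q) =
        (q : O) * (q - 1) ^ 2 * (q + 1) := by
      linear_combination ((q : O) ^ 4 - q ^ 3 - q ^ 2) * he
    rw [← h1, sub_smul, sub_smul, hc]
    abel
  have hne : (q : O) * (q - 1) ^ 2 * (q + 1) ≠ 0 := by
    have h1 : (q : O) ≠ 0 := by exact_mod_cast (by omega : q ≠ 0)
    have h2 : (q : O) - 1 ≠ 0 := by
      rw [sub_ne_zero]
      exact_mod_cast (by omega : q ≠ 1)
    have h3 : (q : O) + 1 ≠ 0 := by exact_mod_cast (by omega : q + 1 ≠ 0)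
    exact mul_ne_zero (mul_ne_zero h1 (pow_ne_zero _ h2)) h3
  have hG0 : G = 0 := by
    ext a b
    have h1 := congrFun (congrFun hd a) b
    rw [Matrix.smul_apply, smul_eq_mul] at h1
    exact (mul_eq_zero.mp h1).resolve_left hne
  rw [hG, sub_eq_zero] at hG0
  exact hG0

/-- the Steinberg relations at a point (scalar block) -/
theorem st_rel {O : Type*} [CommRing O] [IsDomain O] [CharZero O] {q : ℕ} (hq : 2 ≤ q) {e u : O}
    (he : e ^ 2 = 1) (hu : u * 2 = 1) {F T : M₂ O} (hFT : F * T = T ^ q * F)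
    (hT1 : T.trace = 2) (hT2 : T.det = 1) (ht : F.trace = e * (q + 1)) (hd : F.det = q)
    (k : Fin 6) :
    Supp.stRel (u * e * (q - 1)) ![u * (F 0 0 - F 1 1), F 0 1, F 1 0]
      ![u * (T 0 0 - T 1 1), T 0 1, T 1 0] k = 0 := by
  have hN := st_mul hq he (tame_unip hFT hT1 hT2) ht hd
  have hFN := tame_unip hFT hT1 hT2
  rw [hN, smul_smul] at hFN
  have hT1' : T 1 1 = 2 - T 0 0 := by rw [Matrix.trace_fin_two] at hT1; linear_combination hT1
  have hF1' : F 1 1 = e * (q + 1) - F 0 0 := by rw [Matrix.trace_fin_two] at ht; linear_combination ht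
  rw [Matrix.det_fin_two, hT1'] at hT2
  rw [Matrix.det_fin_two, hF1'] at hd
  have e00 := congrFun (congrFun hFN 0) 0
  have e01 := congrFun (congrFun hFN 0) 1
  have e10 := congrFun (congrFun hFN 1) 0
  have e11 := congrFun (congrFun hFN 1) 1
  simp only [Matrix.mul_apply, Fin.sum_univ_two, Matrix.sub_apply, Matrix.smul_apply, smul_eq_mul,
    Matrix.one_apply, Fin.isValue, if_true, if_false, zero_ne_one, one_ne_zero, sub_zero,
    hT1', hF1'] at e00 e01 e10 e11
  have hs0 : u * (T 0 0 - T 1 1) = T 0 0 - 1 := by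
    rw [hT1']; linear_combination (T 0 0 - 1) * hu
  have hf0 : u * (F 0 0 - F 1 1) = F 0 0 - u * e * (q + 1) := by
    rw [hF1']; linear_combination (F 0 0) * hu
  rw [hs0, hf0]
  fin_cases k
  · show (T 0 0 - 1) ^ 2 + T 0 1 * T 1 0 = 0
    linear_combination -hT2
  · show (F 0 0 - u * e * (q + 1)) ^ 2 + F 0 1 * F 1 0 - (u * e * (q - 1)) ^ 2 = 0
    linear_combination -hd + (4 * q * u ^ 2) * he + (q * (u * 2 + 1) - e * (q + 1) * F 0 0) * hu
  · show (F 0 0 - u * e * (q + 1)) * (T 0 0 - 1) + F 0 1 * T 1 0 - u * e * (q - 1) * (T 0 0 - 1) = 0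
    linear_combination e00 + (-(e * q * (T 0 0 - 1))) * hu
  · show (F 0 0 - u * e * (q + 1)) * T 0 1 - F 0 1 * (T 0 0 - 1) - u * e * (q - 1) * T 0 1 = 0
    linear_combination e01 + (-(e * q * T 0 1)) * hu
  · show F 1 0 * (T 0 0 - 1) - (F 0 0 - u * e * (q + 1)) * T 1 0 - u * e * (q - 1) * T 1 0 = 0
    linear_combination e10 + (e * T 1 0) * hu
  · show F 1 0 * T 0 1 + (F 0 0 - u * e * (q + 1)) * (T 0 0 - 1) + u * e * (q - 1) * (T 0 0 - 1) = 0
    linear_combination e11 + (-(e * (T 0 0 - 1))) * hu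

/-- normal form of Frobenius in the basis `((F - e) v, v)` -/
def nfF {A : Type*} [CommRing A] (e t q : A) : M₂ A := !![t - e, 1; e * (t - e * (q + 1)), e]

theorem nfF_trace {A : Type*} [CommRing A] (e t q : A) : (nfF e t q).trace = t := by
  rw [nfF, Matrix.trace_fin_two_of]; ring

theorem nfF_det {A : Type*} [CommRing A] {e t q : A} (he : e ^ 2 = 1) : (nfF e t q).det = q := by
  rw [nfF, Matrix.det_fin_two_of]; linear_combination q * he

/-- nonscalar blocks: Steinberg point with the right sign -/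
theorem nonscalar_st {O : Type*} [CommRing O] [IsDomain O] [CharZero O] {q : ℕ} (hq : 2 ≤ q)
    {e t : O} (he : e ^ 2 = 1) {N : M₂ O}
    (hFN : nfF e t q * N = (q : O) • (N * nfF e t q)) (ht : t = e * (q + 1)) : N 1 0 = 0 := by
  have h1 := st_mul hq he hFN (by rw [nfF_trace, ht]) (nfF_det he)
  have e11 := congrFun (congrFun h1 1) 1
  simp only [nfF, Matrix.mul_apply, Fin.sum_univ_two, Matrix.smul_apply, smul_eq_mul,
    Fin.isValue, Matrix.of_apply, Matrix.cons_val', Matrix.cons_val_zero, Matrix.cons_val_one,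
    Matrix.cons_val_fin_one] at e11
  linear_combination e11

/-- nonscalar blocks: Steinberg point with the wrong sign -/
theorem nonscalar_st' {O : Type*} [CommRing O] [IsDomain O] [CharZero O] {q : ℕ} (hq : 2 ≤ q)
    {e t : O} (he : e ^ 2 = 1) {N : M₂ O} (hN0 : N.trace = 0)
    (hFN : nfF e t q * N = (q : O) • (N * nfF e t q)) (ht : t = -e * (q + 1)) :
    4 * N 0 1 + N 1 0 = 0 := by
  have h1 := st_mul hq (e := -e) (by rw [neg_sq, he]) hFN (by rw [nfF_trace, ht]) (nfF_det he)
  have e01 := congrFun (congrFun h1 0) 1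
  have e11 := congrFun (congrFun h1 1) 1
  simp only [nfF, Matrix.mul_apply, Fin.sum_univ_two, Matrix.smul_apply, smul_eq_mul,
    Fin.isValue, Matrix.of_apply, Matrix.cons_val', Matrix.cons_val_zero, Matrix.cons_val_one,
    Matrix.cons_val_fin_one] at e01 e11
  rw [Matrix.trace_fin_two] at hN0
  linear_combination e11 + 2 * e * e01 - 2 * e * hN0 - (4 * N 0 1) * he

theorem exists_cyclic {A : Type*} [CommRing A] [IsLocalRing A] {F : M₂ A} {e : A}
    (he : e ^ 2 = 1) (h : ¬ (F 0 1 ∈ maximalIdeal A ∧ F 1 0 ∈ maximalIdeal A ∧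
      F 0 0 - F 1 1 ∈ maximalIdeal A)) :
    ∃ C : M₂ A, IsUnit C.det ∧ F * C = C * nfF e F.trace F.det := by
  let Cv : A → A → M₂ A := fun v0 v1 => !![F 0 0 * v0 + F 0 1 * v1 - e * v0, v0;
    F 1 0 * v0 + F 1 1 * v1 - e * v1, v1]
  have hC : ∀ v0 v1, F * Cv v0 v1 = Cv v0 v1 * nfF e F.trace F.det := by
    intro v0 v1
    rw [nfF, Matrix.trace_fin_two, Matrix.det_fin_two]
    ext a b
    fin_cases a <;> fin_cases b <;>
      simp only [Cv, Matrix.mul_apply, Fin.sum_univ_two, Fin.isValue, Fin.zero_eta, Fin.mk_one,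
        Matrix.of_apply, Matrix.cons_val', Matrix.cons_val_zero, Matrix.cons_val_one,
        Matrix.cons_val_fin_one]
    · linear_combination (v0 * (F 0 0 * F 1 1 - F 0 1 * F 1 0)) * he
    · ring
    · linear_combination (v1 * (F 0 0 * F 1 1 - F 0 1 * F 1 0)) * he
    · ring
  by_contra hcon
  push Not at hcon
  have h1 : ∀ v0 v1, (Cv v0 v1).det ∈ maximalIdeal A := by
    intro v0 v1
    rw [mem_maximalIdeal, mem_nonunits_iff]
    exact fun hu => hcon _ hu (hC v0 v1)
  have e1 := h1 1 0
  have e2 := h1 0 1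
  have e3 := h1 1 1
  simp only [Cv, Matrix.det_fin_two_of] at e1 e2 e3
  have f1 : F 1 0 ∈ maximalIdeal A := by
    convert (maximalIdeal A).neg_mem e1 using 1; ring
  have f2 : F 0 1 ∈ maximalIdeal A := by
    convert e2 using 1; ring
  refine h ⟨f2, f1, ?_⟩
  convert (maximalIdeal A).sub_mem ((maximalIdeal A).add_mem e3 f1) f2 using 1
  ring

/-- transport of the tame relation to the normal form -/
theorem nf_tame {A : Type*} [CommRing A] {F N N' F' C : M₂ A} (hC : IsUnit C.det)
    (hF : F * C = C * F') (hN : N * C = C * N') {c : A} (h : F * N = c • (N * F)) :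
    F' * N' = c • (N' * F') := by
  have hCi : C⁻¹ * C = 1 := Matrix.nonsing_inv_mul _ hC
  have h1 : C * (F' * N') = C * (c • (N' * F')) := by
    rw [← Matrix.mul_assoc, ← hF, Matrix.mul_assoc, ← hN, ← Matrix.mul_assoc, h, smul_mul_assoc,
      Matrix.mul_assoc, hF, ← Matrix.mul_assoc, hN, mul_smul_comm, Matrix.mul_assoc]
  have h2 := congrArg (fun M => C⁻¹ * M) h1
  simp only [← Matrix.mul_assoc, hCi, Matrix.one_mul] at h2
  exact h2

/-- the condition on tangent vectors (nonscalar blocks) -/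
theorem nonscalar_tangent {B : Type*} [CommRing B] {e t : B} (he : e ^ 2 = 1) {q : ℕ}
    {N : M₂ B} (hN0 : N.trace = 0) (hFN : nfF e t q * N = (q : B) • (N * nfF e t q))
    (ht : t = e * (q + 1)) (hN : N 0 1 = 0) (h : IsUnit ((q : B) + 1) ∨ N 1 0 = 0)
    (h2 : IsUnit (2 : B)) : N = 0 := by
  have e00 := congrFun (congrFun hFN 0) 0
  have e01 := congrFun (congrFun hFN 0) 1
  have e10 := congrFun (congrFun hFN 1) 0
  have e11 := congrFun (congrFun hFN 1) 1
  simp only [nfF, Matrix.mul_apply, Fin.sum_univ_two, Matrix.smul_apply, smul_eq_mul,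
    Fin.isValue, Matrix.of_apply, Matrix.cons_val', Matrix.cons_val_zero, Matrix.cons_val_one,
    Matrix.cons_val_fin_one] at e00 e01 e10 e11
  rw [Matrix.trace_fin_two] at hN0
  have h3 : N 1 1 = -N 0 0 := by linear_combination hN0
  have ha : N 0 0 * ((q : B) + 1) = 0 := by
    linear_combination hN0 - e01 + ((t - e) - q * e) * hN
  have hb : N 1 0 = e * (q : B) * (q - 1) * N 0 0 := by
    linear_combination e00 + (q - 1) * N 0 0 * ht + q * e * (t - e * (q + 1)) * hN
  have hc : (q : B) * N 1 0 = e * (q - 1) * N 0 0 := by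
    linear_combination -e11 + e * (1 - q) * hN0 + e * (t - e * (q + 1)) * hN
  have h00 : N 0 0 = 0 := by
    rcases h with h | h
    · exact (IsUnit.mul_left_eq_zero h).mp ha
    · -- `N 1 0 = 0`
      rw [h, mul_zero] at hc
      have h4 : ((q : B) - 1) * N 0 0 = 0 := by
        linear_combination -e * hc - ((q : B) - 1) * N 0 0 * he
      have h5 : 2 * N 0 0 = 0 := by linear_combination ha - h4
      exact (IsUnit.mul_right_eq_zero h2).mp h5
  ext a b
  fin_cases a <;> fin_cases b
  · exact h00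
  · exact hN
  · show N 1 0 = 0
    rw [hb, h00, mul_zero]
  · show N 1 1 = 0
    rw [h3, h00, neg_zero]

end Fermat.Agent.LL
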