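import Fermat.Agent.LL.EMod
import Fermat.Agent.Supp.Spec

set_option autoImplicit false

/-!
# From modules over the Hecke ring to the data of the patching theorem
-/

open IsLocalRing Polynomial

namespace Fermat.Agent.LL

section

variable {𝒪 : Type} [CommRing 𝒪] [IsDomain 𝒪] [IsLocalRing 𝒪] [IsNoetherianRing 𝒪]
  {p : ℕ} [Fact p.Prime] {r : ℕ} {a : Fin r → ℕ} {G : TWMod.GrpRing 𝒪 p a} {A : Type}
  [CommRing A] [Algebra 𝒪 A]

/-- One raising step: degeneracy maps and traces between two modules; `T` is the Hecke operator at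
the prime `q`, `Z x` says that `x` vanishes at all the new points. -/
structure Step (E E' : EMod G A) (q : ℕ) (T : A) (Z : A → Prop) where
  α : Fin 2 → (E.M →ₗ[G.Λ] E'.M)
  α_act : ∀ k (x : A) v, α k (E.act x v) = E'.act x (α k v)
  ret : Fin 2 → (E'.M →ₗ[G.Λ] E.M)
  ret_α : ∀ k l v, ret k (α l v) = if k = l then v else 0
  τ : Fin 2 → (E'.M →ₗ[G.Λ] E.M)
  τ_act : ∀ k (x : A) v, τ k (E'.act x v) = E.act x (τ k v)
  τ_surj : ∀ v w, ∃ z, τ 0 z = v ∧ τ 1 z = w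
  τ_α : ∀ k l v, τ k (α l v) = E.act (if k = l then (q : A) + 1 else T) v
  coker : ∀ x : A, Z x → ∀ v, ∃ v₀ v₁, E'.act x v = α 0 v₀ + α 1 v₁

end

/-- **Assembly of the patching datum.** -/
theorem cdatum_of_steps {𝒪 : Type} [CommRing 𝒪] [IsDomain 𝒪] [IsLocalRing 𝒪]
    [IsNoetherianRing 𝒪] [CharZero 𝒪] (π : Supp.Params 𝒪) (n : ℕ) (hp : Fact π.p.Prime)
    {a : Fin π.r → ℕ} (G : TWMod.GrpRing 𝒪 π.p a)
    (A : Type) [CommRing A] [IsLocalRing A] [IsNoetherianRing A]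
    [IsAdicComplete (maximalIdeal A) A] [Algebra 𝒪 A] [IsLocalHom (algebraMap 𝒪 A)]
    (res_surj : Function.Surjective (residue A ∘ algebraMap 𝒪 A))
    (f s : π.S → Fin 3 → A) (x nn b : π.X → A) (y : Fin π.g → A)
    (f_mem : ∀ t i, f t i ∈ maximalIdeal A) (s_mem : ∀ t i, s t i ∈ maximalIdeal A)
    (x_mem : ∀ t, x t ∈ maximalIdeal A) (nn_mem : ∀ t, nn t ∈ maximalIdeal A)
    (b_mem : ∀ t, b t ∈ maximalIdeal A) (y_mem : ∀ j, y j ∈ maximalIdeal A)
    (gen : maximalIdeal A ≤ (maximalIdeal 𝒪).map (algebraMap 𝒪 A) ⊔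
      Ideal.span ({z | ∃ t i, z = f t i} ∪ {z | ∃ t i, z = s t i} ∪ Set.range x ∪ Set.range nn ∪
      Set.range b ∪ Set.range y))
    (ha : ∀ k, n + 1 ≤ a k) (κ : Fin π.r → A) (hκ : ∀ k, κ k ^ π.p ^ a k = 1)
    (κ_mem : ∀ k, κ k - 1 ∈ maximalIdeal A)
    (E : ℕ → EMod G A) (rank_pos : 0 < Module.finrank G.Λ (E 0).M)
    (rank_le : ∀ i, i ≤ π.m → Module.finrank G.Λ (E i).M ≤ π.D)
    (good : ∀ i, i ≤ π.m → (E i).Good (dhom a κ hκ) (dgen a))
    (rel_s : ∀ i, i ≤ π.m → ∀ t : π.S, i ≤ π.num (Sum.inl t) → ∀ j, (E i).act (s t j) = 0)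
    (rel_nn : ∀ i, i ≤ π.m → ∀ t : π.X, i ≤ π.num (Sum.inr t) → (E i).act (nn t) = 0)
    (rel_b : ∀ i, i ≤ π.m → ∀ t : π.X, i ≤ π.num (Sum.inr t) → (E i).act (b t) = 0)
    (rel_s_st : ∀ i, i ≤ π.m → ∀ t : π.S, π.num (Sum.inl t) < i → ∀ j k,
      (E i).act (s t j * Supp.stRel (algebraMap 𝒪 A (π.h t)) (f t) (s t) k) = 0)
    (rel_nn_b : ∀ i, i ≤ π.m → ∀ t : π.X, π.num (Sum.inr t) < i → (E i).act (nn t * b t) = 0)
    (rel_nn_x : ∀ i, i ≤ π.m → ∀ t : π.X, π.num (Sum.inr t) < i → (E i).act (nn t * x t) = 0)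
    (rel_b_x : ∀ i, i ≤ π.m → ∀ t : π.X, π.num (Sum.inr t) < i →
      (E i).act (b t * (x t - algebraMap 𝒪 A (π.c t))) = 0)
    (q : Fin π.m → ℕ) (T : Fin π.m → A) (Z : Fin π.m → A → Prop)
    (step : ∀ i : Fin π.m, Step (E i) (E (i + 1)) (q i) (T i) (Z i))
    (det_S : ∀ (i : Fin π.m) (t : π.S), π.ord i = Sum.inl t →
      ∃ c, ((q i : A) + 1) ^ 2 - T i ^ 2 =
        c * (f t 0 ^ 2 + f t 1 * f t 2 - algebraMap 𝒪 A (π.h t) ^ 2))
    (det_X : ∀ (i : Fin π.m) (t : π.X), π.ord i = Sum.inr t →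
      ∃ c, ((q i : A) + 1) ^ 2 - T i ^ 2 = c * x t)
    (Z_S : ∀ (i : Fin π.m) (t : π.S), π.ord i = Sum.inl t → ∀ k,
      Z i (Supp.stRel (algebraMap 𝒪 A (π.h t)) (f t) (s t) k))
    (Z_X : ∀ (i : Fin π.m) (t : π.X), π.ord i = Sum.inr t →
      Z i (x t * (x t - algebraMap 𝒪 A (π.c t))))
    (wW : A →ₐ[𝒪] 𝒪) (wW_κ : ∀ k, wW (κ k) = 1)
    (wW_S : ∀ t k, wW (Supp.stRel (algebraMap 𝒪 A (π.h t)) (f t) (s t) k) = 0)
    (wW_x : ∀ t, wW (x t) = 0) (wW_b : ∀ t, wW (b t) = 0)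
    (θ : A) (θ_wW : wW θ = π.cθ)
    (θ_E : ∀ i, (∀ k, (E π.m).psi i (G.d k) = 1) → (E π.m).χ i θ = 0) :
    Nonempty (Supp.CDatum π n) := by
  classical
  have ha0 : ∀ k, a k ≠ 0 := fun k => by have := ha k; omega
  have hpA : (π.p : A) ∈ maximalIdeal A := by
    rw [← map_natCast (algebraMap 𝒪 A)]
    exact map_nonunit _ _ π.p_mem
  have hΔ := isPGroup_DG (p := π.p) a
  have hcard := card_DG (p := π.p) a
  let K : DG π.p a →* A := dhom a κ hκ
  have hKd : ∀ k, K (dgen a k) = κ k := fun k => dhom_dgen a κ hκ ha0 k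
  have hKp : ∀ k, K (dgen a k) ^ π.p ^ a k = 1 := fun k => by rw [hKd]; exact hκ k
  have hbasis : ∀ i, i ≤ π.m → ∃ b : Fin (Module.finrank G.Λ (E i).M) → (E i).M,
      Function.Bijective (fun u : Fin (Module.finrank G.Λ (E i).M) → MonoidAlgebra 𝒪 (DG π.p a) =>
        ∑ l, (E i).act (MonoidAlgebra.lift 𝒪 A (DG π.p a) K (u l)) (b l)) := fun i hi =>
    (E i).exists_basis (good i hi) π.p_mem ha0 hpA hΔ hcard hKp
  have hret : ∀ i : Fin π.m, ∃ ρ : Fin 2 → ((E (i + 1)).M →+ (E i).M),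
      (∀ k (c : MonoidAlgebra 𝒪 (DG π.p a)) v,
        ρ k ((E (i + 1)).act (MonoidAlgebra.lift 𝒪 A (DG π.p a) K c) v) =
        (E i).act (MonoidAlgebra.lift 𝒪 A (DG π.p a) K c) (ρ k v)) ∧
      ∀ k l v, ρ k ((step i).α l v) = if k = l then v else 0 := fun i =>
    (E i).exists_retraction (E (i + 1)) (good i (by omega)) (good (i + 1) (by omega)) π.p_mem
      ha0 hpA hΔ (closure_dgen a) hcard hKp (step i).α (step i).α_act (step i).ret (step i).ret_α
  choose ρ₀ hρ₁ hρ₂ using hret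
  let b₀ : ∀ i, Fin (Module.finrank G.Λ (E i).M) → (E i).M := fun i =>
    if h : i ≤ π.m then (hbasis i h).choose else fun _ => 0
  have hb₀ : ∀ i, i ≤ π.m → Function.Bijective
      (fun u : Fin (Module.finrank G.Λ (E i).M) → MonoidAlgebra 𝒪 (DG π.p a) =>
        ∑ l, (E i).act (MonoidAlgebra.lift 𝒪 A (DG π.p a) K (u l)) (b₀ i l)) := fun i hi => by
    have : b₀ i = (hbasis i hi).choose := dif_pos hi
    rw [this]
    exact (hbasis i hi).choose_spec
  let modA : ∀ i, Module A (E i).M := fun i => Module.compHom (E i).M (E i).act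
  have hsm : ∀ i (x : A) (m : (E i).M), x • m = (E i).act x m := fun i x m => rfl
  have hz : ∀ i (x : A), (E i).act x = 0 → ∀ m : (E i).M, x • m = 0 := fun i x h m => by
    rw [hsm, h]; rfl
  let α' : ∀ i, Fin 2 → ((E i).M →+ (E (i + 1)).M) := fun i k =>
    if h : i < π.m then ((step ⟨i, h⟩).α k).toAddMonoidHom else 0
  have hα' : ∀ i (h : i < π.m) k v, α' i k v = (step ⟨i, h⟩).α k v := fun i h k v => by
    have h1 : α' i k = ((step ⟨i, h⟩).α k).toAddMonoidHom := dif_pos h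
    rw [h1]; rfl
  let τ' : ∀ i, Fin 2 → ((E (i + 1)).M →+ (E i).M) := fun i k =>
    if h : i < π.m then ((step ⟨i, h⟩).τ k).toAddMonoidHom else 0
  have hτ' : ∀ i (h : i < π.m) k v, τ' i k v = (step ⟨i, h⟩).τ k v := fun i h k v => by
    have h1 : τ' i k = ((step ⟨i, h⟩).τ k).toAddMonoidHom := dif_pos h
    rw [h1]; rfl
  let ρ' : ∀ i, Fin 2 → ((E (i + 1)).M →+ (E i).M) := fun i k =>
    if h : i < π.m then ρ₀ ⟨i, h⟩ k else 0
  have hρ' : ∀ i (h : i < π.m) k v, ρ' i k v = ρ₀ ⟨i, h⟩ k v := fun i h k v => by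
    have h1 : ρ' i k = ρ₀ ⟨i, h⟩ k := dif_pos h
    rw [h1]
  let mat' : ∀ _ : ℕ, Matrix (Fin 2) (Fin 2) A := fun i =>
    if h : i < π.m then !![(q ⟨i, h⟩ : A) + 1, T ⟨i, h⟩; T ⟨i, h⟩, (q ⟨i, h⟩ : A) + 1] else 0
  have hmat : ∀ i (h : i < π.m), mat' i =
      !![(q ⟨i, h⟩ : A) + 1, T ⟨i, h⟩; T ⟨i, h⟩, (q ⟨i, h⟩ : A) + 1] := fun i h => dif_pos h
  have hdet : ∀ i : Fin π.m, (mat' i).det = ((q i : A) + 1) ^ 2 - T i ^ 2 := fun i => by
    rw [hmat i i.2, Matrix.det_fin_two_of]; ring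
  exact ⟨{
    R := A
    residue_surj := fun b => by
      obtain ⟨o, ho⟩ := res_surj (residue A b)
      refine ⟨o, ?_⟩
      rw [← Ideal.Quotient.eq_zero_iff_mem, map_sub, sub_eq_zero]
      exact ho
    f := f
    s := s
    x := x
    nn := nn
    b := b
    y := y
    f_mem := f_mem
    s_mem := s_mem
    x_mem := x_mem
    nn_mem := nn_mem
    b_mem := b_mem
    y_mem := y_mem
    gen := gen.trans le_sup_left
    Δ := DG π.p a
    isPGroup := hΔ
    δ := dgen a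
    closure_δ := closure_dgen a
    χ := dproj a n (fun k => le_trans (Nat.le_succ n) (ha k))
    χ_δ := fun k => dproj_dgen a n _ k
    κ := K
    κ_mem := fun x => dhom_sub_one_mem a κ hκ κ_mem x
    A := fun i => (E i).M
    instModuleA := modA
    d := fun i => Module.finrank G.Λ (E i).M
    d_zero := rank_pos
    d_le := rank_le
    bA := b₀
    bA_basis := fun i hi => hb₀ i hi
    rel_s := fun i hi t ht j v => hz i _ (rel_s i hi t ht j) v
    rel_nn := fun i hi t ht v => hz i _ (rel_nn i hi t ht) v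
    rel_b := fun i hi t ht v => hz i _ (rel_b i hi t ht) v
    rel_s_st := fun i hi t ht j k v => hz i _ (rel_s_st i hi t ht j k) v
    rel_nn_b := fun i hi t ht v => hz i _ (rel_nn_b i hi t ht) v
    rel_nn_x := fun i hi t ht v => hz i _ (rel_nn_x i hi t ht) v
    rel_b_x := fun i hi t ht v => hz i _ (rel_b_x i hi t ht) v
    α := α'
    α_smul := fun i hi k c v => by rw [hα' i hi, hα' i hi]; exact (step ⟨i, hi⟩).α_act k c v
    ρ := ρ'
    ρ_smul := fun i hi k c v => by rw [hρ' i hi, hρ' i hi]; exact hρ₁ ⟨i, hi⟩ k c v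
    ρ_α := fun i hi k l v => by rw [hρ' i hi, hα' i hi]; exact hρ₂ ⟨i, hi⟩ k l v
    τ := τ'
    τ_smul := fun i hi k c v => by rw [hτ' i hi, hτ' i hi]; exact (step ⟨i, hi⟩).τ_act k c v
    τ_surj := fun i hi v w => by
      obtain ⟨z, h1, h2⟩ := (step ⟨i, hi⟩).τ_surj v w
      exact ⟨z, by rw [hτ' i hi]; exact h1, by rw [hτ' i hi]; exact h2⟩
    mat := mat'
    τ_α := fun i hi k l v => by
      rw [hτ' i hi, hα' i hi, (step ⟨i, hi⟩).τ_α, hsm, hmat i hi]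
      congr 2
      fin_cases k <;> fin_cases l <;> simp
    det_S := fun i t ht => by rw [hdet]; exact det_S i t ht
    det_X := fun i t ht => by rw [hdet]; exact det_X i t ht
    coker_S := fun i t ht k v => by
      obtain ⟨v₀, v₁, h⟩ := (step i).coker _ (Z_S i t ht k) v
      exact ⟨v₀, v₁, by rw [hα' i i.2, hα' i i.2]; exact h⟩
    coker_X := fun i t ht v => by
      obtain ⟨v₀, v₁, h⟩ := (step i).coker _ (Z_X i t ht) v
      exact ⟨v₀, v₁, by rw [hα' i i.2, hα' i i.2]; exact h⟩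
    wW := wW
    wW_alg := fun c => wW.commutes c
    wW_κ := fun γ => by
      have h1 := kappa_sub_one_mem (κ := K) (closure_dgen a) (RingHom.ker (wW : A →+* 𝒪))
        (fun k => by
          rw [RingHom.mem_ker, hKd, map_sub, map_one]
          show wW (κ k) - 1 = 0
          rw [wW_κ, sub_self]) γ
      rw [RingHom.mem_ker, map_sub, map_one, sub_eq_zero] at h1
      exact h1
    wW_S := wW_S
    wW_x := wW_x
    wW_b := wW_b
    θ := θ
    θ_wW := θ_wW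
    θ_A := fun v => by
      obtain ⟨w, hw⟩ := (E π.m).aug_of_lam ((E π.m).act θ v) (fun i hi => by
        rw [(E π.m).lam_act, θ_E i hi, zero_mul])
      show (E π.m).act θ v ∈ _
      rw [hw]
      refine Submodule.sum_mem _ fun k _ => ?_
      obtain ⟨m', hm'⟩ := kappa_range G hpA (E π.m).act (E π.m).act_alg (E π.m).lam (E π.m).psi
        (E π.m).χ (E π.m).lam_smul (E π.m).lam_act (E π.m).sep (ha0 k) (hKp k)
        (fun i => (good π.m le_rfl).h1 i k) (fun i => (good π.m le_rfl).h2 i k) (w k)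
      rw [hm', ← hsm]
      exact Submodule.smul_mem_smul (Ideal.subset_span ⟨_, rfl⟩) trivial }⟩

end Fermat.Agent.LL
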