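import Fermat.Agent.LL.ChainDatum
import Fermat.Agent.LL.BlockPt
import Fermat.Agent.GenW.Stmt

set_option autoImplicit false
set_option linter.unusedSectionVars false

/-!
# The blocks of a chain at primes different from `p`
-/

open IsLocalRing GaloisRep Polynomial

namespace Fermat.Agent.LL

open Fermat.Agent.DefRing Fermat.Agent

local notation "Γℚ" => (AlgebraicClosure ℚ ≃ₐ[ℚ] AlgebraicClosure ℚ)
local notation "M₂" => Matrix (Fin 2) (Fin 2)
local notation "Qb" => AlgebraicClosure ℚ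

/-- the cyclotomic determinant at Frobenius elements -/
theorem det_frob {A : Type} [CommRing A] [IsLocalRing A] [IsHausdorff (maximalIdeal A) A]
    {ρ : GaloisRepAdic A} {r : Γℚ → M₂ A} (hr : Realizes ρ r) {p : ℕ} (hp : p.Prime)
    (h : ρ.DetIsCyclotomic p) {q : ℕ} (hq : q.Prime) (hqp : q ≠ p)
    {P : ValuationSubring Qb} (hP : P.LiesOverPrime q) {σ : Γℚ}
    (hσ : P.IsFrobeniusAt σ q) : (r σ).det = q := by
  rw [← sub_eq_zero]
  apply IsHausdorff.haus' (I := maximalIdeal A)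
  intro n
  rw [SModEq.zero, smul_eq_mul, Ideal.mul_top]
  have h1 := h.2 n σ q (fun μ hμ =>
    Patch.frob_apply_rootOfUnity hq hP (fun hd =>
      hqp ((Nat.prime_dvd_prime_iff_eq hq hp).mp (hq.dvd_of_dvd_pow hd))) hσ hμ)
  rw [← Realizes.det_eq hr] at h1
  have h2 : Ideal.span {((p ^ n : ℕ) : A)} ≤ maximalIdeal A ^ n := by
    rw [Ideal.span_singleton_le_iff_mem, Nat.cast_pow]
    exact Ideal.pow_mem_pow h.1 n
  exact h2 h1

section Maps

variable {A B : Type*} [CommRing A] [CommRing B]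

theorem trace_map' (Φ : A →+* B) (M : M₂ A) : (M.map Φ).trace = Φ M.trace := by
  rw [Matrix.trace_fin_two, Matrix.trace_fin_two, map_add]; rfl

theorem det_map' (Φ : A →+* B) (M : M₂ A) : (M.map Φ).det = Φ M.det := by
  rw [RingHom.map_det]; rfl

theorem map_stRel (Φ : A →+* B) (h : A) (f s : Fin 3 → A) (c : Fin 6) :
    Φ (Supp.stRel h f s c) = Supp.stRel (Φ h) (fun i => Φ (f i)) (fun i => Φ (s i)) c := by
  fin_cases c <;> simp [Supp.stRel]

theorem map_vec (Φ : A →+* B) (u : A) (M : M₂ A) :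
    (fun i => Φ ((![u * (M 0 0 - M 1 1), M 0 1, M 1 0] : Fin 3 → A) i)) =
      ![Φ u * (M.map Φ 0 0 - M.map Φ 1 1), M.map Φ 0 1, M.map Φ 1 0] := by
  funext i
  fin_cases i <;> simp

/-- Steinberg relations at a point (scalar case) -/
theorem scalar_point [IsDomain B] [CharZero B] (Φ : A →+* B) {q : ℕ} (hq : 2 ≤ q) {e u : A}
    (he : e ^ 2 = 1) (hu : u * 2 = 1) {F T : M₂ A} (hFT : F * T = T ^ q * F)
    (hT1 : Φ T.trace = 2) (hT2 : Φ T.det = 1) (ht : Φ F.trace = Φ e * (q + 1))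
    (hd : Φ F.det = q) (c : Fin 6) :
    Φ (Supp.stRel (u * e * (q - 1)) ![u * (F 0 0 - F 1 1), F 0 1, F 1 0]
      ![u * (T 0 0 - T 1 1), T 0 1, T 1 0] c) = 0 := by
  rw [map_stRel, map_vec, map_vec, map_mul, map_mul, map_sub, map_natCast, map_one]
  refine st_rel hq (by rw [← map_pow, he, map_one]) (by rw [← map_ofNat Φ 2, ← map_mul, hu,
    map_one]) ?_ (by rw [trace_map', hT1]) (by rw [det_map', hT2]) (by rw [trace_map', ht])
    (by rw [det_map', hd]) c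
  have h1 := congrArg (fun M : M₂ A => M.map Φ) hFT
  simp only [Matrix.map_mul] at h1
  rw [h1]
  congr 1
  exact map_pow Φ.mapMatrix T q

end Maps

/-- the sign of a Steinberg point is determined residually -/
theorem sign_eq {B : Type*} [CommRing B] [IsDomain B] [IsLocalRing B] {t e s : B}
    (ht : t = s ∨ t = -s) (he : e ^ 2 = 1) (hs : IsUnit s) (h2 : IsUnit (2 : B))
    (h : t - e * s ∈ maximalIdeal B) : t = e * s := by
  have h1 : (t - e * s) * (t + e * s) = 0 := by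
    rcases ht with ht | ht <;> rw [ht] <;> linear_combination (-s ^ 2) * he
  have he' : IsUnit e := IsUnit.of_mul_eq_one e (by rw [← sq, he])
  have h3 : IsUnit (t + e * s) := by
    by_contra hcon
    have h4 : t + e * s ∈ maximalIdeal B := (mem_maximalIdeal _).mpr hcon
    have h5 : 2 * (e * s) ∈ maximalIdeal B := by
      have h6 := (maximalIdeal B).sub_mem h4 h
      have h7 : t + e * s - (t - e * s) = 2 * (e * s) := by ring
      rwa [h7] at h6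
    exact (mem_maximalIdeal _).mp h5 (h2.mul (he'.mul hs))
  have h4 := (IsUnit.mul_left_eq_zero h3).mp h1
  rwa [sub_eq_zero] at h4

/-- matrices at a Steinberg prime -/
theorem isSt_matrix {R : Type} [CommRing R] [IsLocalRing R] {ρ : GaloisRepAdic R}
    {r : Γℚ → M₂ R} (hr : Realizes ρ r) {q p : ℕ} (L : LocGen q p) (h : IsSt ρ q) :
    (r L.τ).trace = 2 ∧ (r L.τ).det = 1 ∧
      ((r L.φ).trace = (q : R) + 1 ∨ (r L.φ).trace = -((q : R) + 1)) := by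
  obtain ⟨h1, h2⟩ := (charpoly_unip_iff hr L.τ).mp (h.1 L.P L.hP _ L.hτ)
  refine ⟨h1, h2, ?_⟩
  rcases h.2 L.P L.hP _ L.hφ with h3 | h3
  · exact Or.inl ((charpoly_iff hr _ _ _).mp h3).1
  · right
    refine ((charpoly_iff hr _ (-((q : R) + 1)) (q : R)).mp ?_).1
    rw [h3, map_neg]; ring

variable {𝒪 : Type} [CommRing 𝒪] [IsDomain 𝒪] [IsDiscreteValuationRing 𝒪]
  [IsAdicComplete (maximalIdeal 𝒪) 𝒪] [Finite (ResidueField 𝒪)] [CharZero 𝒪]
  {p : ℕ} {j : 𝒪 →+* ℂ} {ρbar : ResidualGaloisRep (ResidueField 𝒪)} {P : ℕ → TW.LCond}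
  {Smin : Finset ℕ} {m : ℕ} {ql : Fin m → ℕ} {r : ℕ} {qv : Fin r → ℕ} {F : MvPolynomial ℕ 𝒪}
  {D : ℕ} {W : AutChain p j ρbar P Smin ql qv F D} {P' : TW.LCond} {ρW : GaloisRepAdic 𝒪}
  {tW : ℕ → 𝒪}

/-- Hypotheses at a prime `ql k ≠ p`. -/
structure BlkHyp (p : ℕ) (ρbar : ResidualGaloisRep (ResidueField 𝒪)) (Smin : Finset ℕ)
    (ρW : GaloisRepAdic 𝒪) (q : ℕ) (L : LocGen q p) (u e : 𝒪) : Prop where
  hp2 : p ≠ 2
  hp𝒪 : (p : 𝒪) ∈ maximalIdeal 𝒪
  hpS : p ∈ Smin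
  hSmin : ∀ q : ℕ, q.Prime → q ≠ p → (q ∈ Smin ↔ ¬ ρbar.IsUnramifiedAt q)
  hq : q.Prime
  hqS : q ∉ Smin
  hu : u * 2 = 1
  he : e ^ 2 = 1
  hWu : ρW.IsUnipotentOnInertiaAt q
  hWt : LinearMap.charpoly (ρW.ρ L.φ) = X ^ 2 - C (e * ((q : 𝒪) + 1)) * X + C (q : 𝒪)

section Blk

variable [hpp : Fact p.Prime] (H : ChainRing W P' ρW tW) {k : Fin m} {L : LocGen (ql k) p}
  {u e : 𝒪} (B : BlkHyp p ρbar Smin ρW (ql k) L u e)

include B

theorem BlkHyp.hqp : ql k ≠ p := fun h => B.hqS (h ▸ B.hpS)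

theorem BlkHyp.inertia : MI (maximalIdeal H.A) (H.R L.τ - 1) :=
  H.inertia_res B.hpS B.hSmin B.hq B.hqS L.hP L.hτ

theorem BlkHyp.tame : H.R L.φ * H.R L.τ = H.R L.τ ^ ql k * H.R L.φ :=
  loc_rel' H.hR L hpp.out (H.p_mem B.hp𝒪)
    fun _ hσ => H.inertia_res B.hpS B.hSmin B.hq B.hqS L.hP hσ

theorem BlkHyp.det_τ : (H.R L.τ).det = 1 :=
  det_inertia H.hR hpp.out H.cond.1.1 B.hq B.hqp L.hP L.hτ

theorem BlkHyp.det_φ : (H.R L.φ).det = (ql k : H.A) :=
  det_frob H.hR hpp.out H.cond.1.1 B.hq B.hqp L.hP L.hφ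

/-- at `W` -/
theorem BlkHyp.W_rel : H.φW (H.R L.τ).trace = 2 ∧ H.φW (H.R L.φ).trace = e * ((ql k : 𝒪) + 1) := by
  have h1 := ((charpoly_unip_iff H.φW_R L.τ).mp (B.hWu L.P L.hP _ L.hτ)).1
  have h2 := ((charpoly_iff H.φW_R _ _ _).mp B.hWt).1
  have h3 := trace_map' (H.φW : H.A →+* 𝒪) (H.R L.τ)
  have h4 := trace_map' (H.φW : H.A →+* 𝒪) (H.R L.φ)
  exact ⟨h3.symm.trans h1, h4.symm.trans h2⟩

/-- the coordinate `x` -/
theorem BlkHyp.x_mem : (H.R L.φ).trace - algebraMap 𝒪 H.A (e * ((ql k : 𝒪) + 1)) ∈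
    maximalIdeal H.A := by
  rw [mem_maximalIdeal, mem_nonunits_iff]
  intro hu
  have h1 : IsUnit (H.φW ((H.R L.φ).trace - algebraMap 𝒪 H.A (e * ((ql k : 𝒪) + 1)))) :=
    hu.map H.φW
  rw [map_sub, (B.W_rel H).2, AlgHom.commutes, Algebra.algebraMap_self_apply, sub_self] at h1
  exact not_isUnit_zero h1

theorem BlkHyp.unr {i : Fin (m + 1)} (hi : (i : ℕ) ≤ k) (l : H.I i) :
    (H.R L.τ).map (H.φ i l) = 1 :=
  (Realizes.eq_one_iff (H.φ_R i l) _).mp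
    (W.ql_unr i (by omega) l k B.hqp hi L.P L.hP _ L.hτ)

omit B in
theorem two_unit_of {A : Type*} [CommRing A] [Algebra 𝒪 A] (hu : u * 2 = 1) :
    IsUnit (2 : A) ∧ algebraMap 𝒪 A u * 2 = 1 := by
  have h : algebraMap 𝒪 A u * 2 = 1 := by
    rw [← map_ofNat (algebraMap 𝒪 A) 2, ← map_mul, hu, map_one]
  exact ⟨IsUnit.of_mul_eq_one _ (by rw [mul_comm]; exact h), h⟩

/-- at a point which is ramified or Steinberg at `ql k` -/
theorem BlkHyp.st {i : Fin (m + 1)} {l : H.I i} (h : IsSt (W.pt i l).ρ (ql k)) :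
    H.φ i l (H.R L.τ).trace = 2 ∧ H.φ i l (H.R L.τ).det = 1 ∧
      (H.φ i l (H.R L.φ).trace = ((ql k : (W.pt i l).R) + 1) ∨
        H.φ i l (H.R L.φ).trace = -((ql k : (W.pt i l).R) + 1)) ∧
      H.φ i l (H.R L.φ).det = (ql k : (W.pt i l).R) := by
  obtain ⟨h1, h2, h3⟩ := isSt_matrix (H.φ_R i l) L h
  have e1 := trace_map' (H.φ i l : H.A →+* (W.pt i l).R) (H.R L.τ)
  have e2 := trace_map' (H.φ i l : H.A →+* (W.pt i l).R) (H.R L.φ)
  have e3 := det_map' (H.φ i l : H.A →+* (W.pt i l).R) (H.R L.τ)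
  refine ⟨e1.symm.trans h1, e3.symm.trans h2, ?_, ?_⟩
  · rcases h3 with h3 | h3
    · exact Or.inl (e2.symm.trans h3)
    · exact Or.inr (e2.symm.trans h3)
  · rw [B.det_φ H, map_natCast]

/-- the sign is the sign of `W` if `q ≢ -1` -/
theorem BlkHyp.st_sign (hq1 : IsUnit ((ql k : 𝒪) + 1)) {i : Fin (m + 1)} {l : H.I i}
    (h : IsSt (W.pt i l).ρ (ql k)) : H.φ i l (H.R L.φ).trace =
      algebraMap 𝒪 (W.pt i l).R e * ((ql k : (W.pt i l).R) + 1) := by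
  have hloc := H.φ_loc i l
  have h1 : IsUnit ((ql k : (W.pt i l).R) + 1) := by
    have := hq1.map (algebraMap 𝒪 (W.pt i l).R)
    rwa [map_add, map_natCast, map_one] at this
  refine sign_eq (B.st H h).2.2.1 (by rw [← map_pow, B.he, map_one]) h1
    (two_unit_of B.hu).1 ?_
  have h2 := B.x_mem H
  have h3 : H.φ i l ((H.R L.φ).trace - algebraMap 𝒪 H.A (e * ((ql k : 𝒪) + 1))) ∈
      maximalIdeal (W.pt i l).R := map_nonunit (H.φ i l : H.A →+* (W.pt i l).R) _ h2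
  rwa [map_sub, AlgHom.commutes, map_mul, map_add, map_natCast, map_one] at h3

end Blk

end Fermat.Agent.LL
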