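import Fermat.Agent.LL.ChainLev

set_option autoImplicit false
set_option linter.unusedSectionVars false

/-!
# Production of `AutChain`
-/

open CongruenceSubgroup Fermat.Agent.Top IsLocalRing Fermat.Agent.TWMod
open scoped MatrixGroups TensorProduct

namespace Fermat.Agent.LL

section

variable {p : ℕ} {𝒪 : Type} [CommRing 𝒪] [IsDomain 𝒪] [IsDiscreteValuationRing 𝒪]
    [IsAdicComplete (maximalIdeal 𝒪) 𝒪] [Finite (ResidueField 𝒪)] [CharZero 𝒪] {j : 𝒪 →+* ℂ}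
    {ρbar : ResidualGaloisRep (ResidueField 𝒪)} {S0 : Finset ℕ} {b : ℕ → 𝒪} {N0 : ℕ}
    {Smin : Finset ℕ} {m : ℕ} {ql : Fin m → ℕ} {Pc : ℕ → TW.LCond} {F : MvPolynomial ℕ 𝒪}

/-- The newforms behind the points of a chain. -/
structure ChainForms {r : ℕ} {qv : Fin r → ℕ} {D : ℕ} (N0 : ℕ)
    (C : AutChain p j ρbar Pc Smin ql qv F D) : Prop where
  form : ∀ i (x : (C.A i).I), ∃ (M : ℕ) (_ : NeZero M) (g : CuspForm (Gamma0 M) 2),
    g.IsNewform ∧ (∀ q : ℕ, q.Prime → q ∣ M → q ∈ C.S i) ∧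
    (∀ ℓ : ℕ, ℓ.Prime → ℓ ∉ C.S i → ModularFormClass.qCoeff g ℓ = (C.A i).ev x ℓ) ∧
    NFProps p M (C.pt i x).ρ ∧ ¬ p ^ 2 ∣ M ∧ (p ∣ M → p ∣ lvN N0 ql i) ∧ (p ∣ N0 → p ∣ M)
  new : ∀ (i : Fin m), ∀ x ∈ C.new i, ∀ (M : ℕ) (_ : NeZero M) (g : CuspForm (Gamma0 M) 2),
    g.IsNewform → (∀ ℓ : ℕ, ℓ.Prime → ℓ ∉ C.S (i + 1) →
      ModularFormClass.qCoeff g ℓ = (C.A (i + 1)).ev x ℓ) → ql i ∣ M

variable (B : ChainBase p j ρbar S0 b N0 Smin ql Pc F)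
    {r : ℕ} {qv : Fin r → ℕ} (W : TWP p ρbar S0 qv) {av : Fin r → ℕ} (G : GrpRing 𝒪 p av)

include B W

theorem ChainBase.p_notMem : p ∉ Finset.univ.image qv := fun h ↦ by
  obtain ⟨k, hk⟩ := W.mem_iff.1 h
  exact W.notin k (hk ▸ B.pS)

/-- the newforms have level divisible by `p` if `p ∣ N0` -/
theorem ChainBase.p_dvd (hav : ∀ k, p ^ av k ∣ qv k - 1) (I : Inputs) (hSS : SpecSS)
    (hNew : SpecNew) (hLow : SpecLower) {i : ℕ} [NeZero (nQ N0 ql qv i)]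
    {E : MvPolynomial (Pr (↑(sS S0 qv ql m) : Set ℕ)) G.Λ}
    (hE : IsLoc (chz (nQ N0 ql qv i) (Finset.univ.image qv) (zQ G qv))
      (chz (nQ N0 ql qv i) (Finset.univ.image qv) (zQ G qv)) ↑(sS S0 qv ql m)
      (aL G (sS S0 qv ql m) b) E)
    {ψ : G.Λ →+* ℂ} {β : Pr (↑(sS S0 qv ql i) : Set ℕ) → ℂ}
    {x : H1 (kap ((chz (nQ N0 ql qv i) (Finset.univ.image qv) (zQ G qv)).ringHomComp ψ))
      (PtMod ψ)}
    (hx : IsEigP ψ (chz (nQ N0 ql qv i) (Finset.univ.image qv) (zQ G qv)) ↑(sS S0 qv ql i) β x)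
    (hx0 : x ≠ 0)
    (hxM : x ∈ MP ψ (chz (nQ N0 ql qv i) (Finset.univ.image qv) (zQ G qv)) ↑(sS S0 qv ql m) E)
    {M : ℕ} [NeZero M] {g : CuspForm (Gamma0 M) 2} (hg : g.IsNewform)
    (hgt : ∀ ℓ (h : ℓ.Prime ∧ ℓ ∉ (↑(sS S0 qv ql i) : Set ℕ)),
      ModularFormClass.qCoeff g ℓ = β ⟨ℓ, h⟩) (hp : p ∣ N0) : p ∣ M := by
  by_contra hpM
  have hS0 := B.S0_top W
  have L := (B.lev W G hav i).mono (sS_le_top i)
  have hzp : zQ G qv p = 1 := zQ_of_notMem G fun k hk ↦ W.notin k (hk ▸ B.pS)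
  have hpN : p ∣ nQ N0 ql qv i := (hp.trans dvd_lvN_zero).mul_right _
  have h3 : IsUnit (3 : G.Λ) ∨ p % 3 ≠ 2 := (B.three' G).imp id fun h ↦ by rw [h]; norm_num
  obtain ⟨M', hM', g', hg', hd, hc, hex⟩ := exists_newform_lower L B.toCtx I hS0 hSS hNew hLow
    hE (Or.inl rfl) (psi0_comp G j) (fun q _ ↦ psi0_zQ G j q) (hx.res (sS_le_top i)) hx0 hxM
    B.prime h3 hpN hzp hg (fun ℓ h ↦ hgt ℓ ⟨h.1, fun h' ↦ h.2 (Finset.mem_coe.2 (sS_le_top i
      (Finset.mem_coe.1 h')))⟩) hpM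
  have h1 : M' ∣ N0 * ∏ k, ql k := by
    have h2 : M' ∣ lvN N0 ql i * ∏ q ∈ Finset.univ.image qv, q := (dvd_mul_right M' p).trans hd
    refine (Nat.Coprime.dvd_of_dvd_mul_right ?_ h2).trans (lvN_dvd i)
    refine Nat.Coprime.prod_right fun q hq ↦ ?_
    obtain ⟨k, rfl⟩ := W.mem_iff.1 hq
    exact ((Nat.Prime.coprime_iff_not_dvd (W.prime k)).2
      (hex _ (W.prime k) (fun h ↦ W.notin k (h ▸ B.pS)) (W.one k) (W.dist k))).symm
  have h4 := B.pmin hp _ hS0 M' hM' g' hg' h1 hc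
  exact Nat.squarefree_iff_prime_squarefree.1 L.sqf p B.prime
    ((Nat.mul_dvd_mul h4 dvd_rfl).trans hd)

omit W in
set_option maxHeartbeats 2000000 in
/-- **Production of `AutChain`.** -/
theorem exists_autChain (I : Inputs) (hSS : SpecSS) (hNew : SpecNew)
    (hLow : TWLow.SpecLowerStrong) (r : ℕ) : ∃ D : ℕ, ∀ qv : Fin r → ℕ, TWP p ρbar S0 qv →
      (∀ ℓ ∈ F.vars, ∀ k, qv k ≠ ℓ) →
      ∃ C : AutChain p j ρbar Pc Smin ql qv F D, (∀ i, C.S i = sS S0 qv ql i) ∧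
        ChainForms N0 C := by
  classical
  refine ⟨2 ^ r * ∑ i ∈ Finset.range (m + 1),
    Module.finrank ℂ (H1 (kap (1 : DirichletCharacter ℂ (lvN N0 ql i))) ℂ), fun qv W hFq ↦ ?_⟩
  have C : Ctx p j ρbar S0 b := B.toCtx
  have hLow' : SpecLower := TWLow.specLower
  -- the group ring
  let av : Fin r → ℕ := fun k ↦ padicValNat p (qv k - 1)
  have : Fact p.Prime := ⟨B.prime⟩
  have hav : ∀ k, p ^ av k ∣ qv k - 1 := fun k ↦ pow_padicValNat_dvd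
  have hav' : ∀ k, ¬ p ^ (av k + 1) ∣ qv k - 1 := fun k ↦
    pow_succ_padicValNat_not_dvd (Nat.sub_ne_zero_of_lt (W.prime k).one_lt)
  obtain ⟨G⟩ := nonempty_grpRing (𝒪 := 𝒪) B.prime B.mem av
  -- the levels
  have hne := B.neZero W
  obtain ⟨E, CL⟩ := B.exists_clev W G hav
  obtain ⟨MC⟩ := Deg.modChainStmt C CL hSS hNew
  have hS0 := B.S0_top W
  have hqp : ∀ k, qv k ≠ p := fun k h ↦ W.notin k (h ▸ B.pS)
  have hQF : ∀ k, qv k ∈ Finset.univ.image qv := fun k ↦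
    Finset.mem_image_of_mem _ (Finset.mem_univ k)
  -- the points
  have hpt : ∀ i (x : (MC.A i).I), ∃ (M : ℕ) (_ : NeZero M) (g : CuspForm (Gamma0 M) 2),
      g.IsNewform ∧
      M ∣ nQ N0 ql qv i * cond (Finset.univ.image qv) (fun q ↦ (MC.A i).psi x (zQ G qv q)) ∧
      (∀ q : ℕ, q.Prime →
        q ∣ cond (Finset.univ.image qv) (fun q ↦ (MC.A i).psi x (zQ G qv q)) → q ^ 2 ∣ M) ∧
      (∀ ℓ : ℕ, ℓ.Prime → ℓ ∉ sS S0 qv ql i →
        ModularFormClass.qCoeff g ℓ = (MC.A i).ev x ℓ) ∧ (p ∣ N0 → p ∣ M) ∧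
      ∃ P : Pt j ρbar (insert p (sS S0 qv ql i)) ((MC.A i).ev x), NFProps p M P.ρ := by
    intro i x
    obtain ⟨β, v, hv, hv0, hvM, hev⟩ := MC.vec i x
    obtain ⟨M, hM, g, hg, hMd, hsq, hgt, P, hP⟩ := (CL.lev i).point_ext C I hS0 (sS_le_top i)
      hNew (CL.loc i) ((MC.A i).psi_comp x) hv hv0 hvM hev
    refine ⟨M, hM, g, hg, hMd, hsq, hgt, fun hp ↦ ?_, P, hP⟩
    exact B.p_dvd W G hav I hSS hNew hLow' (CL.loc i) hv hv0 hvM hg
      (fun ℓ h ↦ (hgt ℓ h.1 fun h' ↦ h.2 (Finset.mem_coe.2 h')).trans (hev ℓ h)) hp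
  choose M hM g hg hMd hsq hgt hpN0 P hP using hpt
  -- arithmetic of the levels
  have hMS : ∀ i x (q : ℕ), q.Prime → q ∣ M i x → q ∣ nQ N0 ql qv i := fun i x q hq h ↦
    (CL.lev i).dvd_of (hMd i x) hq h
  have hMl : ∀ i x (q : ℕ), q.Prime → q ∣ M i x → q ∉ Finset.univ.image qv →
      q ∣ lvN N0 ql i := by
    intro i x q hq h hqF
    rcases hq.dvd_mul.1 (hMS i x q hq h) with h | h
    · exact h
    · exact absurd (W.dvd_prod hq h) hqF
  have hpF := B.p_notMem W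
  have hp2M : ∀ i x, ¬ p ^ 2 ∣ M i x := fun i x ↦
    not_sq_dvd (CL.lev i).sqf (hMd i x) B.prime fun h ↦
      hpF ((dvd_cond_iff (CL.lev i).prime B.prime).1 h).1
  have hqlF : ∀ k, ql k ∉ Finset.univ.image qv := fun k h ↦ by
    obtain ⟨k', hk'⟩ := W.mem_iff.1 h
    exact W.notin k' (hk' ▸ B.memS _ (B.ql_prime k)
      ((Finset.dvd_prod_of_mem ql (Finset.mem_univ k)).mul_left _))
  have hcond : ∀ i ≤ m, ∀ x, TW.CondType 𝒪 p Smin (Pc i)
      (Finset.univ.image ql ∪ Finset.univ.image qv) (P i x).ρ := by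
    intro i hi x
    refine (CL.lev i).condType' (hP i x) (hMd i x) B.Sp (fun q hq hqF ↦ ?_) (fun q hq hqN ↦ ?_) ?_
    · obtain ⟨k, rfl⟩ := W.mem_iff.1 hqF
      exact W.notin k (B.SS0 hq)
    · rcases hq.dvd_mul.1 hqN with h | h
      · rcases dvd_lvN_iff B.ql_prime hq h with h | ⟨k, -, rfl⟩
        · exact Or.inl (B.SN q hq h)
        · exact Or.inr (Finset.mem_union_left _ (Finset.mem_image_of_mem _ (Finset.mem_univ k)))
      · exact Or.inr (Finset.mem_union_right _ (W.dvd_prod hq h))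
    · refine B.pcond i hi _ _ (P i x) (M i x) (hM i x) (g i x) (hg i x)
        (Finset.mem_insert_self _ _) (fun q hq hqM ↦ Finset.mem_insert_of_mem
          ((CL.lev i).mem q hq (hMS i x q hq hqM))) (fun ℓ hℓ hℓS ↦ hgt i x ℓ hℓ fun h ↦
          hℓS (Finset.mem_insert_of_mem h)) (hP i x) (hp2M i x)
          ⟨hpN0 i x, fun h ↦ hMl i x p B.prime h hpF⟩
  -- the ranks
  have hz0 : ∀ q ∈ Finset.univ.image qv, psi0 G j (zQ G qv q) = 1 := fun q _ ↦ psi0_zQ G j q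
  have hle : ∀ i ≤ m, Module.finrank G.Λ (MC.A i).M ≤ 2 ^ r * ∑ i ∈ Finset.range (m + 1),
      Module.finrank ℂ (H1 (kap (1 : DirichletCharacter ℂ (lvN N0 ql i))) ℂ) := by
    intro i hi
    rw [MC.rank i (psi0 G j)]
    have L := (CL.lev i).mono (sS_le_top i)
    have : NeZero (lvN N0 ql i) := ⟨(B.sqf.squarefree_of_dvd (lvN_dvd i)).ne_zero⟩
    have hJ := sysJ (ψ := psi0 G j) L C I hS0 hSS hNew (CL.loc i) (Or.inl rfl) (psi0_comp G j) hz0
      (Q := Finset.univ.image qv) (fun q hq ↦ by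
        obtain ⟨k, rfl⟩ := W.mem_iff.1 hq
        exact ⟨W.prime k, hqp k, W.one k, W.dist k⟩)
    have h1 := rank_bound hSS hLow hJ (N₀ := lvN N0 ql i)
      (fun q hq h ↦ hS0 (B.memS q hq (h.trans (lvN_dvd i))))
      (by rw [sS_top le_rfl]; exact Finset.subset_union_right) (fun q hq ↦ W.prime' hq)
      (fun q hq h ↦ by
        obtain ⟨k, rfl⟩ := W.mem_iff.1 hq
        exact B.qv_notMem W (h.trans (lvN_dvd i)))
      (Finset.univ.image qv) (Finset.Subset.refl _) (nQ N0 ql qv i) rfl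
      ((chz (nQ N0 ql qv i) (Finset.univ.image qv) (zQ G qv)).ringHomComp (psi0 G j)) (by
        rw [L.comp]
        exact chz_eq_one L.dvd L.prime hz0)
      (MP (psi0 G j) (chz (nQ N0 ql qv i) (Finset.univ.image qv) (zQ G qv))
        ↑(sS S0 qv ql m) E) (fun ℓ hℓ hℓS x hx ↦
        hk_mem_MP (ψ := psi0 G j)
          (χ := chz (nQ N0 ql qv i) (Finset.univ.image qv) (zQ G qv)) (E := E)
          ⟨ℓ, hℓ, fun h ↦ hℓS (Finset.mem_coe.1 h)⟩ hx)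
      (fun P hP x hx ↦ hP x hx)
    rw [Finset.card_image_of_injective _ W.inj, Finset.card_univ, Fintype.card_fin] at h1
    refine h1.trans (Nat.mul_le_mul_left _ ?_)
    exact Finset.single_le_sum (f := fun i ↦
      Module.finrank ℂ (H1 (kap (1 : DirichletCharacter ℂ (lvN N0 ql i))) ℂ))
      (fun _ _ ↦ Nat.zero_le _) (Finset.mem_range.2 (Nat.lt_succ_of_le hi))
  have hpos : 0 < Module.finrank G.Λ (MC.A 0).M := by
    rw [MC.rank 0 (psi0 G j)]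
    have : Module.Finite ℂ (H1 (kap ((chz (nQ N0 ql qv 0) (Finset.univ.image qv)
      (zQ G qv)).ringHomComp (psi0 G j))) (PtMod (psi0 G j))) :=
      finite_H1C ((chz (nQ N0 ql qv 0) (Finset.univ.image qv) (zQ G qv)).ringHomComp (psi0 G j))
    obtain ⟨f, hf, hc⟩ := B.form
    obtain ⟨x, hxM, hx0⟩ := (exists_eig_lev C ((CL.lev 0).mono (sS_le_top 0)) hS0 hz0
      (N0 := N0) (dvd_lvN_zero.mul_right _) hf hc).2 E (CL.loc 0)
    exact Module.finrank_pos_iff_exists_ne_zero.2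
      ⟨⟨x, hxM⟩, fun h ↦ hx0 (congrArg Subtype.val h)⟩
  refine ⟨{
    a := av
    a_dvd := hav
    a_max := hav'
    G := G
    S := sS S0 qv ql
    S_mono := CL.S_mono
    ql_notMem := CL.ql_S
    F_vars := ?_
    A := MC.A
    rank_pos := hpos
    rank_le := hle
    α := MC.α
    α_T := MC.α_T
    ret := MC.ret
    ret_α := MC.ret_α
    τ := MC.τ
    τ_T := MC.τ_T
    τ_surj := MC.τ_surj
    τ_α := MC.τ_α
    new := MC.new
    new_sep := MC.new_sep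
    new_α := MC.new_α
    pt := P
    cond := hcond
    unr := ?_
    ram := ?_
    ql_unr := ?_
    ql_st := ?_
    new_st := ?_
    F_ev := ?_ }, fun i ↦ rfl, ?_, MC.new_dvd⟩
  · intro ℓ hℓ
    refine ⟨(B.F_vars ℓ hℓ).1, ?_⟩
    rw [Finset.mem_insert, sS_top le_rfl, Finset.mem_union, not_or, not_or]
    refine ⟨fun h ↦ (B.F_vars ℓ hℓ).2 (h ▸ B.pS), (B.F_vars ℓ hℓ).2, fun h ↦ ?_⟩
    obtain ⟨k, hk⟩ := W.mem_iff.1 h
    exact hFq ℓ hℓ k hk
  · intro i _ x k hk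
    refine (CL.lev i).unr (P i x) (hP i x) (hMd i x) B.mem (hQF k) (hqp k) ?_ (W.dist k)
    rw [zQ_apply G W.inj k]
    exact hk
  · intro i _ x k hk
    refine (CL.lev i).ram (hP i x) (hMd i x) (hsq i x) (hQF k) (hqp k) ?_
    rw [zQ_apply G W.inj k]
    exact hk
  · intro i _ x k hkp hik
    refine (hP i x).unr _ (B.ql_prime k) hkp fun h ↦ ?_
    exact not_dvd_lvN B.sqf B.ql_prime hik (hMl i x _ (B.ql_prime k) h (hqlF k))
  · intro i _ x k hkp _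
    by_cases h : ql k ∣ M i x
    · exact Or.inr ((CL.lev i).isSt (hP i x) (hMd i x) (B.ql_prime k) hkp (hqlF k) h)
    · exact Or.inl ((hP i x).unr _ (B.ql_prime k) hkp h)
  · intro i hip x hx
    exact (CL.lev (i + 1)).isSt (hP _ x) (hMd _ x) (B.ql_prime i) hip (hqlF i)
      (MC.new_dvd i x hx _ (hM _ x) (g _ x) (hg _ x) (hgt _ x))
  · intro x hx
    have hz : ∀ q ∈ Finset.univ.image qv, (MC.A m).psi x (zQ G qv q) = 1 := by
      intro q hq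
      obtain ⟨k, rfl⟩ := W.mem_iff.1 hq
      rw [zQ_apply G W.inj k]
      exact hx k
    have h1 := hMd m x
    rw [cond_eq_one hz, mul_one] at h1
    have h2 : M m x ∣ N0 * ∏ k, ql k := by
      rw [← lvN_top (N0 := N0) (ql := ql) (le_refl m)]
      refine Nat.Coprime.dvd_of_dvd_mul_right ?_ h1
      refine Nat.Coprime.prod_right fun q hq ↦ ?_
      obtain ⟨k, rfl⟩ := W.mem_iff.1 hq
      refine ((Nat.Prime.coprime_iff_not_dvd (W.prime k)).2 fun h ↦ ?_).symm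
      exact not_exactly_dvd (P m x) (hP m x) B.mem (W.prime k) (hqp k) (W.one k) (W.dist k) h
        fun h' ↦ (Nat.squarefree_iff_prime_squarefree.1
          ((CL.lev m).sqf.squarefree_of_dvd h1)) _ (W.prime k) (by rwa [← sq])
    rw [← B.F_zero _ (hM m x) (g m x) (hg m x) h2]
    refine MvPolynomial.eval₂_congr _ _ _ fun {ℓ c} hℓ hc ↦ ?_
    have hv : ℓ ∈ F.vars := MvPolynomial.mem_vars ℓ |>.2
      ⟨c, MvPolynomial.mem_support_iff.2 hc, hℓ⟩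
    refine (hgt m x ℓ (B.F_vars ℓ hv).1 ?_).symm
    rw [sS_top le_rfl, Finset.mem_union, not_or]
    refine ⟨(B.F_vars ℓ hv).2, fun h ↦ ?_⟩
    obtain ⟨k, hk⟩ := W.mem_iff.1 h
    exact hFq ℓ hv k hk
  · intro i x
    exact ⟨M i x, hM i x, g i x, hg i x, fun q hq h ↦ (CL.lev i).mem q hq (hMS i x q hq h),
      hgt i x, hP i x, hp2M i x, fun h ↦ hMl i x p B.prime h hpF, hpN0 i x⟩

end

end Fermat.Agent.LL
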