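import Fermat.Agent.LL.ChainTW

set_option autoImplicit false
set_option linter.unusedSectionVars false

/-!
# The patching datum of a chain
-/

open IsLocalRing GaloisRep Polynomial

namespace Fermat.Agent.LL

open Fermat.Agent.DefRing Fermat.Agent

local notation "Γℚ" => (AlgebraicClosure ℚ ≃ₐ[ℚ] AlgebraicClosure ℚ)
local notation "M₂" => Matrix (Fin 2) (Fin 2)
local notation "Qb" => AlgebraicClosure ℚ

variable {𝒪 : Type} [CommRing 𝒪] [IsDomain 𝒪] [IsDiscreteValuationRing 𝒪]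
  [IsAdicComplete (maximalIdeal 𝒪) 𝒪] [Finite (ResidueField 𝒪)] [CharZero 𝒪]
  {p : ℕ} {j : 𝒪 →+* ℂ} {ρbar : ResidualGaloisRep (ResidueField 𝒪)} {P : ℕ → TW.LCond}
  {Smin : Finset ℕ} {m : ℕ} {ql : Fin m → ℕ} {r : ℕ} {qv : Fin r → ℕ} {F : MvPolynomial ℕ 𝒪}
  {D : ℕ} {W : AutChain p j ρbar P Smin ql qv F D} {P' : TW.LCond} {ρW : GaloisRepAdic 𝒪}
  {tW : ℕ → 𝒪}

/-- vanishing at the points which are new at `ql k` -/
def ChainRing.NewZ (H : ChainRing W P' ρW tW) (k : Fin m) (x : H.A) : Prop :=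
  ∀ l : H.I (k.succ : Fin (m + 1)), (l : (W.A k.succ).I) ∈ W.new k → H.φ k.succ l x = 0

/-- coordinates of a scalar block -/
structure ScBlock (H : ChainRing W P' ρW tW) (k : Fin m) (h : 𝒪) where
  f : Fin 3 → H.A
  s : Fin 3 → H.A
  f_mem : ∀ i, f i ∈ maximalIdeal H.A
  s_mem : ∀ i, s i ∈ maximalIdeal H.A
  T : H.A
  step : Step (H.emod k.castSucc) (H.emod k.succ) (ql k) T (H.NewZ k)
  s_zero : ∀ i : Fin (m + 1), (i : ℕ) ≤ k → ∀ l a, H.φ i l (s a) = 0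
  s_st : ∀ i : Fin (m + 1), (k : ℕ) < i → ∀ l a c,
    H.φ i l (s a * Supp.stRel (algebraMap 𝒪 H.A h) f s c) = 0
  det : ∃ c, ((ql k : H.A) + 1) ^ 2 - T ^ 2 =
    c * (f 0 ^ 2 + f 1 * f 2 - algebraMap 𝒪 H.A h ^ 2)
  new_zero : ∀ c, H.NewZ k (Supp.stRel (algebraMap 𝒪 H.A h) f s c)
  wW : ∀ c, H.φW (Supp.stRel (algebraMap 𝒪 H.A h) f s c) = 0

/-- coordinates of a simple block -/
structure SBlock (H : ChainRing W P' ρW tW) (k : Fin m) (c : 𝒪) where
  x : H.A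
  nn : H.A
  b : H.A
  x_mem : x ∈ maximalIdeal H.A
  nn_mem : nn ∈ maximalIdeal H.A
  b_mem : b ∈ maximalIdeal H.A
  T : H.A
  step : Step (H.emod k.castSucc) (H.emod k.succ) (ql k) T (H.NewZ k)
  nn_zero : ∀ i : Fin (m + 1), (i : ℕ) ≤ k → ∀ l, H.φ i l nn = 0
  b_zero : ∀ i : Fin (m + 1), (i : ℕ) ≤ k → ∀ l, H.φ i l b = 0
  nn_b : ∀ i : Fin (m + 1), (k : ℕ) < i → ∀ l, H.φ i l (nn * b) = 0
  nn_x : ∀ i : Fin (m + 1), (k : ℕ) < i → ∀ l, H.φ i l (nn * x) = 0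
  b_x : ∀ i : Fin (m + 1), (k : ℕ) < i → ∀ l, H.φ i l (b * (x - algebraMap 𝒪 H.A c)) = 0
  det : ∃ a, ((ql k : H.A) + 1) ^ 2 - T ^ 2 = a * x
  new_zero : H.NewZ k (x * (x - algebraMap 𝒪 H.A c))
  wW_x : H.φW x = 0
  wW_b : H.φW b = 0

/-- parameters of a chain -/
structure ChainPar (𝒪 : Type) [CommRing 𝒪] [IsLocalRing 𝒪] (p m r D : ℕ) where
  p_prime : p.Prime
  p_mem : (p : 𝒪) ∈ maximalIdeal 𝒪
  scal : Fin m → Prop
  [dec : DecidablePred scal]
  h : Fin m → 𝒪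
  h_mem : ∀ t, h t ∈ maximalIdeal 𝒪
  c : Fin m → 𝒪
  c_mem : ∀ t, c t ∈ maximalIdeal 𝒪
  c_ne : ∀ t, c t ≠ 0
  g : ℕ
  r_eq : r = 3 * Fintype.card {k // scal k} + Fintype.card {k // ¬ scal k} + g
  cθ : 𝒪
  cθ_ne : cθ ≠ 0

attribute [instance] ChainPar.dec

/-- the parameters of the patching datum -/
def ChainPar.toParams {𝒪 : Type} [CommRing 𝒪] [IsLocalRing 𝒪] {p m r D : ℕ}
    (Q : ChainPar 𝒪 p m r D) : Supp.Params 𝒪 where
  p := p
  p_prime := Q.p_prime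
  p_mem := Q.p_mem
  S := {k // Q.scal k}
  h := fun t => Q.h t
  h_mem := fun t => Q.h_mem t
  X := {k // ¬ Q.scal k}
  c := fun t => Q.c t
  c_mem := fun t => Q.c_mem t
  c_ne := fun t => Q.c_ne t
  m := m
  ord := (Equiv.sumCompl Q.scal).symm
  g := Q.g
  r := r
  r_eq := Q.r_eq
  D := D
  cθ := Q.cθ
  cθ_ne := Q.cθ_ne

theorem ChainPar.ord_inl {𝒪 : Type} [CommRing 𝒪] [IsLocalRing 𝒪] {p m r D : ℕ}
    (Q : ChainPar 𝒪 p m r D) {i : Fin m} {t : {k // Q.scal k}}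
    (h : Q.toParams.ord i = Sum.inl t) : i = t := by
  have h1 : (Equiv.sumCompl Q.scal).symm i = Sum.inl t := h
  rw [Equiv.symm_apply_eq] at h1
  exact h1

theorem ChainPar.ord_inr {𝒪 : Type} [CommRing 𝒪] [IsLocalRing 𝒪] {p m r D : ℕ}
    (Q : ChainPar 𝒪 p m r D) {i : Fin m} {t : {k // ¬ Q.scal k}}
    (h : Q.toParams.ord i = Sum.inr t) : i = t := by
  have h1 : (Equiv.sumCompl Q.scal).symm i = Sum.inr t := h
  rw [Equiv.symm_apply_eq] at h1
  exact h1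

/-- the index of a stage -/
def stg (m i : ℕ) : Fin (m + 1) := ⟨min i m, by omega⟩

theorem stg_castSucc {m : ℕ} (i : Fin m) : stg m i = i.castSucc := by
  apply Fin.ext
  show min (i : ℕ) m = i
  omega

theorem stg_succ {m : ℕ} (i : Fin m) : stg m (i + 1) = i.succ := by
  apply Fin.ext
  show min ((i : ℕ) + 1) m = i + 1
  omega

theorem stg_val {m i : ℕ} (h : i ≤ m) : (stg m i : ℕ) = i := by
  show min i m = i
  omega

theorem ChainRing.cdatum [hpp : Fact p.Prime] (H : ChainRing W P' ρW tW) (hp2 : p ≠ 2)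
    (hp𝒪 : (p : 𝒪) ∈ maximalIdeal 𝒪) (hpS : p ∈ Smin)
    (hSmin : ∀ q : ℕ, q.Prime → q ≠ p → (q ∈ Smin ↔ ¬ ρbar.IsUnramifiedAt q)) {n : ℕ}
    (hq : ∀ i, (qv i).Prime ∧ qv i ∉ Smin ∧ p ^ (n + 1) ∣ qv i - 1)
    (hfr : ∀ i, ∀ P : ValuationSubring Qb, P.LiesOverPrime (qv i) →
      ∀ σ : Γℚ, P.IsFrobeniusAt σ (qv i) → ∃ α β : ResidueField 𝒪, α ≠ β ∧
        LinearMap.charpoly (ρbar.ρ σ) = (X - C α) * (X - C β))
    (hWur : ∀ k, ρW.IsUnramifiedAt (qv k)) (Q : ChainPar 𝒪 p m r D)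
    (sc : ∀ t : {k // Q.scal k}, ScBlock H t (Q.h t))
    (sb : ∀ t : {k // ¬ Q.scal k}, SBlock H t (Q.c t))
    (y : Fin Q.g → H.A) (y_mem : ∀ i, y i ∈ maximalIdeal H.A)
    (gen : maximalIdeal H.A ≤ (maximalIdeal 𝒪).map (algebraMap 𝒪 H.A) ⊔
      Ideal.span ({z | ∃ t i, z = (sc t).f i} ∪ {z | ∃ t i, z = (sc t).s i} ∪
        Set.range (fun t => (sb t).x) ∪ Set.range (fun t => (sb t).nn) ∪
        Set.range (fun t => (sb t).b) ∪ Set.range y))
    (hF : MvPolynomial.eval tW F = Q.cθ) :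
    Nonempty (Supp.CDatum Q.toParams n) := by
  classical
  obtain ⟨hak, κ, hκ, hκm, hgood, hκW⟩ := H.exists_kappa hp2 hp𝒪 hpS hSmin hq hfr hWur
  have hE : ∀ i, i ≤ m → (stg m i : ℕ) = i := fun i hi => stg_val hi
  -- the element `θ`
  obtain ⟨F', hF'⟩ := MvPolynomial.exists_rename_eq_of_vars_subset_range (p := F)
    (Subtype.val : PL (W.SS m) → ℕ) Subtype.val_injective (by
      intro ℓ hℓ
      exact ⟨⟨ℓ, W.F_vars ℓ hℓ⟩, rfl⟩)
  have hθW : H.φW (H.π F') = Q.cθ := by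
    have e1 : MvPolynomial.eval tW F =
        MvPolynomial.eval (tW ∘ (Subtype.val : PL (W.SS m) → ℕ)) F' :=
      (congrArg (MvPolynomial.eval tW) hF').symm.trans (MvPolynomial.eval_rename _ _ _)
    rw [H.φW_π]
    exact e1.symm.trans hF
  have hθE : ∀ i : H.I m, (∀ k, (W.A m).psi i (W.G.d k) = 1) →
      (W.pt m i).ι (H.φ (Fin.last m) i (H.π F')) = 0 := by
    intro i hi
    have h1 := H.φ_π (Fin.last m) i F'
    have h2 := Pt.ι_aeval (W.SS_mono (le_refl m)) (W.pt m i) F'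
    have h3 : (W.pt m i).ι (H.φ (Fin.last m) i (H.π F')) =
        MvPolynomial.eval₂ j (fun ℓ : PL (W.SS m) => (W.A m).ev i ℓ) F' := by
      rw [← h2]
      exact congrArg _ h1
    rw [h3]
    have h4 := W.F_ev i hi
    have h5 : MvPolynomial.eval₂ j ((W.A m).ev i) F =
        MvPolynomial.eval₂ j ((W.A m).ev i ∘ (Subtype.val : PL (W.SS m) → ℕ)) F' :=
      (congrArg (MvPolynomial.eval₂ j ((W.A m).ev i)) hF').symm.trans
        (MvPolynomial.eval₂_rename _ _ _ _)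
    rw [h5] at h4
    exact h4
  have hbl : ∀ (i : Fin (m + 1)) (x : H.A), (∀ l, H.φ i l x = 0) → (H.emod i).act x = 0 :=
    fun i x hx => H.emod_act_eq_zero i x hx
  have hnumS : ∀ t : {k // Q.scal k}, Q.toParams.num (Sum.inl t) = (t : Fin m) := fun t => rfl
  have hnumX : ∀ t : {k // ¬ Q.scal k}, Q.toParams.num (Sum.inr t) = (t : Fin m) := fun t => rfl
  -- the steps
  let T : Fin m → H.A := fun i => if h : Q.scal i then (sc ⟨i, h⟩).T else (sb ⟨i, h⟩).T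
  have hTs : ∀ t : {k // Q.scal k}, T t = (sc t).T := fun t => dif_pos t.2
  have hTx : ∀ t : {k // ¬ Q.scal k}, T t = (sb t).T := fun t => dif_neg t.2
  have hstep : ∀ i : Fin m, Nonempty (Step (H.emod (stg m i)) (H.emod (stg m (i + 1))) (ql i) (T i)
      (H.NewZ i)) := by
    intro i
    rw [stg_castSucc, stg_succ]
    by_cases h : Q.scal i
    · rw [hTs ⟨i, h⟩]; exact ⟨(sc ⟨i, h⟩).step⟩
    · rw [hTx ⟨i, h⟩]; exact ⟨(sb ⟨i, h⟩).step⟩
  refine cdatum_of_steps Q.toParams n hpp W.G H.A H.res_surj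
    (fun t => (sc t).f) (fun t => (sc t).s) (fun t => (sb t).x) (fun t => (sb t).nn)
    (fun t => (sb t).b) y (fun t => (sc t).f_mem) (fun t => (sc t).s_mem) (fun t => (sb t).x_mem)
    (fun t => (sb t).nn_mem) (fun t => (sb t).b_mem) y_mem gen hak κ hκ hκm
    (fun i => H.emod (stg m i)) ?_ ?_ (fun i hi => hgood _) ?_ ?_ ?_ ?_ ?_ ?_ ?_ ql T
    (fun i => H.NewZ i) (fun i => (hstep i).some) ?_ ?_ ?_ ?_ H.φW hκW
    (fun t => (sc t).wW) (fun t => (sb t).wW_x) (fun t => (sb t).wW_b) (H.π F') hθW ?_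
  · exact W.rank_pos
  · intro i hi
    exact W.rank_le (stg m i) (by rw [hE i hi]; exact hi)
  · intro i hi t ht a
    exact hbl _ _ fun l => (sc t).s_zero _ (by rw [hE i hi]; exact ht) l a
  · intro i hi t ht
    exact hbl _ _ fun l => (sb t).nn_zero _ (by rw [hE i hi]; exact ht) l
  · intro i hi t ht
    exact hbl _ _ fun l => (sb t).b_zero _ (by rw [hE i hi]; exact ht) l
  · intro i hi t ht a c
    exact hbl _ _ fun l => (sc t).s_st _ (by rw [hE i hi]; exact ht) l a c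
  · intro i hi t ht
    exact hbl _ _ fun l => (sb t).nn_b _ (by rw [hE i hi]; exact ht) l
  · intro i hi t ht
    exact hbl _ _ fun l => (sb t).nn_x _ (by rw [hE i hi]; exact ht) l
  · intro i hi t ht
    exact hbl _ _ fun l => (sb t).b_x _ (by rw [hE i hi]; exact ht) l
  · intro i t ht
    have h1 := Q.ord_inl ht
    subst h1
    have h2 := (sc t).det
    rw [← hTs t] at h2
    exact h2
  · intro i t ht
    have h1 := Q.ord_inr ht
    subst h1
    have h2 := (sb t).det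
    rw [← hTx t] at h2
    exact h2
  · intro i t ht c
    have h1 := Q.ord_inl ht
    subst h1
    exact (sc t).new_zero c
  · intro i t ht
    have h1 := Q.ord_inr ht
    subst h1
    exact (sb t).new_zero
  · intro i hi
    have h0 : stg m m = Fin.last m := by
      apply Fin.ext
      show min m m = m
      omega
    have key : ∀ s : Fin (m + 1), s = Fin.last m → ∀ i : (H.emod s).I,
        (∀ k, (H.emod s).psi i (W.G.d k) = 1) → (H.emod s).χ i (H.π F') = 0 := by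
      rintro s rfl i hi
      exact hθE i hi
    exact key _ h0 i hi

end Fermat.Agent.LL
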