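import Fermat.Agent.LL.ChainDatum
import Fermat.Agent.GenW.Modes

set_option autoImplicit false
set_option linter.unusedSectionVars false

/-!
# Generators of the Hecke ring of a chain
-/

open IsLocalRing GaloisRep Polynomial

namespace Fermat.Agent.LL

open Fermat.Agent.DefRing Fermat.Agent Fermat.Agent.TW

local notation "Γℚ" => (AlgebraicClosure ℚ ≃ₐ[ℚ] AlgebraicClosure ℚ)
local notation "M₂" => Matrix (Fin 2) (Fin 2)
local notation "Qb" => AlgebraicClosure ℚ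

/-- the last part of `GenWConcl`, for given Taylor--Wiles primes -/
def GenWAt {𝒪 : Type} [CommRing 𝒪] [IsDomain 𝒪] [IsDiscreteValuationRing 𝒪]
    [IsAdicComplete (maximalIdeal 𝒪) 𝒪] [Finite (ResidueField 𝒪)]
    (p : ℕ) (ρbar : ResidualGaloisRep (ResidueField 𝒪)) (Smin Tsc Tns : Finset ℕ)
    (L : ∀ l : ℕ, l ∈ Tsc ∪ Tns → LL.LocGen l p) (g : ℕ)
    (Pp : LCond) (Kp : (Γℚ → M₂ (DualNumber (ResidueField 𝒪))) → Prop) {r : ℕ}
    (qv : Fin r → ℕ) : Prop :=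
  ∀ (A : Type) [CommRing A] [IsLocalRing A] [IsNoetherianRing A]
        [IsAdicComplete (maximalIdeal A) A] [Algebra 𝒪 A] [IsLocalHom (algebraMap 𝒪 A)],
        Function.Surjective (residue A ∘ algebraMap 𝒪 A) →
      ∀ ρ : GaloisRepAdic A,
        CondTypeT 𝒪 p Smin (Tsc ∪ Tns) (fun _ _ _ _ => True) (Finset.univ.image qv) ρ → Pp ρ →
        ρ.residual.IsEquiv (ρbar.baseChangeAlong (ResidueField.map (algebraMap 𝒪 A))) →
        (∀ (B : Type) [CommRing B] [IsLocalRing B] [Algebra 𝒪 B] (f g : A →ₐ[𝒪] B)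
          (hf : IsLocalHom (f : A →+* B)) (hg : IsLocalHom (g : A →+* B)),
          (ρ.baseChangeAlong (f : A →+* B) hf).IsEquiv (ρ.baseChangeAlong (g : A →+* B) hg) →
          f = g) →
      ∀ r : Γℚ → M₂ A, Realizes ρ r → ∀ (J : Type) (y : J → A), (∀ j, y j ∈ maximalIdeal A) →
        (∀ θ : A →ₐ[𝒪] DualNumber (ResidueField 𝒪),
          IsLocalHom (θ : A →+* DualNumber (ResidueField 𝒪)) → (∀ j, θ (y j) = 0) →
          (∀ (l : ℕ) (hl : l ∈ Tsc), KSc (L l (Finset.mem_union_left _ hl))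
            (fun σ => (r σ).map θ)) ∧
          (∀ (l : ℕ) (hl : l ∈ Tns), KNs (L l (Finset.mem_union_right _ hl))
            (fun σ => (r σ).map θ)) ∧ Kp (fun σ => (r σ).map θ)) →
        ∃ z : Fin g → A, (∀ i, z i ∈ maximalIdeal A) ∧
          (maximalIdeal A ≤ (maximalIdeal 𝒪).map (algebraMap 𝒪 A) ⊔
            Ideal.span (Set.range y ∪ Set.range z))

theorem GenWConcl.at {𝒪 : Type} [CommRing 𝒪] [IsDomain 𝒪] [IsDiscreteValuationRing 𝒪]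
    [IsAdicComplete (maximalIdeal 𝒪) 𝒪] [Finite (ResidueField 𝒪)]
    {p : ℕ} {ρbar : ResidualGaloisRep (ResidueField 𝒪)} {Smin Tsc Tns : Finset ℕ}
    {L : ∀ l : ℕ, l ∈ Tsc ∪ Tns → LL.LocGen l p} {wp c : ℕ}
    {Pp : LCond} {Kp : (Γℚ → M₂ (DualNumber (ResidueField 𝒪))) → Prop}
    (h : GenWConcl p ρbar Smin Tsc Tns L wp c Pp Kp) :
    ∃ g : ℕ, ∀ (S : Finset ℕ) (n : ℕ),
    ∃ qv : Fin (3 * Tsc.card + Tns.card + wp + g) → ℕ,
      Function.Injective qv ∧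
      (∀ i, (qv i).Prime ∧ qv i ∉ S ∧ p ^ (n + 1) ∣ qv i - 1) ∧
      (∀ i, ∀ P : ValuationSubring (AlgebraicClosure ℚ), P.LiesOverPrime (qv i) →
        ∀ φ : Γℚ, P.IsFrobeniusAt φ (qv i) →
          ∃ α β : ResidueField 𝒪, α ≠ β ∧ LinearMap.charpoly (ρbar.ρ φ) =
            (Polynomial.X - Polynomial.C α) * (Polynomial.X - Polynomial.C β)) ∧
      GenWAt p ρbar Smin Tsc Tns L (g + c) Pp Kp qv := by
  obtain ⟨g, hg⟩ := h
  refine ⟨g, fun S n => ?_⟩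
  obtain ⟨qv, h1, h2, h3, h4⟩ := hg S n
  refine ⟨qv, h1, h2, h3, ?_⟩
  intro A _ _ _ _ _ _ hres ρ hof hPp hρ hu r hr J y hy hk
  obtain ⟨z, hz1, hz2, -⟩ := h4 A hres ρ hof hPp hρ hu r hr J y hy hk
  exact ⟨z, hz1, hz2⟩

variable {𝒪 : Type} [CommRing 𝒪] [IsDomain 𝒪] [IsDiscreteValuationRing 𝒪]
  [IsAdicComplete (maximalIdeal 𝒪) 𝒪] [Finite (ResidueField 𝒪)] [CharZero 𝒪]
  {p : ℕ} {j : 𝒪 →+* ℂ} {ρbar : ResidualGaloisRep (ResidueField 𝒪)} {P : ℕ → TW.LCond}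
  {Smin : Finset ℕ} {m : ℕ} {ql : Fin m → ℕ} {r : ℕ} {qv : Fin r → ℕ} {F : MvPolynomial ℕ 𝒪}
  {D : ℕ} {W : AutChain p j ρbar P Smin ql qv F D} {P' : TW.LCond} {ρW : GaloisRepAdic 𝒪}
  {tW : ℕ → 𝒪}

/-- **Generators of the Hecke ring of a chain.** -/
theorem ChainRing.exists_gen (H : ChainRing W P' ρW tW) {Tsc Tns : Finset ℕ}
    {L : ∀ l : ℕ, l ∈ Tsc ∪ Tns → LL.LocGen l p} {g : ℕ}
    {Pp : LCond} {Kp : (Γℚ → M₂ (DualNumber (ResidueField 𝒪))) → Prop}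
    (hG : GenWAt p ρbar Smin Tsc Tns L g Pp Kp qv)
    (hql : ∀ k, ql k ∈ Smin ∪ (Tsc ∪ Tns)) (hPp : Pp H.ρ)
    {ιf ιs ιx : Type} (f : ιf → Fin 3 → H.A) (s : ιs → Fin 3 → H.A) (x nn b : ιx → H.A)
    (f_mem : ∀ t i, f t i ∈ maximalIdeal H.A) (s_mem : ∀ t i, s t i ∈ maximalIdeal H.A)
    (x_mem : ∀ t, x t ∈ maximalIdeal H.A) (nn_mem : ∀ t, nn t ∈ maximalIdeal H.A)
    (b_mem : ∀ t, b t ∈ maximalIdeal H.A)
    (hk : ∀ θ : H.A →ₐ[𝒪] DualNumber (ResidueField 𝒪),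
      IsLocalHom (θ : H.A →+* DualNumber (ResidueField 𝒪)) →
      (∀ t i, θ (f t i) = 0) → (∀ t i, θ (s t i) = 0) → (∀ t, θ (x t) = 0) →
      (∀ t, θ (nn t) = 0) → (∀ t, θ (b t) = 0) →
      (∀ (l : ℕ) (hl : l ∈ Tsc), KSc (L l (Finset.mem_union_left _ hl))
        (fun σ => (H.R σ).map θ)) ∧
      (∀ (l : ℕ) (hl : l ∈ Tns), KNs (L l (Finset.mem_union_right _ hl))
        (fun σ => (H.R σ).map θ)) ∧ Kp (fun σ => (H.R σ).map θ)) :
    ∃ y : Fin g → H.A, (∀ i, y i ∈ maximalIdeal H.A) ∧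
      maximalIdeal H.A ≤ (maximalIdeal 𝒪).map (algebraMap 𝒪 H.A) ⊔
        Ideal.span ({z | ∃ t i, z = f t i} ∪ {z | ∃ t i, z = s t i} ∪ Set.range x ∪
          Set.range nn ∪ Set.range b ∪ Set.range y) := by
  classical
  have hcond : CondTypeT 𝒪 p Smin (Tsc ∪ Tns) (fun _ _ _ _ => True)
      (Finset.univ.image qv) H.ρ := by
    obtain ⟨⟨h1, -, h2⟩, h3⟩ := H.cond
    refine ⟨⟨h1, trivial, fun q hq hqn => h2 q hq fun hqm => hqn ?_⟩, h3⟩
    rcases Finset.mem_union.1 hqm with h | h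
    · exact Finset.mem_union_left _ (Finset.mem_union_left _ h)
    · rcases Finset.mem_union.1 h with h | h
      · obtain ⟨k, -, rfl⟩ := Finset.mem_image.1 h
        exact Finset.mem_union_left _ (hql k)
      · exact Finset.mem_union_right _ h
  let J : Type := (ιf × Fin 3) ⊕ (ιs × Fin 3) ⊕ ιx ⊕ ιx ⊕ ιx
  let Y : J → H.A := Sum.elim (fun t => f t.1 t.2) (Sum.elim (fun t => s t.1 t.2)
    (Sum.elim x (Sum.elim nn b)))
  have hY : ∀ j, Y j ∈ maximalIdeal H.A := by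
    rintro (⟨t, i⟩ | ⟨t, i⟩ | t | t | t)
    exacts [f_mem t i, s_mem t i, x_mem t, nn_mem t, b_mem t]
  obtain ⟨z, hz1, hz2⟩ := hG H.A H.res_surj H.ρ hcond hPp H.residual H.uniq H.R H.hR J Y hY
    (fun θ hθ h => hk θ hθ (fun t i => h (Sum.inl (t, i)))
      (fun t i => h (Sum.inr (Sum.inl (t, i)))) (fun t => h (Sum.inr (Sum.inr (Sum.inl t))))
      (fun t => h (Sum.inr (Sum.inr (Sum.inr (Sum.inl t)))))
      (fun t => h (Sum.inr (Sum.inr (Sum.inr (Sum.inr t))))))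
  refine ⟨z, hz1, hz2.trans (sup_le_sup le_rfl (Ideal.span_mono ?_))⟩
  rintro _ (⟨⟨t, i⟩ | ⟨t, i⟩ | t | t | t, rfl⟩ | ⟨i, rfl⟩)
  · exact Or.inl (Or.inl (Or.inl (Or.inl (Or.inl ⟨t, i, rfl⟩))))
  · exact Or.inl (Or.inl (Or.inl (Or.inl (Or.inr ⟨t, i, rfl⟩))))
  · exact Or.inl (Or.inl (Or.inl (Or.inr ⟨t, rfl⟩)))
  · exact Or.inl (Or.inl (Or.inr ⟨t, rfl⟩))
  · exact Or.inl (Or.inr ⟨t, rfl⟩)
  · exact Or.inr ⟨i, rfl⟩

section Kill

variable {A : Type*} [CommRing A] {k : Type*} [Field k]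

/-- the coordinates of a scalar block -/
theorem exists_smul_one_of_coords (θ : A →+* DualNumber k) {M : M₂ A} {u : A} (hu : u * 2 = 1)
    (h0 : θ (u * (M 0 0 - M 1 1)) = 0) (h1 : θ (M 0 1) = 0) (h2 : θ (M 1 0) = 0) :
    ∃ c : DualNumber k, M.map θ = c • (1 : M₂ (DualNumber k)) := by
  have h3 : θ (M 0 0) = θ (M 1 1) := by
    have h4 : (2 : DualNumber k) * θ (u * (M 0 0 - M 1 1)) = 0 := by rw [h0, mul_zero]
    have h5 : (2 : A) * (u * (M 0 0 - M 1 1)) = M 0 0 - M 1 1 := by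
      linear_combination (M 0 0 - M 1 1) * hu
    rw [← map_ofNat θ 2, ← map_mul, h5, map_sub, sub_eq_zero] at h4
    exact h4
  refine ⟨θ (M 0 0), Matrix.ext fun i j => ?_⟩
  fin_cases i <;> fin_cases j
  · simp
  · simp [h1]
  · simp [h2]
  · simp [h3]

/-- transport of the vanishing of the monodromy operator -/
theorem map_eq_one_of_conj (θ : A →+* DualNumber k) {M N C : M₂ A} (hC : IsUnit C.det)
    (h : (M - 1) * C = C * N) (hN : N.map θ = 0) : M.map θ = 1 := by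
  have h1 : ((M - 1) * C).map θ = 0 := by rw [h, Matrix.map_mul, hN, mul_zero]
  rw [Matrix.map_mul] at h1
  have h2 : C.map θ * (C⁻¹).map θ = 1 := by
    rw [← Matrix.map_mul, Matrix.mul_nonsing_inv _ hC]
    exact Matrix.map_one _ (map_zero _) (map_one _)
  have h3 : (M - 1).map θ = 0 := by
    calc (M - 1).map θ = (M - 1).map θ * (C.map θ * (C⁻¹).map θ) := by rw [h2, mul_one]
      _ = 0 := by rw [← mul_assoc, h1, zero_mul]
  rw [Matrix.map_sub _ (map_sub θ), Matrix.map_one _ (map_zero _) (map_one _), sub_eq_zero] at h3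
  exact h3

/-- the trace is constant if it is congruent to a constant -/
theorem trace_snd_eq_zero {𝒪 : Type} [CommRing 𝒪] [IsLocalRing 𝒪] {A : Type*} [CommRing A]
    [Algebra 𝒪 A] (θ : A →ₐ[𝒪] DualNumber (ResidueField 𝒪)) {M : M₂ A} {a : 𝒪}
    (h : θ (M.trace - algebraMap 𝒪 A a) = 0) : (M.map θ).trace.snd = 0 := by
  rw [map_sub, sub_eq_zero, θ.commutes] at h
  have h1 : (M.map θ).trace = θ M.trace := by
    rw [Matrix.trace_fin_two, Matrix.trace_fin_two, map_add]; rfl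
  rw [h1, h]
  rfl

end Kill

end Fermat.Agent.LL
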