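import Fermat.Agent.LL.ChainPt
import Fermat.Agent.Deg.ModBuild
import Fermat.Agent.Deg.Proj

set_option autoImplicit false
set_option linter.unusedSectionVars false

/-!
# The levels of the chain
-/

open CongruenceSubgroup Fermat.Agent.Top IsLocalRing Fermat.Agent.TWMod
open scoped MatrixGroups TensorProduct

namespace Fermat.Agent.LL

section Levels

variable {N0 : ℕ} {m : ℕ} {ql : Fin m → ℕ}

theorem lvN_zero : lvN N0 ql 0 = N0 := by
  rw [lvN, Finset.filter_false_of_mem (fun k _ ↦ Nat.not_lt_zero _), Finset.prod_empty, mul_one]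

theorem lvN_succ (i : Fin m) : lvN N0 ql (i + 1) = lvN N0 ql i * ql i := by
  classical
  have h : Finset.univ.filter (fun k : Fin m ↦ (k : ℕ) < i + 1) =
      insert i (Finset.univ.filter (fun k : Fin m ↦ (k : ℕ) < i)) := by
    ext k
    rw [Finset.mem_insert, Finset.mem_filter, Finset.mem_filter]
    constructor
    · rintro ⟨-, h⟩
      rcases Nat.lt_succ_iff_lt_or_eq.1 h with h | h
      · exact Or.inr ⟨Finset.mem_univ _, h⟩
      · exact Or.inl (Fin.ext h)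
    · rintro (rfl | ⟨-, h⟩)
      · exact ⟨Finset.mem_univ _, Nat.lt_succ_self _⟩
      · exact ⟨Finset.mem_univ _, Nat.lt_succ_of_lt h⟩
  have h' : i ∉ Finset.univ.filter (fun k : Fin m ↦ (k : ℕ) < i) := fun h ↦
    lt_irrefl _ (Finset.mem_filter.1 h).2
  rw [lvN, lvN, h, Finset.prod_insert h', mul_comm (ql i), mul_assoc]

theorem lvN_mul (i : ℕ) : N0 * ∏ k, ql k =
    lvN N0 ql i * ∏ k ∈ Finset.univ.filter (fun k : Fin m ↦ ¬ (k : ℕ) < i), ql k := by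
  rw [lvN, mul_assoc, Finset.prod_filter_mul_prod_filter_not]

theorem lvN_dvd (i : ℕ) : lvN N0 ql i ∣ N0 * ∏ k, ql k :=
  ⟨_, lvN_mul i⟩

theorem lvN_top {i : ℕ} (h : m ≤ i) : lvN N0 ql i = N0 * ∏ k, ql k := by
  rw [lvN, Finset.filter_true_of_mem (fun k _ ↦ lt_of_lt_of_le k.2 h)]

theorem dvd_lvN {k : Fin m} {i : ℕ} (h : (k : ℕ) < i) : ql k ∣ lvN N0 ql i :=
  (Finset.dvd_prod_of_mem ql (Finset.mem_filter.2 ⟨Finset.mem_univ k, h⟩)).mul_left _

theorem dvd_lvN_zero {i : ℕ} : N0 ∣ lvN N0 ql i := dvd_mul_right _ _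

theorem not_dvd_lvN (hsq : Squarefree (N0 * ∏ k, ql k)) (hp : ∀ k, (ql k).Prime) {k : Fin m}
    {i : ℕ} (h : i ≤ k) : ¬ ql k ∣ lvN N0 ql i := by
  intro hd
  have h1 : ql k ∣ ∏ k ∈ Finset.univ.filter (fun k : Fin m ↦ ¬ (k : ℕ) < i), ql k :=
    Finset.dvd_prod_of_mem ql (Finset.mem_filter.2 ⟨Finset.mem_univ k, not_lt.2 h⟩)
  have h2 := mul_dvd_mul hd h1
  rw [← lvN_mul i] at h2
  exact Nat.squarefree_iff_prime_squarefree.1 hsq (ql k) (hp k) h2

theorem dvd_lvN_iff (hp : ∀ k, (ql k).Prime) {q i : ℕ} (hq : q.Prime) :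
    q ∣ lvN N0 ql i → q ∣ N0 ∨ ∃ k : Fin m, (k : ℕ) < i ∧ q = ql k := by
  intro h
  rcases hq.dvd_mul.1 h with h | h
  · exact Or.inl h
  · obtain ⟨k, hk, h'⟩ := (Prime.dvd_finsetProd_iff hq.prime _).1 h
    exact Or.inr ⟨k, (Finset.mem_filter.1 hk).2, (Nat.prime_dvd_prime_iff_eq hq (hp k)).1 h'⟩

/-- bad primes at stage `i` -/
def sS (S0 : Finset ℕ) {r : ℕ} (qv : Fin r → ℕ) (ql : Fin m → ℕ) (i : ℕ) : Finset ℕ :=
  open Classical in
  (S0 ∪ Finset.univ.image qv).filter (fun q ↦ ∀ k : Fin m, i ≤ k → q ≠ ql k)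

variable {S0 : Finset ℕ} {r : ℕ} {qv : Fin r → ℕ}

theorem mem_sS {i q : ℕ} : q ∈ sS S0 qv ql i ↔ q ∈ S0 ∪ Finset.univ.image qv ∧
    ∀ k : Fin m, i ≤ k → q ≠ ql k := by
  classical
  rw [sS, Finset.mem_filter]

theorem sS_top {i : ℕ} (h : m ≤ i) : sS S0 qv ql i = S0 ∪ Finset.univ.image qv := by
  ext q
  rw [mem_sS]
  exact ⟨fun h ↦ h.1, fun h' ↦ ⟨h', fun k hk ↦ absurd k.2 (by omega)⟩⟩

theorem sS_mono (i : ℕ) : sS S0 qv ql i ⊆ sS S0 qv ql (i + 1) := by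
  intro q hq
  rw [mem_sS] at hq ⊢
  exact ⟨hq.1, fun k hk ↦ hq.2 k (by omega)⟩

theorem sS_le_top (i : ℕ) : sS S0 qv ql i ⊆ sS S0 qv ql m := by
  intro q hq
  rw [sS_top le_rfl]
  exact (mem_sS.1 hq).1

end Levels

section Base

variable {p : ℕ} {𝒪 : Type} [CommRing 𝒪] [IsDomain 𝒪] [IsDiscreteValuationRing 𝒪]
    [IsAdicComplete (maximalIdeal 𝒪) 𝒪] [Finite (ResidueField 𝒪)] [CharZero 𝒪] {j : 𝒪 →+* ℂ}
    {ρbar : ResidualGaloisRep (ResidueField 𝒪)} {S0 : Finset ℕ} {b : ℕ → 𝒪} {N0 : ℕ}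
    {Smin : Finset ℕ} {m : ℕ} {ql : Fin m → ℕ} {Pc : ℕ → TW.LCond} {F : MvPolynomial ℕ 𝒪}
    (B : ChainBase p j ρbar S0 b N0 Smin ql Pc F)
    {r : ℕ} {qv : Fin r → ℕ} (W : TWP p ρbar S0 qv) {av : Fin r → ℕ} (G : GrpRing 𝒪 p av)

/-- the level at stage `i`, with the Taylor--Wiles primes -/
def nQ (N0 : ℕ) (ql : Fin m → ℕ) (qv : Fin r → ℕ) (i : ℕ) : ℕ :=
  lvN N0 ql i * ∏ q ∈ Finset.univ.image qv, q

include B in
theorem ChainBase.three' : IsUnit (3 : G.Λ) ∨ p = 3 := by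
  by_cases h : p = 3
  · exact Or.inr h
  · left
    have h1 := isUnit_natCast_of_coprime (pΛ B.toCtx G) (m := 3)
      ((Nat.coprime_primes Nat.prime_three B.prime).2 (Ne.symm h))
    exact_mod_cast h1

include B in
theorem ChainBase.threeN {n : ℕ} (h : N0 ∣ n) : Three G.Λ n := by
  rcases B.three' G with h3 | h3
  · exact Or.inl h3
  · rcases B.three with h' | ⟨r, h1, h2, h4⟩
    · exact absurd h3 h'
    · exact Or.inr ⟨r, h1, h2, h4.trans h⟩

include B W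

theorem ChainBase.qv_notMem {k : Fin r} : ¬ qv k ∣ N0 * ∏ k, ql k := fun h ↦
  W.notin k (B.memS _ (W.prime k) h)

theorem ChainBase.coprime (i : ℕ) :
    Nat.Coprime (lvN N0 ql i) (∏ q ∈ Finset.univ.image qv, q) := by
  refine Nat.Coprime.prod_right fun q hq ↦ ?_
  obtain ⟨k, rfl⟩ := W.mem_iff.1 hq
  exact ((Nat.Prime.coprime_iff_not_dvd (W.prime k)).2 fun h ↦
    B.qv_notMem W (h.trans (lvN_dvd i))).symm

theorem ChainBase.sqf_nQ (i : ℕ) : Squarefree (nQ N0 ql qv i) := by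
  rw [nQ, Nat.squarefree_mul (B.coprime W i)]
  refine ⟨B.sqf.squarefree_of_dvd (lvN_dvd i), Finset.squarefree_prod_of_pairwise_isCoprime ?_ ?_⟩
  · intro a ha b hb hab
    exact Nat.coprime_iff_isRelPrime.1 ((Nat.coprime_primes (W.prime' (Finset.mem_coe.1 ha))
      (W.prime' (Finset.mem_coe.1 hb))).2 hab)
  · intro q hq
    exact (W.prime' hq).prime.squarefree

theorem ChainBase.neZero (i : ℕ) : NeZero (nQ N0 ql qv i) := ⟨(B.sqf_nQ W i).ne_zero⟩

theorem ChainBase.lev (hav : ∀ k, p ^ av k ∣ qv k - 1) (i : ℕ) :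
    Lev G (sS S0 qv ql i) (nQ N0 ql qv i) (Finset.univ.image qv) (zQ G qv) where
  sqf := B.sqf_nQ W i
  mem q hq hqN := by
    rw [mem_sS, Finset.mem_union]
    rcases hq.dvd_mul.1 hqN with h | h
    · refine ⟨Or.inl (B.memS q hq (h.trans (lvN_dvd i))), ?_⟩
      rintro k hk rfl
      exact not_dvd_lvN B.sqf B.ql_prime hk h
    · refine ⟨Or.inr (W.dvd_prod hq h), ?_⟩
      rintro k hk rfl
      obtain ⟨k', hk'⟩ := W.mem_iff.1 (W.dvd_prod hq h)
      refine W.notin k' (hk' ▸ B.memS _ hq ?_)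
      exact (Finset.dvd_prod_of_mem ql (Finset.mem_univ k)).mul_left _
  three := B.threeN G (dvd_lvN_zero.mul_right _)
  dvd q hq := (Finset.dvd_prod_of_mem (fun q ↦ q) hq).mul_left _
  prime q hq := W.prime' hq
  one q hq := by
    obtain ⟨k, rfl⟩ := W.mem_iff.1 hq
    exact W.one k
  pow q hq := by
    obtain ⟨k, rfl⟩ := W.mem_iff.1 hq
    exact ⟨av k, hav k, by rw [zQ_apply G W.inj, G.d_pow]⟩
  res q hq := by
    obtain ⟨k, rfl⟩ := W.mem_iff.1 hq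
    rw [zQ_apply G W.inj, G.d_res]

theorem ChainBase.S0_top : S0 ⊆ sS S0 qv ql m := by
  rw [sS_top le_rfl]
  exact Finset.subset_union_left

theorem ChainBase.step (i : Fin m) : nQ N0 ql qv (i + 1) = ql i * nQ N0 ql qv i := by
  rw [nQ, nQ, lvN_succ]
  ring

/-- the levels and the common projector -/
theorem ChainBase.exists_clev (hav : ∀ k, p ^ av k ∣ qv k - 1) :
    haveI := B.neZero W
    ∃ E : MvPolynomial (Pr (↑(sS S0 qv ql m) : Set ℕ)) G.Λ,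
      CLev G b ql (sS S0 qv ql) (nQ N0 ql qv) (Finset.univ.image qv) (zQ G qv) E := by
  have hne := B.neZero W
  have hlev := B.lev W G hav
  have hS0 := B.S0_top W
  obtain ⟨f, hf, hc⟩ := B.form
  have hocc : ∀ i, (∀ P, ev (chz (nQ N0 ql qv i) (Finset.univ.image qv) (zQ G qv))
      ↑(sS S0 qv ql m) G.Λ P = 0 → resE ↑(sS S0 qv ql m) (aL G (sS S0 qv ql m) b) P = 0) := by
    intro i
    exact (exists_eig_lev B.toCtx ((hlev i).mono (sS_le_top i)) hS0 (fun q _ ↦ psi0_zQ G j q)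
      (N0 := N0) (dvd_lvN_zero.mul_right _) hf hc).1
  have h2 := isUnit_two B.prime B.ne2 (pΛ B.toCtx G)
  obtain ⟨E, hE⟩ := Deg.exists_isProjF (ι := Fin (m + 1)) (fun i ↦ nQ N0 ql qv i)
    (fun i ↦ chz (nQ N0 ql qv i) (Finset.univ.image qv) (zQ G qv)) ↑(sS S0 qv ql m)
    (aL G (sS S0 qv ql m) b) (fun i ↦ isGood_kap _ h2 (hlev i).three)
    (fun P hP ↦ hocc 0 P (hP 0))
  refine ⟨E, hlev, sS_mono, sS_le_top, B.ql_prime, fun i h ↦ ?_, fun i h ↦ ?_, B.step W,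
    fun i ↦ ?_⟩
  · have h1 := mul_dvd_mul (dvd_refl (ql i)) h
    rw [← B.step W] at h1
    exact Nat.squarefree_iff_prime_squarefree.1 (B.sqf_nQ W _) _ (B.ql_prime i) h1
  · exact (mem_sS.1 h).2 i le_rfl rfl
  · have key : ∀ i' : ℕ, i' ≤ m → IsLoc (chz (nQ N0 ql qv i') (Finset.univ.image qv) (zQ G qv))
        (chz (nQ N0 ql qv i') (Finset.univ.image qv) (zQ G qv)) ↑(sS S0 qv ql m)
        (aL G (sS S0 qv ql m) b) E := by
      intro i' hi'
      exact ⟨hE.isProj ⟨i', Nat.lt_succ_of_le hi'⟩, h2, (hlev i').three,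
        fun P hP _ ↦ hocc i' P hP⟩
    by_cases hi : i ≤ m
    · exact key i hi
    · have h3 : nQ N0 ql qv i = nQ N0 ql qv m := by
        rw [nQ, nQ, lvN_top (not_le.1 hi).le, lvN_top le_rfl]
      have h4 : ∀ (n n' : ℕ) [NeZero n] [NeZero n'], n = n' →
          IsLoc (chz n' (Finset.univ.image qv) (zQ G qv))
            (chz n' (Finset.univ.image qv) (zQ G qv)) ↑(sS S0 qv ql m)
            (aL G (sS S0 qv ql m) b) E →
          IsLoc (chz n (Finset.univ.image qv) (zQ G qv))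
            (chz n (Finset.univ.image qv) (zQ G qv)) ↑(sS S0 qv ql m)
            (aL G (sS S0 qv ql m) b) E := by
        intro n n' _ _ h
        subst h
        exact id
      exact h4 _ _ h3 (key m le_rfl)

end Base

end Fermat.Agent.LL
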