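import Fermat.Agent.LL.ChainRing
import Fermat.Agent.LL.CDat

set_option autoImplicit false

/-!
# The modules of a chain over the Hecke ring
-/

open IsLocalRing GaloisRep Polynomial

namespace Fermat.Agent.LL

open Fermat.Agent.DefRing Fermat.Agent

local notation "Γℚ" => (AlgebraicClosure ℚ ≃ₐ[ℚ] AlgebraicClosure ℚ)
local notation "M₂" => Matrix (Fin 2) (Fin 2)
local notation "Qb" => AlgebraicClosure ℚ

variable {𝒪 : Type} [CommRing 𝒪] [IsDomain 𝒪] [IsDiscreteValuationRing 𝒪]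
  [IsAdicComplete (maximalIdeal 𝒪) 𝒪] [Finite (ResidueField 𝒪)] [CharZero 𝒪]
  {p : ℕ} {j : 𝒪 →+* ℂ} {ρbar : ResidualGaloisRep (ResidueField 𝒪)} {P : ℕ → TW.LCond}
  {Smin : Finset ℕ} {m : ℕ} {ql : Fin m → ℕ} {r : ℕ} {qv : Fin r → ℕ} {F : MvPolynomial ℕ 𝒪}
  {D : ℕ} {W : AutChain p j ρbar P Smin ql qv F D} {P' : TW.LCond} {ρW : GaloisRepAdic 𝒪} {tW : ℕ → 𝒪}

omit [IsAdicComplete (maximalIdeal 𝒪) 𝒪] [Finite (ResidueField 𝒪)] [CharZero 𝒪] in
theorem exists_poly_end {Λ : Type} [CommRing Λ] [Algebra 𝒪 Λ] {S S' : Finset ℕ}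
    (hS : ∀ ℓ, ℓ ∉ S' → ℓ ∉ S)
    (M : AutMod j Λ S) (f : MvPolynomial (PL S') 𝒪) :
    ∃ e : Module.End Λ M.M, ∀ i m, M.lam i (e m) =
      MvPolynomial.eval₂ j (fun ℓ : PL S' => M.ev i ℓ) f * M.lam i m := by
  induction f using MvPolynomial.induction_on with
  | C c =>
    refine ⟨algebraMap _ _ (algebraMap 𝒪 Λ c), fun i m => ?_⟩
    rw [MvPolynomial.eval₂_C, Module.algebraMap_end_apply, M.lam_smul,
      ← RingHom.comp_apply (M.psi i), M.psi_comp]
  | add f g hf hg =>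
    obtain ⟨e, he⟩ := hf
    obtain ⟨e', he'⟩ := hg
    refine ⟨e + e', fun i m => ?_⟩
    rw [LinearMap.add_apply, map_add, he, he', MvPolynomial.eval₂_add, add_mul]
  | mul_X f ℓ hf =>
    obtain ⟨e, he⟩ := hf
    refine ⟨e * M.T ℓ, fun i m => ?_⟩
    rw [Module.End.mul_apply, he, M.lam_T i ℓ ℓ.2.1 (hS _ ℓ.2.2),
      MvPolynomial.eval₂_mul, MvPolynomial.eval₂_X, mul_assoc]

omit [IsAdicComplete (maximalIdeal 𝒪) 𝒪] [Finite (ResidueField 𝒪)] [CharZero 𝒪] in
theorem Pt.ι_aeval {S S' : Finset ℕ} (hS : S ⊆ S') {t : ℕ → ℂ} (x : Pt j ρbar S t)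
    (f : MvPolynomial (PL S') 𝒪) :
    x.ι (MvPolynomial.aeval (fun ℓ : PL S' => x.tr ℓ) f) =
      MvPolynomial.eval₂ j (fun ℓ : PL S' => t ℓ) f := by
  induction f using MvPolynomial.induction_on with
  | C c =>
    rw [MvPolynomial.aeval_C, MvPolynomial.eval₂_C, ← RingHom.comp_apply x.ι, x.ι_comp]
  | add f g hf hg => rw [map_add, map_add, hf, hg, MvPolynomial.eval₂_add]
  | mul_X f ℓ hf =>
    rw [map_mul, map_mul, hf, MvPolynomial.aeval_X, x.ι_tr ℓ ℓ.2.1 (fun h => ℓ.2.2 (hS h)),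
      MvPolynomial.eval₂_mul, MvPolynomial.eval₂_X]

theorem ChainRing.exists_act (C : ChainRing W P' ρW tW) (i : Fin (m + 1)) :
    ∃ act : C.A →+* Module.End W.G.Λ (W.A i).M,
      (∀ (x : C.A) (l : C.I i) v, (W.A i).lam l (act x v) =
        (W.pt i l).ι (C.φ i l x) * (W.A i).lam l v) := by
  have h := LL.exists_act (Λ := W.G.Λ) (M := (W.A i).M) (fun l : C.I i => (W.A i).lam l)
    (fun v hv => C.sep i v fun x hx => hv ⟨x, hx⟩)
    (fun l => (W.pt i l).ι.comp (C.φ i l : C.A →+* (W.pt i l).R)) (fun x => by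
      obtain ⟨f, rfl⟩ := C.π_surj x
      obtain ⟨e, he⟩ := exists_poly_end (fun ℓ => W.notMem_of_SS (by omega : (i : ℕ) ≤ m))
        (W.A i) f
      refine ⟨e, fun l v => ?_⟩
      rw [he]
      show _ = (W.pt i l).ι (C.φ i l (C.π f)) * _
      rw [C.φ_π, Pt.ι_aeval (W.SS_mono (by omega : (i : ℕ) ≤ m))])
  exact h

/-- the action of the Hecke ring -/
noncomputable def ChainRing.act (C : ChainRing W P' ρW tW) (i : Fin (m + 1)) :
    C.A →+* Module.End W.G.Λ (W.A i).M := (C.exists_act i).choose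

theorem ChainRing.lam_act (C : ChainRing W P' ρW tW) (i : Fin (m + 1)) (x : C.A) (l : C.I i)
    (v : (W.A i).M) :
    (W.A i).lam l (C.act i x v) = (W.pt i l).ι (C.φ i l x) * (W.A i).lam l v :=
  (C.exists_act i).choose_spec x l v

theorem ChainRing.act_alg (C : ChainRing W P' ρW tW) (i : Fin (m + 1)) (c : 𝒪) :
    C.act i (algebraMap 𝒪 C.A c) = algebraMap W.G.Λ _ (algebraMap 𝒪 W.G.Λ c) := by
  refine LinearMap.ext fun v => ?_
  rw [← sub_eq_zero]
  refine C.sep i _ fun x hx => ?_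
  rw [map_sub, sub_eq_zero, C.lam_act i _ ⟨x, hx⟩, AlgHom.commutes, Module.algebraMap_end_apply,
    (W.A i).lam_smul]
  congr 1
  rw [← RingHom.comp_apply (W.pt i x).ι, (W.pt i x).ι_comp]
  exact (RingHom.congr_fun ((W.A i).psi_comp x) c).symm

theorem ChainRing.act_X (C : ChainRing W P' ρW tW) (i : Fin (m + 1)) (ℓ : PL (W.SS m)) :
    C.act i (C.π (MvPolynomial.X ℓ)) = (W.A i).T ℓ := by
  refine LinearMap.ext fun v => ?_
  rw [← sub_eq_zero]
  refine C.sep i _ fun x hx => ?_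
  have hℓ : (ℓ : ℕ) ∉ W.SS i := fun h => ℓ.2.2 (W.SS_mono (by omega : (i : ℕ) ≤ m) h)
  rw [map_sub, sub_eq_zero, C.lam_act i _ ⟨x, hx⟩, C.φ_π, MvPolynomial.aeval_X,
    (W.A i).lam_T x ℓ ℓ.2.1 (W.notMem_of_SS le_rfl hℓ), (W.pt i x).ι_tr ℓ ℓ.2.1 hℓ]

theorem ChainRing.act_comm (C : ChainRing W P' ρW tW) (i i' : Fin (m + 1))
    (f : (W.A i).M →ₗ[W.G.Λ] (W.A i').M)
    (hf : ∀ (ℓ : ℕ), ℓ.Prime → ℓ ∉ W.SS m → ∀ v, f ((W.A i).T ℓ v) = (W.A i').T ℓ (f v))
    (x : C.A) (v : (W.A i).M) : f (C.act i x v) = C.act i' x (f v) := by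
  obtain ⟨g, rfl⟩ := C.π_surj x
  induction g using MvPolynomial.induction_on generalizing v with
  | C c =>
    have h1 : C.π (MvPolynomial.C c) = algebraMap 𝒪 C.A c := by
      rw [← MvPolynomial.algebraMap_eq, AlgHom.commutes]
    rw [h1, C.act_alg, C.act_alg, Module.algebraMap_end_apply, Module.algebraMap_end_apply,
      map_smul]
  | add f g hf hg =>
    rw [map_add, map_add, LinearMap.add_apply, map_add, hf, hg, map_add, LinearMap.add_apply]
  | mul_X g ℓ hg =>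
    rw [map_mul, map_mul, map_mul, Module.End.mul_apply, Module.End.mul_apply, hg, C.act_X,
      C.act_X, hf ℓ ℓ.2.1 ℓ.2.2]

/-- the module at stage `i` -/
noncomputable def ChainRing.emod (C : ChainRing W P' ρW tW) (i : Fin (m + 1)) : EMod W.G C.A where
  M := (W.A i).M
  act := C.act i
  act_alg := C.act_alg i
  I := C.I i
  lam := fun l => (W.A i).lam l
  psi := fun l => (W.A i).psi l
  χ := fun l => (W.pt i l).ι.comp (C.φ i l : C.A →+* (W.pt i l).R)
  lam_smul := fun l x v => (W.A i).lam_smul l x v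
  lam_act := fun l x v => C.lam_act i x l v
  sep := fun v hv => C.sep i v fun x hx => hv ⟨x, hx⟩

theorem ChainRing.emod_act_eq_zero (C : ChainRing W P' ρW tW) (i : Fin (m + 1)) (x : C.A)
    (h : ∀ l : C.I i, C.φ i l x = 0) : (C.emod i).act x = 0 := by
  refine (C.emod i).act_eq_zero x fun l => ?_
  exact (congrArg (W.pt i l.1).ι (h l)).trans (map_zero _)

/-- trace of Frobenius at a good prime -/
theorem ChainRing.φ_trace (C : ChainRing W P' ρW tW) (i : Fin (m + 1)) (l : C.I i) {q : ℕ}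
    (hq : q.Prime) (hqS : q ∉ W.SS i) {A : ValuationSubring Qb} (hA : A.LiesOverPrime q) {σ : Γℚ}
    (hσ : A.IsFrobeniusAt σ q) : C.φ i l (C.R σ).trace = (W.pt i l).tr q := by
  have h1 := ((charpoly_iff (C.φ_R i l) σ _ _).mp ((W.pt i l).frob q hq hqS A hA σ hσ)).1
  rw [← h1, Matrix.trace_fin_two, Matrix.trace_fin_two, map_add]
  rfl

theorem ChainRing.act_natCast (C : ChainRing W P' ρW tW) (i : Fin (m + 1)) (n : ℕ)
    (v : (W.A i).M) : C.act i (n : C.A) v = ((n : ℕ) : W.G.Λ) • v := by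
  have h1 : (n : C.A) = algebraMap 𝒪 C.A (n : 𝒪) := by rw [map_natCast]
  rw [h1, C.act_alg, Module.algebraMap_end_apply, map_natCast]

theorem ChainRing.act_trace (C : ChainRing W P' ρW tW) (i : Fin (m + 1)) {q : ℕ}
    (hq : q.Prime) (hqS : q ∉ W.SS i) {A : ValuationSubring Qb} (hA : A.LiesOverPrime q) {σ : Γℚ}
    (hσ : A.IsFrobeniusAt σ q) (v : (W.A i).M) :
    C.act i (C.R σ).trace v = (W.A i).T q v := by
  rw [← sub_eq_zero]
  refine C.sep i _ fun x hx => ?_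
  rw [map_sub, sub_eq_zero, C.lam_act i (C.R σ).trace ⟨x, hx⟩ v,
    C.φ_trace i ⟨x, hx⟩ hq hqS hA hσ, (W.A i).lam_T x _ hq (W.notMem_of_SS le_rfl hqS)]
  congr 1
  exact (W.pt i x).ι_tr _ hq hqS

/-- one raising step; `T` is an element of the Hecke ring which acts as the Hecke operator at
`ql i` -/
theorem ChainRing.nonempty_step' (C : ChainRing W P' ρW tW) (i : Fin m) (hq : (ql i).Prime)
    (T : C.A) (hT : ∀ l : C.I (i.castSucc : Fin (m + 1)), (W.pt i.castSucc l).ι (C.φ i.castSucc l T) =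
      (W.A i.castSucc).ev l (ql i)) :
    Nonempty (Step (C.emod i.castSucc) (C.emod i.succ) (ql i) T
      (fun x => ∀ l : C.I (i.succ : Fin (m + 1)), (l : (W.A i.succ).I) ∈ W.new i →
        C.φ i.succ l x = 0)) := by
  have hS : ∀ ℓ : ℕ, ℓ ∉ W.SS m → ℓ ∉ W.S (i + 1) := fun ℓ h =>
    W.notMem_of_SS (by omega : (i + 1 : ℕ) ≤ m) h
  have hact : ∀ v : (W.A i.castSucc).M, C.act i.castSucc T v = (W.A i.castSucc).T (ql i) v := by
    intro v
    rw [← sub_eq_zero]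
    refine C.sep i.castSucc _ fun x hx => ?_
    rw [map_sub, sub_eq_zero, C.lam_act i.castSucc T ⟨x, hx⟩ v,
      (W.A i.castSucc).lam_T x _ hq (W.ql_notMem i), hT ⟨x, hx⟩]
  exact ⟨{
    α := W.α i
    α_act := fun k x v => C.act_comm i.castSucc i.succ (W.α i k)
      (fun ℓ h1 h2 v => W.α_T i i.2 k ℓ h1 (hS ℓ h2) v) x v
    ret := W.ret i
    ret_α := fun k l v => W.ret_α i i.2 k l v
    τ := W.τ i
    τ_act := fun k x v => C.act_comm i.succ i.castSucc (W.τ i k)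
      (fun ℓ h1 h2 v => W.τ_T i i.2 k ℓ h1 (hS ℓ h2) v) x v
    τ_surj := fun v w => W.τ_surj i i.2 v w
    τ_α := fun k l v => by
      refine (W.τ_α i k l v).trans ?_
      by_cases h : k = l
      · rw [if_pos h, if_pos h]
        have h1 := C.act_natCast i.castSucc (ql i + 1) v
        rw [Nat.cast_succ] at h1
        exact h1.symm
      · rw [if_neg h, if_neg h]
        exact (hact v).symm
    coker := fun x hx v => by
      refine W.new_sep i i.2 _ (C.sep_new i _ fun y hy hyn => ?_)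
      have h2 := C.lam_act i.succ x ⟨y, hy⟩ v
      rw [hx ⟨y, hy⟩ hyn, map_zero, zero_mul] at h2
      exact h2 }⟩

/-- one raising step -/
theorem ChainRing.nonempty_step (C : ChainRing W P' ρW tW) (i : Fin m) (hq : (ql i).Prime)
    (hqp : ql i ≠ p) {A : ValuationSubring Qb} (hA : A.LiesOverPrime (ql i)) {σ : Γℚ}
    (hσ : A.IsFrobeniusAt σ (ql i)) :
    Nonempty (Step (C.emod i.castSucc) (C.emod i.succ) (ql i) (C.R σ).trace
      (fun x => ∀ l : C.I (i.succ : Fin (m + 1)), (l : (W.A i.succ).I) ∈ W.new i →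
        C.φ i.succ l x = 0)) := by
  have hqS : ql i ∉ W.SS i := fun h => by
    rcases Finset.mem_insert.mp h with h | h
    · exact hqp h
    · exact W.ql_notMem i h
  refine C.nonempty_step' i hq _ fun l => ?_
  rw [C.φ_trace i.castSucc l hq hqS hA hσ]
  exact (W.pt i.castSucc l).ι_tr _ hq hqS

end Fermat.Agent.LL
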