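import Fermat.Agent.LL.ChainBlk

set_option autoImplicit false
set_option linter.unusedSectionVars false

/-!
# Simple blocks of a chain (primes different from `p`)
-/

open IsLocalRing GaloisRep Polynomial

namespace Fermat.Agent.LL

open Fermat.Agent.DefRing Fermat.Agent

local notation "Γℚ" => (AlgebraicClosure ℚ ≃ₐ[ℚ] AlgebraicClosure ℚ)
local notation "M₂" => Matrix (Fin 2) (Fin 2)
local notation "Qb" => AlgebraicClosure ℚ

/-- residually nonscalar matrices -/
theorem nonscalar_of_res {𝒪 : Type} [CommRing 𝒪] [IsLocalRing 𝒪] {A : Type} [CommRing A]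
    [IsLocalRing A] [Algebra 𝒪 A] [IsLocalHom (algebraMap 𝒪 A)]
    (hres : Function.Surjective (residue A ∘ algebraMap 𝒪 A)) {ρ : GaloisRepAdic A}
    {r : Γℚ → M₂ A} (hr : Realizes ρ r) {ρbar : ResidualGaloisRep (ResidueField 𝒪)}
    (h : ρ.residual.IsEquiv (ρbar.baseChangeAlong (ResidueField.map (algebraMap 𝒪 A)))) {σ : Γℚ}
    (hσ : ∀ c : ResidueField 𝒪, ρbar.ρ σ ≠ c • 1) :
    ¬ (r σ 0 1 ∈ maximalIdeal A ∧ r σ 1 0 ∈ maximalIdeal A ∧
      r σ 0 0 - r σ 1 1 ∈ maximalIdeal A) := by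
  rintro ⟨h01, h10, h00⟩
  obtain ⟨rb, hrb⟩ := exists_realizesRes ρbar
  obtain ⟨P, hP, hconj⟩ := RealizesRes.exists_conj (hr.residual.of_isEquiv h)
    (hrb.baseChangeAlong (ResidueField.map (algebraMap 𝒪 A)))
  obtain ⟨o, ho⟩ := hres (residue A (r σ 0 0))
  have ho' : ResidueField.map (algebraMap 𝒪 A) (residue 𝒪 o) = residue A (r σ 0 0) := ho
  have h1 : (r σ).map (residue A) =
      ResidueField.map (algebraMap 𝒪 A) (residue 𝒪 o) • (1 : M₂ (ResidueField A)) := by
    rw [ho']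
    rw [← residue_eq_zero_iff] at h01 h10 h00
    rw [map_sub, sub_eq_zero] at h00
    ext a b
    fin_cases a <;> fin_cases b <;> simp [h01, h10, h00]
  have h2 : P * (rb σ).map (ResidueField.map (algebraMap 𝒪 A)) = (r σ).map (residue A) * P :=
    hconj σ
  rw [h1, smul_mul_assoc, one_mul] at h2
  have h3 : (rb σ).map (ResidueField.map (algebraMap 𝒪 A)) =
      ResidueField.map (algebraMap 𝒪 A) (residue 𝒪 o) • (1 : M₂ (ResidueField A)) := by
    have h4 := congrArg (fun M => P⁻¹ * M) h2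
    simp only [← Matrix.mul_assoc, Matrix.nonsing_inv_mul _ hP, Matrix.one_mul] at h4
    rw [h4, mul_smul_comm, Matrix.nonsing_inv_mul _ hP]
  have h4 : rb σ = residue 𝒪 o • (1 : M₂ (ResidueField 𝒪)) := by
    ext a b
    apply (ResidueField.map (algebraMap 𝒪 A)).injective
    have h5 := congrFun (congrFun h3 a) b
    rw [Matrix.map_apply] at h5
    rw [h5, Matrix.smul_apply, Matrix.smul_apply, smul_eq_mul, smul_eq_mul, map_mul,
      Matrix.one_apply, Matrix.one_apply]
    split_ifs <;> simp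
  obtain ⟨b, hb⟩ := hrb
  refine hσ (residue 𝒪 o) ((LinearMap.toMatrix b b).injective ?_)
  rw [hb, h4, map_smul]
  exact congrArg (residue 𝒪 o • ·) (LinearMap.toMatrix_one b).symm

section Maps

variable {A B : Type*} [CommRing A] [CommRing B] (Φ : A →+* B)

theorem sub_one_map' (T : M₂ A) : (T - 1).map Φ = T.map Φ - 1 := by
  have h : (1 : M₂ A).map Φ = 1 := Matrix.map_one _ (map_zero _) (map_one _)
  rw [← h]
  refine Matrix.ext fun a b => ?_
  exact map_sub Φ _ _

theorem nfF_map (e t q : A) : (nfF e t q).map Φ = nfF (Φ e) (Φ t) (Φ q) := by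
  ext a b
  fin_cases a <;> fin_cases b <;> simp [nfF]

variable {F T Cm N' : M₂ A} (hC : IsUnit Cm.det)
  (hN : (T - 1) * Cm = Cm * N')

include hC hN in
theorem nf_trace : N'.trace = T.trace - 2 := by
  have hCi : Cm⁻¹ * Cm = 1 := Matrix.nonsing_inv_mul _ hC
  have hCi' : Cm * Cm⁻¹ = 1 := Matrix.mul_nonsing_inv _ hC
  have h1 : N' = Cm⁻¹ * ((T - 1) * Cm) := by rw [hN, ← Matrix.mul_assoc, hCi, Matrix.one_mul]
  rw [h1, Matrix.trace_mul_comm, Matrix.mul_assoc, hCi', Matrix.mul_one, Matrix.trace_sub,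
    Matrix.trace_one, Fintype.card_fin]
  norm_num

include hC hN in
theorem nf_rel {e t q : A} {n : ℕ} (hq : q = n) (hF : F * Cm = Cm * nfF e t q)
    (hFT : F * T = T ^ n * F) (h1 : Φ T.trace = 2) (h2 : Φ T.det = 1) :
    nfF (Φ e) (Φ t) (n : B) * N'.map Φ = (n : B) • (N'.map Φ * nfF (Φ e) (Φ t) (n : B)) := by
  have hC' : IsUnit (Cm.map Φ).det := by rw [det_map']; exact hC.map Φ
  have e1 := congrArg (fun M : M₂ A => M.map Φ) hF
  have e2 := congrArg (fun M : M₂ A => M.map Φ) hN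
  have e3 := congrArg (fun M : M₂ A => M.map Φ) hFT
  simp only [Matrix.map_mul] at e1 e2 e3
  have hpow : (T ^ n).map Φ = (T.map Φ) ^ n := map_pow Φ.mapMatrix T n
  rw [nfF_map, hq, map_natCast] at e1
  rw [hpow] at e3
  rw [sub_one_map' Φ] at e2
  have e4 := tame_unip e3 (by rw [trace_map', h1]) (by rw [det_map', h2])
  exact nf_tame hC' e1 e2 e4

end Maps

/-- the constant of a simple block -/
noncomputable def cPar {𝒪 : Type} [CommRing 𝒪] (p q : ℕ) (e : 𝒪) : 𝒪 :=
  open Classical in if IsUnit ((q : 𝒪) + 1) then (p : 𝒪) else -2 * (e * ((q : 𝒪) + 1))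

theorem cPar_of_isUnit {𝒪 : Type} [CommRing 𝒪] {p q : ℕ} {e : 𝒪} (h : IsUnit ((q : 𝒪) + 1)) :
    cPar p q e = p := if_pos h

theorem cPar_of_not {𝒪 : Type} [CommRing 𝒪] {p q : ℕ} {e : 𝒪} (h : ¬ IsUnit ((q : 𝒪) + 1)) :
    cPar p q e = -2 * (e * ((q : 𝒪) + 1)) := if_neg h

theorem cPar_mem {𝒪 : Type} [CommRing 𝒪] [IsLocalRing 𝒪] {p q : ℕ} {e : 𝒪}
    (hp : (p : 𝒪) ∈ maximalIdeal 𝒪) : cPar p q e ∈ maximalIdeal 𝒪 := by
  by_cases h : IsUnit ((q : 𝒪) + 1)
  · rw [cPar_of_isUnit h]; exact hp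
  · rw [cPar_of_not h]
    exact Ideal.mul_mem_left _ _ (Ideal.mul_mem_left _ _ ((mem_maximalIdeal _).mpr h))

theorem cPar_ne {𝒪 : Type} [CommRing 𝒪] [IsDomain 𝒪] [CharZero 𝒪] {p q : ℕ} (hp : p ≠ 0) {e : 𝒪}
    (he : e ^ 2 = 1) : cPar p q e ≠ 0 := by
  by_cases h : IsUnit ((q : 𝒪) + 1)
  · rw [cPar_of_isUnit h]; exact_mod_cast hp
  · rw [cPar_of_not h]
    refine mul_ne_zero (neg_ne_zero.mpr two_ne_zero) (mul_ne_zero ?_ (by exact_mod_cast Nat.succ_ne_zero q))
    rintro rfl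
    simp at he

variable {𝒪 : Type} [CommRing 𝒪] [IsDomain 𝒪] [IsDiscreteValuationRing 𝒪]
  [IsAdicComplete (maximalIdeal 𝒪) 𝒪] [Finite (ResidueField 𝒪)] [CharZero 𝒪]
  {p : ℕ} {j : 𝒪 →+* ℂ} {ρbar : ResidualGaloisRep (ResidueField 𝒪)} {P : ℕ → TW.LCond}
  {Smin : Finset ℕ} {m : ℕ} {ql : Fin m → ℕ} {r : ℕ} {qv : Fin r → ℕ} {F : MvPolynomial ℕ 𝒪}
  {D : ℕ} {W : AutChain p j ρbar P Smin ql qv F D} {P' : TW.LCond} {ρW : GaloisRepAdic 𝒪}
  {tW : ℕ → 𝒪} [hpp : Fact p.Prime] (H : ChainRing W P' ρW tW) {k : Fin m}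
  {L : LocGen (ql k) p} {u e : 𝒪} (B : BlkHyp p ρbar Smin ρW (ql k) L u e)

theorem snd_algebraMap {k : Type} [Field k] {𝒪 : Type} [CommRing 𝒪] [Algebra 𝒪 k] (o : 𝒪) :
    (algebraMap 𝒪 (DualNumber k) o).snd = 0 := rfl

set_option maxHeartbeats 2000000 in
include B in
theorem BlkHyp.exists_sBlock (hns : ∀ c : ResidueField 𝒪, ρbar.ρ L.φ ≠ c • 1) :
    ∃ K : SBlock H k (cPar p (ql k) e),
      ∀ θ : H.A →ₐ[𝒪] DualNumber (ResidueField 𝒪),
        IsLocalHom (θ : H.A →+* DualNumber (ResidueField 𝒪)) → θ K.x = 0 → θ K.nn = 0 →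
        θ K.b = 0 → TW.KNs L (fun σ => (H.R σ).map θ) := by
  have hq2 : 2 ≤ ql k := B.hq.two_le
  have hpA := H.p_mem B.hp𝒪
  set uA : H.A := algebraMap 𝒪 H.A u with huA
  set eA : H.A := algebraMap 𝒪 H.A e with heA
  have hu2 : uA * 2 = 1 := (two_unit_of (A := H.A) B.hu).2
  have he2 : eA ^ 2 = 1 := by rw [heA, ← map_pow, B.he, map_one]
  obtain ⟨Cm, hC, hCF⟩ := exists_cyclic (F := H.R L.φ) he2
    (nonscalar_of_res H.res_surj H.hR H.residual hns)
  rw [B.det_φ H] at hCF
  set t : H.A := (H.R L.φ).trace with ht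
  set N' : M₂ H.A := Cm⁻¹ * (H.R L.τ - 1) * Cm with hN'
  have hN : (H.R L.τ - 1) * Cm = Cm * N' := by
    rw [hN', ← Matrix.mul_assoc, ← Matrix.mul_assoc, Matrix.mul_nonsing_inv _ hC, Matrix.one_mul]
  have hN'm : MI (maximalIdeal H.A) N' := ((B.inertia H).mul_left).mul_right
  set x : H.A := t - algebraMap 𝒪 H.A (e * ((ql k : 𝒪) + 1)) with hx
  have hxm : x ∈ maximalIdeal H.A := B.x_mem H
  have hxA : x = t - eA * ((ql k : H.A) + 1) := by
    rw [hx, map_mul, map_add, map_natCast, map_one]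
  have hxW : H.φW x = 0 := by
    rw [hx, map_sub, ht, (B.W_rel H).2, AlgHom.commutes, Algebra.algebraMap_self_apply, sub_self]
  -- unramified points
  have hunr : ∀ (i : Fin (m + 1)) (l : H.I i), (W.pt i l).ρ.IsUnramifiedAt (ql k) → ∀ a b,
      H.φ i l (N' a b) = 0 := by
    intro i l hun a b
    have h1 : (H.R L.τ).map (H.φ i l : H.A →+* (W.pt i l).R) = 1 :=
      (Realizes.eq_one_iff (H.φ_R i l) _).mp (hun L.P L.hP _ L.hτ)
    have h2 : (H.R L.τ - 1).map (H.φ i l : H.A →+* (W.pt i l).R) = 0 := by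
      rw [sub_one_map', h1, sub_self]
    have h3 : N'.map (H.φ i l : H.A →+* (W.pt i l).R) = 0 := by
      rw [hN', Matrix.map_mul, Matrix.map_mul, h2, Matrix.mul_zero, Matrix.zero_mul]
    exact congrFun (congrFun h3 a) b
  -- Steinberg points
  have hrel : ∀ (i : Fin (m + 1)) (l : H.I i), IsSt (W.pt i l).ρ (ql k) →
      nfF (algebraMap 𝒪 (W.pt i l).R e) (H.φ i l t) (ql k : (W.pt i l).R) *
        N'.map (H.φ i l : H.A →+* (W.pt i l).R) = (ql k : (W.pt i l).R) •
        (N'.map (H.φ i l : H.A →+* (W.pt i l).R) *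
          nfF (algebraMap 𝒪 (W.pt i l).R e) (H.φ i l t) (ql k : (W.pt i l).R)) ∧
      (N'.map (H.φ i l : H.A →+* (W.pt i l).R)).trace = 0 := by
    intro i l hst
    obtain ⟨h1, h2, -, -⟩ := B.st H hst
    have h3 := nf_rel (H.φ i l : H.A →+* (W.pt i l).R) hC hN rfl hCF (B.tame H) h1 h2
    have h4 : (H.φ i l : H.A →+* (W.pt i l).R) eA = algebraMap 𝒪 (W.pt i l).R e :=
      (H.φ i l).commutes e
    rw [h4] at h3
    refine ⟨h3, ?_⟩
    rw [trace_map', nf_trace hC hN, map_sub, map_ofNat]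
    exact sub_eq_zero.mpr h1
  obtain ⟨S⟩ := H.nonempty_step k B.hq B.hqp L.hP L.hφ
  have hdet : ∃ a, ((ql k : H.A) + 1) ^ 2 - t ^ 2 = a * x := by
    refine ⟨-(t + eA * ((ql k : H.A) + 1)), ?_⟩
    rw [hxA]
    linear_combination (-((ql k : H.A) + 1) ^ 2) * he2
  -- tangent vectors
  have htan : ∀ θ : H.A →ₐ[𝒪] DualNumber (ResidueField 𝒪),
      IsLocalHom (θ : H.A →+* DualNumber (ResidueField 𝒪)) → θ x = 0 → θ (N' 0 1) = 0 →
      (IsUnit ((ql k : 𝒪) + 1) ∨ θ (N' 1 0) = 0) → TW.KNs L (fun σ => (H.R σ).map θ) := by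
    intro θ hθ h1 h2 h3
    let Θ : H.A →+* DualNumber (ResidueField 𝒪) := θ
    have hfst : ∀ a b, (Θ ((H.R L.τ - 1) a b)).fst = 0 := fun a b =>
      TW.fst_eq_zero_of_mem hθ (B.inertia H a b)
    have hdetN : Θ (H.R L.τ - 1).det = 0 := by
      rw [Matrix.det_fin_two, map_sub, map_mul, map_mul,
        TW.mul_eq_zero_of_fst (hfst _ _) (hfst _ _), TW.mul_eq_zero_of_fst (hfst _ _) (hfst _ _),
        sub_zero]
    have hτt : Θ (H.R L.τ).trace = 2 := by
      have e1 : (H.R L.τ).trace = 2 - (H.R L.τ - 1).det := by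
        have e2 := B.det_τ H
        rw [Matrix.det_fin_two] at e2
        rw [Matrix.det_fin_two, Matrix.trace_fin_two]
        simp only [Matrix.sub_apply, Matrix.one_apply, if_true, Fin.isValue, zero_ne_one,
          one_ne_zero, if_false]
        linear_combination e2
      rw [e1, map_sub, hdetN, sub_zero, map_ofNat]
    have hτd : Θ (H.R L.τ).det = 1 := by rw [B.det_τ H, map_one]
    have h4 := nf_rel Θ hC hN rfl hCF (B.tame H) hτt hτd
    have h5 : (N'.map Θ).trace = 0 := by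
      rw [trace_map', nf_trace hC hN, map_sub, map_ofNat, hτt, sub_self]
    have hx1 : Θ t = algebraMap 𝒪 _ (e * ((ql k : 𝒪) + 1)) := by
      have h6 : Θ x = 0 := h1
      rw [hx, map_sub, sub_eq_zero] at h6
      rw [h6]
      exact θ.commutes _
    have hΘe : Θ eA = algebraMap 𝒪 _ e := θ.commutes e
    have h6 : N'.map Θ = 0 := by
      refine nonscalar_tangent (e := Θ eA) (t := Θ t) (by rw [← map_pow, he2, map_one]) h5 h4
        ?_ h2 ?_ (two_unit_of (A := DualNumber (ResidueField 𝒪)) B.hu).1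
      · rw [hx1, hΘe, map_mul, map_add, map_natCast, map_one]
      · rcases h3 with h3 | h3
        · left
          have := h3.map (algebraMap 𝒪 (DualNumber (ResidueField 𝒪)))
          rwa [map_add, map_natCast, map_one] at this
        · exact Or.inr h3
    refine ⟨?_, ?_⟩
    · have h7 : ((H.R L.φ).map θ).trace = Θ t := trace_map' Θ _
      show ((H.R L.φ).map θ).trace.snd = 0
      rw [h7, hx1]
      exact snd_algebraMap _
    · have h7 : (H.R L.τ - 1).map Θ = 0 := by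
        have h8 := congrArg (fun M : M₂ H.A => M.map Θ) hN
        simp only [Matrix.map_mul] at h8
        rw [h6, Matrix.mul_zero] at h8
        have hC' : IsUnit (Cm.map Θ).det := by rw [det_map']; exact hC.map Θ
        have h9 := congrArg (fun M => M * (Cm.map Θ)⁻¹) h8
        simp only [Matrix.mul_assoc, Matrix.mul_nonsing_inv _ hC', Matrix.mul_one,
          Matrix.zero_mul] at h9
        exact h9
      show (H.R L.τ).map θ = 1
      have h9 : (H.R L.τ).map θ = (H.R L.τ).map Θ := rfl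
      rw [h9]
      rw [sub_one_map', sub_eq_zero] at h7
      exact h7
  by_cases hqu : IsUnit ((ql k : 𝒪) + 1)
  · -- `q ≢ -1`
    have hsx : ∀ (i : Fin (m + 1)) (l : H.I i), IsSt (W.pt i l).ρ (ql k) → H.φ i l x = 0 := by
      intro i l hst
      have h1 := B.st_sign H hqu hst
      rw [hx, map_sub, AlgHom.commutes, ht, h1, map_mul, map_add, map_natCast, map_one, sub_self]
    have hnx : ∀ (i : Fin (m + 1)), (k : ℕ) < i → ∀ l : H.I i, H.φ i l (N' 0 1 * x) = 0 := by
      intro i hi l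
      rcases W.ql_st i (by omega) l k B.hqp hi with h | h
      · rw [map_mul, hunr i l h, zero_mul]
      · rw [map_mul, hsx i l h, mul_zero]
    refine ⟨{
      x := x
      nn := N' 0 1
      b := 0
      x_mem := hxm
      nn_mem := hN'm 0 1
      b_mem := zero_mem _
      T := t
      step := S
      nn_zero := fun i hi l => hunr i l (W.ql_unr i (by omega) l k B.hqp hi) 0 1
      b_zero := fun i hi l => map_zero _
      nn_b := fun i hi l => by rw [mul_zero, map_zero]
      nn_x := hnx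
      b_x := fun i hi l => by rw [zero_mul, map_zero]
      det := hdet
      new_zero := fun l hl => by
        rw [map_mul, hsx k.succ l (W.new_st k B.hqp l.1 hl), zero_mul]
      wW_x := hxW
      wW_b := map_zero _ }, fun θ hθ h1 h2 h3 => htan θ hθ h1 h2 (Or.inl hqu)⟩
  · -- `q ≡ -1`
    have hcm : algebraMap 𝒪 H.A (cPar p (ql k) e) = -2 * (eA * ((ql k : H.A) + 1)) := by
      rw [cPar_of_not hqu, map_mul, map_neg, map_ofNat, map_mul, map_add, map_natCast, map_one]
    have hst4 : ∀ (i : Fin (m + 1)) (l : H.I i), IsSt (W.pt i l).ρ (ql k) →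
        (H.φ i l x = 0 ∧ H.φ i l (N' 1 0) = 0) ∨
        (H.φ i l (x - algebraMap 𝒪 H.A (cPar p (ql k) e)) = 0 ∧
          H.φ i l (N' 0 1 + uA ^ 2 * N' 1 0) = 0) := by
      intro i l hst
      obtain ⟨h3, h4⟩ := hrel i l hst
      have heb : algebraMap 𝒪 (W.pt i l).R e ^ 2 = 1 := by rw [← map_pow, B.he, map_one]
      have hΦe : H.φ i l eA = algebraMap 𝒪 (W.pt i l).R e := (H.φ i l).commutes e
      have hsq : (H.φ i l t - algebraMap 𝒪 (W.pt i l).R e * ((ql k : (W.pt i l).R) + 1)) *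
          (H.φ i l t + algebraMap 𝒪 (W.pt i l).R e * ((ql k : (W.pt i l).R) + 1)) = 0 := by
        rcases (B.st H hst).2.2.1 with h | h
        · rw [ht, h]; linear_combination (-((ql k : (W.pt i l).R) + 1) ^ 2) * heb
        · rw [ht, h]; linear_combination (-((ql k : (W.pt i l).R) + 1) ^ 2) * heb
      rcases mul_eq_zero.mp hsq with h | h
      · left
        refine ⟨?_, ?_⟩
        · rw [hxA, map_sub, map_mul, map_add, map_natCast, map_one, hΦe]; exact h
        · exact nonscalar_st hq2 heb h3 (sub_eq_zero.mp h)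
      · right
        refine ⟨?_, ?_⟩
        · rw [hcm, hxA, map_sub, map_sub, map_mul, map_add, map_natCast, map_one, hΦe, map_mul,
            map_neg, map_ofNat, map_mul, map_add, map_natCast, map_one, hΦe]
          linear_combination h
        · have h5 := nonscalar_st' hq2 heb h4 h3 (by linear_combination h)
          have h6 : (4 : (W.pt i l).R) * H.φ i l (N' 0 1) + H.φ i l (N' 1 0) = 0 := h5
          have h7 : H.φ i l uA * 2 = 1 := by rw [← map_ofNat (H.φ i l) 2, ← map_mul, hu2, map_one]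
          rw [map_add, map_mul, map_pow]
          linear_combination (H.φ i l uA) ^ 2 * h6 -
            (H.φ i l (N' 0 1)) * (H.φ i l uA * 2 + 1) * h7
    have hu4 : ∀ (i : Fin (m + 1)) (l : H.I i), (W.pt i l).ρ.IsUnramifiedAt (ql k) →
        H.φ i l (N' 0 1 + uA ^ 2 * N' 1 0) = 0 := by
      intro i l h
      rw [map_add, map_mul, hunr i l h, hunr i l h, mul_zero, add_zero]
    refine ⟨{
      x := x
      nn := N' 0 1 + uA ^ 2 * N' 1 0
      b := N' 1 0
      x_mem := hxm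
      nn_mem := Ideal.add_mem _ (hN'm 0 1) (Ideal.mul_mem_left _ _ (hN'm 1 0))
      b_mem := hN'm 1 0
      T := t
      step := S
      nn_zero := fun i hi l => hu4 i l (W.ql_unr i (by omega) l k B.hqp hi)
      b_zero := fun i hi l => hunr i l (W.ql_unr i (by omega) l k B.hqp hi) 1 0
      nn_b := fun i hi l => ?_
      nn_x := fun i hi l => ?_
      b_x := fun i hi l => ?_
      det := hdet
      new_zero := fun l hl => ?_
      wW_x := hxW
      wW_b := ?_ }, fun θ hθ h1 h2 h3 => htan θ hθ h1 ?_ (Or.inr h3)⟩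
    · rcases W.ql_st i (by omega) l k B.hqp hi with h | h
      · rw [map_mul, hu4 i l h, zero_mul]
      · rcases hst4 i l h with h | h
        · rw [map_mul, h.2, mul_zero]
        · rw [map_mul, h.2, zero_mul]
    · rcases W.ql_st i (by omega) l k B.hqp hi with h | h
      · rw [map_mul, hu4 i l h, zero_mul]
      · rcases hst4 i l h with h | h
        · rw [map_mul, h.1, mul_zero]
        · rw [map_mul, h.2, zero_mul]
    · rcases W.ql_st i (by omega) l k B.hqp hi with h | h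
      · rw [map_mul, hunr i l h, zero_mul]
      · rcases hst4 i l h with h | h
        · rw [map_mul, h.2, zero_mul]
        · rw [map_mul, h.1, mul_zero]
    · rcases hst4 k.succ l (W.new_st k B.hqp l.1 hl) with h | h
      · rw [map_mul, h.1, zero_mul]
      · rw [map_mul, h.1, mul_zero]
    · obtain ⟨h1, h2⟩ := B.W_rel H
      have h3 := nf_rel (H.φW : H.A →+* 𝒪) hC hN rfl hCF (B.tame H) h1
        (by rw [B.det_τ H, map_one])
      have h4 : (H.φW : H.A →+* 𝒪) eA = e := H.φW.commutes e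
      rw [h4] at h3
      exact nonscalar_st hq2 B.he h3 h2
    · have h4 : θ (N' 0 1) + θ uA ^ 2 * θ (N' 1 0) = 0 := by
        rw [← map_pow, ← map_mul, ← map_add]; exact h2
      have h5 : θ (N' 1 0) = 0 := h3
      rwa [h5, mul_zero, add_zero] at h4

end Fermat.Agent.LL
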