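import Fermat.Agent.LL.PtExt
import Fermat.Agent.LL.CBase

set_option autoImplicit false
set_option linter.unusedSectionVars false

/-!
# Points of the local components in a chain
-/

open CongruenceSubgroup Fermat.Agent.Top IsLocalRing Fermat.Agent.TWMod
open scoped MatrixGroups TensorProduct

namespace Fermat.Agent.LL

local notation "Γℚ" => (AlgebraicClosure ℚ ≃ₐ[ℚ] AlgebraicClosure ℚ)

theorem NonEis.mono {S S' : Finset ℕ} {t : ℕ → ℂ} (h : NonEis S t) (hS : S' ⊆ S) :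
    NonEis S' t := by
  intro m hm
  obtain ⟨ℓ, h1, h2, h3, h4⟩ := h m hm
  exact ⟨ℓ, h1, fun h' ↦ h2 (hS h'), h3, h4⟩

section

variable {p : ℕ} {𝒪 : Type} [CommRing 𝒪] [IsDomain 𝒪] [IsDiscreteValuationRing 𝒪]
    [IsAdicComplete (maximalIdeal 𝒪) 𝒪] [Finite (ResidueField 𝒪)] [CharZero 𝒪] {j : 𝒪 →+* ℂ}
    {ρbar : ResidualGaloisRep (ResidueField 𝒪)} {S0 : Finset ℕ} {b : ℕ → 𝒪}
    {r : ℕ} {av : Fin r → ℕ}
    {G : GrpRing 𝒪 p av} {S S' : Finset ℕ} {N : ℕ} {F : Finset ℕ} {z : ℕ → G.Λ}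

theorem Lev.mono (L : Lev G S' N F z) (h : S' ⊆ S) : Lev G S N F z where
  sqf := L.sqf
  mem q hq hqN := h (L.mem q hq hqN)
  three := L.three
  dvd := L.dvd
  prime := L.prime
  one := L.one
  pow := L.pow
  res := L.res

/-- restriction of an eigensystem -/
def resPr (h : S' ⊆ S) (β : Pr (↑S' : Set ℕ) → ℂ) (ℓ : Pr (↑S : Set ℕ)) : ℂ :=
  β ⟨ℓ.1, ℓ.2.1, fun h' ↦ ℓ.2.2 (Finset.mem_coe.2 (h (Finset.mem_coe.1 h')))⟩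

theorem IsEigP.res [NeZero N] {χ : DirichletCharacter G.Λ N} {ψ : G.Λ →+* ℂ} (h : S' ⊆ S)
    {β : Pr (↑S' : Set ℕ) → ℂ} {x : H1 (kap (χ.ringHomComp ψ)) (PtMod ψ)}
    (hx : IsEigP ψ χ ↑S' β x) : IsEigP ψ χ ↑S (resPr h β) x := by
  intro ℓ
  exact hx ⟨ℓ.1, ℓ.2.1, fun h' ↦ ℓ.2.2 (Finset.mem_coe.2 (h (Finset.mem_coe.1 h')))⟩

variable {E : MvPolynomial (Pr (↑S : Set ℕ)) G.Λ} {ψ : G.Λ →+* ℂ}

/-- **Points of the local component**, with a small set `S'` of bad primes. -/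
theorem Lev.point_ext [NeZero N] (L : Lev G S' N F z) (C : Ctx p j ρbar S0 b) (I : Inputs)
    (hS0 : S0 ⊆ S) (hS' : S' ⊆ S) (hNew : SpecNew)
    (hE : IsLoc (chz N F z) (chz N F z) ↑S (aL G S b) E)
    (hψ : ψ.comp (algebraMap 𝒪 G.Λ) = j) {β : Pr (↑S' : Set ℕ) → ℂ}
    {x : H1 (kap ((chz N F z).ringHomComp ψ)) (PtMod ψ)} (hx : IsEigP ψ (chz N F z) ↑S' β x)
    (hx0 : x ≠ 0)
    (hxM : x ∈ MP ψ (chz N F z) ↑S E) {t : ℕ → ℂ} (ht : ∀ ℓ (h : ℓ.Prime ∧ ℓ ∉ (↑S' : Set ℕ)),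
      t ℓ = β ⟨ℓ, h⟩) :
    ∃ (M : ℕ) (_ : NeZero M) (g : CuspForm (Gamma0 M) 2), g.IsNewform ∧
      M ∣ N * cond F (fun q ↦ ψ (z q)) ∧
      (∀ q : ℕ, q.Prime → q ∣ cond F (fun q ↦ ψ (z q)) → q ^ 2 ∣ M) ∧
      (∀ ℓ : ℕ, ℓ.Prime → ℓ ∉ S' → ModularFormClass.qCoeff g ℓ = t ℓ) ∧
      ∃ P : Pt j ρbar (insert p S') t, NFProps p M P.ρ := by
  classical
  have hT : TwHyp N (cond F (fun q ↦ ψ (z q))) ((chz N F z).ringHomComp ψ) := by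
    rw [L.comp]
    exact L.twHyp C
  have hxS := hx.res hS'
  have htS : ∀ ℓ (h : ℓ.Prime ∧ ℓ ∉ (↑S : Set ℕ)), t ℓ = resPr hS' β ⟨ℓ, h⟩ := fun ℓ h ↦
    ht ℓ ⟨h.1, fun h' ↦ h.2 (Finset.mem_coe.2 (hS' (Finset.mem_coe.1 h')))⟩
  have hNE := NonEis.mono (nonEis_of_eig C hE (Or.inl rfl) hxS hx0 hxM htS) hS'
  obtain ⟨M, hM, g, hMd, hg, hgt, hsq⟩ := hNew N _ _ hT S' L.mem t hNE x hx0 (fun ℓ hℓ hℓS ↦ by
    have h : ℓ.Prime ∧ ℓ ∉ (↑S' : Set ℕ) := ⟨hℓ, fun h ↦ hℓS (Finset.mem_coe.1 h)⟩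
    rw [ht ℓ h]
    exact hx ⟨ℓ, h⟩)
  have hMS : ∀ q : ℕ, q.Prime → q ∣ M → q ∈ insert p S' := by
    intro q hq hqM
    refine Finset.mem_insert_of_mem ?_
    rcases hq.dvd_mul.1 (hqM.trans hMd) with h | h
    · exact L.mem q hq h
    · exact L.mem q hq (h.trans hT.dvd)
  obtain ⟨A, _, _, _, _, _, φ, t', hφ, ht'⟩ :=
    congTo_of_eig hE (Or.inl rfl) hψ hxS hx0 hxM htS
  have hins : insert p S' ⊆ S := Finset.insert_subset (hS0 C.pS) hS'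
  obtain ⟨P, hP⟩ := exists_pt_ext I.dvr I.nf0 I.nf C.prime C.ne2 C.mem C.inj
    C.abs C.odd hins (Finset.mem_insert_self p S') (C.frob.mono hS0) hφ (t := t')
    (fun ℓ h1 h2 ↦ (ht' ℓ h1 h2).1) hg hMS
    (fun ℓ h1 h2 ↦ (hgt ℓ h1 fun h ↦ h2 (hS' h)).trans (ht' ℓ h1 h2).2.symm)
  exact ⟨M, hM, g, hg, hMd, hsq, hgt, P.congr fun ℓ h1 h2 ↦
    hgt ℓ h1 fun h ↦ h2 (Finset.mem_insert_of_mem h), hP⟩

variable {R : Type} [CommRing R] [IsLocalRing R] [Algebra 𝒪 R] {ρ : GaloisRepAdic R} {M : ℕ}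

/-- deformation conditions at a point -/
theorem Lev.condType' (L : Lev G S N F z) (hP : NFProps p M ρ)
    (hM : M ∣ N * cond F (fun q ↦ ψ (z q))) {Smin F' : Finset ℕ} (hpS : p ∈ Smin)
    (hSF : ∀ q ∈ Smin, q ∉ F) (hN : ∀ q : ℕ, q.Prime → q ∣ N → q ∈ Smin ∨ q ∈ F')
    {Pc : TW.LCond} (hPc : Pc ρ) :
    TW.CondType 𝒪 p Smin Pc F' ρ := by
  refine ⟨⟨hP.det, hPc, fun q hq hqS ↦ ?_⟩,
    fun q hqS hq hqp ↦ ?_⟩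
  · rw [Finset.mem_union, not_or] at hqS
    refine hP.unr q hq (fun h ↦ hqS.1 (h ▸ hpS)) fun h ↦ ?_
    rcases hN q hq (L.dvd_of hM hq h) with h | h
    · exact hqS.1 h
    · exact hqS.2 h
  · by_cases hqM : q ∣ M
    · refine (hP.st q hq hqp hqM (not_sq_dvd L.sqf hM hq fun h ↦ ?_)).1
      exact hSF q hqS ((dvd_cond_iff L.prime hq).1 h).1
    · exact unip_of_unr (hP.unr q hq hqp hqM)

/-- Steinberg primes -/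
theorem Lev.isSt (L : Lev G S N F z) (hP : NFProps p M ρ)
    (hM : M ∣ N * cond F (fun q ↦ ψ (z q))) {q : ℕ} (hq : q.Prime) (hqp : q ≠ p) (hqF : q ∉ F)
    (hqM : q ∣ M) : IsSt ρ q :=
  hP.st q hq hqp hqM (not_sq_dvd L.sqf hM hq fun h ↦ hqF ((dvd_cond_iff L.prime hq).1 h).1)

end

section Occ

variable {p : ℕ} {𝒪 : Type} [CommRing 𝒪] [IsDomain 𝒪] [IsDiscreteValuationRing 𝒪]
    [IsAdicComplete (maximalIdeal 𝒪) 𝒪] [Finite (ResidueField 𝒪)] [CharZero 𝒪] {j : 𝒪 →+* ℂ}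
    {ρbar : ResidualGaloisRep (ResidueField 𝒪)} {S0 : Finset ℕ} {b : ℕ → 𝒪}
    {r : ℕ} {av : Fin r → ℕ}
    {G : GrpRing 𝒪 p av} {S : Finset ℕ} {N : ℕ} {F : Finset ℕ} {z : ℕ → G.Λ}

/-- eigenvectors from forms, at the trivial character -/
theorem exists_eig_lev [NeZero N] (C : Ctx p j ρbar S0 b) (L : Lev G S N F z) (hS0 : S0 ⊆ S)
    (hz : ∀ q ∈ F, psi0 G j (z q) = 1) {N0 : ℕ} (hN0 : N0 ∣ N) {f : CuspForm (Gamma0 N0) 2}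
    (hf : f.IsNormalizedEigenform)
    (hc : CongTo j b S0 (fun ℓ ↦ ModularFormClass.qCoeff f ℓ)) :
    (∀ P, ev (chz N F z) ↑S G.Λ P = 0 → resE ↑S (aL G S b) P = 0) ∧
    ∀ E, IsLoc (chz N F z) (chz N F z) ↑S (aL G S b) E →
      ∃ x ∈ MP (psi0 G j) (chz N F z) ↑S E, x ≠ 0 := by
  obtain ⟨A, _, _, _, _, _, φ, t', hφ, ht'⟩ := hc
  have hone : (chz N F z).ringHomComp (psi0 G j) = 1 := by
    rw [L.comp]
    exact chz_eq_one L.dvd L.prime hz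
  obtain ⟨x, hx0, hx⟩ := exists_eig_of_form (M := N0) (N := N) hN0 hf hone
  have hxP : IsEigP (psi0 G j) (chz N F z) ↑S (fun ℓ ↦ ModularFormClass.qCoeff f ℓ.1) x := by
    intro ℓ
    have hℓS : ℓ.1 ∉ S := fun h ↦ ℓ.2.2 (Finset.mem_coe.2 h)
    exact hx ℓ.1 ℓ.2.1 (fun h ↦ hℓS (L.mem _ ℓ.2.1 h))
  have hsurj : Function.Surjective (G.aug : G.Λ →+* 𝒪) := fun y ↦
    ⟨algebraMap 𝒪 G.Λ y, G.aug.commutes y⟩
  have : IsLocalHom (G.aug : G.Λ →+* 𝒪) := IsLocalHom.of_surjective _ hsurj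
  have hloc : IsLocalHom ((algebraMap 𝒪 A).comp (G.aug : G.Λ →+* 𝒪)) :=
    RingHom.isLocalHom_comp _ _
  have hψ : φ.comp ((algebraMap 𝒪 A).comp (G.aug : G.Λ →+* 𝒪)) = psi0 G j := by
    rw [← RingHom.comp_assoc, hφ]
    rfl
  have ht : ∀ ℓ : Pr (↑S : Set ℕ), residue A (t' ℓ.1) =
      ResidueField.map ((algebraMap 𝒪 A).comp (G.aug : G.Λ →+* 𝒪)) (aL G S b ℓ) := by
    intro ℓ
    have hℓS : ℓ.1 ∉ S0 := fun h ↦ ℓ.2.2 (Finset.mem_coe.2 (hS0 h))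
    rw [aL, ResidueField.map_residue, ← sub_eq_zero, ← map_sub, residue_eq_zero_iff]
    have h1 : ((algebraMap 𝒪 A).comp (G.aug : G.Λ →+* 𝒪)) (algebraMap 𝒪 G.Λ (b ℓ.1)) =
        algebraMap 𝒪 A (b ℓ.1) := congrArg (algebraMap 𝒪 A) (G.aug.commutes (b ℓ.1))
    rw [h1]
    exact (ht' ℓ.1 ℓ.2.1 hℓS).1
  have hα : ∀ ℓ : Pr (↑S : Set ℕ), φ (t' ℓ.1) = ModularFormClass.qCoeff f ℓ.1 := fun ℓ ↦
    (ht' ℓ.1 ℓ.2.1 fun h ↦ ℓ.2.2 (Finset.mem_coe.2 (hS0 h))).2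
  have h2 := isUnit_two C.prime C.ne2 (pΛ C G)
  refine ⟨fun P hP ↦ occ_of_eig hψ (S := (↑S : Set ℕ)) (a := aL G S b) ht
    (χ := chz N F z) hα h2 L.three hxP hx0 P hP, fun E hE ↦
    ⟨x, mem_MP_of_eig hψ ht hα hE (Or.inl rfl) hxP hx0, hx0⟩⟩

end Occ

end Fermat.Agent.LL
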