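import Fermat.Agent.LL.GalPoint

set_option autoImplicit false

/-!
# The Galois side of level lowering: from automorphic output to patching data
-/

open IsLocalRing GaloisRep Polynomial

namespace Fermat.Agent.LL

open Fermat.Agent.DefRing Fermat.Agent

local notation "Γℚ" => (AlgebraicClosure ℚ ≃ₐ[ℚ] AlgebraicClosure ℚ)
local notation "M₂" => Matrix (Fin 2) (Fin 2)
local notation "Qb" => AlgebraicClosure ℚ

variable {𝒪 : Type} [CommRing 𝒪] [IsDomain 𝒪] [IsDiscreteValuationRing 𝒪]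
  [IsAdicComplete (maximalIdeal 𝒪) 𝒪] [Finite (ResidueField 𝒪)]

omit [IsAdicComplete (maximalIdeal 𝒪) 𝒪] [Finite (ResidueField 𝒪)] in
/-- the residual traces of Frobenius -/
theorem exists_residual_traces {j : 𝒪 →+* ℂ} {ρbar : ResidualGaloisRep (ResidueField 𝒪)}
    {S : Finset ℕ} {I : Type} [Nonempty I] {ev : I → ℕ → ℂ} (pt : ∀ i, Pt j ρbar S (ev i)) :
    ∃ a : ℕ → ResidueField 𝒪, FrobCharRes ρbar S a ∧
      ∀ i (ℓ : ℕ), ℓ.Prime → ℓ ∉ S →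
        residue (pt i).R ((pt i).tr ℓ) = ResidueField.map (algebraMap 𝒪 (pt i).R) (a ℓ) := by
  classical
  obtain ⟨rb, hrb⟩ := exists_realizesRes ρbar
  have key : ∀ i (ℓ : ℕ), ℓ.Prime → ℓ ∉ S → ∀ P : ValuationSubring Qb, P.LiesOverPrime ℓ →
      ∀ σ : Γℚ, P.IsFrobeniusAt σ ℓ →
      residue (pt i).R ((pt i).tr ℓ) = ResidueField.map (algebraMap 𝒪 (pt i).R) (rb σ).trace ∧
        (rb σ).det = ℓ := by
    intro i ℓ hℓ hS P hP σ hσ
    obtain ⟨r, hr⟩ := exists_realizes (pt i).ρ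
    obtain ⟨h1, h2⟩ := (charpoly_iff hr σ _ _).mp ((pt i).frob ℓ hℓ hS P hP σ hσ)
    obtain ⟨h3, h4, -⟩ := residual_compare hr hrb _ (pt i).residual σ
    rw [h1] at h3
    refine ⟨h3, ?_⟩
    apply (ResidueField.map (algebraMap 𝒪 (pt i).R)).injective
    rw [← h4, h2, map_natCast, map_natCast]
  obtain ⟨i₀⟩ := ‹Nonempty I›
  let a : ℕ → ResidueField 𝒪 := fun ℓ =>
    if h : ∃ σ : Γℚ, ∃ P : ValuationSubring Qb, P.LiesOverPrime ℓ ∧ P.IsFrobeniusAt σ ℓ then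
      (rb h.choose).trace else 0
  have ha : ∀ (ℓ : ℕ), ℓ.Prime → ℓ ∉ S → ∀ P : ValuationSubring Qb, P.LiesOverPrime ℓ →
      ∀ σ : Γℚ, P.IsFrobeniusAt σ ℓ → (rb σ).trace = a ℓ := by
    intro ℓ hℓ hS P hP σ hσ
    have h : ∃ σ : Γℚ, ∃ P : ValuationSubring Qb, P.LiesOverPrime ℓ ∧ P.IsFrobeniusAt σ ℓ :=
      ⟨σ, P, hP, hσ⟩
    have h1 : a ℓ = (rb h.choose).trace := dif_pos h
    obtain ⟨P', hP', hσ'⟩ := h.choose_spec
    rw [h1]
    apply (ResidueField.map (algebraMap 𝒪 (pt i₀).R)).injective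
    rw [← (key i₀ ℓ hℓ hS P hP σ hσ).1, ← (key i₀ ℓ hℓ hS P' hP' _ hσ').1]
  refine ⟨a, ?_, ?_⟩
  · intro ℓ hℓ hS P hP σ hσ
    have h1 : Realizes (GaloisRepAdic.ofResidualGaloisRep ρbar) rb := hrb
    exact (charpoly_iff h1 σ _ _).mpr ⟨ha ℓ hℓ hS P hP σ hσ, (key i₀ ℓ hℓ hS P hP σ hσ).2⟩
  · intro i ℓ hℓ hS
    have : Fact ℓ.Prime := ⟨hℓ⟩
    obtain ⟨σ, hσ⟩ := Frob.exists_isFrobeniusAt _ hℓ (CFT.Loc.smul_padicPlace_liesOverPrime ℓ 1)
    rw [(key i ℓ hℓ hS _ (CFT.Loc.smul_padicPlace_liesOverPrime ℓ 1) σ hσ).1,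
      ha ℓ hℓ hS _ (CFT.Loc.smul_padicPlace_liesOverPrime ℓ 1) σ hσ]

omit [IsAdicComplete (maximalIdeal 𝒪) 𝒪] [Finite (ResidueField 𝒪)] in
/-- the uniqueness property of the Hecke ring -/
theorem hRing_unique {j : 𝒪 →+* ℂ} {ρbar : ResidualGaloisRep (ResidueField 𝒪)}
    {S : Finset ℕ} {I : Type} {ev : I → ℕ → ℂ} {pt : ∀ i, Pt j ρbar S (ev i)}
    {a : ℕ → ResidueField 𝒪} (H : HRing pt a) {ρ : GaloisRepAdic H.A} {t : ℕ → H.A}
    (ht : ∀ ℓ : PL S, t ℓ = H.π (MvPolynomial.X ℓ)) (hρ : FrobChar ρ S t)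
    (B : Type) [CommRing B] [IsLocalRing B] [Algebra 𝒪 B] (f g : H.A →ₐ[𝒪] B)
    (hf : IsLocalHom (f : H.A →+* B)) (hg : IsLocalHom (g : H.A →+* B))
    (h : (ρ.baseChangeAlong (f : H.A →+* B) hf).IsEquiv (ρ.baseChangeAlong (g : H.A →+* B) hg)) :
    f = g := by
  obtain ⟨r, hr⟩ := exists_realizes ρ
  have h1 := hr.baseChange (f : H.A →+* B) hf
  have h2 := hr.baseChange (g : H.A →+* B) hg
  have h3 := h1.of_isEquiv h
  have htr : ∀ σ, f (r σ).trace = g (r σ).trace := by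
    intro σ
    have h4 := h3.trace_eq σ
    rw [← h2.trace_eq σ] at h4
    rw [Matrix.trace_fin_two, Matrix.trace_fin_two] at h4
    rw [Matrix.trace_fin_two, map_add, map_add]
    exact h4
  have h5 : f.comp H.π = g.comp H.π := by
    apply MvPolynomial.algHom_ext
    intro ℓ
    have : Fact (ℓ : ℕ).Prime := ⟨ℓ.2.1⟩
    obtain ⟨σ, hσ⟩ := Frob.exists_isFrobeniusAt _ ℓ.2.1
      (CFT.Loc.smul_padicPlace_liesOverPrime (ℓ : ℕ) 1)
    have h6 := ((charpoly_iff hr σ _ _).mp (hρ ℓ ℓ.2.1 ℓ.2.2 _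
      (CFT.Loc.smul_padicPlace_liesOverPrime (ℓ : ℕ) 1) σ hσ)).1
    have h7 := htr σ
    rw [h6, ht] at h7
    exact h7
  refine AlgHom.ext fun x => ?_
  obtain ⟨y, rfl⟩ := H.π_surj x
  exact AlgHom.congr_fun h5 y

section

variable {p : ℕ} {j : 𝒪 →+* ℂ} {ρbar : ResidualGaloisRep (ResidueField 𝒪)} {PC : TW.LCond}
  {ϖ : 𝒪} {Smin T : Finset ℕ} {r : ℕ} {qv : Fin r → ℕ} {S : Finset ℕ} {D : ℕ}

omit [IsDomain 𝒪] [IsDiscreteValuationRing 𝒪] [IsAdicComplete (maximalIdeal 𝒪) 𝒪]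
  [Finite (ResidueField 𝒪)] in
/-- action of polynomials in the Hecke operators -/
theorem exists_poly_act [IsLocalRing 𝒪] {ρbar : ResidualGaloisRep (ResidueField 𝒪)}
    (X : AutOutP p j ρbar PC ϖ Smin T qv S D) (f : MvPolynomial (PL S) 𝒪) :
    ∃ (eU : Module.End X.G.Λ X.U.M) (eV : Module.End X.G.Λ X.V.M) (z : X.Z →+ X.Z),
      (∀ i m, X.U.lam i (eU m) =
        (X.ptU i).ι (MvPolynomial.aeval (fun ℓ : PL S => (X.ptU i).tr ℓ) f) * X.U.lam i m) ∧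
      (∀ i m, X.V.lam i (eV m) =
        (X.ptV i).ι (MvPolynomial.aeval (fun ℓ : PL S => (X.ptV i).tr ℓ) f) * X.V.lam i m) ∧
      (∀ m, X.πU (eU m) = z (X.πU m)) ∧ (∀ m, X.πV (eV m) = z (X.πV m)) := by
  induction f using MvPolynomial.induction_on with
  | C c =>
    refine ⟨algebraMap _ _ (algebraMap 𝒪 X.G.Λ c), algebraMap _ _ (algebraMap 𝒪 X.G.Λ c),
      DistribSMul.toAddMonoidHom X.Z c, ?_, ?_, ?_, ?_⟩
    · intro i m
      rw [MvPolynomial.aeval_C, Module.algebraMap_end_apply, X.U.lam_smul,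
        ← RingHom.comp_apply (X.ptU i).ι, (X.ptU i).ι_comp, ← RingHom.comp_apply (X.U.psi i),
        X.U.psi_comp]
    · intro i m
      rw [MvPolynomial.aeval_C, Module.algebraMap_end_apply, X.V.lam_smul,
        ← RingHom.comp_apply (X.ptV i).ι, (X.ptV i).ι_comp, ← RingHom.comp_apply (X.V.psi i),
        X.V.psi_comp]
    · intro m
      rw [Module.algebraMap_end_apply, X.πU_smul]; rfl
    · intro m
      rw [Module.algebraMap_end_apply, X.πV_smul]; rfl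
  | add f g hf hg =>
    obtain ⟨eU, eV, z, h1, h2, h3, h4⟩ := hf
    obtain ⟨eU', eV', z', h1', h2', h3', h4'⟩ := hg
    refine ⟨eU + eU', eV + eV', z + z', ?_, ?_, ?_, ?_⟩
    · intro i m
      rw [LinearMap.add_apply, map_add, h1, h1', map_add, map_add, add_mul]
    · intro i m
      rw [LinearMap.add_apply, map_add, h2, h2', map_add, map_add, add_mul]
    · intro m
      rw [LinearMap.add_apply, map_add, h3, h3', AddMonoidHom.add_apply]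
    · intro m
      rw [LinearMap.add_apply, map_add, h4, h4', AddMonoidHom.add_apply]
  | mul_X f ℓ hf =>
    obtain ⟨eU, eV, z, h1, h2, h3, h4⟩ := hf
    refine ⟨eU * X.U.T ℓ, eV * X.V.T ℓ, z.comp (X.TZ ℓ), ?_, ?_, ?_, ?_⟩
    · intro i m
      rw [Module.End.mul_apply, h1, X.U.lam_T i ℓ ℓ.2.1 ℓ.2.2, map_mul, MvPolynomial.aeval_X,
        map_mul, (X.ptU i).ι_tr ℓ ℓ.2.1 ℓ.2.2, mul_assoc]
    · intro i m
      rw [Module.End.mul_apply, h2, X.V.lam_T i ℓ ℓ.2.1 ℓ.2.2, map_mul, MvPolynomial.aeval_X,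
        map_mul, (X.ptV i).ι_tr ℓ ℓ.2.1 ℓ.2.2, mul_assoc]
    · intro m
      rw [Module.End.mul_apply, h3, X.πU_T ℓ ℓ.2.1 ℓ.2.2, AddMonoidHom.comp_apply]
    · intro m
      rw [Module.End.mul_apply, h4, X.πV_T ℓ ℓ.2.1 ℓ.2.2, AddMonoidHom.comp_apply]

end

omit [IsAdicComplete (maximalIdeal 𝒪) 𝒪] [Finite (ResidueField 𝒪)] in
/-- the value of an `𝒪`-algebra homomorphism at the class of a polynomial -/
theorem hRing_φ_π {j : 𝒪 →+* ℂ} {ρbar : ResidualGaloisRep (ResidueField 𝒪)}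
    {S : Finset ℕ} {I : Type} {ev : I → ℕ → ℂ} {pt : ∀ i, Pt j ρbar S (ev i)}
    {a : ℕ → ResidueField 𝒪} (H : HRing pt a) (i : I) (f : MvPolynomial (PL S) 𝒪) :
    H.φ i (H.π f) = MvPolynomial.aeval (fun ℓ : PL S => (pt i).tr ℓ) f := by
  have h : (H.φ i).comp H.π = MvPolynomial.aeval (fun ℓ : PL S => (pt i).tr ℓ) := by
    apply MvPolynomial.algHom_ext
    intro ℓ
    rw [AlgHom.comp_apply, H.φ_π, MvPolynomial.aeval_X]
  exact AlgHom.congr_fun h f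

theorem finite_quotient_pow_of_dvr {R : Type} [CommRing R] [IsLocalRing R] [IsNoetherianRing R]
    [Finite (ResidueField R)] (n : ℕ) : Finite (R ⧸ maximalIdeal R ^ n) := by
  have : Finite (R ⧸ maximalIdeal R) := ‹Finite (ResidueField R)›
  exact Ideal.finite_quotient_pow (IsNoetherian.noetherian _) n

end Fermat.Agent.LL
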