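import Fermat.Agent.LL.AutChain
import Fermat.Agent.LL.GlueP
import Fermat.Agent.LL.GalSide

set_option autoImplicit false

/-!
# The Hecke ring of a chain
-/

open IsLocalRing GaloisRep Polynomial

namespace Fermat.Agent.LL

open Fermat.Agent.DefRing Fermat.Agent

local notation "Γℚ" => (AlgebraicClosure ℚ ≃ₐ[ℚ] AlgebraicClosure ℚ)
local notation "M₂" => Matrix (Fin 2) (Fin 2)
local notation "Qb" => AlgebraicClosure ℚ

/-- forgetting primes -/
def Pt.mono {𝒪 : Type} [CommRing 𝒪] [IsLocalRing 𝒪] {j : 𝒪 →+* ℂ}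
    {ρbar : ResidualGaloisRep (ResidueField 𝒪)} {S S' : Finset ℕ} {t : ℕ → ℂ} (h : S ⊆ S')
    (x : Pt j ρbar S t) : Pt j ρbar S' t :=
  { x with
    ι_tr := fun ℓ hℓ hS => x.ι_tr ℓ hℓ fun hh => hS (h hh)
    frob := fun ℓ hℓ hS => x.frob ℓ hℓ fun hh => hS (h hh) }

theorem exists_finite_sep' {𝒪 : Type} [CommRing 𝒪] (j : 𝒪 →+* ℂ) {M : Type} [AddCommGroup M]
    [Module 𝒪 M] [Module.Finite 𝒪 M] {I : Type} (lam : I → M →+ ℂ)
    (hlam : ∀ i (c : 𝒪) m, lam i (c • m) = j c * lam i m) :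
    ∃ s : Finset I, ∀ m : M, (∀ i ∈ s, lam i m = 0) → ∀ i, lam i m = 0 := by
  classical
  obtain ⟨n, e, he⟩ := Module.Finite.exists_fin (R := 𝒪) (M := M)
  let v : I → (Fin n → ℂ) := fun i k => lam i (e k)
  have hfg : (Submodule.span ℂ (Set.range v)).FG := IsNoetherian.noetherian _
  rw [Submodule.fg_span_iff_fg_span_finset_subset] at hfg
  obtain ⟨s', hs', hspan⟩ := hfg
  choose w hw using hs'
  refine ⟨s'.attach.image fun x => w x.2, fun m hm i => ?_⟩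
  have hmspan : m ∈ Submodule.span 𝒪 (Set.range e) := by rw [he]; trivial
  rw [Submodule.mem_span_range_iff_exists_fun] at hmspan
  obtain ⟨c, rfl⟩ := hmspan
  let ℓ : (Fin n → ℂ) →ₗ[ℂ] ℂ := ∑ k, (j (c k)) • LinearMap.proj k
  have hℓ : ∀ i, ℓ (v i) = lam i (∑ k, c k • e k) := by
    intro i
    simp only [ℓ, LinearMap.sum_apply, LinearMap.smul_apply, LinearMap.proj_apply, smul_eq_mul,
      map_sum, hlam, v]
  rw [← hℓ]
  have h1 : Submodule.span ℂ (Set.range v) ≤ LinearMap.ker ℓ := by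
    rw [hspan, Submodule.span_le]
    intro x hx
    have h2 : v (w hx) = x := hw hx
    show ℓ x = 0
    rw [← h2, hℓ]
    exact hm _ (Finset.mem_image.mpr ⟨⟨x, hx⟩, Finset.mem_attach _ _, rfl⟩)
  exact h1 (Submodule.subset_span ⟨i, rfl⟩)

variable {𝒪 : Type} [CommRing 𝒪] [IsDomain 𝒪] [IsDiscreteValuationRing 𝒪]
  [IsAdicComplete (maximalIdeal 𝒪) 𝒪] [Finite (ResidueField 𝒪)] [CharZero 𝒪]
  {p : ℕ} {j : 𝒪 →+* ℂ} {ρbar : ResidualGaloisRep (ResidueField 𝒪)} {P : ℕ → TW.LCond}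
  {Smin : Finset ℕ} {m : ℕ} {ql : Fin m → ℕ} {r : ℕ} {qv : Fin r → ℕ} {F : MvPolynomial ℕ 𝒪}
  {D : ℕ}

/-- bad primes of a chain, for Galois representations -/
abbrev AutChain.SS (W : AutChain p j ρbar P Smin ql qv F D) (i : ℕ) : Finset ℕ :=
  insert p (W.S i)

/-- The Hecke ring of a chain and of a representation over `𝒪`. `P'` is a local condition at `p`
satisfied by all the representations. -/
structure ChainRing (W : AutChain p j ρbar P Smin ql qv F D) (P' : TW.LCond)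
    (ρW : GaloisRepAdic 𝒪) (tW : ℕ → 𝒪) where
  A : Type
  [commRing : CommRing A]
  [isLocalRing : IsLocalRing A]
  [isNoetherianRing : IsNoetherianRing A]
  [isAdicComplete : IsAdicComplete (maximalIdeal A) A]
  [algebra : Algebra 𝒪 A]
  [isLocalHom : IsLocalHom (algebraMap 𝒪 A)]
  res_surj : Function.Surjective (residue A ∘ algebraMap 𝒪 A)
  ρ : GaloisRepAdic A
  R : Γℚ → M₂ A
  hR : Realizes ρ R
  cond : TW.CondType 𝒪 p Smin P' (Finset.univ.image ql ∪ Finset.univ.image qv) ρ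
  residual : ρ.residual.IsEquiv (ρbar.baseChangeAlong (ResidueField.map (algebraMap 𝒪 A)))
  uniq : ∀ (B : Type) [CommRing B] [IsLocalRing B] [Algebra 𝒪 B] (f g : A →ₐ[𝒪] B)
    (hf : IsLocalHom (f : A →+* B)) (hg : IsLocalHom (g : A →+* B)),
    (ρ.baseChangeAlong (f : A →+* B) hf).IsEquiv (ρ.baseChangeAlong (g : A →+* B) hg) → f = g
  π : MvPolynomial (PL (W.SS m)) 𝒪 →ₐ[𝒪] A
  π_surj : Function.Surjective π
  /-- finite separating sets of functionals -/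
  I : ∀ i, Finset (W.A i).I
  sep : ∀ i (v : (W.A i).M), (∀ x ∈ I i, (W.A i).lam x v = 0) → v = 0
  sep_new : ∀ i (v : (W.A (i + 1)).M), (∀ x ∈ I (i + 1), x ∈ W.new i → (W.A (i + 1)).lam x v = 0) →
    ∀ x ∈ W.new i, (W.A (i + 1)).lam x v = 0
  /-- the points -/
  φ : ∀ (i : Fin (m + 1)) (x : I i), A →ₐ[𝒪] (W.pt i x).R
  φ_loc : ∀ (i : Fin (m + 1)) (x : I i), IsLocalHom (φ i x : A →+* (W.pt i x).R)
  φ_R : ∀ (i : Fin (m + 1)) (x : I i), Realizes (W.pt i x).ρ (fun σ => (R σ).map (φ i x))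
  φ_π : ∀ (i : Fin (m + 1)) (x : I i) f, φ i x (π f) = MvPolynomial.aeval (fun ℓ : PL (W.SS m) => (W.pt i x).tr ℓ) f
  φW : A →ₐ[𝒪] 𝒪
  φW_R : Realizes ρW (fun σ => (R σ).map φW)
  φW_π : ∀ f, φW (π f) = MvPolynomial.aeval (fun ℓ : PL (W.SS m) => tW ℓ) f
  /-- the points and `W` are jointly injective -/
  inj : ∀ a : A, (∀ (i : Fin (m + 1)) (x : I i), φ i x a = 0) → φW a = 0 → a = 0

attribute [instance] ChainRing.commRing ChainRing.isLocalRing ChainRing.isNoetherianRing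
  ChainRing.isAdicComplete ChainRing.algebra ChainRing.isLocalHom

omit [IsAdicComplete (maximalIdeal 𝒪) 𝒪] [Finite (ResidueField 𝒪)] [CharZero 𝒪] in
theorem AutChain.S_mono' (W : AutChain p j ρbar P Smin ql qv F D) {i i' : ℕ} (h : i ≤ i') :
    W.S i ⊆ W.S i' :=
  monotone_nat_of_le_succ (f := W.S) W.S_mono h

omit [IsAdicComplete (maximalIdeal 𝒪) 𝒪] [Finite (ResidueField 𝒪)] [CharZero 𝒪] in
theorem AutChain.SS_mono (W : AutChain p j ρbar P Smin ql qv F D) {i i' : ℕ} (h : i ≤ i') :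
    W.SS i ⊆ W.SS i' := Finset.insert_subset_insert _ (W.S_mono' h)

omit [IsAdicComplete (maximalIdeal 𝒪) 𝒪] [Finite (ResidueField 𝒪)] [CharZero 𝒪] in
theorem AutChain.notMem_of_SS (W : AutChain p j ρbar P Smin ql qv F D) {i i' : ℕ} (h : i ≤ i')
    {ℓ : ℕ} (hℓ : ℓ ∉ W.SS i') : ℓ ∉ W.S i := fun hh =>
  hℓ (W.SS_mono h (Finset.mem_insert_of_mem hh))

theorem condType_mono {𝒪 : Type} [CommRing 𝒪] {p : ℕ} {Smin Q : Finset ℕ} {P P' : TW.LCond}
    {R : Type} [CommRing R] [IsLocalRing R] [Algebra 𝒪 R] {ρ : GaloisRepAdic R}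
    (hPP : P ρ → P' ρ) (h : TW.CondType 𝒪 p Smin P Q ρ) : TW.CondType 𝒪 p Smin P' Q ρ :=
  ⟨⟨h.1.1, hPP h.1.2.1, h.1.2.2⟩, h.2⟩

theorem exists_chainRing [hpp : Fact p.Prime] (hp𝒪 : (p : 𝒪) ∈ maximalIdeal 𝒪) (hp2 : p ≠ 2)
    (hj : Function.Injective j) (habs : ρbar.IsAbsolutelyIrreducible)
    (hcyc : (GaloisRepAdic.ofResidualGaloisRep ρbar).DetIsCyclotomic p) {P' : TW.LCond}
    (hP : GlueStable p P') (W : AutChain p j ρbar P Smin ql qv F D)
    (hPP : ∀ i ≤ m, ∀ ⦃A : Type⦄ [CommRing A] [IsLocalRing A] (ρ : GaloisRepAdic A),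
      P i ρ → P' ρ) (ρW : GaloisRepAdic 𝒪) (tW : ℕ → 𝒪) (hW : FrobChar ρW (W.SS m) tW)
    (hWres : ρW.residual.IsEquiv (ρbar.baseChangeAlong (ResidueField.map (algebraMap 𝒪 𝒪))))
    (hWcond : TW.CondType 𝒪 p Smin P' (Finset.univ.image ql ∪ Finset.univ.image qv) ρW) :
    Nonempty (ChainRing W P' ρW tW) := by
  classical
  have hp : p.Prime := hpp.out
  let mM : ∀ i, Module 𝒪 (W.A i).M := fun i => Module.compHom (W.A i).M (algebraMap 𝒪 W.G.Λ)
  have tM : ∀ i, IsScalarTower 𝒪 W.G.Λ (W.A i).M := fun i => ⟨fun x y z => by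
    rw [Algebra.smul_def, mul_smul]; rfl⟩
  have fM : ∀ i, Module.Finite 𝒪 (W.A i).M := fun i => Module.Finite.trans W.G.Λ (W.A i).M
  have hlam : ∀ i (x : (W.A i).I) (c : 𝒪) v, (W.A i).lam x (c • v) = j c * (W.A i).lam x v := by
    intro i x c v
    have h1 : (W.A i).psi x (algebraMap 𝒪 W.G.Λ c) = j c :=
      RingHom.congr_fun ((W.A i).psi_comp x) c
    have h2 := (W.A i).lam_smul x (algebraMap 𝒪 W.G.Λ c) v
    rw [h1] at h2
    exact h2
  have hs1 : ∀ i, ∃ s : Finset (W.A i).I, ∀ v : (W.A i).M, (∀ x ∈ s, (W.A i).lam x v = 0) →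
      v = 0 := fun i => exists_finite_sep j (W.A i).lam (hlam i) (W.A i).sep
  have hs2 : ∀ i, ∃ s : Finset (W.A (i + 1)).I, ∀ v : (W.A (i + 1)).M,
      (∀ x ∈ s, x ∈ W.new i → (W.A (i + 1)).lam x v = 0) →
      ∀ x ∈ W.new i, (W.A (i + 1)).lam x v = 0 := by
    intro i
    obtain ⟨s, hs⟩ := exists_finite_sep' j
      (fun x : W.new i => (W.A (i + 1)).lam x) (fun x => hlam (i + 1) x)
    refine ⟨s.image Subtype.val, fun v hv x hx => hs v (fun y hy => ?_) ⟨x, hx⟩⟩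
    exact hv y (Finset.mem_image_of_mem _ hy) y.2
  choose s1 hs1 using hs1
  choose s2 hs2 using hs2
  let s : ∀ i, Finset (W.A i).I := fun i => match i with
    | 0 => s1 0
    | (i + 1) => s1 (i + 1) ∪ s2 i
  have hss : ∀ i, s1 i ⊆ s i := fun i => match i with
    | 0 => Finset.Subset.refl _
    | (i + 1) => Finset.subset_union_left
  have hs2s : ∀ i, s2 i ⊆ s (i + 1) := fun i => Finset.subset_union_right
  -- the point `W`
  let ptW : Pt j ρbar (W.SS m) (fun ℓ => j (tW ℓ)) :=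
    { R := 𝒪
      finiteRes := inferInstance
      ι := j
      ι_inj := hj
      ι_comp := by ext; rfl
      ρ := ρW
      tr := tW
      ι_tr := fun _ _ _ => rfl
      frob := hW
      residual := hWres }
  have hmono : ∀ i : Fin (m + 1), W.SS i ⊆ W.SS m := fun i => W.SS_mono (by omega)
  let I : Type := (Σ i : Fin (m + 1), {x // x ∈ s i}) ⊕ Unit
  let ev : I → ℕ → ℂ := Sum.elim (fun q => (W.A q.1).ev q.2) (fun _ ℓ => j (tW ℓ))
  let pt : ∀ i : I, Pt j ρbar (W.SS m) (ev i) := fun i => match i with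
    | Sum.inl q => (W.pt q.1 q.2).mono (hmono q.1)
    | Sum.inr _ => ptW
  have hcond : ∀ i, TW.CondType 𝒪 p Smin P' (Finset.univ.image ql ∪ Finset.univ.image qv)
      (pt i).ρ := fun i => match i with
    | Sum.inl q => condType_mono (hPP q.1 (by omega) _) (W.cond q.1 (by omega) q.2)
    | Sum.inr _ => hWcond
  have hneI : Nonempty I := ⟨Sum.inr ()⟩
  -- the Hecke ring
  obtain ⟨a, hbar, ha⟩ := exists_residual_traces pt
  obtain ⟨H⟩ := nonempty_hRing pt a ha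
  let t : ℕ → H.A := fun ℓ => if h : ℓ.Prime ∧ ℓ ∉ W.SS m then H.π (MvPolynomial.X ⟨ℓ, h⟩) else 0
  have ht : ∀ ℓ : PL (W.SS m), t ℓ = H.π (MvPolynomial.X ℓ) := fun ℓ => dif_pos ℓ.2
  have hφt : ∀ i (ℓ : ℕ), ℓ.Prime → ℓ ∉ W.SS m → H.φ i (t ℓ) = (pt i).tr ℓ := fun i ℓ h1 h2 => by
    have := ht ⟨ℓ, h1, h2⟩
    rw [this, H.φ_π]
  have h2k : (2 : ResidueField 𝒪) ≠ 0 := by
    intro h
    have h1 : (2 : 𝒪) ∈ maximalIdeal 𝒪 := by
      rw [← residue_eq_zero_iff, map_ofNat]; exact h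
    have h3 : IsCoprime (2 : ℤ) p := by
      rw [Int.isCoprime_iff_gcd_eq_one]
      exact_mod_cast (Nat.coprime_primes Nat.prime_two hp).mpr (Ne.symm hp2)
    obtain ⟨x, y, hxy⟩ := h3
    have h4 : (1 : 𝒪) ∈ maximalIdeal 𝒪 := by
      have h5 := congrArg (Int.cast : ℤ → 𝒪) hxy
      push_cast at h5
      rw [← h5]
      exact Ideal.add_mem _ (Ideal.mul_mem_left _ _ h1) (Ideal.mul_mem_left _ _ hp𝒪)
    exact (Ideal.ne_top_iff_one _).mp (maximalIdeal.isMaximal 𝒪).ne_top h4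
  obtain ⟨ρA, R, hR, hF, hres, hRi⟩ := glue ρbar h2k habs (det_complexConjugation hp hcyc) H.A
    H.res_surj (W.SS m) t a hbar (fun ℓ h1 h2 => by
      have := ht ⟨ℓ, h1, h2⟩
      rw [this, H.res_π]) I (fun i => (pt i).R) (fun i => (H.φ i : H.A →+* (pt i).R)) H.φ_loc
    H.φ_inj (fun i => (pt i).ρ) (fun i ℓ hℓ hS P hP σ hσ => by
      have h1 := (pt i).frob ℓ hℓ hS P hP σ hσ
      rw [h1, ← hφt i ℓ hℓ hS]
      rfl)
  have hpA : (p : H.A) ∈ maximalIdeal H.A := by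
    rw [← map_natCast (algebraMap 𝒪 H.A)]
    exact map_nonunit _ _ hp𝒪
  have hfinA : ∀ n, Finite (H.A ⧸ maximalIdeal H.A ^ n) := fun n =>
    finite_quotient_maximalIdeal_pow (𝒪 := 𝒪) H.res_surj n
  have hcondA : TW.CondType 𝒪 p Smin P'
      (Finset.univ.image ql ∪ Finset.univ.image qv) ρA :=
    condType_glueP hfinA (fun i n => finite_quotient_pow_of_dvr n)
      (fun i => (H.φ i : H.A →+* (pt i).R)) H.φ_loc H.φ_inj hR hRi hpA hF hP hcond
  exact ⟨{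
    A := H.A
    res_surj := H.res_surj
    ρ := ρA
    R := R
    hR := hR
    cond := hcondA
    residual := hres
    uniq := fun B _ _ _ f g hf hg h => hRing_unique H ht hF B f g hf hg h
    π := H.π
    π_surj := H.π_surj
    I := s
    sep := fun i v hv => hs1 i v fun x hx => hv x (hss i hx)
    sep_new := fun i v hv => hs2 i v fun x hx hxn => hv x (hs2s i hx) hxn
    φ := fun i x => H.φ (Sum.inl ⟨i, x⟩)
    φ_loc := fun i x => H.φ_loc (Sum.inl ⟨i, x⟩)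
    φ_R := fun i x => hRi (Sum.inl ⟨i, x⟩)
    φ_π := fun i x f => hRing_φ_π H (Sum.inl ⟨i, x⟩) f
    φW := H.φ (Sum.inr ())
    φW_R := hRi (Sum.inr ())
    φW_π := fun f => hRing_φ_π H (Sum.inr ()) f
    inj := fun a ha haW => H.φ_inj a fun i => match i with
      | Sum.inl q => ha q.1 q.2
      | Sum.inr _ => haW }⟩

end Fermat.Agent.LL
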