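import Fermat.Agent.LL.ChainBlk

set_option autoImplicit false
set_option linter.unusedSectionVars false

/-!
# Scalar blocks of a chain
-/

open IsLocalRing GaloisRep Polynomial

namespace Fermat.Agent.LL

open Fermat.Agent.DefRing Fermat.Agent

local notation "Γℚ" => (AlgebraicClosure ℚ ≃ₐ[ℚ] AlgebraicClosure ℚ)
local notation "M₂" => Matrix (Fin 2) (Fin 2)
local notation "Qb" => AlgebraicClosure ℚ

variable {𝒪 : Type} [CommRing 𝒪] [IsDomain 𝒪] [IsDiscreteValuationRing 𝒪]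
  [IsAdicComplete (maximalIdeal 𝒪) 𝒪] [Finite (ResidueField 𝒪)] [CharZero 𝒪]
  {p : ℕ} {j : 𝒪 →+* ℂ} {ρbar : ResidualGaloisRep (ResidueField 𝒪)} {P : ℕ → TW.LCond}
  {Smin : Finset ℕ} {m : ℕ} {ql : Fin m → ℕ} {r : ℕ} {qv : Fin r → ℕ} {F : MvPolynomial ℕ 𝒪}
  {D : ℕ} {W : AutChain p j ρbar P Smin ql qv F D} {P' : TW.LCond} {ρW : GaloisRepAdic 𝒪}
  {tW : ℕ → 𝒪} [hpp : Fact p.Prime] (H : ChainRing W P' ρW tW) {k : Fin m}
  {L : LocGen (ql k) p} {u e : 𝒪} (B : BlkHyp p ρbar Smin ρW (ql k) L u e)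

/-- the coordinates of a scalar block -/
noncomputable def scVec {A : Type*} [CommRing A] (u : A) (M : M₂ A) : Fin 3 → A :=
  ![u * (M 0 0 - M 1 1), M 0 1, M 1 0]

theorem scVec_one {A : Type*} [CommRing A] (u : A) : scVec u 1 = 0 := by
  funext i
  fin_cases i <;> simp [scVec]

theorem scVec_map {A B : Type*} [CommRing A] [CommRing B] (Φ : A →+* B) (u : A) (M : M₂ A)
    (i : Fin 3) : Φ (scVec u M i) = scVec (Φ u) (M.map Φ) i := by
  fin_cases i <;> simp [scVec]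

theorem scVec_mem {A : Type*} [CommRing A] (I : Ideal A) (u : A) {M : M₂ A} {c : A}
    (h : MI I (M - c • 1)) (i : Fin 3) : scVec u M i ∈ I := by
  have h00 := h 0 0
  have h11 := h 1 1
  have h01 := h 0 1
  have h10 := h 1 0
  simp at h00 h11 h01 h10
  fin_cases i
  · show u * (M 0 0 - M 1 1) ∈ I
    refine I.mul_mem_left _ ?_
    have := I.sub_mem h00 h11
    have h3 : M 0 0 - c - (M 1 1 - c) = M 0 0 - M 1 1 := by ring
    rwa [h3] at this
  · exact h01
  · exact h10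

theorem scalar_of_scVec {A : Type*} [CommRing A] {u : A} (hu : u * 2 = 1) {M : M₂ A}
    (h : ∀ i, scVec u M i = 0) : ∃ c : A, M = c • (1 : M₂ A) := by
  have h0 : u * (M 0 0 - M 1 1) = 0 := h 0
  have h1 : M 0 1 = 0 := h 1
  have h2 : M 1 0 = 0 := h 2
  have h3 : M 1 1 = M 0 0 := by linear_combination (-(M 1 1 - M 0 0)) * hu - 2 * h0
  refine ⟨M 0 0, ?_⟩
  ext a b
  fin_cases a <;> fin_cases b <;> simp [h1, h2, h3]

/-- discriminant in terms of the coordinates -/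
theorem scVec_disc {A : Type*} [CommRing A] {u : A} (hu : u * 2 = 1) (M : M₂ A) :
    scVec u M 0 ^ 2 + scVec u M 1 * scVec u M 2 = (u * M.trace) ^ 2 - M.det := by
  show (u * (M 0 0 - M 1 1)) ^ 2 + M 0 1 * M 1 0 = _
  rw [Matrix.trace_fin_two, Matrix.det_fin_two]
  linear_combination (-(M 0 0 * M 1 1) * (u * 2 + 1)) * hu

include B in
theorem BlkHyp.exists_scBlock {c : ResidueField 𝒪} (hc : ρbar.ρ L.φ = c • 1)
    (hq1 : (ql k : 𝒪) - 1 ∈ maximalIdeal 𝒪) :
    ∃ K : ScBlock H k (u * e * ((ql k : 𝒪) - 1)),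
      ∀ θ : H.A →ₐ[𝒪] DualNumber (ResidueField 𝒪), (∀ i, θ (K.f i) = 0) → (∀ i, θ (K.s i) = 0) →
        TW.KSc L (fun σ => (H.R σ).map θ) := by
  have hq2 : 2 ≤ ql k := B.hq.two_le
  have hpA := H.p_mem B.hp𝒪
  set uA : H.A := algebraMap 𝒪 H.A u with huA
  set eA : H.A := algebraMap 𝒪 H.A e with heA
  have hu2 : uA * 2 = 1 := (two_unit_of (A := H.A) B.hu).2
  have he2 : eA ^ 2 = 1 := by rw [heA, ← map_pow, B.he, map_one]
  have h2A : IsUnit (2 : 𝒪) := (two_unit_of (A := 𝒪) B.hu).1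
  have hqu : IsUnit ((ql k : 𝒪) + 1) := by
    by_contra hcon
    have h1 : (ql k : 𝒪) + 1 ∈ maximalIdeal 𝒪 := (mem_maximalIdeal _).mpr hcon
    have h2 := (maximalIdeal 𝒪).sub_mem h1 hq1
    have h3 : (ql k : 𝒪) + 1 - ((ql k : 𝒪) - 1) = 2 := by ring
    rw [h3] at h2
    exact (mem_maximalIdeal _).mp h2 h2A
  have hhA : algebraMap 𝒪 H.A (u * e * ((ql k : 𝒪) - 1)) = uA * eA * ((ql k : H.A) - 1) := by
    rw [map_mul, map_mul, map_sub, map_natCast, map_one]
  -- the relations at a Steinberg point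
  have key : ∀ (i : Fin (m + 1)) (l : H.I i), IsSt (W.pt i l).ρ (ql k) → ∀ c,
      H.φ i l (Supp.stRel (algebraMap 𝒪 H.A (u * e * ((ql k : 𝒪) - 1)))
        (scVec uA (H.R L.φ)) (scVec uA (H.R L.τ)) c) = 0 := by
    intro i l hst c
    obtain ⟨h1, h2, -, h4⟩ := B.st H hst
    have h5 := B.st_sign H hqu hst
    rw [hhA]
    exact scalar_point (H.φ i l : H.A →+* (W.pt i l).R) hq2 he2 hu2 (B.tame H) h1 h2
      (by
        have h6 : (H.φ i l : H.A →+* (W.pt i l).R) eA = algebraMap 𝒪 (W.pt i l).R e :=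
          (H.φ i l).commutes e
        rw [h6]; exact h5) h4 c
  have hzero : ∀ (i : Fin (m + 1)) (l : H.I i), (W.pt i l).ρ.IsUnramifiedAt (ql k) → ∀ a,
      H.φ i l (scVec uA (H.R L.τ) a) = 0 := by
    intro i l hun a
    have h1 : (H.R L.τ).map (H.φ i l) = 1 :=
      (Realizes.eq_one_iff (H.φ_R i l) _).mp (hun L.P L.hP _ L.hτ)
    have h2 := scVec_map (H.φ i l : H.A →+* (W.pt i l).R) uA (H.R L.τ) a
    have h3 : (H.R L.τ).map (H.φ i l : H.A →+* (W.pt i l).R) = 1 := h1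
    rw [h3, scVec_one] at h2
    exact h2
  obtain ⟨S⟩ := H.nonempty_step k B.hq B.hqp L.hP L.hφ
  refine ⟨{
    f := scVec uA (H.R L.φ)
    s := scVec uA (H.R L.τ)
    f_mem := ?_
    s_mem := ?_
    T := (H.R L.φ).trace
    step := S
    s_zero := ?_
    s_st := ?_
    det := ?_
    new_zero := ?_
    wW := ?_ }, ?_⟩
  · -- `f`
    have h1 := TW.red_scalar H.hR H.residual hc
    obtain ⟨c', hc'⟩ := residue_surjective (R := H.A) (ResidueField.map (algebraMap 𝒪 H.A) c)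
    refine scVec_mem _ _ (c := c') fun a b => ?_
    rw [← residue_eq_zero_iff, Matrix.sub_apply, map_sub, sub_eq_zero]
    have h2 := congrFun (congrFun h1 a) b
    rw [Matrix.map_apply] at h2
    rw [h2, Matrix.smul_apply, Matrix.smul_apply, smul_eq_mul, smul_eq_mul, map_mul, hc',
      Matrix.one_apply, Matrix.one_apply]
    split_ifs <;> simp
  · refine scVec_mem _ _ (c := 1) ?_
    rw [one_smul]
    exact B.inertia H
  · intro i hi l a
    exact hzero i l (W.ql_unr i (by omega) l k B.hqp hi) a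
  · intro i hi l a c
    rcases W.ql_st i (by omega) l k B.hqp hi with h | h
    · rw [map_mul, hzero i l h a, zero_mul]
    · rw [map_mul, key i l h c, mul_zero]
  · refine ⟨-4, ?_⟩
    rw [scVec_disc hu2, hhA, B.det_φ H]
    linear_combination ((H.R L.φ).trace ^ 2 * (uA * 2 + 1) -
      eA ^ 2 * ((ql k : H.A) - 1) ^ 2 * (uA * 2 + 1)) * hu2 - ((ql k : H.A) - 1) ^ 2 * he2
  · intro c l hl
    exact key k.succ l (W.new_st k B.hqp l.1 hl) c
  · intro c
    obtain ⟨h1, h2⟩ := B.W_rel H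
    rw [hhA]
    refine scalar_point (H.φW : H.A →+* 𝒪) hq2 he2 hu2 (B.tame H) h1 ?_ ?_ ?_ c
    · rw [B.det_τ H, map_one]
    · have h6 : (H.φW : H.A →+* 𝒪) eA = e := H.φW.commutes e
      rw [h6]; exact h2
    · rw [B.det_φ H, map_natCast]
  · intro θ hf hs
    have hθu : θ uA * 2 = 1 := by rw [← map_ofNat θ 2, ← map_mul, hu2, map_one]
    constructor
    · refine scalar_of_scVec hθu fun i => ?_
      exact (scVec_map (θ : H.A →+* DualNumber (ResidueField 𝒪)) uA (H.R L.φ) i).symm.trans (hf i)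
    · refine scalar_of_scVec hθu fun i => ?_
      exact (scVec_map (θ : H.A →+* DualNumber (ResidueField 𝒪)) uA (H.R L.τ) i).symm.trans (hs i)

end Fermat.Agent.LL
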