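import Fermat.Agent.LL.ChainMod

set_option autoImplicit false
set_option linter.unusedSectionVars false

/-!
# Taylor--Wiles primes of a chain
-/

open IsLocalRing GaloisRep Polynomial

namespace Fermat.Agent.LL

open Fermat.Agent.DefRing Fermat.Agent

local notation "Γℚ" => (AlgebraicClosure ℚ ≃ₐ[ℚ] AlgebraicClosure ℚ)
local notation "M₂" => Matrix (Fin 2) (Fin 2)
local notation "Qb" => AlgebraicClosure ℚ

variable {𝒪 : Type} [CommRing 𝒪] [IsDomain 𝒪] [IsDiscreteValuationRing 𝒪]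
  [IsAdicComplete (maximalIdeal 𝒪) 𝒪] [Finite (ResidueField 𝒪)] [CharZero 𝒪]
  {p : ℕ} {j : 𝒪 →+* ℂ} {ρbar : ResidualGaloisRep (ResidueField 𝒪)} {P : ℕ → TW.LCond}
  {Smin : Finset ℕ} {m : ℕ} {ql : Fin m → ℕ} {r : ℕ} {qv : Fin r → ℕ} {F : MvPolynomial ℕ 𝒪}
  {D : ℕ} {W : AutChain p j ρbar P Smin ql qv F D} {P' : TW.LCond} {ρW : GaloisRepAdic 𝒪}
  {tW : ℕ → 𝒪}

theorem ChainRing.p_mem (H : ChainRing W P' ρW tW) (hp𝒪 : (p : 𝒪) ∈ maximalIdeal 𝒪) :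
    (p : H.A) ∈ maximalIdeal H.A := by
  rw [← map_natCast (algebraMap 𝒪 H.A)]
  exact map_nonunit _ _ hp𝒪

/-- inertia at a prime outside `Smin` is residually trivial -/
theorem ChainRing.inertia_res (H : ChainRing W P' ρW tW) (hpS : p ∈ Smin)
    (hSmin : ∀ q : ℕ, q.Prime → q ≠ p → (q ∈ Smin ↔ ¬ ρbar.IsUnramifiedAt q)) {q : ℕ}
    (hq : q.Prime) (hqS : q ∉ Smin) {A : ValuationSubring Qb} (hA : A.LiesOverPrime q) {σ : Γℚ}
    (hσ : σ ∈ A.inertiaSubgroupIn ℚ) : MI (maximalIdeal H.A) (H.R σ - 1) := by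
  have hqp : q ≠ p := fun h => hqS (h ▸ hpS)
  have h1 : ρbar.IsUnramifiedAt q := by
    by_contra h
    exact hqS ((hSmin q hq hqp).mpr h)
  obtain ⟨rb, hrb⟩ := exists_realizesRes ρbar
  exact (residual_compare H.hR hrb _ H.residual σ).2.2 (h1 A hA σ hσ)

/-- the characters at the Taylor--Wiles primes -/
theorem ChainRing.exists_kappa [hpp : Fact p.Prime] (H : ChainRing W P' ρW tW) (hp2 : p ≠ 2)
    (hp𝒪 : (p : 𝒪) ∈ maximalIdeal 𝒪) (hpS : p ∈ Smin)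
    (hSmin : ∀ q : ℕ, q.Prime → q ≠ p → (q ∈ Smin ↔ ¬ ρbar.IsUnramifiedAt q)) {n : ℕ}
    (hq : ∀ i, (qv i).Prime ∧ qv i ∉ Smin ∧ p ^ (n + 1) ∣ qv i - 1)
    (hfr : ∀ i, ∀ P : ValuationSubring Qb, P.LiesOverPrime (qv i) →
      ∀ σ : Γℚ, P.IsFrobeniusAt σ (qv i) → ∃ α β : ResidueField 𝒪, α ≠ β ∧
        LinearMap.charpoly (ρbar.ρ σ) = (X - C α) * (X - C β))
    (hWur : ∀ k, ρW.IsUnramifiedAt (qv k)) :
    (∀ k, n + 1 ≤ W.a k) ∧ ∃ (κ : Fin r → H.A) (hκ : ∀ k, κ k ^ p ^ W.a k = 1),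
      (∀ k, κ k - 1 ∈ maximalIdeal H.A) ∧
      (∀ i : Fin (m + 1), (H.emod i).Good (dhom W.a κ hκ) (dgen W.a)) ∧
      ∀ k, H.φW (κ k) = 1 := by
  classical
  have hp : p.Prime := hpp.out
  have hpA := H.p_mem hp𝒪
  have hunr : ∀ q : ℕ, q.Prime → q ∉ Smin → ∀ P : ValuationSubring Qb, P.LiesOverPrime q →
      ∀ σ ∈ P.inertiaSubgroupIn ℚ, MI (maximalIdeal H.A) (H.R σ - 1) :=
    fun q hq hqS P hP σ hσ => H.inertia_res hpS hSmin hq hqS hP hσ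
  have hqne : ∀ k, qv k ≠ p := fun k h => (hq k).2.1 (h ▸ hpS)
  have hLqn : ∀ k, Nonempty (LocGen (qv k) p) := fun k => by
    have : Fact (qv k).Prime := ⟨(hq k).1⟩
    obtain ⟨L, -⟩ := nonempty_locGen (hq k).1 hp (hqne k)
      (CFT.Loc.smul_padicPlace_liesOverPrime (qv k) 1)
    exact ⟨L⟩
  let Lq : ∀ k, LocGen (qv k) p := fun k => (hLqn k).some
  have hkap : ∀ k, ∃ (κ κ' : H.A) (Cm : M₂ H.A), IsUnit Cm.det ∧ κ - 1 ∈ maximalIdeal H.A ∧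
      κ ^ p ^ W.a k = 1 ∧ κ * κ' = 1 ∧
      H.R (Lq k).τ * Cm = Cm * Matrix.diagonal ![κ, κ'] := by
    intro k
    obtain ⟨α, β, hαβ, hch⟩ := hfr k _ (Lq k).hP _ (Lq k).hφ
    refine LL.exists_kappa H.hR (Lq k) hp hp2 hpA
      (fun σ hσ => hunr _ (hq k).1 (hq k).2.1 _ (Lq k).hP σ hσ)
      (det_inertia H.hR hp H.cond.1.1 (hq k).1 (hqne k) (Lq k).hP (Lq k).hτ)
      (α := ResidueField.map (algebraMap 𝒪 H.A) α) (β := ResidueField.map (algebraMap 𝒪 H.A) β)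
      (fun h => hαβ ((ResidueField.map (algebraMap 𝒪 H.A)).injective h))
      (residual_charpoly H.hR _ H.residual hch) (W.a_dvd k) (W.a_max k)
      (dvd_trans (dvd_pow_self p (Nat.succ_ne_zero n)) (hq k).2.2) (hq k).1.ne_zero
  choose κ κ' Cm hCm hκm hκp hκκ' hκτ using hkap
  have hak : ∀ k, n + 1 ≤ W.a k := by
    intro k
    by_contra hlt
    push Not at hlt
    exact W.a_max k (dvd_trans (pow_dvd_pow p (by omega)) (hq k).2.2)
  have hak0 : ∀ k, W.a k ≠ 0 := fun k => by have := hak k; omega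
  have hKd : ∀ k, dhom W.a κ hκp (dgen W.a k) = κ k := fun k => dhom_dgen W.a κ hκp hak0 k
  refine ⟨hak, κ, hκp, hκm, fun i => ⟨?_, ?_⟩, ?_⟩
  · intro x k hx
    rw [hKd]
    change H.I i at x
    show (W.pt i x).ι (H.φ i x (κ k)) = 1
    have h3 : H.φ i x (κ k) = 1 :=
      kappa_of_unramified (φ := (H.φ i x : H.A →+* (W.pt i x).R)) (H.φ_R i x) (Lq k) (hCm k)
        (hκτ k) (W.unr i (by omega) x k hx)
    rw [h3, map_one]
  · intro x k hx h3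
    rw [hKd] at h3
    change H.I i at x
    apply W.ram i (by omega) x k hx
    have h4 : H.φ i x (κ k) = 1 := by
      apply (W.pt i x).ι_inj
      rw [map_one]
      exact h3
    have hpR : (p : (W.pt i x).R) ∈ maximalIdeal (W.pt i x).R := by
      rw [← map_natCast (algebraMap 𝒪 (W.pt i x).R)]
      exact map_nonunit _ _ hp𝒪
    exact unipotent_of_kappa (φ := (H.φ i x : H.A →+* (W.pt i x).R))
      (H.φ_loc i x) (H.φ_R i x) (Lq k) (hCm k) (hκκ' k) (hκτ k) (hq k).1 hp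
      hpR (fun σ hσ => hunr _ (hq k).1 (hq k).2.1 _ (Lq k).hP σ hσ) h4
  · intro k
    exact kappa_of_unramified (φ := (H.φW : H.A →+* 𝒪)) H.φW_R (Lq k) (hCm k) (hκτ k) (hWur k)

end Fermat.Agent.LL
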