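import Fermat.Agent.TWMod.Chg
import Fermat.Agent.TWMod.Spec

set_option autoImplicit false

/-!
# The Dirichlet characters used in level lowering
-/

open CongruenceSubgroup

namespace Fermat.Agent.LL

section Single

variable (q : ℕ) [Fact q.Prime]

/-- a generator of `(ℤ/q)ˣ` -/
noncomputable def gen : (ZMod q)ˣ := Classical.choose (IsCyclic.exists_generator (α := (ZMod q)ˣ))

theorem mem_zpowers_gen (x : (ZMod q)ˣ) : x ∈ Subgroup.zpowers (gen q) :=
  Classical.choose_spec (IsCyclic.exists_generator (α := (ZMod q)ˣ)) x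

theorem exists_gen_pow (x : (ZMod q)ˣ) : ∃ k : ℕ, x = gen q ^ k := by
  have h := mem_zpowers_gen q x
  rw [← mem_powers_iff_mem_zpowers] at h
  obtain ⟨k, hk⟩ := h
  exact ⟨k, hk.symm⟩

variable {R : Type*} [CommRing R]

/-- the character modulo `q` sending the generator to `z` -/
noncomputable def chq' (z : R) (hz : z ^ (q - 1) = 1) : DirichletCharacter R q :=
  MulChar.ofUnitHom (monoidHomOfForallMemZpowers (g := gen q)
    (g' := Units.ofPowEqOne z (q - 1) hz (Nat.sub_ne_zero_of_lt (Fact.out : q.Prime).one_lt))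
    (mem_zpowers_gen q) (by
      rw [orderOf_dvd_iff_pow_eq_one, orderOf_eq_card_of_forall_mem_zpowers (mem_zpowers_gen q),
        Nat.card_eq_fintype_card, ZMod.card_units]
      exact Units.ext hz))

theorem chq'_gen (z : R) (hz : z ^ (q - 1) = 1) : chq' q z hz (gen q : ZMod q) = z := by
  rw [chq', MulChar.ofUnitHom_coe, monoidHomOfForallMemZpowers_apply_gen]
  rfl

end Single

section Def

variable {R : Type} [CommRing R]

open Classical in
/-- the character modulo `q` sending the generator to `z` -/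
noncomputable def chq (q : ℕ) (z : R) : DirichletCharacter R q :=
  if h : q.Prime ∧ z ^ (q - 1) = 1 then
    haveI := Fact.mk h.1
    chq' q z h.2
  else 1

theorem chq_gen_pow (q : ℕ) [hq : Fact q.Prime] {z : R} (hz : z ^ (q - 1) = 1) (k : ℕ) :
    chq q z ((gen q ^ k : (ZMod q)ˣ) : ZMod q) = z ^ k := by
  rw [Units.val_pow_eq_pow_val, map_pow, chq, dif_pos ⟨hq.1, hz⟩, chq'_gen]

/-- values are powers of `z` -/
theorem chq_unit {q : ℕ} (hq : q.Prime) {u : ZMod q}
    (hu : IsUnit u) : ∃ k : ℕ, ∀ {R' : Type} [CommRing R'] (z' : R'), z' ^ (q - 1) = 1 →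
      chq q z' u = z' ^ k := by
  have := Fact.mk hq
  obtain ⟨v, rfl⟩ := hu
  obtain ⟨k, rfl⟩ := exists_gen_pow q v
  exact ⟨k, fun z' hz' ↦ chq_gen_pow q hz' k⟩

variable (N : ℕ) (F : Finset ℕ) (z : ℕ → R)

/-- the character modulo `N` with local components `chq q (z q)`, `q ∈ F` -/
noncomputable def chz : DirichletCharacter R N :=
  ∏ q ∈ F, if h : q ∣ N then DirichletCharacter.changeLevel h (chq q (z q)) else 1

variable {N F z}

theorem isUnit_natCast {N u : ℕ} (h : Nat.Coprime u N) : IsUnit (u : ZMod N) :=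
  (ZMod.isUnit_iff_coprime u N).2 h

theorem isUnit_natCast_of_dvd {N u q : ℕ} (h : Nat.Coprime u N) (hq : q ∣ N) :
    IsUnit (u : ZMod q) :=
  isUnit_natCast (h.coprime_dvd_right hq)

theorem changeLevel_apply_nat {q N : ℕ} (χ : DirichletCharacter R q) (h : q ∣ N) {u : ℕ}
    (hu : Nat.Coprime u N) : DirichletCharacter.changeLevel h χ (u : ZMod N) = χ (u : ZMod q) := by
  have e := DirichletCharacter.changeLevel_eq_cast_of_dvd χ h (ZMod.unitOfCoprime u hu)
  rw [ZMod.coe_unitOfCoprime] at e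
  rw [e, ZMod.cast_natCast h]

theorem prod_apply {N : ℕ} {ι : Type*} (s : Finset ι) (f : ι → DirichletCharacter R N)
    {u : ZMod N} (hu : IsUnit u) : (∏ i ∈ s, f i) u = ∏ i ∈ s, f i u := by
  classical
  induction s using Finset.induction_on with
  | empty => rw [Finset.prod_empty, Finset.prod_empty, MulChar.one_apply hu]
  | insert a s ha ih => rw [Finset.prod_insert ha, Finset.prod_insert ha, MulChar.mul_apply, ih]

theorem chz_apply {u : ℕ} (hF : ∀ q ∈ F, q ∣ N) (hu : Nat.Coprime u N) :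
    chz N F z (u : ZMod N) = ∏ q ∈ F, chq q (z q) (u : ZMod q) := by
  rw [chz, prod_apply _ _ (isUnit_natCast hu)]
  refine Finset.prod_congr rfl fun q hq ↦ ?_
  rw [dif_pos (hF q hq), changeLevel_apply_nat _ _ hu]

theorem exists_nat_rep [NeZero N] {a : ZMod N} (ha : IsUnit a) :
    ∃ u : ℕ, Nat.Coprime u N ∧ (u : ZMod N) = a := by
  refine ⟨a.val, ?_, ZMod.natCast_zmod_val a⟩
  rw [← ZMod.isUnit_iff_coprime, ZMod.natCast_zmod_val]
  exact ha

/-- specialisation of the coefficients -/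
theorem chz_ringHomComp [NeZero N] {R' : Type} [CommRing R'] (ψ : R →+* R')
    (hF : ∀ q ∈ F, q ∣ N) (hp : ∀ q ∈ F, q.Prime) (hz : ∀ q ∈ F, z q ^ (q - 1) = 1) :
    (chz N F z).ringHomComp ψ = chz N F (fun q ↦ ψ (z q)) := by
  refine MulChar.ext fun a ↦ ?_
  obtain ⟨u, hu, hua⟩ := exists_nat_rep a.isUnit
  rw [MulChar.ringHomComp_apply, ← hua, chz_apply hF hu, chz_apply hF hu, map_prod]
  refine Finset.prod_congr rfl fun q hq ↦ ?_
  obtain ⟨k, hk⟩ := chq_unit (hp q hq) (isUnit_natCast_of_dvd hu (hF q hq))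
  rw [hk _ (hz q hq), hk _ (by rw [← map_pow, hz q hq, map_one]), map_pow]

/-- congruence of characters modulo an ideal -/
theorem chz_sub_mem [NeZero N] {z' : ℕ → R} {I : Ideal R} (hF : ∀ q ∈ F, q ∣ N)
    (hp : ∀ q ∈ F, q.Prime) (hz : ∀ q ∈ F, z q ^ (q - 1) = 1) (hz' : ∀ q ∈ F, z' q ^ (q - 1) = 1)
    (hzz : ∀ q ∈ F, z' q - z q ∈ I) (a : ZMod N) : chz N F z' a - chz N F z a ∈ I := by
  by_cases ha : IsUnit a
  · obtain ⟨u, hu, rfl⟩ := exists_nat_rep ha
    rw [← Ideal.Quotient.eq, chz_apply hF hu, chz_apply hF hu, map_prod, map_prod]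
    refine Finset.prod_congr rfl fun q hq ↦ ?_
    obtain ⟨k, hk⟩ := chq_unit (hp q hq) (isUnit_natCast_of_dvd hu (hF q hq))
    rw [hk _ (hz q hq), hk _ (hz' q hq), map_pow, map_pow, Ideal.Quotient.eq.2 (hzz q hq)]
  · rw [MulChar.map_nonunit _ ha, MulChar.map_nonunit _ ha, sub_zero]
    exact I.zero_mem

theorem chz_eq_one [NeZero N] (hF : ∀ q ∈ F, q ∣ N) (hp : ∀ q ∈ F, q.Prime)
    (hz : ∀ q ∈ F, z q = 1) : chz N F z = 1 := by
  refine MulChar.ext fun a ↦ ?_
  obtain ⟨u, hu, hua⟩ := exists_nat_rep a.isUnit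
  rw [← hua, chz_apply hF hu, MulChar.one_apply (isUnit_natCast hu)]
  refine Finset.prod_eq_one fun q hq ↦ ?_
  obtain ⟨k, hk⟩ := chq_unit (hp q hq) (isUnit_natCast_of_dvd hu (hF q hq))
  rw [hk _ (by rw [hz q hq, one_pow]), hz q hq, one_pow]

/-- dependence on `F` and `N` -/
theorem chz_apply_eq {N' : ℕ} {u : ℕ} (hF : ∀ q ∈ F, q ∣ N) (hF' : ∀ q ∈ F, q ∣ N')
    (hu : Nat.Coprime u N) (hu' : Nat.Coprime u N') :
    chz N F z (u : ZMod N) = chz N' F z (u : ZMod N') := by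
  rw [chz_apply hF hu, chz_apply hF' hu']

/-- an integer detecting the component at `q` -/
theorem exists_detect (hN : Squarefree N) (hF : ∀ q ∈ F, q ∣ N) (hp : ∀ q ∈ F, q.Prime)
    {q : ℕ} (hq : q ∈ F) : ∃ u : ℕ, Nat.Coprime u N ∧ u ≡ 1 [MOD N / q] ∧
      ∀ z : ℕ → R, (∀ q ∈ F, z q ^ (q - 1) = 1) → chz N F z (u : ZMod N) = z q := by
  classical
  have hqp := hp q hq
  have := Fact.mk hqp
  have hNq : N = q * (N / q) := (Nat.mul_div_cancel' (hF q hq)).symm
  have hcop : Nat.Coprime q (N / q) := by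
    rw [hNq] at hN
    exact Nat.coprime_of_squarefree_mul hN
  obtain ⟨u, hu1, hu2⟩ := Nat.chineseRemainder hcop ((gen q : ZMod q).val) 1
  have huq : (u : ZMod q) = gen q := by
    rw [(ZMod.natCast_eq_natCast_iff _ _ _).2 hu1, ZMod.natCast_zmod_val]
  have hu : Nat.Coprime u N := by
    rw [hNq]
    refine Nat.Coprime.mul_right ?_ ?_
    · rw [← ZMod.isUnit_iff_coprime, huq]
      exact (gen q).isUnit
    · rw [Nat.Coprime, Nat.ModEq.gcd_eq hu2, Nat.gcd_one_left]
  refine ⟨u, hu, hu2, fun z hz ↦ ?_⟩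
  rw [chz_apply hF hu, Finset.prod_eq_single_of_mem q hq, huq]
  · have h := chq_gen_pow q (hz q hq) 1
    rwa [pow_one, pow_one] at h
  · intro q' hq' hne
    have := Fact.mk (hp q' hq')
    have hdvd : q' ∣ N / q := by
      have h1 : q' ∣ q * (N / q) := by rw [← hNq]; exact hF q' hq'
      rcases (hp q' hq').dvd_mul.1 h1 with h2 | h2
      · exact absurd ((Nat.prime_dvd_prime_iff_eq (hp q' hq') hqp).1 h2) hne
      · exact h2
    have h1 : (u : ZMod q') = 1 := by
      have h2 := (ZMod.natCast_eq_natCast_iff u 1 q').2 (hu2.of_dvd hdvd)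
      rwa [Nat.cast_one] at h2
    rw [h1, map_one]

end Def

section Complex

open TWMod

variable {N : ℕ} {F : Finset ℕ} {z : ℕ → ℂ} {p : ℕ}

open Classical in
/-- the conductor -/
noncomputable def cond (F : Finset ℕ) (z : ℕ → ℂ) : ℕ := ∏ q ∈ F.filter (fun q ↦ z q ≠ 1), q

theorem dvd_cond_iff (hp : ∀ q ∈ F, q.Prime) {q : ℕ} (hq : q.Prime) :
    q ∣ cond F z ↔ q ∈ F ∧ z q ≠ 1 := by
  classical
  rw [cond, Prime.dvd_finsetProd_iff hq.prime]
  constructor
  · rintro ⟨q', hq', h⟩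
    rw [Finset.mem_filter] at hq'
    rw [(Nat.prime_dvd_prime_iff_eq hq (hp q' hq'.1)).1 h]
    exact hq'
  · intro h
    exact ⟨q, Finset.mem_filter.2 h, dvd_rfl⟩

theorem squarefree_cond (hp : ∀ q ∈ F, q.Prime) : Squarefree (cond F z) := by
  classical
  rw [cond]
  refine Finset.squarefree_prod_of_pairwise_isCoprime ?_ ?_
  · intro a ha b hb hab
    exact Nat.coprime_iff_isRelPrime.1 ((Nat.coprime_primes (hp a (Finset.mem_filter.1 ha).1)
      (hp b (Finset.mem_filter.1 hb).1)).2 hab)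
  · intro q hq
    exact (hp q (Finset.mem_filter.1 hq).1).prime.squarefree

theorem cond_dvd (hF : ∀ q ∈ F, q ∣ N) (hp : ∀ q ∈ F, q.Prime) : cond F z ∣ N := by
  classical
  rw [cond]
  refine Finset.prod_primes_dvd N (fun q hq ↦ (hp q (Finset.mem_filter.1 hq).1).prime)
    (fun q hq ↦ hF q (Finset.mem_filter.1 hq).1)

/-- **The twisting hypothesis.** -/
theorem twHyp (hp : p.Prime) (hp2 : p ≠ 2) (hN0 : 0 < N) (hN : Squarefree N)
    (hF : ∀ q ∈ F, q ∣ N) (hFp : ∀ q ∈ F, q.Prime) (hq1 : ∀ q ∈ F, p ∣ q - 1)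
    (hz : ∀ q ∈ F, z q ^ (q - 1) = 1) (hzp : ∀ q ∈ F, ∃ a : ℕ, z q ^ p ^ a = 1) :
    TwHyp N (cond F z) (chz N F z) := by
  classical
  have : NeZero N := ⟨hN0.ne'⟩
  have hcd : cond F z ∣ N := cond_dvd hF hFp
  have hNc : N = cond F z * (N / cond F z) := (Nat.mul_div_cancel' hcd).symm
  have hlarge : ∀ q ∈ F, 3 < q := by
    intro q hq
    have h1 := (hFp q hq).two_le
    have h2 := Nat.le_of_dvd (by omega) (hq1 q hq)
    have h3 := hp.two_le
    omega
  refine ⟨hN0, hcd, squarefree_cond hFp, ?_, ?_, ?_, ?_⟩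
  · rw [hNc] at hN
    exact Nat.coprime_of_squarefree_mul hN
  · refine Nat.Coprime.symm (Nat.Coprime.symm ?_)
    refine Nat.coprime_of_dvd fun q hq hqc h6 ↦ ?_
    rw [dvd_cond_iff hFp hq] at hqc
    have h3 := hlarge q hqc.1
    have h4 : q ∣ 2 * 3 := h6
    rcases hq.dvd_mul.1 h4 with h | h
    · have := Nat.le_of_dvd (by norm_num) h
      omega
    · have := Nat.le_of_dvd (by norm_num) h
      omega
  · refine ⟨hcd, chz (cond F z) (F.filter (fun q ↦ z q ≠ 1)) z, ?_⟩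
    refine MulChar.ext fun a ↦ ?_
    obtain ⟨u, hu, hua⟩ := exists_nat_rep a.isUnit
    have hF' : ∀ q ∈ F.filter (fun q ↦ z q ≠ 1), q ∣ cond F z := by
      intro q hq
      rw [Finset.mem_filter] at hq
      exact (dvd_cond_iff hFp (hFp q hq.1)).2 hq
    rw [← hua, changeLevel_apply_nat _ _ hu, chz_apply hF hu,
      chz_apply hF' (hu.coprime_dvd_right hcd)]
    symm
    refine Finset.prod_subset (Finset.filter_subset _ _) fun q hq hq' ↦ ?_
    have hzq : z q = 1 := by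
      by_contra h
      exact hq' (Finset.mem_filter.2 ⟨hq, h⟩)
    obtain ⟨k, hk⟩ := chq_unit (hFp q hq) (isUnit_natCast_of_dvd hu (hF q hq))
    rw [hk _ (hz q hq), hzq, one_pow]
  · intro q hq hqc
    rw [dvd_cond_iff hFp hq] at hqc
    obtain ⟨u, hu, hu1, huz⟩ := exists_detect (R := ℂ) hN hF hFp hqc.1
    refine ⟨u, hu, hu1, ?_⟩
    rw [huz z hz]
    intro h2
    apply hqc.2
    obtain ⟨a, ha⟩ := hzp q hqc.1
    have hodd : Odd (p ^ a) := (hp.odd_of_ne_two hp2).pow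
    have h3 : orderOf (z q) ∣ 2 := orderOf_dvd_of_pow_eq_one h2
    have h4 : orderOf (z q) ∣ p ^ a := orderOf_dvd_of_pow_eq_one ha
    have h5 : orderOf (z q) ∣ 1 := by
      have h6 := Nat.dvd_gcd h3 h4
      rwa [Nat.Coprime.gcd_eq_one (Nat.coprime_two_left.2 hodd)] at h6
    exact orderOf_eq_one_iff.1 (Nat.dvd_one.1 h5)

end Complex

end Fermat.Agent.LL
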