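import Fermat.Agent.LL.FlatGlue
import Fermat.Agent.Patch.TamePair

set_option autoImplicit false

/-!
# Local conditions for a glued representation
-/

open IsLocalRing GaloisRep Polynomial

namespace Fermat.Agent.LL

open Fermat.Agent.DefRing Fermat.Agent Fermat.Agent.Flat

local notation "Γℚ" => (AlgebraicClosure ℚ ≃ₐ[ℚ] AlgebraicClosure ℚ)
local notation "M₂" => Matrix (Fin 2) (Fin 2)
local notation "Qb" => AlgebraicClosure ℚ

section

variable {A : Type} [CommRing A] [IsLocalRing A] {ρ : GaloisRepAdic A} {r : Γℚ → M₂ A}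

theorem Realizes.eq_one_iff (h : Realizes ρ r) (σ : Γℚ) : ρ.ρ σ = 1 ↔ r σ = 1 := by
  obtain ⟨b, hb⟩ := h
  rw [← hb, ← LinearMap.toMatrix_one b]
  exact (LinearMap.toMatrix b b).injective.eq_iff.symm

theorem charpoly_unip_iff (h : Realizes ρ r) (σ : Γℚ) :
    LinearMap.charpoly (ρ.ρ σ) = (X - 1) ^ 2 ↔ (r σ).trace = 2 ∧ (r σ).det = 1 := by
  rw [← charpoly_iff h]
  have : (X - 1 : Polynomial A) ^ 2 = X ^ 2 - C 2 * X + C 1 := by
    rw [map_one, map_ofNat]; ring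
  rw [this]

/-- the determinant is cyclotomic because it is so on Frobenius elements -/
theorem detIsCyclotomic_of_frobChar [IsNoetherianRing A] {p : ℕ} [Fact p.Prime]
    (hpA : (p : A) ∈ maximalIdeal A) {S : Finset ℕ} {t : ℕ → A} (h : FrobChar ρ S t) :
    ρ.DetIsCyclotomic p := by
  classical
  have hp : p.Prime := Fact.out
  refine ⟨hpA, fun n σ a ha => ?_⟩
  obtain ⟨r, hr⟩ := exists_realizes ρ
  rw [← Realizes.det_eq hr]
  rcases Nat.eq_zero_or_pos n with rfl | hn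
  · rw [pow_zero, Nat.cast_one, Ideal.span_singleton_one]; trivial
  -- the key approximation
  have key : ∀ N : ℕ, (r σ).det - a ∈ Ideal.span {((p ^ n : ℕ) : A)} ⊔ maximalIdeal A ^ N := by
    intro N
    obtain ⟨L, hL, hL'⟩ := hr.matCont N
    obtain ⟨ζ, hζ⟩ := HasEnoughRootsOfUnity.exists_primitiveRoot Qb (p ^ n)
    have hLζ : FiniteDimensional ℚ (IntermediateField.adjoin ℚ {ζ}) :=
      IntermediateField.adjoin.finiteDimensional (Algebra.IsIntegral.isIntegral ζ)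
    have hLL : FiniteDimensional ℚ (L ⊔ IntermediateField.adjoin ℚ {ζ} : IntermediateField ℚ Qb) :=
      IntermediateField.finiteDimensional_sup _ _
    obtain ⟨ℓ, hℓ, hℓS, hI, P, hP, φ, hφ, hk⟩ :=
      ChebFull.exists_frobenius_eq (L ⊔ IntermediateField.adjoin ℚ {ζ}) σ (insert p S)
    rw [Finset.mem_insert, not_or] at hℓS
    have h1 : (r φ).det = ℓ := ((charpoly_iff hr φ _ _).mp (h ℓ hℓ hℓS.2 P hP φ hφ)).2
    have h2 : (r σ).det - (r φ).det ∈ maximalIdeal A ^ N := by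
      have h3 : ∀ i j, (r (φ⁻¹ * σ) - 1) i j ∈ maximalIdeal A ^ N := hL' _ (fun x hx => by
        show φ⁻¹ (σ x) = x
        rw [← hk x (le_sup_left (a := L) hx)]
        exact inv_smul_smul φ x)
      have h4 : r σ = r φ * r (φ⁻¹ * σ) := by rw [← hr.map_mul]; congr 1; group
      have h5 : (r (φ⁻¹ * σ)).det - 1 ∈ maximalIdeal A ^ N := by
        have e := h3
        rw [Matrix.det_fin_two]
        have e00 := e 0 0
        have e01 := e 0 1
        have e11 := e 1 1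
        rw [Matrix.sub_apply, Matrix.one_apply_eq] at e00 e11
        rw [Matrix.sub_apply, Matrix.one_apply_ne (by decide), sub_zero] at e01
        have h7 : r (φ⁻¹ * σ) 0 0 * r (φ⁻¹ * σ) 1 1 - r (φ⁻¹ * σ) 0 1 * r (φ⁻¹ * σ) 1 0 - 1 =
          (r (φ⁻¹ * σ) 0 0 - 1) * r (φ⁻¹ * σ) 1 1 + (r (φ⁻¹ * σ) 1 1 - 1)
          - r (φ⁻¹ * σ) 0 1 * r (φ⁻¹ * σ) 1 0 := by ring
        rw [h7]
        exact Ideal.sub_mem _ (Ideal.add_mem _ (Ideal.mul_mem_right _ _ e00) e11)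
          (Ideal.mul_mem_right _ _ e01)
      rw [h4, Matrix.det_mul]
      have h8 : (r φ).det * (r (φ⁻¹ * σ)).det - (r φ).det =
        (r φ).det * ((r (φ⁻¹ * σ)).det - 1) := by ring
      rw [h8]
      exact Ideal.mul_mem_left _ _ h5
    -- congruence of `ℓ` and `a`
    have h3 : ((p ^ n : ℕ) : ℤ) ∣ (ℓ : ℤ) - a := by
      have hζℓ : φ ζ = ζ ^ ℓ := Patch.frob_apply_rootOfUnity hℓ hP (fun hd =>
        hℓS.1 ((Nat.prime_dvd_prime_iff_eq hℓ hp).mp (hℓ.dvd_of_dvd_pow hd))) hφ hζ.pow_eq_one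
      have h4 : ζ ^ ℓ = ζ ^ a := by
        rw [← hζℓ, ← ha ζ hζ.pow_eq_one]
        exact hk ζ ((le_sup_right : IntermediateField.adjoin ℚ {ζ} ≤ L ⊔ _)
          (IntermediateField.mem_adjoin_simple_self ℚ ζ))
      have hζ0 : ζ ≠ 0 := hζ.ne_zero (pow_ne_zero _ hp.ne_zero)
      rw [← hζ.zpow_eq_one_iff_dvd, zpow_sub₀ hζ0, zpow_natCast, zpow_natCast, h4]
      exact div_self (pow_ne_zero _ hζ0)
    have h4 : (ℓ : A) - a ∈ Ideal.span {((p ^ n : ℕ) : A)} := by
      obtain ⟨c, hc⟩ := h3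
      rw [Ideal.mem_span_singleton]
      refine ⟨(c : A), ?_⟩
      have := congrArg (fun z : ℤ => (z : A)) hc
      push_cast at this ⊢
      exact this
    have h5 : (r σ).det - a = ((ℓ : A) - a) + ((r σ).det - (r φ).det) := by rw [h1]; ring
    rw [h5]
    exact Submodule.add_mem_sup h4 h2
  -- Krull
  set J := Ideal.span {((p ^ n : ℕ) : A)} with hJ
  have hk := Ideal.iInf_pow_smul_eq_bot_of_isLocalRing (M := A ⧸ J) (maximalIdeal A)
    (Ideal.IsPrime.ne_top inferInstance)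
  have h6 : (Ideal.Quotient.mk J ((r σ).det - a)) ∈
      (⨅ i : ℕ, maximalIdeal A ^ i • (⊤ : Submodule A (A ⧸ J))) := by
    rw [Submodule.mem_iInf]
    intro N
    obtain ⟨y, hy, z, hz, hyz⟩ := Submodule.mem_sup.mp (key N)
    rw [← hyz, map_add, Ideal.Quotient.eq_zero_iff_mem.mpr hy, zero_add]
    have : Ideal.Quotient.mk J z = z • (1 : A ⧸ J) := by
      rw [Algebra.smul_def, mul_one]; rfl
    rw [this]
    exact Submodule.smul_mem_smul hz trivial
  rw [hk, Submodule.mem_bot, Ideal.Quotient.eq_zero_iff_mem] at h6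
  exact h6

end

/-- **local conditions of a glued representation** -/
theorem condType_glue {𝒪 : Type} [CommRing 𝒪] {T : Type} [CommRing T] [IsLocalRing T]
    [IsNoetherianRing T] [Algebra 𝒪 T] [IsAdicComplete (maximalIdeal T) T]
    (hfin : ∀ n, Finite (T ⧸ maximalIdeal T ^ n))
    {I : Type} [Finite I] {O : I → Type} [∀ i, CommRing (O i)] [∀ i, IsLocalRing (O i)]
    [∀ i, Algebra 𝒪 (O i)] [∀ i, IsHausdorff (maximalIdeal (O i)) (O i)]
    (hfinO : ∀ i n, Finite (O i ⧸ maximalIdeal (O i) ^ n)) (φ : ∀ i, T →+* O i)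
    (hφ : ∀ i, IsLocalHom (φ i)) (hinj : ∀ x : T, (∀ i, φ i x = 0) → x = 0)
    {ρT : GaloisRepAdic T} {R : Γℚ → M₂ T} (hR : Realizes ρT R) {ρ : ∀ i, GaloisRepAdic (O i)}
    (hRi : ∀ i, Realizes (ρ i) (fun σ => (R σ).map (φ i))) {p : ℕ} [Fact p.Prime]
    (hpT : (p : T) ∈ maximalIdeal T) {S : Finset ℕ} {t : ℕ → T} (hfrob : FrobChar ρT S t)
    {Smin Q : Finset ℕ}
    (hcond : ∀ i, TW.CondType 𝒪 p Smin (fun _ _ _ ρ' => ρ'.IsFlatAt p) Q (ρ i)) :
    TW.CondType 𝒪 p Smin (fun _ _ _ ρ' => ρ'.IsFlatAt p) Q ρT := by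
  have hext : ∀ x y : T, (∀ i, φ i x = φ i y) → x = y := fun x y h => by
    rw [← sub_eq_zero]
    apply hinj
    intro i
    rw [map_sub, h i, sub_self]
  refine ⟨⟨detIsCyclotomic_of_frobChar hpT hfrob, ?_, ?_⟩, ?_⟩
  · exact isFlatAt_glue hfin hfinO φ hφ hinj hR hRi fun i => (hcond i).1.2.1
  · intro q hq hqS P hP σ hσ
    rw [Realizes.eq_one_iff hR]
    ext a b
    apply hext
    intro i
    have h1 := (hcond i).1.2.2 q hq hqS P hP σ hσ
    rw [Realizes.eq_one_iff (hRi i)] at h1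
    have h2 := congrFun (congrFun h1 a) b
    rw [Matrix.map_apply] at h2
    rw [h2, Matrix.one_apply, Matrix.one_apply]
    split_ifs <;> simp
  · intro q hqS hq hqp P hP σ hσ
    rw [charpoly_unip_iff hR]
    have h1 : ∀ i, ((R σ).map (φ i)).trace = 2 ∧ ((R σ).map (φ i)).det = 1 := fun i =>
      (charpoly_unip_iff (hRi i) σ).mp ((hcond i).2 q hqS hq hqp P hP σ hσ)
    refine ⟨hext _ _ fun i => ?_, hext _ _ fun i => ?_⟩
    · rw [map_ofNat, ← (h1 i).1, Matrix.trace_fin_two, Matrix.trace_fin_two, map_add]; rfl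
    · rw [map_one, ← (h1 i).2, RingHom.map_det]; rfl

end Fermat.Agent.LL
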