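import Fermat.Agent.LL.GalLem

set_option autoImplicit false

/-!
# More lemmas for the Galois side of level lowering
-/

open IsLocalRing GaloisRep Polynomial

namespace Fermat.Agent.LL

open Fermat.Agent.DefRing Fermat.Agent

local notation "M₂" => Matrix (Fin 2) (Fin 2)

section Group

/-- the group of diamond operators -/
abbrev DG (p : ℕ) {r : ℕ} (a : Fin r → ℕ) : Type := ∀ k : Fin r, Multiplicative (ZMod (p ^ a k))

variable {p : ℕ} [Fact p.Prime] {r : ℕ} (a : Fin r → ℕ)

instance neZero_pow (b : ℕ) : NeZero (p ^ b) := ⟨pow_ne_zero _ (Fact.out : p.Prime).ne_zero⟩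

instance finite_DG : Finite (DG p a) := by
  have : ∀ k, Finite (Multiplicative (ZMod (p ^ a k))) := fun k =>
    Finite.of_equiv (ZMod (p ^ a k)) Multiplicative.ofAdd
  infer_instance

omit [Fact p.Prime] in
theorem card_DG : Nat.card (DG p a) = ∏ k, p ^ a k := by
  rw [Nat.card_pi]
  refine Finset.prod_congr rfl fun k _ => ?_
  rw [Nat.card_congr (Multiplicative.toAdd (α := ZMod (p ^ a k)))]
  exact Nat.card_zmod _

theorem isPGroup_DG : IsPGroup p (DG p a) := by
  rw [IsPGroup.iff_card]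
  refine ⟨∑ k, a k, ?_⟩
  rw [card_DG, Finset.prod_pow_eq_pow_sum]

/-- generators -/
def dgen (k : Fin r) : DG p a := Pi.mulSingle k (Multiplicative.ofAdd 1)

theorem closure_dgen : Subgroup.closure (Set.range (dgen (p := p) a)) = ⊤ := by
  classical
  rw [eq_top_iff]
  intro x _
  rw [← Finset.univ_prod_mulSingle x]
  refine Subgroup.prod_mem _ fun k _ => ?_
  have h1 : x k = (Multiplicative.ofAdd (1 : ZMod (p ^ a k))) ^ (Multiplicative.toAdd (x k)).val := by
    apply Multiplicative.toAdd.injective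
    rw [toAdd_pow, toAdd_ofAdd, nsmul_one, ZMod.natCast_val, ZMod.cast_id', id_eq]
  rw [h1, Pi.mulSingle_pow]
  have h2 : dgen (p := p) a k ∈ Subgroup.closure (Set.range (dgen (p := p) a)) :=
    Subgroup.subset_closure (Set.mem_range_self k)
  exact Subgroup.pow_mem _ h2 _

/-- projection to a common level -/
def dproj (n : ℕ) (h : ∀ k, n ≤ a k) : DG p a →* (Fin r → Multiplicative (ZMod (p ^ n))) :=
  MonoidHom.mk' (fun x k => Multiplicative.ofAdd
    (ZMod.castHom (pow_dvd_pow p (h k)) (ZMod (p ^ n)) (Multiplicative.toAdd (x k)))) (by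
    intro x y
    funext k
    apply Multiplicative.toAdd.injective
    show ZMod.castHom (pow_dvd_pow p (h k)) (ZMod (p ^ n))
      (Multiplicative.toAdd (x k) + Multiplicative.toAdd (y k)) = _
    rw [map_add]
    rfl)

omit [Fact p.Prime] in
theorem dproj_dgen (n : ℕ) (h : ∀ k, n ≤ a k) (j : Fin r) :
    dproj a n h (dgen (p := p) a j) = Pi.mulSingle j (Multiplicative.ofAdd 1) := by
  classical
  funext k
  show Multiplicative.ofAdd (ZMod.castHom _ (ZMod (p ^ n)) (Multiplicative.toAdd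
    ((Pi.mulSingle j (Multiplicative.ofAdd (1 : ZMod (p ^ a j))) : DG p a) k))) = _
  by_cases hk : k = j
  · subst hk
    rw [Pi.mulSingle_eq_same, Pi.mulSingle_eq_same, toAdd_ofAdd, map_one]
  · rw [Pi.mulSingle_eq_of_ne hk, Pi.mulSingle_eq_of_ne hk, toAdd_one, map_zero, ofAdd_zero]

variable {A : Type*} [CommRing A]

/-- homomorphism with prescribed values on the generators -/
noncomputable def dhom (u : Fin r → A) (hu : ∀ k, u k ^ p ^ a k = 1) : DG p a →* A where
  toFun x := ∏ k, u k ^ (Multiplicative.toAdd (x k)).val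
  map_one' := by
    refine Finset.prod_eq_one fun k _ => ?_
    show u k ^ (0 : ZMod (p ^ a k)).val = 1
    rw [ZMod.val_zero, pow_zero]
  map_mul' x y := by
    rw [← Finset.prod_mul_distrib]
    refine Finset.prod_congr rfl fun k _ => ?_
    rw [← pow_add]
    show u k ^ (Multiplicative.toAdd (x k) + Multiplicative.toAdd (y k)).val = _
    rw [ZMod.val_add]
    conv_rhs => rw [pow_eq_pow_mod _ (hu k)]

theorem dhom_dgen (u : Fin r → A) (hu : ∀ k, u k ^ p ^ a k = 1) (ha : ∀ k, a k ≠ 0) (j : Fin r) :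
    dhom a u hu (dgen a j) = u j := by
  classical
  show ∏ k, u k ^ (Multiplicative.toAdd ((Pi.mulSingle j (Multiplicative.ofAdd
    (1 : ZMod (p ^ a j))) : DG p a) k)).val = u j
  rw [Finset.prod_eq_single j]
  · rw [Pi.mulSingle_eq_same, toAdd_ofAdd]
    have : Fact (1 < p ^ a j) := ⟨Nat.one_lt_pow (ha j) (Fact.out : p.Prime).one_lt⟩
    rw [ZMod.val_one, pow_one]
  · intro k _ hk
    rw [Pi.mulSingle_eq_of_ne hk, toAdd_one, ZMod.val_zero, pow_zero]
  · intro h
    exact absurd (Finset.mem_univ j) h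

theorem dhom_sub_one_mem (u : Fin r → A) (hu : ∀ k, u k ^ p ^ a k = 1) {I : Ideal A}
    (hI : ∀ k, u k - 1 ∈ I) (x : DG p a) : dhom a u hu x - 1 ∈ I := by
  classical
  rw [← Ideal.Quotient.eq_zero_iff_mem, map_sub, map_one, sub_eq_zero]
  show Ideal.Quotient.mk I (∏ k, u k ^ (Multiplicative.toAdd (x k)).val) = 1
  rw [map_prod]
  refine Finset.prod_eq_one fun k _ => ?_
  have h1 : Ideal.Quotient.mk I (u k) = 1 := by
    rw [← sub_eq_zero, ← map_one (Ideal.Quotient.mk I), ← map_sub]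
    exact Ideal.Quotient.eq_zero_iff_mem.mpr (hI k)
  rw [map_pow, h1, one_pow]

end Group

/-- generators of the maximal ideal from a surjection from a power series ring -/
theorem gen_of_surj {𝒪 A σ : Type*} [CommRing 𝒪] [IsLocalRing 𝒪] [CommRing A] [IsLocalRing A]
    [Algebra 𝒪 A] [Finite σ] (γ : MvPowerSeries σ 𝒪 →ₐ[𝒪] A) (hγ : Function.Surjective γ) :
    (∀ s ∈ maximalIdeal (MvPowerSeries σ 𝒪), γ s ∈ maximalIdeal A) ∧
    maximalIdeal A ≤ (maximalIdeal 𝒪).map (algebraMap 𝒪 A) ⊔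
      Ideal.span (Set.range fun i => γ (MvPowerSeries.X i)) := by
  have hloc : IsLocalHom (γ : MvPowerSeries σ 𝒪 →+* A) := IsLocalHom.of_surjective _ hγ
  refine ⟨fun s hs => map_nonunit (γ : MvPowerSeries σ 𝒪 →+* A) s hs, fun x hx => ?_⟩
  obtain ⟨s, rfl⟩ := hγ x
  have hs : s ∈ maximalIdeal (MvPowerSeries σ 𝒪) := by
    rw [mem_maximalIdeal, mem_nonunits_iff]
    intro hu
    exact hx (hu.map γ)
  set c := MvPowerSeries.constantCoeff s with hc
  have hcm : c ∈ maximalIdeal 𝒪 := by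
    rw [mem_maximalIdeal, mem_nonunits_iff, hc, ← MvPowerSeries.isUnit_iff_constantCoeff]
    exact hs
  have h1 : s - MvPowerSeries.C c ∈
      Ideal.span (Set.range (MvPowerSeries.X : σ → MvPowerSeries σ 𝒪)) ^ 1 := by
    apply mem_span_X_pow_of_coeff
    intro e he
    have : e = 0 := by
      rw [Nat.lt_one_iff] at he
      exact (Finsupp.degree_eq_zero_iff e).mp he
    rw [this, MvPowerSeries.coeff_zero_eq_constantCoeff_apply, map_sub,
      MvPowerSeries.constantCoeff_C, sub_self]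
  have h2 : γ s = algebraMap 𝒪 A c + γ (s - MvPowerSeries.C c) := by
    have h3 : γ (MvPowerSeries.C c) = algebraMap 𝒪 A c := by
      have := γ.commutes c
      rwa [MvPowerSeries.algebraMap_apply, Algebra.algebraMap_self, RingHom.id_apply] at this
    rw [map_sub, h3]; ring
  rw [h2]
  refine Submodule.add_mem_sup (Ideal.mem_map_of_mem _ hcm) ?_
  rw [pow_one] at h1
  have h3 := Ideal.mem_map_of_mem (γ : MvPowerSeries σ 𝒪 →+* A) h1
  rw [Ideal.map_span] at h3
  have h4 : ((γ : MvPowerSeries σ 𝒪 →+* A) '' Set.range (MvPowerSeries.X : σ → MvPowerSeries σ 𝒪)) =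
      Set.range fun i => γ (MvPowerSeries.X i) := by
    rw [← Set.range_comp]; rfl
  rw [h4] at h3
  exact h3

/-- **Action from points.** -/
theorem exists_act {A Λ M : Type} [CommRing A] [CommRing Λ] [AddCommGroup M] [Module Λ M]
    {I : Type} (lam : I → M →+ ℂ) (sep : ∀ m : M, (∀ i, lam i m = 0) → m = 0)
    (χ : I → A →+* ℂ)
    (h : ∀ a, ∃ e : Module.End Λ M, ∀ i m, lam i (e m) = χ i a * lam i m) :
    ∃ act : A →+* Module.End Λ M, ∀ a i m, lam i (act a m) = χ i a * lam i m := by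
  choose e he using h
  have hext : ∀ x y : M, (∀ i, lam i x = lam i y) → x = y := fun x y hxy => by
    rw [← sub_eq_zero]
    apply sep
    intro i
    rw [map_sub, hxy, sub_self]
  refine ⟨{ toFun := e, map_one' := ?_, map_mul' := ?_, map_zero' := ?_, map_add' := ?_ },
    fun a i m => he a i m⟩
  · refine LinearMap.ext fun m => hext _ _ fun i => ?_
    rw [he, map_one, one_mul]; rfl
  · intro a b
    refine LinearMap.ext fun m => hext _ _ fun i => ?_
    show lam i (e (a * b) m) = lam i (e a (e b m))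
    rw [he, he, he, map_mul, mul_assoc]
  · refine LinearMap.ext fun m => hext _ _ fun i => ?_
    rw [he, map_zero, zero_mul]
    show 0 = lam i 0
    rw [map_zero]
  · intro a b
    refine LinearMap.ext fun m => hext _ _ fun i => ?_
    show lam i (e (a + b) m) = lam i (e a m + e b m)
    rw [map_add, he, he, he, map_add, add_mul]

section BSet

variable {𝒪 : Type} [CommRing 𝒪] [IsDomain 𝒪]

open Classical in
/-- the possible values of `(ζ - ζ⁻¹) / 2` -/
noncomputable def BSet (N : ℕ) (u : 𝒪) : Finset 𝒪 :=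
  ((nthRootsFinset N (1 : 𝒪)).filter fun z => z ≠ 1).image fun z => u * (z - z ^ (N - 1))

theorem BSet_prop [IsLocalRing 𝒪] {p V : ℕ} (hp : p.Prime) (hp2 : p ≠ 2)
    (hp𝒪 : (p : 𝒪) ∈ maximalIdeal 𝒪) {u : 𝒪} (hu : u * 2 = 1) :
    ∀ b ∈ BSet (p ^ V) u, b ≠ 0 ∧ b ∈ maximalIdeal 𝒪 := by
  classical
  have hN : 0 < p ^ V := pow_pos hp.pos _
  intro b hb
  rw [BSet, Finset.mem_image] at hb
  obtain ⟨z, hz, rfl⟩ := hb
  rw [Finset.mem_filter, mem_nthRootsFinset hN] at hz
  obtain ⟨hz, hz1⟩ := hz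
  have hz' : z ^ (p ^ V - 1) * z = 1 := by rw [← pow_succ, Nat.sub_add_cancel hN, hz]
  have hV : V ≠ 0 := by
    rintro rfl
    rw [pow_zero, pow_one] at hz
    exact hz1 hz
  constructor
  · intro h
    rcases mul_eq_zero.mp h with h | h
    · rw [h, zero_mul] at hu
      exact zero_ne_one hu
    · apply hz1
      have h1 : z ^ 2 = 1 := by
        rw [sq]
        nth_rewrite 1 [sub_eq_zero.mp h]
        exact hz'
      have hcop : Nat.gcd 2 (p ^ V) = 1 := Nat.Coprime.pow_right _
        ((Nat.coprime_primes Nat.prime_two hp).mpr (Ne.symm hp2))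
      have h2 := pow_gcd_eq_one.mpr ⟨h1, hz⟩
      rw [hcop, pow_one] at h2
      exact h2
  · have hzm : z - 1 ∈ maximalIdeal 𝒪 := by
      have := Fact.mk hp
      have hchar : CharP (ResidueField 𝒪) p := by
        have h1 : ((p : ℕ) : ResidueField 𝒪) = 0 := by
          rw [← map_natCast (residue 𝒪), residue_eq_zero_iff]; exact hp𝒪
        exact (CharP.charP_iff_prime_eq_zero hp).mpr h1
      rw [← residue_eq_zero_iff, map_sub, map_one]
      have h1 : (residue 𝒪 z) ^ p ^ V = 1 := by rw [← map_pow, hz, map_one]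
      have h2 : (residue 𝒪 z - 1) ^ p ^ V = 0 := by
        rw [sub_pow_char_pow, h1, one_pow, sub_self]
      exact pow_eq_zero_iff (pow_ne_zero _ hp.ne_zero) |>.mp h2
    have h1 : z - z ^ (p ^ V - 1) = (z - 1) - (z ^ (p ^ V - 1) - 1) := by ring
    rw [h1]
    refine Ideal.mul_mem_left _ _ (Ideal.sub_mem _ hzm ?_)
    rw [← mul_geom_sum]
    exact Ideal.mul_mem_right _ _ hzm

theorem mem_BSet {N : ℕ} (hN : 0 < N) {u z : 𝒪} (hz : z ^ N = 1) (hz1 : z ≠ 1) :
    u * (z - z ^ (N - 1)) ∈ BSet N u := by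
  classical
  rw [BSet, Finset.mem_image]
  exact ⟨z, Finset.mem_filter.mpr ⟨(mem_nthRootsFinset hN _).mpr hz, hz1⟩, rfl⟩

end BSet

end Fermat.Agent.LL
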