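import Fermat.Agent.LL.FreeKappa
import Fermat.Agent.LL.GalLem2

set_option autoImplicit false

/-!
# Modules with commuting actions of the group ring and of the Hecke ring
-/

open IsLocalRing Polynomial

namespace Fermat.Agent.LL

/-- A module over the group ring with an action of `A`, with a separating family of
eigenfunctionals. -/
structure EMod {𝒪 : Type} [CommRing 𝒪] [IsLocalRing 𝒪] {p : ℕ} {r : ℕ} {a : Fin r → ℕ}
    (G : TWMod.GrpRing 𝒪 p a) (A : Type) [CommRing A] [Algebra 𝒪 A] where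
  M : Type
  [addCommGroup : AddCommGroup M]
  [module : Module G.Λ M]
  [free : Module.Free G.Λ M]
  [finite : Module.Finite G.Λ M]
  act : A →+* Module.End G.Λ M
  act_alg : ∀ c : 𝒪, act (algebraMap 𝒪 A c) = algebraMap G.Λ _ (algebraMap 𝒪 G.Λ c)
  I : Type
  lam : I → M →+ ℂ
  psi : I → G.Λ →+* ℂ
  χ : I → A →+* ℂ
  lam_smul : ∀ i (x : G.Λ) m, lam i (x • m) = psi i x * lam i m
  lam_act : ∀ i (x : A) m, lam i (act x m) = χ i x * lam i m
  sep : ∀ m : M, (∀ i, lam i m = 0) → m = 0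

attribute [instance] EMod.addCommGroup EMod.module EMod.free EMod.finite

section

variable {𝒪 : Type} [CommRing 𝒪] [IsDomain 𝒪] [IsLocalRing 𝒪] [IsNoetherianRing 𝒪]
  {p : ℕ} [Fact p.Prime] {r : ℕ} {a : Fin r → ℕ} {G : TWMod.GrpRing 𝒪 p a} {A : Type}
  [CommRing A] [Algebra 𝒪 A] (E : EMod G A)

omit [IsDomain 𝒪] [IsNoetherianRing 𝒪] [Fact p.Prime] in
theorem EMod.act_eq_zero (x : A) (h : ∀ i, E.χ i x = 0) : E.act x = 0 := by
  refine LinearMap.ext fun m => E.sep _ fun i => ?_
  rw [E.lam_act, h, zero_mul]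

omit [IsDomain 𝒪] [IsNoetherianRing 𝒪] [Fact p.Prime] in
theorem EMod.hlamd (i : E.I) {k : Fin r} (g : ℤ[X]) (m : E.M) :
    E.lam i (aeval (G.d k) g • m) = aeval (E.psi i (G.d k)) g * E.lam i m := by
  rw [E.lam_smul]
  congr 1
  have := Polynomial.hom_eval₂ g (algebraMap ℤ G.Λ) (E.psi i) (G.d k)
  rw [aeval_def, aeval_def, this]
  congr 1
  exact RingHom.ext_int _ _

omit [IsDomain 𝒪] [IsNoetherianRing 𝒪] [Fact p.Prime] in
theorem psi_geom (ψ : G.Λ →+* ℂ) {k : Fin r} (hk : ψ (G.d k) ≠ 1) :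
    (aeval (ψ (G.d k)) (∑ j ∈ Finset.range (p ^ a k), X ^ j : ℤ[X]) : ℂ) = 0 := by
  have i1 : (∑ j ∈ Finset.range (p ^ a k), X ^ j : ℤ[X]) * (X - 1) = X ^ (p ^ a k) - 1 := by
    rw [geom_sum_mul]
  have h4 : (aeval (ψ (G.d k)) (∑ j ∈ Finset.range (p ^ a k), X ^ j : ℤ[X]) : ℂ) *
      (ψ (G.d k) - 1) = 0 := by
    have h5 := congrArg (fun g : ℤ[X] => (aeval (ψ (G.d k)) g : ℂ)) i1
    simp only [map_mul, map_sub, aeval_X, map_one, map_pow] at h5
    rw [h5, ← map_pow, G.d_pow, map_one, sub_self]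
  exact (mul_eq_zero.mp h4).resolve_right (sub_ne_zero.mpr hk)

omit [IsDomain 𝒪] [IsNoetherianRing 𝒪] in
/-- comparison of the two actions, in the other direction -/
theorem EMod.kappa_range' {k : Fin r} (κ : A)
    (h1 : ∀ i, E.psi i (G.d k) = 1 → E.χ i κ = 1) (m : E.M) :
    ∃ m' : E.M, E.act (κ - 1) m = (G.d k - 1) • m' := by
  have hp : p.Prime := Fact.out
  set F1 : ℤ[X] := ∑ j ∈ Finset.range (p ^ a k), X ^ j with hF1
  have m1 : F1.Monic := Polynomial.Monic.geom_sum (R := ℤ) (P := X) monic_X (by simp)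
      (n := p ^ a k) (pow_ne_zero _ hp.ne_zero)
  have i1 : F1 * (X - 1) = X ^ (p ^ a k) - 1 := by rw [hF1, geom_sum_mul]
  have h2 : aeval (G.d k) F1 • E.act (κ - 1) m = 0 := by
    apply E.sep
    intro i
    rw [E.hlamd, E.lam_act, map_sub, map_one]
    by_cases hk : E.psi i (G.d k) = 1
    · rw [h1 i hk, sub_self, zero_mul, mul_zero]
    · rw [hF1, psi_geom _ hk, zero_mul]
  obtain ⟨m', hm'⟩ := ex_module (G.ex k F1 (X - 1) m1 i1) _ h2
  refine ⟨m', ?_⟩
  rw [hm']
  simp

/-- elements on which all functionals with trivial diamond operators vanish -/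
theorem EMod.aug_of_lam [CharZero 𝒪] (v : E.M)
    (hv : ∀ i, (∀ k, E.psi i (G.d k) = 1) → E.lam i v = 0) :
    ∃ w : Fin r → E.M, v = ∑ k, (G.d k - 1) • w k := by
  classical
  have hp : p.Prime := Fact.out
  let F1 : Fin r → ℤ[X] := fun k => ∑ j ∈ Finset.range (p ^ a k), X ^ j
  let N : G.Λ := ∏ k, aeval (G.d k) (F1 k)
  have hNd : ∀ k, N * (G.d k - 1) = 0 := by
    intro k
    have h1 : aeval (G.d k) (F1 k) * (G.d k - 1) = 0 := by
      have i1 : F1 k * (X - 1) = X ^ (p ^ a k) - 1 := geom_sum_mul _ _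
      have h5 := congrArg (fun g : ℤ[X] => (aeval (G.d k) g : G.Λ)) i1
      simp only [map_mul, map_sub, aeval_X, map_one, map_pow] at h5
      rw [h5, G.d_pow, sub_self]
    rw [show N = (∏ l ∈ Finset.univ.erase k, aeval (G.d l) (F1 l)) * aeval (G.d k) (F1 k) from
      (Finset.prod_erase_mul _ _ (Finset.mem_univ k)).symm, mul_assoc, h1, mul_zero]
  have hNaug : G.aug N = ((∏ k, p ^ a k : ℕ) : 𝒪) := by
    rw [map_prod, Nat.cast_prod]
    refine Finset.prod_congr rfl fun k _ => ?_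
    simp only [F1, map_sum, map_pow, aeval_X, G.aug_d, one_pow, Finset.sum_const,
      Finset.card_range, nsmul_eq_mul, mul_one]
  have hN0 : N • v = 0 := by
    apply E.sep
    intro i
    rw [E.lam_smul]
    by_cases hi : ∀ k, E.psi i (G.d k) = 1
    · rw [hv i hi, mul_zero]
    · push Not at hi
      obtain ⟨k, hk⟩ := hi
      have h1 : E.psi i N = 0 := by
        rw [map_prod]
        refine Finset.prod_eq_zero (Finset.mem_univ k) ?_
        have h2 := psi_geom (E.psi i) hk
        have h3 := Polynomial.hom_eval₂ (F1 k) (algebraMap ℤ G.Λ) (E.psi i) (G.d k)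
        rw [aeval_def, h3]
        rw [aeval_def] at h2
        rw [← h2]
        congr 1
        exact RingHom.ext_int _ _
      rw [h1, zero_mul]
  let b := Module.Free.chooseBasis G.Λ E.M
  have hker : ∀ c : G.Λ, N * c = 0 → c ∈ Ideal.span (Set.range fun i ↦ G.d i - 1) := by
    intro c hc
    apply G.ker_aug
    have h1 := congrArg G.aug hc
    rw [map_mul, map_zero, hNaug] at h1
    refine (mul_eq_zero.mp h1).resolve_left ?_
    exact_mod_cast (Finset.prod_pos fun k _ => pow_pos hp.pos _).ne'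
  have h3 : ∀ i, b.repr v i ∈ Ideal.span (Set.range fun i ↦ G.d i - 1) := by
    intro i
    apply hker
    have := congrArg (fun x => b.repr x i) hN0
    simpa using this
  have h4 : ∀ i, ∃ c : Fin r → G.Λ, b.repr v i = ∑ k, c k * (G.d k - 1) := by
    intro i
    obtain ⟨c, hc⟩ := (Ideal.mem_span_range_iff_exists_fun).mp (h3 i)
    exact ⟨c, hc.symm⟩
  choose c hc using h4
  refine ⟨fun k => ∑ i, c i k • b i, ?_⟩
  conv_lhs => rw [← b.sum_repr v]
  simp only [Finset.smul_sum]
  rw [Finset.sum_comm]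
  refine Finset.sum_congr rfl fun i _ => ?_
  rw [hc, Finset.sum_smul]
  refine Finset.sum_congr rfl fun k _ => ?_
  rw [smul_smul, mul_comm]

end

section Galois

variable {𝒪 : Type} [CommRing 𝒪] [IsDomain 𝒪] [IsLocalRing 𝒪] [IsNoetherianRing 𝒪]
  {p : ℕ} [Fact p.Prime] {r : ℕ} {a : Fin r → ℕ} {G : TWMod.GrpRing 𝒪 p a} {A : Type}
  [CommRing A] [IsLocalRing A] [IsNoetherianRing A] [IsAdicComplete (maximalIdeal A) A]
  [Algebra 𝒪 A] {Δ : Type} [CommGroup Δ] [Finite Δ] (κ : Δ →* A) (δ : Fin r → Δ)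

/-- compatibility of the action of the diamond operators and of the Galois side group -/
structure EMod.Good (E : EMod G A) (κ : Δ →* A) (δ : Fin r → Δ) : Prop where
  h1 : ∀ i k, E.psi i (G.d k) = 1 → E.χ i (κ (δ k)) = 1
  h2 : ∀ i k, E.psi i (G.d k) ≠ 1 → E.χ i (κ (δ k)) ≠ 1

variable {κ δ}

omit [IsDomain 𝒪] [IsLocalRing 𝒪] [IsNoetherianRing 𝒪] [Fact p.Prime] [IsLocalRing A]
  [IsNoetherianRing A] [IsAdicComplete (maximalIdeal A) A] [Finite Δ] in
/-- an ideal containing `κ (δ k) - 1` contains `κ γ - 1` -/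
theorem kappa_sub_one_mem (hδ : Subgroup.closure (Set.range δ) = ⊤) (J : Ideal A)
    (h : ∀ k, κ (δ k) - 1 ∈ J) (γ : Δ) : κ γ - 1 ∈ J := by
  have hγ : γ ∈ Subgroup.closure (Set.range δ) := by rw [hδ]; trivial
  refine Subgroup.closure_induction (p := fun γ _ => κ γ - 1 ∈ J) ?_ ?_ ?_ ?_ hγ
  · rintro _ ⟨k, rfl⟩
    exact h k
  · rw [map_one, sub_self]
    exact J.zero_mem
  · intro x y _ _ hx hy
    have : κ (x * y) - 1 = κ x * (κ y - 1) + (κ x - 1) := by rw [map_mul]; ring
    rw [this]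
    exact J.add_mem (J.mul_mem_left _ hy) hx
  · intro x _ hx
    have h1 : κ x⁻¹ * κ x = 1 := by rw [← map_mul, inv_mul_cancel, map_one]
    have : κ x⁻¹ - 1 = -(κ x⁻¹) * (κ x - 1) := by linear_combination h1
    rw [this]
    exact J.mul_mem_left _ hx

/-- **Basis** over the Galois side group ring. -/
theorem EMod.exists_basis (E : EMod G A) (hE : E.Good κ δ) (hp𝒪 : (p : 𝒪) ∈ maximalIdeal 𝒪)
    (ha : ∀ k, a k ≠ 0) (hpA : (p : A) ∈ maximalIdeal A) (hΔ : IsPGroup p Δ)
    (hcard : Nat.card Δ = ∏ k, p ^ a k) (hκ : ∀ k, κ (δ k) ^ p ^ a k = 1) :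
    ∃ b : Fin (Module.finrank G.Λ E.M) → E.M, Function.Bijective
      (fun u : Fin (Module.finrank G.Λ E.M) → MonoidAlgebra 𝒪 Δ =>
        ∑ i, E.act (MonoidAlgebra.lift 𝒪 A Δ κ (u i)) (b i)) :=
  free_kappa hp𝒪 ha G hpA E.act E.act_alg E.lam E.psi E.χ E.lam_smul E.lam_act E.sep hΔ hcard κ δ
    hκ hE.h1 hE.h2

/-- the retraction can be chosen linear over the Galois side group ring -/
theorem EMod.exists_retraction (E E' : EMod G A) (hE : E.Good κ δ) (hE' : E'.Good κ δ)
    (hp𝒪 : (p : 𝒪) ∈ maximalIdeal 𝒪) (ha : ∀ k, a k ≠ 0) (hpA : (p : A) ∈ maximalIdeal A) (hΔ : IsPGroup p Δ)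
    (hδ : Subgroup.closure (Set.range δ) = ⊤)
    (hcard : Nat.card Δ = ∏ k, p ^ a k) (hκ : ∀ k, κ (δ k) ^ p ^ a k = 1)
    (α : Fin 2 → (E.M →ₗ[G.Λ] E'.M)) (hα : ∀ k (x : A) v, α k (E.act x v) = E'.act x (α k v))
    (ret : Fin 2 → (E'.M →ₗ[G.Λ] E.M)) (hret : ∀ k l v, ret k (α l v) = if k = l then v else 0) :
    ∃ ρ : Fin 2 → (E'.M →+ E.M),
      (∀ k (s : MonoidAlgebra 𝒪 Δ) v, ρ k (E'.act (MonoidAlgebra.lift 𝒪 A Δ κ s) v) =
        E.act (MonoidAlgebra.lift 𝒪 A Δ κ s) (ρ k v)) ∧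
      ∀ k l v, ρ k (α l v) = if k = l then v else 0 := by
  classical
  let S := MonoidAlgebra 𝒪 Δ
  have hSfin : Module.Finite 𝒪 S := Patch.finite_groupRing
  have hSloc : IsLocalRing S := Patch.isLocalRing_groupRing p hp𝒪 hΔ
  let L : S →ₐ[𝒪] A := MonoidAlgebra.lift 𝒪 A Δ κ
  let _ : Module S E.M := Module.compHom E.M (E.act.comp (L : S →+* A))
  let _ : Module S E'.M := Module.compHom E'.M (E'.act.comp (L : S →+* A))
  have hsm : ∀ (x : S) (m : E.M), x • m = E.act (L x) m := fun x m => rfl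
  have hsm' : ∀ (x : S) (m : E'.M), x • m = E'.act (L x) m := fun x m => rfl
  have basis : ∀ (X : EMod G A) (hX : X.Good κ δ) (inst : Module S X.M)
      (hs : ∀ (x : S) (m : X.M), x • m = X.act (L x) m),
      Module.Finite S X.M ∧ Module.Free S X.M := by
    intro X hX inst hs
    obtain ⟨b, hb⟩ := X.exists_basis hX hp𝒪 ha hpA hΔ hcard hκ
    let f : (Fin (Module.finrank G.Λ X.M) → S) →ₗ[S] X.M := Fintype.linearCombination S b
    have hf : ∀ u, f u = ∑ i, X.act (L (u i)) (b i) := fun u => by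
      simp only [f, Fintype.linearCombination_apply, hs]
    have hbij : Function.Bijective f := by
      have : (f : (Fin (Module.finrank G.Λ X.M) → S) → X.M) = fun u =>
          ∑ i, X.act (MonoidAlgebra.lift 𝒪 A Δ κ (u i)) (b i) := funext hf
      rw [this]; exact hb
    let e := LinearEquiv.ofBijective f hbij
    exact ⟨Module.Finite.equiv e, Module.Free.of_equiv e⟩
  obtain ⟨f1, f2⟩ := basis E hE _ hsm
  obtain ⟨f1', f2'⟩ := basis E' hE' _ hsm'
  -- comparison of the maximal ideals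
  have hmem : ∀ k, MonoidAlgebra.of 𝒪 Δ (δ k) - 1 ∈ maximalIdeal S := by
    intro k
    have hloc := Patch.isLocalHom_aug (𝒪 := 𝒪) p hp𝒪 hΔ
    rw [mem_maximalIdeal, mem_nonunits_iff]
    intro hu
    have h3 := hu.map (Patch.aug 𝒪 Δ)
    rw [map_sub, Patch.aug_of, map_one, sub_self] at h3
    exact not_isUnit_zero h3
  have cmp1 : ∀ y ∈ maximalIdeal S • (⊤ : Submodule S E'.M),
      y ∈ maximalIdeal G.Λ • (⊤ : Submodule G.Λ E'.M) := by
    intro y hy
    refine Submodule.smul_induction_on hy ?_ fun x y hx hy => Submodule.add_mem _ hx hy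
    intro s hs m _
    let J : Ideal A :=
      { carrier := {x | ∀ m, E'.act x m ∈ maximalIdeal G.Λ • (⊤ : Submodule G.Λ E'.M)}
        add_mem' := fun {x y} hx hy m => by
          rw [map_add, LinearMap.add_apply]; exact Submodule.add_mem _ (hx m) (hy m)
        zero_mem' := fun m => by rw [map_zero]; exact Submodule.zero_mem _
        smul_mem' := fun c x hx m => by
          rw [smul_eq_mul, mul_comm, map_mul, Module.End.mul_apply]; exact hx _ }
    have hJ1 : ∀ γ, κ γ - 1 ∈ J := kappa_sub_one_mem hδ J (fun k m => by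
      obtain ⟨m', hm'⟩ := E'.kappa_range' (κ (δ k)) (fun i => hE'.h1 i k) m
      rw [hm']
      refine Submodule.smul_mem_smul ?_ trivial
      rw [← residue_eq_zero_iff, map_sub, G.d_res, map_one, sub_self])
    have hJ2 : ∀ c ∈ maximalIdeal 𝒪, algebraMap 𝒪 A c ∈ J := fun c hc m => by
      rw [E'.act_alg, Module.algebraMap_end_apply]
      exact Submodule.smul_mem_smul (map_nonunit _ _ hc) trivial
    have h3 : L s - algebraMap 𝒪 A (Patch.aug 𝒪 Δ s) ∈ J := by
      refine Patch.map_sub_aug_mem L J (fun γ => ?_) s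
      have : L (MonoidAlgebra.of 𝒪 Δ γ) = κ γ := MonoidAlgebra.lift_of κ γ
      rw [this]
      exact hJ1 γ
    have h4 : Patch.aug 𝒪 Δ s ∈ maximalIdeal 𝒪 := by
      rw [mem_maximalIdeal, mem_nonunits_iff]
      intro hu
      have hloc := Patch.isLocalHom_aug (𝒪 := 𝒪) p hp𝒪 hΔ
      exact hs (hloc.map_nonunit _ hu)
    have h5 : L s ∈ J := by
      have := J.add_mem h3 (hJ2 _ h4)
      rwa [sub_add_cancel] at this
    exact h5 m
  have cmp2 : ∀ y ∈ maximalIdeal G.Λ • (⊤ : Submodule G.Λ E.M),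
      y ∈ maximalIdeal S • (⊤ : Submodule S E.M) := by
    intro y hy
    refine Submodule.smul_induction_on hy ?_ fun x y hx hy => Submodule.add_mem _ hx hy
    intro s hs m _
    have h3 : s - algebraMap 𝒪 G.Λ (G.aug s) ∈ Ideal.span (Set.range fun i ↦ G.d i - 1) := by
      apply G.ker_aug
      rw [map_sub, AlgHom.commutes]
      exact sub_self _
    have hideal : ∀ x ∈ Ideal.span (Set.range fun i ↦ G.d i - 1), ∀ m : E.M,
        x • m ∈ maximalIdeal S • (⊤ : Submodule S E.M) := by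
      intro x hx
      refine Submodule.span_induction (p := fun x _ => ∀ m : E.M,
        x • m ∈ maximalIdeal S • (⊤ : Submodule S E.M)) ?_ ?_ ?_ ?_ hx
      · rintro _ ⟨k, rfl⟩ m
        obtain ⟨m', hm'⟩ := kappa_range G hpA E.act E.act_alg E.lam E.psi E.χ E.lam_smul E.lam_act
          E.sep (ha k) (hκ k) (fun i => hE.h1 i k) (fun i => hE.h2 i k) m
        have h4 : L (MonoidAlgebra.of 𝒪 Δ (δ k) - 1 : S) = κ (δ k) - 1 := by
          rw [map_sub, map_one]
          congr 1
          exact MonoidAlgebra.lift_of κ (δ k)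
        rw [hm', ← h4]
        exact Submodule.smul_mem_smul (hmem k) trivial
      · intro m
        rw [zero_smul]; exact Submodule.zero_mem _
      · intro x y _ _ hx hy m
        rw [add_smul]; exact Submodule.add_mem _ (hx m) (hy m)
      · intro c x _ hx m
        rw [smul_eq_mul, mul_comm, mul_smul]
        exact hx _
    have h4 : s • m = (algebraMap 𝒪 G.Λ (G.aug s)) • m + (s - algebraMap 𝒪 G.Λ (G.aug s)) • m := by
      rw [← add_smul]; congr 1; ring
    rw [h4]
    refine Submodule.add_mem _ ?_ (hideal _ h3 m)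
    have h5 : (algebraMap 𝒪 G.Λ (G.aug s)) • m = (algebraMap 𝒪 S (G.aug s)) • m := by
      rw [hsm, AlgHom.commutes, E.act_alg, Module.algebraMap_end_apply]
    rw [h5]
    refine Submodule.smul_mem_smul ?_ trivial
    have h6 : G.aug s ∈ maximalIdeal 𝒪 := by
      rw [mem_maximalIdeal, mem_nonunits_iff]
      intro hu
      have h7 : IsUnit (algebraMap 𝒪 G.Λ (G.aug s)) := hu.map _
      have h8 : s - algebraMap 𝒪 G.Λ (G.aug s) ∈ maximalIdeal G.Λ := by
        refine (Ideal.span_le.mpr ?_) h3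
        rintro _ ⟨k, rfl⟩
        show G.d k - 1 ∈ maximalIdeal G.Λ
        rw [← residue_eq_zero_iff, map_sub, G.d_res, map_one, sub_self]
      have h9 : algebraMap 𝒪 G.Λ (G.aug s) ∈ maximalIdeal G.Λ := by
        have := (maximalIdeal G.Λ).sub_mem hs h8
        rwa [sub_sub_cancel] at this
      exact h9 h7
    have h7 : IsLocalHom (algebraMap 𝒪 S) := by
      constructor
      intro c hc
      have := hc.map (Patch.aug 𝒪 Δ)
      rwa [AlgHom.commutes] at this
    exact map_nonunit _ _ h6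
  -- the map
  let F : (E.M × E.M) →ₗ[S] E'.M :=
    { toFun := fun v => α 0 v.1 + α 1 v.2
      map_add' := fun v w => by
        show α 0 (v.1 + w.1) + α 1 (v.2 + w.2) = _
        rw [map_add, map_add]; abel
      map_smul' := fun s v => by
        show α 0 (s • v.1) + α 1 (s • v.2) = s • (α 0 v.1 + α 1 v.2)
        rw [smul_add, hsm, hsm, hα, hα]; rfl }
  have hinj : Function.Injective (F.lTensor (ResidueField S)) := by
    rw [injective_iff_map_eq_zero]
    intro t ht
    obtain ⟨v, rfl⟩ := TensorProduct.mk_surjective S (E.M × E.M) (ResidueField S)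
      (residue_surjective (R := S)) t
    have h1 : (1 : ResidueField S) ⊗ₜ[S] (F v) = 0 := ht
    have h2 : F v ∈ maximalIdeal S • (⊤ : Submodule S E'.M) := by
      rw [← LinearMap.ker_tensorProductMk]
      exact h1
    have h3 := cmp1 _ h2
    have h4 : v.1 ∈ maximalIdeal G.Λ • (⊤ : Submodule G.Λ E.M) := by
      have h5 : ret 0 (F v) ∈ maximalIdeal G.Λ • (⊤ : Submodule G.Λ E.M) := by
        have h6 := Submodule.mem_map_of_mem (f := ret 0) h3
        rw [Submodule.map_smul''] at h6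
        exact Submodule.smul_mono le_rfl le_top h6
      have h6 : ret 0 (F v) = v.1 := by
        show ret 0 (α 0 v.1 + α 1 v.2) = v.1
        rw [map_add, hret, hret]; simp
      rwa [h6] at h5
    have h4' : v.2 ∈ maximalIdeal G.Λ • (⊤ : Submodule G.Λ E.M) := by
      have h5 : ret 1 (F v) ∈ maximalIdeal G.Λ • (⊤ : Submodule G.Λ E.M) := by
        have h6 := Submodule.mem_map_of_mem (f := ret 1) h3
        rw [Submodule.map_smul''] at h6
        exact Submodule.smul_mono le_rfl le_top h6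
      have h6 : ret 1 (F v) = v.2 := by
        show ret 1 (α 0 v.1 + α 1 v.2) = v.2
        rw [map_add, hret, hret]; simp
      rwa [h6] at h5
    have h7 : v ∈ maximalIdeal S • (⊤ : Submodule S (E.M × E.M)) := by
      have e1 := cmp2 _ h4
      have e2 := cmp2 _ h4'
      have e3 := Submodule.mem_map_of_mem (f := LinearMap.inl S E.M E.M) e1
      have e4 := Submodule.mem_map_of_mem (f := LinearMap.inr S E.M E.M) e2
      rw [Submodule.map_smul''] at e3 e4
      have e5 := Submodule.add_mem _ (Submodule.smul_mono le_rfl le_top e3)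
        (Submodule.smul_mono (le_refl (maximalIdeal S)) (le_top (a := Submodule.map
          (LinearMap.inr S E.M E.M) ⊤)) e4)
      have e6 : (LinearMap.inl S E.M E.M) v.1 + (LinearMap.inr S E.M E.M) v.2 = v := by
        ext <;> simp
      rwa [e6] at e5
    rw [← LinearMap.ker_tensorProductMk] at h7
    exact h7
  obtain ⟨l, hl⟩ := (IsLocalRing.split_injective_iff_lTensor_residueField_injective F).mpr hinj
  have hl' : ∀ v, l (F v) = v := fun v => LinearMap.congr_fun hl v
  refine ⟨![(AddMonoidHom.fst E.M E.M).comp l.toAddMonoidHom,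
    (AddMonoidHom.snd E.M E.M).comp l.toAddMonoidHom], ?_, ?_⟩
  · intro k s v
    have h1 : l (E'.act (L s) v) = s • l v := by rw [← hsm', map_smul]
    fin_cases k
    · show (l (E'.act (L s) v)).1 = E.act (L s) (l v).1
      rw [h1]; rfl
    · show (l (E'.act (L s) v)).2 = E.act (L s) (l v).2
      rw [h1]; rfl
  · intro k l' v
    have h1 : l (α 0 v) = (v, 0) := by
      have := hl' (v, 0)
      have h2 : F (v, 0) = α 0 v := by
        show α 0 v + α 1 0 = α 0 v
        rw [map_zero, add_zero]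
      rwa [h2] at this
    have h2 : l (α 1 v) = (0, v) := by
      have := hl' (0, v)
      have h2 : F (0, v) = α 1 v := by
        show α 0 0 + α 1 v = α 1 v
        rw [map_zero, zero_add]
      rwa [h2] at this
    fin_cases k <;> fin_cases l'
    · show (l (α 0 v)).1 = _
      rw [h1]; simp
    · show (l (α 1 v)).1 = _
      rw [h2]; simp
    · show (l (α 0 v)).2 = _
      rw [h1]; simp
    · show (l (α 1 v)).2 = _
      rw [h2]; simp

end Galois

end Fermat.Agent.LL
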