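import Fermat.Agent.LL.ResData

set_option autoImplicit false
set_option linter.unusedSectionVars false

/-!
# Coefficient rings and the extension of congruences to all good primes
-/

open IsLocalRing Polynomial
open CongruenceSubgroup ModularFormClass

namespace Fermat.Agent.LL

local notation "Γℚ" => (AlgebraicClosure ℚ ≃ₐ[ℚ] AlgebraicClosure ℚ)
local notation "Zbar" => integralClosure ℤ ℂ

theorem exists_rootsZ (a b : ℤ) : ∃ α β : Zbar, α + β = a ∧ α * β = b := by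
  obtain ⟨z, hz⟩ := IsAlgClosed.exists_root (X ^ 2 - C (a : ℂ) * X + C (b : ℂ) : ℂ[X]) (by
    have : (X ^ 2 - C (a : ℂ) * X + C (b : ℂ) : ℂ[X]).degree = 2 := by compute_degree!
    rw [this]; norm_num)
  have hz' : z ^ 2 - a * z + b = 0 := by simpa [IsRoot] using hz
  have h1 : IsIntegral ℤ z := by
    refine ⟨X ^ 2 - C a * X + C b, by monicity!, ?_⟩
    have e1 : ∀ c : ℤ, algebraMap ℤ ℂ c = c := fun c ↦ eq_intCast _ c
    rw [eval₂_add, eval₂_sub, eval₂_mul, eval₂_pow, eval₂_X, eval₂_C, eval₂_C, e1, e1]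
    exact hz'
  have h2 : IsIntegral ℤ ((a : ℂ) - z) := (isIntegral_algebraMap (x := a)).sub h1
  refine ⟨⟨z, h1⟩, ⟨a - z, h2⟩, Subtype.ext ?_, Subtype.ext ?_⟩
  · push_cast
    ring
  · push_cast
    linear_combination -hz'

theorem intCast_eq_val {p : ℕ} [Fact p.Prime] {k : Type} [Field k] (hk : (p : k) = 0) (a : ℤ) :
    ((a : ZMod p).val : k) = a := by
  have : CharP k p := (CharP.charP_iff_prime_eq_zero Fact.out).2 hk
  rw [← map_natCast (ZMod.castHom dvd_rfl k), ZMod.natCast_zmod_val, map_intCast]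

/-- The coefficient ring for the residual system of `f`. -/
theorem exists_setup {p : ℕ} [Fact p.Prime] {N : ℕ} [NeZero N] {f : CuspForm (Gamma0 N) 2}
    (hf : f.IsNormalizedEigenform) {𝔪 : Ideal Zbar} (h𝔪 : 𝔪.IsMaximal) (hp𝔪 : (p : Zbar) ∈ 𝔪)
    (V : ℕ) :
    ∃ (𝒪 : Type) (_ : CommRing 𝒪) (_ : IsDomain 𝒪) (_ : IsDiscreteValuationRing 𝒪)
      (_ : IsAdicComplete (maximalIdeal 𝒪) 𝒪) (_ : Finite (ResidueField 𝒪)) (_ : CharZero 𝒪)
      (_ : (p : 𝒪) ∈ maximalIdeal 𝒪) (j : 𝒪 →+* ℂ) (ι : ResidueField 𝒪 →+* (Zbar ⧸ 𝔪))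
      (b : ℕ → 𝒪), Function.Injective j ∧ (∀ ℓ, ℓ.Prime → j (b ℓ) = qCoeff f ℓ) ∧
      (∀ (a : 𝒪) (z : Zbar), j a = z → ι (residue 𝒪 a) = Ideal.Quotient.mk 𝔪 z) ∧
      (∀ z : ℂ, z ^ p ^ V = 1 → ∃ o : 𝒪, j o = z) ∧
      (∀ a b : ℤ, ∃ α β : ResidueField 𝒪,
        (X ^ 2 - C (a : ResidueField 𝒪) * X + C (b : ResidueField 𝒪) : Polynomial _) =
          (X - C α) * (X - C β)) := by
  classical
  have hp : p.Prime := Fact.out
  obtain ⟨F₁, hF₁⟩ := exists_coef hf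
  have hfin : {z : Zbar | (z : ℂ) ^ p ^ V = 1}.Finite := by
    refine Set.Finite.of_finite_image (f := fun z : Zbar ↦ (z : ℂ)) ?_
      Subtype.val_injective.injOn
    refine (nthRootsFinset (p ^ V) (1 : ℂ)).finite_toSet.subset ?_
    rintro _ ⟨z, hz, rfl⟩
    rw [Finset.mem_coe, mem_nthRootsFinset (pow_pos hp.pos V)]
    exact hz
  choose α β hα hβ using exists_rootsZ
  let F₂ : Finset Zbar := Finset.univ.image
    fun u : ZMod p × ZMod p ↦ α (u.1.val : ℤ) (u.2.val : ℤ)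
  let F₃ : Finset Zbar := Finset.univ.image
    fun u : ZMod p × ZMod p ↦ β (u.1.val : ℤ) (u.2.val : ℤ)
  obtain ⟨𝒪, i1, i2, i3, i4, i5, i6, hp𝒪, j, ι, hj, hF, hι⟩ :=
    oj p hp 𝔪 h𝔪 hp𝔪 (F₁ ∪ hfin.toFinset ∪ F₂ ∪ F₃)
  have hb : ∀ ℓ : ℕ, ∃ x : 𝒪, ℓ.Prime → j x = qCoeff f ℓ := by
    intro ℓ
    by_cases hℓ : ℓ.Prime
    · obtain ⟨x, hx⟩ := hF₁ j.range (fun z hz ↦ hF z (by simp [hz])) ℓ hℓ
      exact ⟨x, fun _ ↦ hx⟩
    · exact ⟨0, fun h ↦ absurd h hℓ⟩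
  choose b hb using hb
  have hk : (p : ResidueField 𝒪) = 0 := by
    rw [← map_natCast (residue 𝒪)]
    exact (residue_eq_zero_iff _).2 hp𝒪
  refine ⟨𝒪, i1, i2, i3, i4, i5, i6, hp𝒪, j, ι, b, hj, hb, hι, ?_, ?_⟩
  · intro z hz
    have hint : IsIntegral ℤ z := by
      refine ⟨X ^ p ^ V - 1, monic_X_pow_sub_C 1 (pow_pos hp.pos V).ne', ?_⟩
      simp [hz]
    exact hF ⟨z, hint⟩ (by
      simp only [Finset.mem_union, Set.Finite.mem_toFinset]
      exact Or.inl (Or.inl (Or.inr hz)))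
  · intro u v
    obtain ⟨x, hx⟩ := hF (α ((u : ZMod p).val : ℤ) ((v : ZMod p).val : ℤ)) (by
      refine Finset.mem_union_left _ (Finset.mem_union_right _ ?_)
      exact Finset.mem_image_of_mem (fun u : ZMod p × ZMod p ↦ α (u.1.val : ℤ) (u.2.val : ℤ))
        (Finset.mem_univ ((u : ZMod p), (v : ZMod p))))
    obtain ⟨y, hy⟩ := hF (β ((u : ZMod p).val : ℤ) ((v : ZMod p).val : ℤ)) (by
      refine Finset.mem_union_right _ ?_
      exact Finset.mem_image_of_mem (fun u : ZMod p × ZMod p ↦ β (u.1.val : ℤ) (u.2.val : ℤ))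
        (Finset.mem_univ ((u : ZMod p), (v : ZMod p))))
    have h1 : x + y = (((u : ZMod p).val : ℕ) : 𝒪) := by
      apply hj
      rw [map_add, hx, hy, map_natCast]
      have := congrArg (fun z : Zbar ↦ (z : ℂ)) (hα ((u : ZMod p).val : ℤ) ((v : ZMod p).val : ℤ))
      push_cast at this
      exact this
    have h2 : x * y = (((v : ZMod p).val : ℕ) : 𝒪) := by
      apply hj
      rw [map_mul, hx, hy, map_natCast]
      have := congrArg (fun z : Zbar ↦ (z : ℂ)) (hβ ((u : ZMod p).val : ℤ) ((v : ZMod p).val : ℤ))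
      push_cast at this
      exact this
    refine ⟨residue 𝒪 x, residue 𝒪 y, ?_⟩
    rw [← intCast_eq_val hk u, ← intCast_eq_val hk v, ← map_natCast (residue 𝒪),
      ← map_natCast (residue 𝒪), ← h1, ← h2]
    simp only [map_add, map_mul]
    ring

/-- **Extension**: a congruence at almost all primes holds at all good primes. -/
theorem frob_of_congMod {p : ℕ} [Fact p.Prime] {ρ0 : ResidualGaloisRep (ZMod p)} {t : ℕ → ℤ}
    {S₁ : Finset ℕ} (H : ResData p ρ0 t S₁) {N : ℕ} [NeZero N] {f : CuspForm (Gamma0 N) 2}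
    (hf : f.IsNormalizedEigenform) {𝔪 : Ideal Zbar} (h𝔪 : 𝔪.IsMaximal) (hp𝔪 : (p : Zbar) ∈ 𝔪)
    (hc : CongMod t f 𝔪) {K : Type} [Field K] [Algebra (ZMod p) K] (ψ : Zbar →+* K)
    (hψ : RingHom.ker ψ = 𝔪) {ℓ : ℕ} (hℓ : ℓ.Prime) (hℓN : ¬ ℓ ∣ N) (hℓp : ℓ ≠ p)
    {P : ValuationSubring (AlgebraicClosure ℚ)} (hP : P.LiesOverPrime ℓ) {σ : Γℚ}
    (hσ : P.IsFrobeniusAt σ ℓ) {a : Zbar} (ha : (a : ℂ) = qCoeff f ℓ) :
    LinearMap.charpoly ((ρ0.baseChange K).ρ σ) = X ^ 2 - C (ψ a) * X + C (ℓ : K) := by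
  classical
  have hp : p.Prime := Fact.out
  obtain ⟨𝒪, _, _, _, _, _, _, hp𝒪, j, ι, b, hj, hb, hι, -, -⟩ := exists_setup hf h𝔪 hp𝔪 0
  obtain ⟨M, hMN, g, hg, hgf⟩ := Newform.exists_newform hf
  have : NeZero M := ⟨fun h ↦ NeZero.ne N (Nat.eq_zero_of_zero_dvd (h ▸ hMN))⟩
  obtain ⟨S, hS⟩ := hc
  -- the inverse of `j`
  have hbij : Function.Bijective j.rangeRestrict :=
    ⟨fun x y h ↦ hj (congrArg Subtype.val h), j.rangeRestrict_surjective⟩
  let e : 𝒪 ≃+* j.range := RingEquiv.ofBijective j.rangeRestrict hbij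
  let S' : Finset ℕ := insert p N.primeFactors
  have hS'N : ∀ {ℓ : ℕ}, ℓ.Prime → ℓ ∉ S' → ¬ ℓ ∣ N ∧ ℓ ≠ p := by
    intro ℓ hℓ h
    simp only [S', Finset.mem_insert, Nat.mem_primeFactors, not_or, not_and] at h
    exact ⟨fun h' ↦ h.2 hℓ h' (NeZero.ne N), h.1⟩
  have hD : ∀ ℓ : ℕ, ℓ.Prime → ℓ ∉ S' → qCoeff g ℓ ∈ j.range := fun ℓ hℓ h ↦
    ⟨b ℓ, by rw [hb ℓ hℓ, hgf ℓ hℓ (hS'N hℓ h).1]⟩
  obtain ⟨R, _, _, _, _, _, _, f', hf', hf'l, ρ, hρ⟩ := nf0 hg p hp S' (Finset.mem_insert_self _ _)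
    (fun q hq hqM ↦ Finset.mem_insert_of_mem (Nat.mem_primeFactors.2
      ⟨hq, hqM.trans hMN, NeZero.ne N⟩)) 𝒪 hp𝒪 j.range (e.symm : j.range →+* 𝒪) hD
  have he : ∀ (ℓ : ℕ) (hℓ : ℓ.Prime) (h : ℓ ∉ S'),
      (e.symm : j.range →+* 𝒪) ⟨_, hD ℓ hℓ h⟩ = b ℓ := by
    intro ℓ hℓ h
    change e.symm _ = _
    rw [RingEquiv.symm_apply_eq]
    apply Subtype.ext
    change qCoeff g ℓ = j (b ℓ)
    rw [hb ℓ hℓ, hgf ℓ hℓ (hS'N hℓ h).1]
  have hk : (p : ResidueField 𝒪) = 0 := by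
    rw [← map_natCast (residue 𝒪)]
    exact (residue_eq_zero_iff _).2 hp𝒪
  have : CharP (ResidueField 𝒪) p := (CharP.charP_iff_prime_eq_zero hp).2 hk
  let _ : Algebra (ZMod p) (ResidueField 𝒪) := ZMod.algebra _ p
  have hιinj : Function.Injective ι := by
    have : Nontrivial (Zbar ⧸ 𝔪) := Ideal.Quotient.nontrivial_iff.2 h𝔪.ne_top
    exact ι.injective
  -- congruence in the residue field
  have hbt : ∀ ℓ : ℕ, ℓ.Prime → ℓ ∉ S → residue 𝒪 (b ℓ) = ((t ℓ : ℤ) : ResidueField 𝒪) := by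
    intro ℓ hℓ h
    obtain ⟨a, ha⟩ := exists_int hf hℓ
    apply hιinj
    rw [hι (b ℓ) a ((hb ℓ hℓ).trans ha.symm), map_intCast, ← sub_eq_zero,
      ← map_intCast (Ideal.Quotient.mk 𝔪), ← map_sub, Ideal.Quotient.eq_zero_iff_mem]
    exact hS ℓ hℓ h a ha
  have hres : ρ.residual.IsEquiv
      ((ρ0.baseChange (ResidueField 𝒪)).baseChangeAlong (ResidueField.map f')) := by
    refine residual_isEquiv_of_frob _ _ (H.abs (ResidueField 𝒪)) ρ.residual (S' ∪ S ∪ S₁) ?_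
    intro ℓ hℓ hℓS P hP σ hσ
    simp only [Finset.mem_union, not_or] at hℓS
    rw [charpoly_baseChangeAlong, charpoly_baseChange, charpoly_residual,
      H.frob ℓ hℓ hℓS.2 P hP σ hσ, hρ ℓ hℓ hℓS.1.1 P hP σ hσ, he ℓ hℓ hℓS.1.1]
    have h1 : residue R (f' (b ℓ)) = ((t ℓ : ℤ) : ResidueField R) := by
      rw [← ResidueField.map_residue, hbt ℓ hℓ hℓS.1.2, map_intCast]
    simp [h1]
  have hℓS' : ℓ ∉ S' := by
    simp only [S', Finset.mem_insert, Nat.mem_primeFactors, not_or, not_and]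
    exact ⟨hℓp, fun _ h ↦ absurd h hℓN⟩
  have h1 : LinearMap.charpoly (ρ.residual.ρ σ) = LinearMap.charpoly
      (((ρ0.baseChange (ResidueField 𝒪)).baseChangeAlong (ResidueField.map f')).ρ σ) := by
    obtain ⟨e'⟩ := hres
    rw [← LinearEquiv.charpoly_conj e'.toLinearEquiv]
    congr 1
    ext x
    simp [LinearEquiv.conj_apply, e'.map_apply]
  have h2 : LinearMap.charpoly ((ρ0.baseChange (ResidueField 𝒪)).ρ σ) =
      X ^ 2 - C (residue 𝒪 (b ℓ)) * X + C (ℓ : ResidueField 𝒪) := by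
    apply Polynomial.map_injective (ResidueField.map f') (ResidueField.map f').injective
    rw [← charpoly_baseChangeAlong, ← h1, charpoly_residual, hρ ℓ hℓ hℓS' P hP σ hσ,
      he ℓ hℓ hℓS']
    simp
  -- transport to `K`
  let θ : ResidueField 𝒪 →+* K := (Ideal.Quotient.lift 𝔪 ψ (fun x hx ↦ by
    rwa [← hψ, RingHom.mem_ker] at hx)).comp ι
  have h3 : θ (residue 𝒪 (b ℓ)) = ψ a := by
    rw [RingHom.comp_apply, hι (b ℓ) a ((hb ℓ hℓ).trans ha.symm), Ideal.Quotient.lift_mk]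
  have h4 := congrArg (Polynomial.map θ) h2
  rw [charpoly_baseChange, Polynomial.map_map] at h4
  rw [charpoly_baseChange]
  have h5 : θ.comp (algebraMap (ZMod p) (ResidueField 𝒪)) = algebraMap (ZMod p) K :=
    Subsingleton.elim _ _
  rw [h5] at h4
  rw [h4, ← h3]
  simp

end Fermat.Agent.LL
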