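import Mathlib
import Fermat.Prelude.Thm_IsAdicComplete_of_module_finite

set_option autoImplicit false

/-!
# Local extensions of complete discrete valuation rings are finite, and embed into `ℂ`
-/

open IsLocalRing

namespace Fermat.Agent.LL

theorem exists_pow_le_of_ne_bot {R : Type*} [CommRing R] [IsDomain R] [IsDiscreteValuationRing R]
    {I : Ideal R} (hI : I ≠ ⊥) : ∃ n : ℕ, maximalIdeal R ^ n ≤ I := by
  obtain ⟨ϖ, hϖ⟩ := IsDiscreteValuationRing.exists_irreducible R
  obtain ⟨n, hn⟩ := IsDiscreteValuationRing.ideal_eq_span_pow_irreducible hI hϖ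
  refine ⟨n, ?_⟩
  rw [hn, hϖ.maximalIdeal_eq, Ideal.span_singleton_pow]

theorem finite_quotient_of_ne_bot {R : Type*} [CommRing R] [IsDomain R]
    [IsDiscreteValuationRing R] [Finite (ResidueField R)] {I : Ideal R} (hI : I ≠ ⊥) :
    Finite (R ⧸ I) := by
  obtain ⟨n, hn⟩ := exists_pow_le_of_ne_bot hI
  have h1 : Finite (R ⧸ maximalIdeal R) := inferInstanceAs (Finite (ResidueField R))
  have h2 : Finite (R ⧸ maximalIdeal R ^ n) :=
    Ideal.finite_quotient_pow (IsNoetherian.noetherian _) n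
  exact Finite.of_surjective _ (Ideal.Quotient.factor_surjective hn)

/-- A local extension of complete discrete valuation rings with finite residue fields is finite. -/
theorem finite_of_dvr {𝒪 R : Type*} [CommRing 𝒪] [IsDomain 𝒪] [IsDiscreteValuationRing 𝒪]
    [IsAdicComplete (maximalIdeal 𝒪) 𝒪] [CommRing R] [IsDomain R] [IsDiscreteValuationRing R]
    [Finite (ResidueField R)] [CharZero R] [Algebra 𝒪 R] [IsLocalHom (algebraMap 𝒪 R)] {p : ℕ}
    (hp : p ≠ 0) (hp𝒪 : (p : 𝒪) ∈ maximalIdeal 𝒪) : Module.Finite 𝒪 R := by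
  classical
  set I : Ideal R := (maximalIdeal 𝒪).map (algebraMap 𝒪 R) with hI
  have hpI : (p : R) ∈ I := by
    rw [← map_natCast (algebraMap 𝒪 R)]
    exact Ideal.mem_map_of_mem _ hp𝒪
  have hIne : I ≠ ⊥ := by
    intro h
    rw [h, Ideal.mem_bot] at hpI
    exact hp (by exact_mod_cast hpI)
  have hfin := finite_quotient_of_ne_bot hIne
  have hIle : I ≤ maximalIdeal R := by
    rw [hI, Ideal.map_le_iff_le_comap]
    intro x hx
    exact map_nonunit (algebraMap 𝒪 R) x hx
  have hH1 : IsHausdorff I R := IsHausdorff.of_isLocalRing I R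
    (ne_of_lt (lt_of_le_of_lt hIle (lt_top_iff_ne_top.2 (maximalIdeal.isMaximal R).ne_top)))
  have hH : IsHausdorff (maximalIdeal 𝒪) R := IsHausdorff.of_map (J := I) (S := R) le_rfl
  cases nonempty_fintype (R ⧸ I)
  let rep : R ⧸ I → R := Function.surjInv Ideal.Quotient.mk_surjective
  have hrep : ∀ x, Ideal.Quotient.mk I (rep x) = x := Function.surjInv_eq _
  let f : ((R ⧸ I) → 𝒪) →ₗ[𝒪] R := Fintype.linearCombination 𝒪 rep
  have hcompl : IsAdicComplete (maximalIdeal 𝒪) ((R ⧸ I) → 𝒪) :=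
    IsAdicComplete.of_module_finite _ _
  refine Module.Finite.of_surjective f
    (_root_.surjective_of_mkQ_comp_surjective (I := maximalIdeal 𝒪) ?_)
  intro y
  obtain ⟨y, rfl⟩ := Submodule.Quotient.mk_surjective _ y
  refine ⟨Pi.single (Ideal.Quotient.mk I y) 1, ?_⟩
  rw [LinearMap.comp_apply, Submodule.mkQ_apply, Submodule.Quotient.eq,
    Fintype.linearCombination_apply_single, one_smul]
  have h1 : rep (Ideal.Quotient.mk I y) - y ∈ I := by
    rw [← Ideal.Quotient.eq, hrep]
  have h2 : (maximalIdeal 𝒪 • (⊤ : Submodule 𝒪 R)) = I.restrictScalars 𝒪 :=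
    Ideal.smul_top_eq_map _
  rw [h2]
  exact h1

/-- Extension of embeddings into `ℂ`. -/
theorem exists_embedding {D R : Type} [CommRing D] [IsDomain D] [CommRing R]
    [IsDomain R] [IsDiscreteValuationRing R] {p : ℕ} (hp : p ≠ 0) (hpR : (p : R) ∈ maximalIdeal R)
    (f : D →+* R) (hf : Function.Injective f)
    (hint : f.IsIntegral) (ι : D →+* ℂ) (hι : Function.Injective ι) :
    ∃ e : R →+* ℂ, Function.Injective e ∧ e.comp f = ι := by
  let _ : Algebra D R := f.toAlgebra
  let _ : Algebra D ℂ := ι.toAlgebra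
  have h1 : FaithfulSMul D R := (faithfulSMul_iff_algebraMap_injective D R).2 hf
  have h2 : FaithfulSMul D ℂ := (faithfulSMul_iff_algebraMap_injective D ℂ).2 hι
  have h3 : Algebra.IsIntegral D R := ⟨hint⟩
  have h4 : Algebra.IsAlgebraic D R := Algebra.IsIntegral.isAlgebraic
  let e : R →ₐ[D] ℂ := IsAlgClosed.lift
  refine ⟨e, ?_, ?_⟩
  · rw [RingHom.injective_iff_ker_eq_bot]
    by_contra hne
    obtain ⟨n, hn⟩ := exists_pow_le_of_ne_bot hne
    have hprime : (RingHom.ker (e : R →+* ℂ)).IsPrime := RingHom.ker_isPrime _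
    have hle : maximalIdeal R ≤ RingHom.ker (e : R →+* ℂ) := by
      intro x hx
      exact hprime.mem_of_pow_mem n (hn (Ideal.pow_mem_pow hx n))
    have h5 := hle hpR
    rw [RingHom.mem_ker, map_natCast] at h5
    exact hp (by exact_mod_cast h5)
  · exact e.comp_algebraMap

end Fermat.Agent.LL
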