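import Fermat.Agent.LL.HRing
import Fermat.Agent.TWMod.CycloFree
import Fermat.Agent.Patch.Main

set_option autoImplicit false

/-!
# Freeness over the Galois side group ring
-/

open IsLocalRing Polynomial

namespace Fermat.Agent.LL

/-- exactness for free modules -/
theorem ex_module {Λ M : Type*} [CommRing Λ] [AddCommGroup M] [Module Λ M] [Module.Free Λ M]
    [Module.Finite Λ M] {u v : Λ} (h : ∀ x : Λ, u * x = 0 → ∃ y, x = v * y) (m : M)
    (hm : u • m = 0) : ∃ m' : M, m = v • m' := by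
  classical
  let b := Module.Free.chooseBasis Λ M
  have h1 : ∀ i, ∃ y, b.repr m i = v * y := by
    intro i
    apply h
    have := congrArg (fun x => b.repr x i) hm
    simpa using this
  choose y hy using h1
  refine ⟨∑ i, y i • b i, ?_⟩
  rw [Finset.smul_sum]
  conv_lhs => rw [← b.sum_repr m]
  refine Finset.sum_congr rfl fun i _ => ?_
  rw [hy, mul_smul]

section

variable {𝒪 : Type} [CommRing 𝒪] [IsLocalRing 𝒪] {p : ℕ} [Fact p.Prime]
  {r : ℕ} {a : Fin r → ℕ} (G : TWMod.GrpRing 𝒪 p a)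
  {M : Type} [AddCommGroup M] [Module G.Λ M]

/-- the comparison of the two actions at one Taylor--Wiles prime -/
theorem kappa_range [Module.Free G.Λ M] [Module.Finite G.Λ M] {A : Type} [CommRing A]
    [IsLocalRing A] [IsNoetherianRing A]
    [IsAdicComplete (maximalIdeal A) A] [Algebra 𝒪 A] (hpA : (p : A) ∈ maximalIdeal A)
    (act : A →+* Module.End G.Λ M)
    (hact : ∀ c : 𝒪, act (algebraMap 𝒪 A c) = algebraMap G.Λ _ (algebraMap 𝒪 G.Λ c))
    {I : Type} (lam : I → M →+ ℂ) (psi : I → G.Λ →+* ℂ) (χ : I → A →+* ℂ)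
    (lam_smul : ∀ i (x : G.Λ) m, lam i (x • m) = psi i x * lam i m)
    (lam_act : ∀ i (x : A) m, lam i (act x m) = χ i x * lam i m)
    (sep : ∀ m : M, (∀ i, lam i m = 0) → m = 0) {k : Fin r} (ha : a k ≠ 0) {κ : A}
    (hκ : κ ^ p ^ a k = 1) (h1 : ∀ i, psi i (G.d k) = 1 → χ i κ = 1)
    (h2 : ∀ i, psi i (G.d k) ≠ 1 → χ i κ ≠ 1) (m : M) :
    ∃ m' : M, (G.d k - 1) • m = act (κ - 1) m' := by
  classical
  have hp : p.Prime := Fact.out
  obtain ⟨b, hb⟩ := Nat.exists_eq_succ_of_ne_zero ha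
  obtain ⟨G'⟩ := TWMod.nonempty_grpRing (𝒪 := A) hp hpA a
  let _ : CommRing (Algebra.adjoin G.Λ (Set.range act)) :=
    Algebra.adjoinCommRingOfComm G.Λ (s := Set.range act) (by
      rintro _ ⟨x, rfl⟩ _ ⟨y, rfl⟩
      rw [← map_mul, ← map_mul, mul_comm])
  let B := Algebra.adjoin G.Λ (Set.range act)
  let f : A →+* B :=
    { toFun := fun x => ⟨act x, Algebra.subset_adjoin ⟨x, rfl⟩⟩
      map_one' := Subtype.ext (map_one act)
      map_mul' := fun x y => Subtype.ext (map_mul act x y)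
      map_zero' := Subtype.ext (map_zero act)
      map_add' := fun x y => Subtype.ext (map_add act x y) }
  obtain ⟨Ψ, hΨ1, hΨ2⟩ := G'.univ B f (fun k => algebraMap G.Λ B (G.d k)) (fun k => by
    rw [← map_pow, G.d_pow, map_one])
  let Θ : G'.Λ →+* Module.End G.Λ M := (B.val : B →+* Module.End G.Λ M).comp Ψ
  have hΘA : ∀ x : A, Θ (algebraMap A G'.Λ x) = act x := fun x => by
    show ((Ψ (algebraMap A G'.Λ x) : B) : Module.End G.Λ M) = _
    have := RingHom.congr_fun hΨ1 x
    rw [RingHom.comp_apply] at this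
    rw [this]
    rfl
  have hΘd : ∀ k, Θ (G'.d k) = algebraMap G.Λ _ (G.d k) := fun k => by
    show ((Ψ (G'.d k) : B) : Module.End G.Λ M) = _
    rw [hΨ2]
    rfl
  let _ : Module G'.Λ M := Module.compHom M Θ
  have hsm : ∀ (x : G'.Λ) (m : M), x • m = Θ x m := fun x m => rfl
  have hfin : Module.Finite G'.Λ M := by
    let _ : Module 𝒪 M := Module.compHom M (algebraMap 𝒪 G.Λ)
    have htow : IsScalarTower 𝒪 G.Λ M := ⟨fun x y z => by
      rw [Algebra.smul_def, mul_smul]; rfl⟩
    have hfin1 : Module.Finite 𝒪 M := Module.Finite.trans G.Λ M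
    obtain ⟨s, hs⟩ := hfin1.fg_top
    refine ⟨⟨s, ?_⟩⟩
    rw [eq_top_iff]
    intro m _
    have hm : m ∈ Submodule.span 𝒪 (s : Set M) := by rw [hs]; trivial
    refine Submodule.span_induction (p := fun m _ => m ∈ Submodule.span G'.Λ (s : Set M)) ?_ ?_ ?_ ?_ hm
    · exact fun x hx => Submodule.subset_span hx
    · exact Submodule.zero_mem _
    · exact fun x y _ _ hx hy => Submodule.add_mem _ hx hy
    · intro c x _ hx
      have h3 : c • x = (algebraMap A G'.Λ (algebraMap 𝒪 A c)) • x := by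
        rw [hsm, hΘA, hact]; rfl
      rw [h3]
      exact Submodule.smul_mem _ _ hx
  -- polynomial expressions in `d`
  have hpoly : ∀ (g : ℤ[X]) (m : M), aeval (G'.d k) g • m = aeval (G.d k) g • m := by
    intro g m
    have h3 : Θ (aeval (G'.d k) g) = algebraMap G.Λ _ (aeval (G.d k) g) := by
      have e1 : Θ (aeval (G'.d k) g) = aeval (Θ (G'.d k)) g := by
        have := Polynomial.hom_eval₂ g (algebraMap ℤ G'.Λ) Θ (G'.d k)
        rw [aeval_def, aeval_def, this]
        congr 1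
        exact RingHom.ext_int _ _
      have e2 : algebraMap G.Λ (Module.End G.Λ M) (aeval (G.d k) g) =
          aeval (algebraMap G.Λ (Module.End G.Λ M) (G.d k)) g := by
        have := Polynomial.hom_eval₂ g (algebraMap ℤ G.Λ) (algebraMap G.Λ (Module.End G.Λ M)) (G.d k)
        rw [aeval_def, aeval_def, this]
        congr 1
        exact RingHom.ext_int _ _
      rw [e1, e2, hΘd]
    rw [hsm, h3]
    rfl
  have hlamd : ∀ i (g : ℤ[X]) (m : M), lam i (aeval (G.d k) g • m) =
      aeval (psi i (G.d k)) g * lam i m := by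
    intro i g m
    rw [lam_smul]
    congr 1
    have := Polynomial.hom_eval₂ g (algebraMap ℤ G.Λ) (psi i) (G.d k)
    rw [aeval_def, aeval_def, this]
    congr 1
    exact RingHom.ext_int _ _
  have hlamκ : ∀ i (m : M), lam i ((algebraMap A G'.Λ κ - 1) • m) = (χ i κ - 1) * lam i m := by
    intro i m
    rw [sub_smul, one_smul, map_sub, hsm, hΘA, lam_act, sub_mul, one_mul]
  -- the polynomials
  set F1 : ℤ[X] := ∑ j ∈ Finset.range (p ^ (b + 1)), X ^ j with hF1
  set F2 : ℤ[X] := ∑ j ∈ Finset.range p, X ^ j with hF2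
  set F3 : ℤ[X] := (X - 1) * ∑ j ∈ Finset.range (p ^ b), (X ^ p) ^ j with hF3
  have hab : a k = b + 1 := hb
  have m1 : F1.Monic := by
    have h3 := Polynomial.Monic.geom_sum (R := ℤ) (P := X) monic_X (by simp) (n := p ^ (b + 1))
      (pow_ne_zero _ hp.ne_zero)
    exact h3
  have m2 : F2.Monic := Polynomial.Monic.geom_sum monic_X (by simp) hp.ne_zero
  have m3 : F3.Monic := by
    refine (monic_X_sub_C (1 : ℤ)).mul ?_
    refine Polynomial.Monic.geom_sum (monic_X_pow p) ?_ (pow_ne_zero _ hp.ne_zero)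
    rw [natDegree_X_pow]; exact hp.pos
  have i1 : F1 * (X - 1) = X ^ (p ^ a k) - 1 := by rw [hF1, geom_sum_mul, hab]
  have i2 : F2 * F3 = X ^ (p ^ a k) - 1 := by
    rw [hF3, ← mul_assoc, hF2, geom_sum_mul, mul_geom_sum, ← pow_mul, ← pow_succ', hab]
  have i3 : F3 * F2 = X ^ (p ^ a k) - 1 := by rw [mul_comm, i2]
  have eF1 : (aeval (G'.d k) F1 : G'.Λ) = ∑ j ∈ Finset.range (p ^ (b + 1)), G'.d k ^ j := by
    simp [hF1]
  have eF2 : (aeval (G'.d k) F2 : G'.Λ) = ∑ j ∈ Finset.range p, G'.d k ^ j := by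
    simp [hF2]
  have eF3 : (aeval (G'.d k) F3 : G'.Λ) =
      (G'.d k - 1) * ∑ j ∈ Finset.range (p ^ b), (G'.d k ^ p) ^ j := by
    simp [hF3]
  have eX : (aeval (G'.d k) (X - 1 : ℤ[X]) : G'.Λ) = G'.d k - 1 := by simp
  have key := TWMod.range_sub_one_eq (T := G'.Λ) (M := M) hp
    (d := G'.d k) (x := algebraMap A G'.Λ κ) (a := b)
    (by
      rw [← map_natCast (algebraMap A G'.Λ)]
      exact map_nonunit _ _ hpA)
    (by
      intro m hm
      apply sep
      intro i
      have h3 : ((p : ℕ) : G'.Λ) • m = (p : ℕ) • m := Nat.cast_smul_eq_nsmul _ _ _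
      rw [h3] at hm
      have h4 := congrArg (lam i) hm
      rw [map_nsmul, map_zero, nsmul_eq_mul] at h4
      exact (mul_eq_zero.mp h4).resolve_left (by exact_mod_cast hp.ne_zero))
    (by
      rw [← residue_eq_zero_iff, map_sub, G'.d_res, map_one, sub_self])
    (by rw [← hab]; exact G'.d_pow k)
    (by rw [← map_pow, ← hab, hκ, map_one])
    (by
      intro m hm
      rw [← eF1, hpoly] at hm
      obtain ⟨m', hm'⟩ := ex_module (G.ex k F1 (X - 1) m1 i1) m hm
      refine ⟨m', ?_⟩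
      rw [← eX, hpoly]
      exact hm')
    (by
      intro m hm
      rw [← eF3, hpoly] at hm
      obtain ⟨m', hm'⟩ := ex_module (G.ex k F3 F2 m3 i3) m hm
      refine ⟨m', ?_⟩
      rw [← eF2, hpoly]
      exact hm')
    (by
      intro m hm
      rw [← eF2, hpoly] at hm
      obtain ⟨m', hm'⟩ := ex_module (G.ex k F2 F3 m2 i2) m hm
      refine ⟨m', ?_⟩
      rw [← eF3, hpoly]
      exact hm')
    (by
      intro m
      apply sep
      intro i
      rw [← eF1, hpoly, hlamd, hlamκ]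
      by_cases hd : psi i (G.d k) = 1
      · rw [h1 i hd, sub_self, zero_mul, mul_zero]
      · have h3 : aeval (psi i (G.d k)) F1 = 0 := by
          have h4 : (aeval (psi i (G.d k)) F1 : ℂ) * (psi i (G.d k) - 1) = 0 := by
            have h5 := congrArg (fun g : ℤ[X] => (aeval (psi i (G.d k)) g : ℂ)) i1
            simp only [map_mul, map_sub, aeval_X, map_one, map_pow] at h5
            rw [h5, ← map_pow, G.d_pow, map_one, sub_self]
          exact (mul_eq_zero.mp h4).resolve_right (sub_ne_zero.mpr hd)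
        rw [h3, zero_mul])
    (by
      intro m hm hm'
      apply sep
      intro i
      by_contra hne
      rw [← eF2, hpoly] at hm
      have h3 := congrArg (lam i) hm
      rw [hlamd, map_zero] at h3
      have h4 := (mul_eq_zero.mp h3).resolve_right hne
      have h5 : psi i (G.d k) ≠ 1 := by
        intro h6
        rw [h6, hF2] at h4
        simp at h4
        exact hp.ne_zero h4
      have h6 := congrArg (lam i) hm'
      rw [hlamκ, map_zero] at h6
      exact h2 i h5 (sub_eq_zero.mp ((mul_eq_zero.mp h6).resolve_right hne)))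
  have h3 : (G.d k - 1) • m ∈ LinearMap.range (LinearMap.lsmul G'.Λ M (G'.d k - 1)) := by
    refine ⟨m, ?_⟩
    show (G'.d k - 1) • m = _
    rw [← eX, hpoly]
    simp
  rw [← key] at h3
  obtain ⟨m', hm'⟩ := h3
  refine ⟨m', ?_⟩
  rw [← hm']
  show (algebraMap A G'.Λ κ - 1) • m' = _
  rw [hsm, ← map_one (algebraMap A G'.Λ), ← map_sub, hΘA]

/-- **freeness over the group ring on the Galois side.** -/
theorem free_kappa {𝒪 : Type} [CommRing 𝒪] [IsDomain 𝒪] [IsLocalRing 𝒪] [IsNoetherianRing 𝒪]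
    {p : ℕ} [Fact p.Prime] (hp𝒪 : (p : 𝒪) ∈ maximalIdeal 𝒪)
    {r : ℕ} {a : Fin r → ℕ} (ha : ∀ k, a k ≠ 0) (G : TWMod.GrpRing 𝒪 p a)
    {M : Type} [AddCommGroup M] [Module G.Λ M] [Module.Free G.Λ M] [Module.Finite G.Λ M]
    {A : Type} [CommRing A]
    [IsLocalRing A] [IsNoetherianRing A]
    [IsAdicComplete (maximalIdeal A) A] [Algebra 𝒪 A] (hpA : (p : A) ∈ maximalIdeal A)
    (act : A →+* Module.End G.Λ M)
    (hact : ∀ c : 𝒪, act (algebraMap 𝒪 A c) = algebraMap G.Λ _ (algebraMap 𝒪 G.Λ c))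
    {I : Type} (lam : I → M →+ ℂ) (psi : I → G.Λ →+* ℂ) (χ : I → A →+* ℂ)
    (lam_smul : ∀ i (x : G.Λ) m, lam i (x • m) = psi i x * lam i m)
    (lam_act : ∀ i (x : A) m, lam i (act x m) = χ i x * lam i m)
    (sep : ∀ m : M, (∀ i, lam i m = 0) → m = 0)
    {Δ : Type} [CommGroup Δ] [Finite Δ] (hΔ : IsPGroup p Δ) (hcard : Nat.card Δ = ∏ k, p ^ a k)
    (κ : Δ →* A) (δ : Fin r → Δ)
    (hκ : ∀ k, κ (δ k) ^ p ^ a k = 1) (h1 : ∀ i k, psi i (G.d k) = 1 → χ i (κ (δ k)) = 1)
    (h2 : ∀ i k, psi i (G.d k) ≠ 1 → χ i (κ (δ k)) ≠ 1) :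
    ∃ b : Fin (Module.finrank G.Λ M) → M, Function.Bijective
      (fun u : Fin (Module.finrank G.Λ M) → MonoidAlgebra 𝒪 Δ =>
        ∑ i, act (MonoidAlgebra.lift 𝒪 A Δ κ (u i)) (b i)) := by
  classical
  let e : Module.Basis (Fin (Module.finrank G.Λ M)) G.Λ M := Module.finBasis G.Λ M
  -- `M` as an `𝒪`-module
  let _ : Module 𝒪 M := Module.compHom M (algebraMap 𝒪 G.Λ)
  have htow : IsScalarTower 𝒪 G.Λ M := ⟨fun x y z => by
    rw [Algebra.smul_def, mul_smul]; rfl⟩
  have hfinM : Module.Finite 𝒪 M := Module.Finite.trans G.Λ M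
  have hfreeM : Module.Free 𝒪 M := Module.Free.trans (S := G.Λ)
  have hrank : Module.finrank 𝒪 M = (∏ k, p ^ a k) * Module.finrank G.Λ M := by
    rw [← Module.finrank_mul_finrank 𝒪 G.Λ M, G.finrank_eq]
  -- `M` as a module over the group ring
  let S := MonoidAlgebra 𝒪 Δ
  have hSfin : Module.Finite 𝒪 S := Patch.finite_groupRing
  have hSloc : IsLocalRing S := Patch.isLocalRing_groupRing p hp𝒪 hΔ
  let L : S →ₐ[𝒪] A := MonoidAlgebra.lift 𝒪 A Δ κ
  let Θ : S →+* Module.End G.Λ M := act.comp (L : S →+* A)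
  let _ : Module S M := Module.compHom M Θ
  have hsm : ∀ (x : S) (m : M), x • m = act (L x) m := fun x m => rfl
  have htow2 : IsScalarTower 𝒪 S M := ⟨fun x y z => by
    rw [hsm, map_smul, Algebra.smul_def, map_mul, hact]
    rfl⟩
  have hfinS : Module.Finite S M := Module.Finite.of_restrictScalars_finite 𝒪 S M
  -- the span of the basis
  let N : Submodule S M := Submodule.span S (Set.range e)
  have hδ : ∀ k, L (MonoidAlgebra.of 𝒪 Δ (δ k)) = κ (δ k) := fun k =>
    MonoidAlgebra.lift_of κ (δ k)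
  have hmem : ∀ k, MonoidAlgebra.of 𝒪 Δ (δ k) - 1 ∈ maximalIdeal S := by
    intro k
    have hloc := Patch.isLocalHom_aug (𝒪 := 𝒪) p hp𝒪 hΔ
    rw [mem_maximalIdeal, mem_nonunits_iff]
    intro hu
    have h3 := hu.map (Patch.aug 𝒪 Δ)
    rw [map_sub, Patch.aug_of, map_one, sub_self] at h3
    exact not_isUnit_zero h3
  have hrange : ∀ k (m : M), (G.d k - 1) • m ∈ maximalIdeal S • (⊤ : Submodule S M) := by
    intro k m
    obtain ⟨m', hm'⟩ := kappa_range G hpA act hact lam psi χ lam_smul lam_act sep (ha k) (hκ k)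
      (fun i => h1 i k) (fun i => h2 i k) m
    have h3 : act (κ (δ k) - 1) m' = (MonoidAlgebra.of 𝒪 Δ (δ k) - 1 : S) • m' := by
      have h4 : L (MonoidAlgebra.of 𝒪 Δ (δ k) - 1 : S) = κ (δ k) - 1 := by
        rw [map_sub, map_one, hδ]
      rw [hsm, h4]
    rw [hm', h3]
    exact Submodule.smul_mem_smul (hmem k) trivial
  have hideal : ∀ x ∈ Ideal.span (Set.range fun i ↦ G.d i - 1), ∀ m : M,
      x • m ∈ maximalIdeal S • (⊤ : Submodule S M) := by
    intro x hx
    refine Submodule.span_induction (p := fun x _ => ∀ m : M,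
      x • m ∈ maximalIdeal S • (⊤ : Submodule S M)) ?_ ?_ ?_ ?_ hx
    · rintro _ ⟨k, rfl⟩ m
      exact hrange k m
    · intro m
      rw [zero_smul]; exact Submodule.zero_mem _
    · intro x y _ _ hx hy m
      rw [add_smul]; exact Submodule.add_mem _ (hx m) (hy m)
    · intro c x _ hx m
      rw [smul_eq_mul, mul_comm, mul_smul]
      exact hx _
  have hle : (⊤ : Submodule S M) ≤ N ⊔ maximalIdeal S • (⊤ : Submodule S M) := by
    intro m _
    rw [← e.sum_repr m]
    refine Submodule.sum_mem _ fun i _ => ?_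
    set x := e.repr m i with hx
    have h3 : x - algebraMap 𝒪 G.Λ (G.aug x) ∈ Ideal.span (Set.range fun i ↦ G.d i - 1) := by
      apply G.ker_aug
      rw [map_sub, AlgHom.commutes]
      exact sub_self _
    have h4 : x • e i = (algebraMap 𝒪 G.Λ (G.aug x)) • e i + (x - algebraMap 𝒪 G.Λ (G.aug x)) • e i := by
      rw [← add_smul]; congr 1; ring
    rw [h4]
    refine Submodule.add_mem_sup ?_ (hideal _ h3 _)
    have h5 : (algebraMap 𝒪 G.Λ (G.aug x)) • e i = (algebraMap 𝒪 S (G.aug x)) • e i := by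
      rw [algebraMap_smul, algebraMap_smul]
    rw [h5]
    exact Submodule.smul_mem _ _ (Submodule.subset_span ⟨i, rfl⟩)
  have hN : N = ⊤ := by
    rw [eq_top_iff]
    exact Submodule.le_of_le_smul_of_le_jacobson_bot (I := maximalIdeal S) Module.Finite.fg_top
      (IsLocalRing.maximalIdeal_le_jacobson _) hle
  -- the map
  let F : (Fin (Module.finrank G.Λ M) → S) →ₗ[S] M := Fintype.linearCombination S e
  have hF : ∀ u, F u = ∑ i, act (L (u i)) (e i) := fun u => by
    simp only [F, Fintype.linearCombination_apply, hsm]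
  have hsurj : Function.Surjective F := by
    rw [← LinearMap.range_eq_top, Fintype.range_linearCombination]
    exact hN
  let F' : (Fin (Module.finrank G.Λ M) → S) →ₗ[𝒪] M := F.restrictScalars 𝒪
  have hSfree : Module.Free 𝒪 S := Module.Free.of_equiv
    (MonoidAlgebra.coeffLinearEquiv (M := Δ) (S := 𝒪) 𝒪).symm
  have hSrank : Module.finrank 𝒪 S = Nat.card Δ := by
    have := Fintype.ofFinite Δ
    rw [LinearEquiv.finrank_eq (MonoidAlgebra.coeffLinearEquiv (M := Δ) (S := 𝒪) 𝒪),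
      Module.finrank_finsupp_self, Nat.card_eq_fintype_card]
  have hrk : Module.finrank 𝒪 (Fin (Module.finrank G.Λ M) → S) = Module.finrank 𝒪 M := by
    rw [Module.finrank_pi_fintype, hrank, hSrank, hcard]
    simp [mul_comm]
  let E : (Fin (Module.finrank G.Λ M) → S) ≃ₗ[𝒪] M := LinearEquiv.ofFinrankEq _ _ hrk
  have hinj : Function.Injective F' := by
    have h3 : Function.Surjective (E.symm.toLinearMap ∘ₗ F') := by
      intro y
      obtain ⟨x, hx⟩ := hsurj (E y)
      refine ⟨x, ?_⟩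
      show E.symm (F x) = y
      rw [hx, LinearEquiv.symm_apply_apply]
    have h4 := OrzechProperty.injective_of_surjective_endomorphism _ h3
    intro x y hxy
    apply h4
    show E.symm (F' x) = E.symm (F' y)
    rw [hxy]
  refine ⟨e, ?_⟩
  have hFF : (fun u : Fin (Module.finrank G.Λ M) → MonoidAlgebra 𝒪 Δ =>
        ∑ i, act (MonoidAlgebra.lift 𝒪 A Δ κ (u i)) (e i)) = F := by
    funext u
    exact (hF u).symm
  rw [hFF]
  exact ⟨hinj, hsurj⟩

end

end Fermat.Agent.LL
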