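import Fermat.Agent.LL.Blocks
import Fermat.Agent.LL.Unip
import Fermat.Agent.Pts.Ramified
import Fermat.Agent.Ihara.NonEis
import Fermat.Agent.ECRep.FrobAll
import Fermat.Agent.ECRep.Odd
import Fermat.Agent.Wiring.FreyModel

set_option autoImplicit false

/-!
# The residual representation of the Frey curve (block FREYRES)
-/

open Polynomial Matrix WeierstrassCurve Fermat.Agent.ECRep
open scoped WeierstrassCurve.Affine TensorProduct

namespace Fermat.Agent.LL

local notation "Γℚ" => (AlgebraicClosure ℚ ≃ₐ[ℚ] AlgebraicClosure ℚ)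
local notation "Qb" => AlgebraicClosure ℚ

section Submodule

variable {K M : Type*} [Field K] [AddCommGroup M] [Module K M] {Γ : Type*} [Group Γ]

/-- A stable line gives an eigenvector. -/
theorem exists_eigenvector (b : Module.Basis (Fin 2) K M) (ρ : Γ →* Module.End K M)
    (V : Submodule K M) (hb : V ≠ ⊥) (ht : V ≠ ⊤) :
    ∃ w : Fin 2 → K, w ≠ 0 ∧ ∀ g, (∀ x ∈ V, ρ g x ∈ V) →
      ∃ c : K, LinearMap.toMatrix b b (ρ g) *ᵥ w = c • w := by
  haveI : Module.Finite K M := Module.Finite.of_basis b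
  have hfr : Module.finrank K M = 2 := by rw [Module.finrank_eq_card_basis b, Fintype.card_fin]
  have h1 : Module.finrank K V = 1 := by
    have h2 : Module.finrank K V < 2 := hfr ▸ Submodule.finrank_lt ht
    have h3 : Module.finrank K V ≠ 0 := fun h => hb (Submodule.finrank_eq_zero.mp h)
    omega
  obtain ⟨x, hx0, hx⟩ := finrank_eq_one_iff'.mp h1
  refine ⟨b.repr x, ?_, ?_⟩
  · intro h
    apply hx0
    apply Subtype.ext
    apply b.repr.injective
    rw [Submodule.coe_zero, map_zero]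
    exact DFunLike.coe_injective h
  · intro g hg
    obtain ⟨c, hc⟩ := hx ⟨ρ g x, hg x x.2⟩
    refine ⟨c, ?_⟩
    rw [LinearMap.toMatrix_mulVec_repr]
    have h4 : ρ g x = c • (x : M) := congrArg Subtype.val hc.symm
    rw [h4, map_smul]
    rfl

end Submodule

section Rep

variable {l : ℕ} [hl : Fact l.Prime] (ρ : ResidualGaloisRep (ZMod l))

/-- A basis of the representation space. -/
noncomputable def rb : Module.Basis (Fin 2) (ZMod l) ρ.V :=
  Module.finBasisOfFinrankEq _ _ ρ.finrank_eq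

/-- The matrix representation. -/
noncomputable def rm : Γℚ →* Matrix (Fin 2) (Fin 2) (ZMod l) :=
  ((LinearMap.toMatrixAlgEquiv (rb ρ)).toAlgHom.toMonoidHom).comp ρ.ρ

theorem rm_apply (σ : Γℚ) : rm ρ σ = LinearMap.toMatrix (rb ρ) (rb ρ) (ρ.ρ σ) := rfl

theorem sq_zero_of_nilpotent {F : Type*} [Field F] {N : Matrix (Fin 2) (Fin 2) F} {n : ℕ}
    (h : N ^ n = 0) : N * N = 0 := by
  have h1 : IsNilpotent (Matrix.toLin' N) := ⟨n, by rw [← Matrix.toLin'_pow, h, map_zero]⟩
  have h2 := h1.charpoly_eq_X_pow_finrank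
  rw [Module.finrank_fin_fun] at h2
  have h3 := LinearMap.aeval_self_charpoly (Matrix.toLin' N)
  rw [h2, map_pow, aeval_X, ← Matrix.toLin'_pow, LinearEquiv.map_eq_zero_iff, pow_two] at h3
  exact h3

theorem rm_unipotent {σ : Γℚ} (hσ : ρ.ρ σ ^ l = 1) : (rm ρ σ - 1) * (rm ρ σ - 1) = 0 := by
  apply sq_zero_of_nilpotent (n := l)
  rw [sub_pow_char_of_commute l (Commute.one_right _), one_pow, ← map_pow, rm_apply,
    map_pow, hσ, LinearMap.toMatrix_one, sub_self]

theorem rm_ne_one {σ : Γℚ} (hσ : ρ.ρ σ ≠ 1) : rm ρ σ ≠ 1 := by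
  intro h
  apply hσ
  apply (LinearMap.toMatrix (rb ρ) (rb ρ)).injective
  rw [LinearMap.toMatrix_one]
  exact h

theorem rm_irr (hirr : ρ.IsIrreducible) (v : Fin 2 → ZMod l) (hv : v ≠ 0) :
    ∃ γ, ∀ c : ZMod l, rm ρ γ *ᵥ v ≠ c • v := by
  by_contra hcon
  push Not at hcon
  choose c hc using hcon
  set x : ρ.V := (rb ρ).equivFun.symm v with hx
  have hx0 : x ≠ 0 := by
    rw [hx, Ne, LinearEquiv.map_eq_zero_iff]
    exact hv
  have hrep : ⇑((rb ρ).repr x) = v := by
    have : (rb ρ).equivFun x = v := by rw [hx, LinearEquiv.apply_symm_apply]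
    exact this
  have hρ : ∀ σ, ρ.ρ σ x = c σ • x := by
    intro σ
    apply (rb ρ).repr.injective
    apply DFunLike.coe_injective
    rw [map_smul]
    have h1 := LinearMap.toMatrix_mulVec_repr (rb ρ) (rb ρ) (ρ.ρ σ) x
    rw [hrep, ← rm_apply, hc σ] at h1
    rw [← h1, ← hrep]
    rfl
  rcases hirr (Submodule.span (ZMod l) {x}) (by
    intro σ y hy
    obtain ⟨d, rfl⟩ := Submodule.mem_span_singleton.mp hy
    rw [map_smul, hρ]
    exact Submodule.smul_mem _ _ (Submodule.smul_mem _ _ (Submodule.mem_span_singleton_self x)))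
    with h | h
  · exact hx0 (Submodule.span_singleton_eq_bot.mp h)
  · have h1 : Module.finrank (ZMod l) (Submodule.span (ZMod l) {x}) ≤ 1 := by
      refine (finrank_span_le_card _).trans ?_
      simp
    rw [h, finrank_top, ρ.finrank_eq] at h1
    omega

variable (k : Type) [Field k] [Algebra (ZMod l) k] (K : Type) [Field K] [Algebra k K]

/-- Irreducibility of the restriction to normal subgroups over any extension. -/
theorem irr_of_transvection (hirr : ρ.IsIrreducible) (h2 : l ≠ 2) {σ : Γℚ} (hσ : ρ.ρ σ ^ l = 1)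
    (hσ1 : ρ.ρ σ ≠ 1) (G : Subgroup Γℚ) (hG : ∀ γ, γ * σ ^ 2 * γ⁻¹ ∈ G)
    (V : Submodule K ((ρ.baseChange k).baseChange K).V)
    (hV : ∀ τ ∈ G, ∀ x ∈ V, ((ρ.baseChange k).baseChange K).ρ τ x ∈ V) : V = ⊥ ∨ V = ⊤ := by
  letI : Algebra (ZMod l) K := ((algebraMap k K).comp (algebraMap (ZMod l) k)).toAlgebra
  by_contra hcon
  push Not at hcon
  let b' : Module.Basis (Fin 2) K ((ρ.baseChange k).baseChange K).V :=
    Algebra.TensorProduct.basis K (Algebra.TensorProduct.basis k (rb ρ))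
  obtain ⟨w, hw, hw2⟩ := exists_eigenvector b' ((ρ.baseChange k).baseChange K).ρ V hcon.1 hcon.2
  have h2' : (2 : ZMod l) ≠ 0 := by
    intro h
    have h1 : ((2 : ℕ) : ZMod l) = 0 := by exact_mod_cast h
    rw [ZMod.natCast_eq_zero_iff] at h1
    exact h2 ((Nat.prime_dvd_prime_iff_eq hl.out Nat.prime_two).mp h1)
  refine false_of_eigenvector (K := K) h2' (rm ρ) (rm_irr ρ hirr) (rm_unipotent ρ hσ)
    (rm_ne_one ρ hσ1) G hG hw (fun g hg => ?_)
  obtain ⟨c, hc⟩ := hw2 g (hV g hg)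
  refine ⟨c, ?_⟩
  rw [← hc]
  congr 1
  have h3 : LinearMap.toMatrix b' b' (((ρ.baseChange k).baseChange K).ρ g) =
      ((LinearMap.toMatrix (rb ρ) (rb ρ) (ρ.ρ g)).map (algebraMap (ZMod l) k)).map
        (algebraMap k K) := by
    have h4 := LinearMap.toMatrix_baseChange (A := k) (ρ.ρ g) (rb ρ) (rb ρ)
    have h5 := LinearMap.toMatrix_baseChange (A := K) ((ρ.ρ g).baseChange k)
      (Algebra.TensorProduct.basis k (rb ρ)) (Algebra.TensorProduct.basis k (rb ρ))
    rw [h4] at h5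
    exact h5
  rw [h3, rm_apply, Matrix.map_map]
  rfl

end Rep

section BaseChange

variable {l : ℕ} [hl : Fact l.Prime] (ρ : ResidualGaloisRep (ZMod l))
variable (k : Type) [Field k] [Algebra (ZMod l) k]

theorem baseChange_eq_one_iff (σ : Γℚ) : (ρ.baseChange k).ρ σ = 1 ↔ ρ.ρ σ = 1 := by
  constructor
  · intro h
    apply (LinearMap.toMatrix (rb ρ) (rb ρ)).injective
    have h4 := LinearMap.toMatrix_baseChange (A := k) (ρ.ρ σ) (rb ρ) (rb ρ)
    have h5 : (ρ.ρ σ).baseChange k = 1 := h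
    rw [h5, LinearMap.toMatrix_one] at h4
    rw [LinearMap.toMatrix_one]
    have h6 : (1 : Matrix (Fin 2) (Fin 2) (ZMod l)).map (algebraMap (ZMod l) k) = 1 :=
      map_one ((algebraMap (ZMod l) k).mapMatrix)
    rw [← h6] at h4
    exact (Matrix.map_injective (algebraMap (ZMod l) k).injective h4).symm
  · intro h
    change (ρ.ρ σ).baseChange k = 1
    rw [h, LinearMap.baseChange_one]

theorem det_baseChange (σ : Γℚ) : LinearMap.det ((ρ.baseChange k).ρ σ) =
    algebraMap (ZMod l) k (LinearMap.det (ρ.ρ σ)) :=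
  LinearMap.det_baseChange (ρ.ρ σ)

theorem charpoly_baseChange (σ : Γℚ) : LinearMap.charpoly ((ρ.baseChange k).ρ σ) =
    (LinearMap.charpoly (ρ.ρ σ)).map (algebraMap (ZMod l) k) :=
  LinearMap.charpoly_baseChange (ρ.ρ σ) k

end BaseChange

section Model

variable {l : ℕ} [hl : Fact l.Prime]

/-- Isomorphic curves have the same residual characteristic polynomials. -/
theorem charpoly_resRep_smul {E E' : WeierstrassCurve ℚ} (C : VariableChange ℚ) (hC : C • E = E')
    (hE : E.Δ ≠ 0) (hE' : E'.Δ ≠ 0) (σ : Γℚ) :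
    LinearMap.charpoly ((resRep E' l hE').ρ σ) = LinearMap.charpoly ((resRep E l hE).ρ σ) := by
  subst hC
  obtain ⟨e, he⟩ := Ihara.exists_torEquiv E C l
  let e' : (resRep (C • E) l hE').V ≃ₗ[ZMod l] (resRep E l hE).V :=
    { e.toAddMonoidHom.toZModLinearMap l with
      invFun := e.symm
      left_inv := e.symm_apply_apply
      right_inv := e.apply_symm_apply }
  have h : (resRep E l hE).ρ σ = e'.conj ((resRep (C • E) l hE').ρ σ) := by
    refine LinearMap.ext fun v => ?_
    rw [LinearEquiv.conj_apply_apply]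
    obtain ⟨w, rfl⟩ := e'.surjective v
    rw [LinearEquiv.symm_apply_apply]
    exact (he σ w).symm
  rw [h, LinearEquiv.charpoly_conj]

end Model

section Frey

variable (P : FreyPackage)

theorem not_dvd_padicValInt : ¬ P.p ∣ padicValInt 2 P.freyCurveInt.Δ := by
  intro h
  haveI : Fact (Nat.Prime 2) := ⟨Nat.prime_two⟩
  have h1 := congrArg (padicValInt 2) (Wiring.freyCurveInt_Δ P)
  have h8 : padicValInt 2 ((2 : ℤ) ^ 8) = 8 := by
    rw [padicValInt, Int.natAbs_pow]
    exact padicValNat.prime_pow 8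
  have h9 : padicValInt 2 ((P.a * P.b * P.c) ^ (2 * P.p)) =
      (2 * P.p) * padicValInt 2 (P.a * P.b * P.c) := by
    rw [padicValInt, Int.natAbs_pow, padicValNat.pow]
    rfl
  rw [padicValInt.mul (by norm_num) (Wiring.freyCurveInt_Δ_ne_zero P), h8, h9] at h1
  have h2 : P.p ∣ 8 := by
    have h3 : P.p ∣ 8 + padicValInt 2 P.freyCurveInt.Δ := by
      rw [h1, mul_comm 2, mul_assoc]
      exact dvd_mul_right _ _
    exact (Nat.dvd_add_left h).mp h3
  have h4 : P.p ∣ 2 ^ 3 := h2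
  have h5 := (Nat.prime_dvd_prime_iff_eq P.pp Nat.prime_two).mp (P.pp.dvd_of_dvd_pow h4)
  have := P.hp5
  omega

local instance : Fact P.p.Prime := ⟨P.pp⟩

theorem frey_Δ_ne_zero : (toRat P.freyCurveInt).Δ ≠ 0 :=
  toRat_Δ_ne_zero (Wiring.freyCurveInt_Δ_ne_zero P)

/-- The residual representation over the prime field. -/
noncomputable def rho0 : ResidualGaloisRep (ZMod P.p) :=
  resRep (toRat P.freyCurveInt) P.p (frey_Δ_ne_zero P)

theorem rho0_irr (hirr : WeierstrassCurve.Affine.Point.GaloisRepIsIrreducible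
    (K := AlgebraicClosure ℚ) ℚ P.freyCurve P.p) : (rho0 P).IsIrreducible := by
  rw [← Wiring.freyCurveInt_map] at hirr
  intro V hV
  exact hirr.2 V (fun σ x hx => hV σ x hx)

theorem exists_transvection : ∃ σ : Γℚ, (rho0 P).ρ σ ^ P.p = 1 ∧ (rho0 P).ρ σ ≠ 1 := by
  have hp5 := P.hp5
  obtain ⟨A, hA⟩ := Frob.exists_liesOverPrime Qb Nat.prime_two
  obtain ⟨σ, -, hσ⟩ := Pts.exists_inertia_order (p := P.p) (W := P.freyCurveInt) (by omega)
    (Wiring.freyCurveInt_Δ_ne_zero P) Nat.prime_two (by omega)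
    (Wiring.two_dvd_freyCurveInt_Δ P)
    (Wiring.freyCurveInt_isSemistableModel P 2 Nat.prime_two (Wiring.two_dvd_freyCurveInt_Δ P))
    (not_dvd_padicValInt P) hA
  refine ⟨σ, ?_, ?_⟩
  · have h1 : Pts.permT P.freyCurveInt P.p (σ ^ P.p) = 1 := by
      have h0 := pow_orderOf_eq_one (Pts.permT P.freyCurveInt P.p σ)
      rw [hσ] at h0
      rw [map_pow, h0]
    rw [← map_pow]
    refine LinearMap.ext fun v => ?_
    exact Equiv.congr_fun h1 v
  · intro h
    have h1 : Pts.permT P.freyCurveInt P.p σ = 1 := by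
      apply Equiv.ext
      intro v
      exact LinearMap.congr_fun h v
    rw [h1, orderOf_one] at hσ
    omega

theorem inertia_iff (q : ℕ) : (rho0 P).IsUnramifiedAt q ↔ P.GaloisRepUnramifiedAt q := by
  have h : ∀ (E : WeierstrassCurve ℚ) (hE : toRat P.freyCurveInt = E),
      ((rho0 P).IsUnramifiedAt q ↔ WeierstrassCurve.Affine.Point.GaloisRepUnramifiedAt
        (K := AlgebraicClosure ℚ) ℚ E P.p q) := by
    rintro E rfl
    constructor
    · intro h A hA σ hσ x
      exact LinearMap.congr_fun (h A hA σ hσ) x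
    · intro h A hA σ hσ
      refine LinearMap.ext fun x => ?_
      exact h A hA σ hσ x
  exact h _ (Wiring.freyCurveInt_map P)

/-- **Block FREYRES**. -/
theorem freyRes : FreyResStmt := by
  intro P hp hirr k _ _ hsplit
  haveI : Fact P.p.Prime := ⟨P.pp⟩
  letI : Algebra (ZMod P.p) k := ZMod.algebra k P.p
  have hirr0 := rho0_irr P hirr
  obtain ⟨σ, hσ, hσ1⟩ := exists_transvection P
  have hp2 : P.p ≠ 2 := by omega
  have hΔ := Wiring.freyCurveInt_Δ_ne_zero P
  refine ⟨(rho0 P).baseChange k, ?_, ?_, ?_, ?_, ?_, ?_, ?_⟩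
  · intro V hV
    exact irr_of_transvection (rho0 P) k (AlgebraicClosure k) hirr0 hp2 hσ hσ1 ⊤
      (fun _ => Subgroup.mem_top _) V (fun τ _ x hx => hV τ x hx)
  · intro c hc hc1
    rw [det_baseChange, rho0, resRep_isOdd _ _ hΔ c hc hc1, map_neg, map_one]
  · refine detIsCyclotomic_ofResidual P.p _ (fun τ a ha => ?_)
    rw [det_baseChange, rho0, det_resRep_eq _ _ hΔ τ a ha, map_natCast]
  · intro τ
    obtain ⟨α, β, h⟩ := hsplit
      ((LinearMap.trace (ZMod P.p) (rho0 P).V ((rho0 P).ρ τ)).val : ℤ)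
      ((LinearMap.det ((rho0 P).ρ τ)).val : ℤ)
    refine ⟨α, β, ?_⟩
    rw [charpoly_baseChange, Cheb.charpoly_eq (rho0 P).finrank_eq, ← h]
    have hval : ∀ a : ZMod P.p, algebraMap (ZMod P.p) k a = ((a.val : ℤ) : k) := by
      intro a
      conv_lhs => rw [← ZMod.natCast_zmod_val a]
      rw [map_natCast, Int.cast_natCast]
    simp only [Polynomial.map_add, Polynomial.map_sub, Polynomial.map_mul, Polynomial.map_pow,
      Polynomial.map_X, Polynomial.map_C, hval]
  · intro K _ _ G hG V hV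
    haveI := Subgroup.normal_of_index_eq_two hG
    exact irr_of_transvection (rho0 P) k K hirr0 hp2 hσ hσ1 G
      (fun γ => this.conj_mem _ (Subgroup.sq_mem_of_index_two hG σ) γ) V hV
  · intro q hq
    rw [← inertia_iff]
    constructor
    · intro h A hA τ hτ
      exact (baseChange_eq_one_iff (rho0 P) k τ).mp (h A hA τ hτ)
    · intro h A hA τ hτ
      exact (baseChange_eq_one_iff (rho0 P) k τ).mpr (h A hA τ hτ)
  · intro W hW ℓ hℓ hg hℓp A hA τ hτ
    obtain ⟨C, hC⟩ := hW
    rw [← Wiring.freyCurveInt_map] at hC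
    have hΔW : W.Δ ≠ 0 := by
      intro h0
      have h1 := congrArg WeierstrassCurve.Δ hC
      rw [variableChange_Δ, map_Δ W, h0, map_zero] at h1
      have h3 : (C.u⁻¹ : ℚˣ) ≠ (0 : ℚ) := C.u⁻¹.ne_zero
      exact (mul_ne_zero (pow_ne_zero _ h3) (frey_Δ_ne_zero P)) h1
    have h1 := charpoly_resRep_smul (l := P.p) C hC (frey_Δ_ne_zero P) (toRat_Δ_ne_zero hΔW) τ
    rw [charpoly_baseChange, rho0, ← h1, charpoly_frob_res W hΔW hℓ hℓp hA hg hτ]
    simp only [Polynomial.map_add, Polynomial.map_sub, Polynomial.map_mul, Polynomial.map_pow,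
      Polynomial.map_X, map_intCast, map_natCast, Polynomial.map_intCast, Polynomial.map_natCast]

end Frey

end Fermat.Agent.LL
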