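import Fermat.Agent.LL.GalSide
import Fermat.Agent.LL.GlueP

set_option autoImplicit false

/-!
# The Galois side of level lowering: construction of the patching datum
-/

open IsLocalRing GaloisRep Polynomial

namespace Fermat.Agent.LL

open Fermat.Agent.DefRing Fermat.Agent

local notation "Γℚ" => (AlgebraicClosure ℚ ≃ₐ[ℚ] AlgebraicClosure ℚ)
local notation "M₂" => Matrix (Fin 2) (Fin 2)
local notation "Qb" => AlgebraicClosure ℚ

variable {𝒪 : Type} [CommRing 𝒪] [IsDomain 𝒪] [IsDiscreteValuationRing 𝒪]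
  [IsAdicComplete (maximalIdeal 𝒪) 𝒪] [Finite (ResidueField 𝒪)]

theorem minor_of_comm {A : Type*} [CommRing A] (h2 : ∀ x : A, 2 * x = 0 → x = 0)
    {M N : M₂ A} (h : M * N = N * M) {f s : Fin 3 → A}
    (hf0 : 2 * f 0 = M 0 0 - M 1 1) (hf1 : f 1 = M 0 1) (hf2 : f 2 = M 1 0)
    (hs0 : 2 * s 0 = N 0 0 - N 1 1) (hs1 : s 1 = N 0 1) (hs2 : s 2 = N 1 0) (i j : Fin 3) :
    f i * s j - f j * s i = 0 := by
  have e00 := congrFun (congrFun h 0) 0
  have e01 := congrFun (congrFun h 0) 1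
  have e10 := congrFun (congrFun h 1) 0
  rw [Matrix.mul_apply, Matrix.mul_apply, Fin.sum_univ_two, Fin.sum_univ_two] at e00 e01 e10
  have h12 : f 1 * s 2 - f 2 * s 1 = 0 := by
    rw [hf1, hs2, hf2, hs1]; linear_combination e00
  have h01 : f 0 * s 1 - f 1 * s 0 = 0 := by
    apply h2
    rw [hf1, hs1]; linear_combination e01 + N 0 1 * hf0 - M 0 1 * hs0
  have h02 : f 0 * s 2 - f 2 * s 0 = 0 := by
    apply h2
    rw [hf2, hs2]; linear_combination -e10 + N 1 0 * hf0 - M 1 0 * hs0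
  fin_cases i <;> fin_cases j
  · show f 0 * s 0 - f 0 * s 0 = 0
    ring
  · exact h01
  · exact h02
  · show f 1 * s 0 - f 0 * s 1 = 0
    linear_combination -h01
  · show f 1 * s 1 - f 1 * s 1 = 0
    ring
  · exact h12
  · show f 2 * s 0 - f 0 * s 2 = 0
    linear_combination -h02
  · show f 2 * s 1 - f 1 * s 2 = 0
    linear_combination -h12
  · show f 2 * s 2 - f 2 * s 2 = 0
    ring

theorem disc_eq {A : Type*} [CommRing A] {u : A} (hu : u * 2 = 1) {M : M₂ A} {f : Fin 3 → A}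
    (hf0 : 2 * f 0 = M 0 0 - M 1 1) (hf1 : f 1 = M 0 1) (hf2 : f 2 = M 1 0) :
    f 0 ^ 2 + f 1 * f 2 = (u * M.trace) ^ 2 - M.det := by
  have h1 : f 0 = u * (M 0 0 - M 1 1) := by rw [← hf0, ← mul_assoc, hu, one_mul]
  rw [hf1, hf2, h1, Matrix.trace_fin_two, Matrix.det_fin_two]
  linear_combination (-(M 0 0 * M 1 1) * (u * 2 + 1)) * hu

set_option maxHeartbeats 4000000 in
theorem autOut_datum {p : ℕ} [hpp : Fact p.Prime] (hp2 : p ≠ 2) (hp𝒪 : (p : 𝒪) ∈ maximalIdeal 𝒪)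
    {PC : TW.LCond} (hPC : GlueStable p PC)
    {j : 𝒪 →+* ℂ} (hj : Function.Injective j) {ρbar : ResidualGaloisRep (ResidueField 𝒪)}
    (habs : ρbar.IsAbsolutelyIrreducible)
    (hcyc : (GaloisRepAdic.ofResidualGaloisRep ρbar).DetIsCyclotomic p)
    {ϖ : 𝒪} {Smin T : Finset ℕ} (hpS : p ∈ Smin)
    (hSmin : ∀ q : ℕ, q.Prime → q ≠ p → (q ∈ Smin ↔ ¬ ρbar.IsUnramifiedAt q))
    (hT : ∀ l ∈ T, l.Prime ∧ l ∉ Smin ∧ p ∣ l - 1)
    (L : ∀ l : T, LocGen (l : ℕ) p) (t₀ : T) {g n : ℕ} {qv : Fin (3 * T.card + g) → ℕ}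
    (hq : ∀ i, (qv i).Prime ∧ qv i ∉ Smin ∧ p ^ (n + 1) ∣ qv i - 1)
    (hfr : ∀ i, ∀ P : ValuationSubring Qb, P.LiesOverPrime (qv i) →
      ∀ σ : Γℚ, P.IsFrobeniusAt σ (qv i) → ∃ α β : ResidueField 𝒪, α ≠ β ∧
        LinearMap.charpoly (ρbar.ρ σ) = (X - C α) * (X - C β))
    (hgen : ∀ (A : Type) [CommRing A] [IsLocalRing A] [IsNoetherianRing A]
      [IsAdicComplete (maximalIdeal A) A] [Algebra 𝒪 A] [IsLocalHom (algebraMap 𝒪 A)],
      Function.Surjective (residue A ∘ algebraMap 𝒪 A) →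
    ∀ ρ : GaloisRepAdic A,
      TW.CondType 𝒪 p Smin PC (T ∪ Finset.univ.image qv) ρ →
      ρ.residual.IsEquiv (ρbar.baseChangeAlong (ResidueField.map (algebraMap 𝒪 A))) →
      (∀ (B : Type) [CommRing B] [IsLocalRing B] [Algebra 𝒪 B] (f g : A →ₐ[𝒪] B)
        (hf : IsLocalHom (f : A →+* B)) (hg : IsLocalHom (g : A →+* B)),
        (ρ.baseChangeAlong (f : A →+* B) hf).IsEquiv (ρ.baseChangeAlong (g : A →+* B) hg) →
        f = g) →
    ∀ r : Γℚ → Matrix (Fin 2) (Fin 2) A, Realizes ρ r →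
      ∃ γ : MvPowerSeries ((T × Bool × Fin 3) ⊕ Fin g) 𝒪 →ₐ[𝒪] A, Function.Surjective γ ∧
        ∀ (l : T) (b : Bool), let m := r (if b then (L l).τ else (L l).φ);
          2 * γ (MvPowerSeries.X (Sum.inl (l, b, 0))) = m 0 0 - m 1 1 ∧
          γ (MvPowerSeries.X (Sum.inl (l, b, 1))) = m 0 1 ∧
          γ (MvPowerSeries.X (Sum.inl (l, b, 2))) = m 1 0)
    {S : Finset ℕ} {D : ℕ} (W : AutOutP p j ρbar PC ϖ Smin T qv S D) {V : ℕ}
    (hV : ∀ l ∈ T, ∀ v, p ^ v ∣ l - 1 → v ≤ V) (hμ : ∀ z : ℂ, z ^ p ^ V = 1 → ∃ o : 𝒪, j o = z)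
    {u : 𝒪} (hu : u * 2 = 1) :
    Nonempty (Patch.Datum 𝒪 p T t₀ g (3 * T.card + g) ϖ (BSet (p ^ V) u)
      ((u * ((t₀ : ℕ) - 1)) ^ 2) D n) := by
  classical
  have hp : p.Prime := hpp.out
  -- finitely many functionals
  let mU : Module 𝒪 W.U.M := Module.compHom W.U.M (algebraMap 𝒪 W.G.Λ)
  let mV : Module 𝒪 W.V.M := Module.compHom W.V.M (algebraMap 𝒪 W.G.Λ)
  have tU : IsScalarTower 𝒪 W.G.Λ W.U.M := ⟨fun x y z => by
    rw [Algebra.smul_def, mul_smul]; rfl⟩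
  have tV : IsScalarTower 𝒪 W.G.Λ W.V.M := ⟨fun x y z => by
    rw [Algebra.smul_def, mul_smul]; rfl⟩
  have fU : Module.Finite 𝒪 W.U.M := Module.Finite.trans W.G.Λ W.U.M
  have fV : Module.Finite 𝒪 W.V.M := Module.Finite.trans W.G.Λ W.V.M
  obtain ⟨sU, hsU⟩ := exists_finite_sep j W.U.lam (fun i c m => by
    have h1 : W.U.psi i (algebraMap 𝒪 W.G.Λ c) = j c := RingHom.congr_fun (W.U.psi_comp i) c
    have h2 := W.U.lam_smul i (algebraMap 𝒪 W.G.Λ c) m
    rw [h1] at h2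
    exact h2) W.U.sep
  obtain ⟨sV, hsV⟩ := exists_finite_sep j W.V.lam (fun i c m => by
    have h1 : W.V.psi i (algebraMap 𝒪 W.G.Λ c) = j c := RingHom.congr_fun (W.V.psi_comp i) c
    have h2 := W.V.lam_smul i (algebraMap 𝒪 W.G.Λ c) m
    rw [h1] at h2
    exact h2) W.V.sep
  let I : Type := sU ⊕ sV
  let ev : I → ℕ → ℂ := Sum.elim (fun i => W.U.ev i) (fun i => W.V.ev i)
  let pt : ∀ i : I, Pt j ρbar S (ev i) := fun i => match i with
    | Sum.inl i => W.ptU i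
    | Sum.inr i => W.ptV i
  have hcond : ∀ i, TW.CondType 𝒪 p Smin PC
      (T ∪ Finset.univ.image qv) (pt i).ρ := fun i => match i with
    | Sum.inl i => W.condU i
    | Sum.inr i => W.condV i
  have hne : Nonempty sU := by
    by_contra hcon
    rw [not_nonempty_iff] at hcon
    have h1 : Subsingleton W.U.M := ⟨fun x y => by
      have h2 : ∀ m : W.U.M, m = 0 := fun m => hsU m fun i hi => (hcon.false ⟨i, hi⟩).elim
      rw [h2 x, h2 y]⟩
    have h2 := W.rank_pos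
    rw [Module.finrank_zero_of_subsingleton] at h2
    exact lt_irrefl _ h2
  have hneI : Nonempty I := ⟨Sum.inl hne.some⟩
  -- the Hecke ring
  obtain ⟨a, hbar, ha⟩ := exists_residual_traces pt
  obtain ⟨H⟩ := nonempty_hRing pt a ha
  let t : ℕ → H.A := fun ℓ => if h : ℓ.Prime ∧ ℓ ∉ S then H.π (MvPolynomial.X ⟨ℓ, h⟩) else 0
  have ht : ∀ ℓ : PL S, t ℓ = H.π (MvPolynomial.X ℓ) := fun ℓ => dif_pos ℓ.2
  have hφt : ∀ i (ℓ : ℕ), ℓ.Prime → ℓ ∉ S → H.φ i (t ℓ) = (pt i).tr ℓ := fun i ℓ h1 h2 => by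
    have := ht ⟨ℓ, h1, h2⟩
    rw [this, H.φ_π]
  have h2k : (2 : ResidueField 𝒪) ≠ 0 := by
    intro h
    have h1 := congrArg (residue 𝒪) hu
    rw [map_mul, map_ofNat, h, mul_zero, map_one] at h1
    exact zero_ne_one h1
  obtain ⟨ρA, R, hR, hF, hres, hRi⟩ := glue ρbar h2k habs (det_complexConjugation hp hcyc) H.A
    H.res_surj S t a hbar (fun ℓ h1 h2 => by
      have := ht ⟨ℓ, h1, h2⟩
      rw [this, H.res_π]) I (fun i => (pt i).R) (fun i => (H.φ i : H.A →+* (pt i).R)) H.φ_loc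
    H.φ_inj (fun i => (pt i).ρ) (fun i ℓ hℓ hS P hP σ hσ => by
      have h1 := (pt i).frob ℓ hℓ hS P hP σ hσ
      rw [h1, ← hφt i ℓ hℓ hS]
      rfl)
  have hpA : (p : H.A) ∈ maximalIdeal H.A := by
    rw [← map_natCast (algebraMap 𝒪 H.A)]
    exact map_nonunit _ _ hp𝒪
  have hfinA : ∀ n, Finite (H.A ⧸ maximalIdeal H.A ^ n) := fun n =>
    finite_quotient_maximalIdeal_pow (𝒪 := 𝒪) H.res_surj n
  have hcondA : TW.CondType 𝒪 p Smin PC (T ∪ Finset.univ.image qv) ρA :=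
    condType_glueP hfinA (fun i n => finite_quotient_pow_of_dvr n)
      (fun i => (H.φ i : H.A →+* (pt i).R)) H.φ_loc H.φ_inj hR hRi hpA hF hPC hcond
  obtain ⟨γ, hγ, hγT⟩ := hgen H.A H.res_surj ρA hcondA hres
    (fun B _ _ _ f g hf hg h => hRing_unique H ht hF B f g hf hg h) R hR
  -- the action
  let χ : sU → H.A →+* ℂ := fun i => (pt (Sum.inl i)).ι.comp (H.φ (Sum.inl i) : H.A →+* _)
  let lam : sU → W.U.M →+ ℂ := fun i => W.U.lam i
  have sep : ∀ m, (∀ i, lam i m = 0) → m = 0 := fun m hm => hsU m fun i hi => hm ⟨i, hi⟩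
  obtain ⟨act, hact⟩ := exists_act (Λ := W.G.Λ) lam sep χ (fun x => by
    obtain ⟨f, rfl⟩ := H.π_surj x
    obtain ⟨eU, -, -, h1, -, -, -⟩ := exists_poly_act W f
    refine ⟨eU, fun i m => ?_⟩
    have h2 := h1 i m
    have h3 : χ i (H.π f) = (W.ptU i).ι
        (MvPolynomial.aeval (fun ℓ : PL S => (W.ptU i).tr ℓ) f) := by
      show (pt (Sum.inl i)).ι (H.φ (Sum.inl i) (H.π f)) = _
      rw [hRing_φ_π]
    rw [h3]
    exact h2)
  -- compatibility of the two sides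
  have hcomp : ∀ x : H.A, (∀ i : sV, H.φ (Sum.inr i) x = 0) → ∀ m : W.U.M,
      ∃ m', act x m = algebraMap 𝒪 W.G.Λ ϖ • m' := by
    intro x hx m
    obtain ⟨f, rfl⟩ := H.π_surj x
    obtain ⟨eU, eV, z, h1, h2, h3, h4⟩ := exists_poly_act W f
    have e1 : act (H.π f) m = eU m := by
      rw [← sub_eq_zero]
      apply sep
      intro i
      rw [map_sub, hact, sub_eq_zero]
      have h5 : χ i (H.π f) = (W.ptU i).ι
          (MvPolynomial.aeval (fun ℓ : PL S => (W.ptU i).tr ℓ) f) := by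
        show (pt (Sum.inl i)).ι (H.φ (Sum.inl i) (H.π f)) = _
        rw [hRing_φ_π]
      rw [h5]
      exact (h1 i m).symm
    have e2 : ∀ m, eV m = 0 := by
      intro m
      refine hsV _ fun i hi => ?_
      rw [h2]
      have h5 := hx ⟨i, hi⟩
      rw [hRing_φ_π] at h5
      have h6 : (MvPolynomial.aeval (fun ℓ : PL S => (W.ptV i).tr ℓ)) f = 0 := h5
      rw [h6, map_zero, zero_mul]
    have e3 : ∀ y, z y = 0 := by
      intro y
      obtain ⟨m, rfl⟩ := W.πV_surj y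
      rw [← h4, e2, map_zero]
    rw [e1, ← W.πU_zero, h3, e3]
  -- the Taylor-Wiles primes
  obtain ⟨rb, hrb⟩ := exists_realizesRes ρbar
  have hunr : ∀ q : ℕ, q.Prime → q ∉ Smin → ∀ P : ValuationSubring Qb, P.LiesOverPrime q →
      ∀ σ ∈ P.inertiaSubgroupIn ℚ, MI (maximalIdeal H.A) (R σ - 1) := by
    intro q hq hqS P hP σ hσ
    have hqp : q ≠ p := fun h => hqS (h ▸ hpS)
    have h1 : ρbar.IsUnramifiedAt q := by
      by_contra h
      exact hqS ((hSmin q hq hqp).mpr h)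
    exact (residual_compare hR hrb _ hres σ).2.2 (h1 P hP σ hσ)
  have hqne : ∀ k, qv k ≠ p := fun k h => (hq k).2.1 (h ▸ hpS)
  have hLqn : ∀ k, Nonempty (LocGen (qv k) p) := fun k => by
    have : Fact (qv k).Prime := ⟨(hq k).1⟩
    obtain ⟨L, -⟩ := nonempty_locGen (hq k).1 hp (hqne k)
      (CFT.Loc.smul_padicPlace_liesOverPrime (qv k) 1)
    exact ⟨L⟩
  let Lq : ∀ k, LocGen (qv k) p := fun k => (hLqn k).some
  have hkap : ∀ k, ∃ (κ κ' : H.A) (C : M₂ H.A), IsUnit C.det ∧ κ - 1 ∈ maximalIdeal H.A ∧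
      κ ^ p ^ W.a k = 1 ∧ κ * κ' = 1 ∧
      R (Lq k).τ * C = C * Matrix.diagonal ![κ, κ'] := by
    intro k
    obtain ⟨α, β, hαβ, hch⟩ := hfr k _ (Lq k).hP _ (Lq k).hφ
    refine exists_kappa hR (Lq k) hp hp2 hpA
      (fun σ hσ => hunr _ (hq k).1 (hq k).2.1 _ (Lq k).hP σ hσ)
      (det_inertia hR hp hcondA.1.1 (hq k).1 (hqne k) (Lq k).hP (Lq k).hτ)
      (α := ResidueField.map (algebraMap 𝒪 H.A) α) (β := ResidueField.map (algebraMap 𝒪 H.A) β)
      (fun h => hαβ ((ResidueField.map (algebraMap 𝒪 H.A)).injective h))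
      (residual_charpoly hR _ hres hch) (W.a_dvd k) (W.a_max k)
      (dvd_trans (dvd_pow_self p (Nat.succ_ne_zero n)) (hq k).2.2) (hq k).1.ne_zero
  choose κ κ' Cm hCm hκm hκp hκκ' hκτ using hkap
  have hak : ∀ k, n + 1 ≤ W.a k := by
    intro k
    by_contra hlt
    push Not at hlt
    exact W.a_max k (dvd_trans (pow_dvd_pow p (by omega)) (hq k).2.2)
  have hak0 : ∀ k, W.a k ≠ 0 := fun k => by have := hak k; omega
  have hpR : ∀ i, (p : (pt i).R) ∈ maximalIdeal (pt i).R := fun i => by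
    rw [← map_natCast (algebraMap 𝒪 (pt i).R)]
    exact map_nonunit _ _ hp𝒪
  have h1 : ∀ (i : sU) k, W.U.psi i (W.G.d k) = 1 → χ i (κ k) = 1 := by
    intro i k hi
    show (pt (Sum.inl i)).ι (H.φ (Sum.inl i) (κ k)) = 1
    have h3 : H.φ (Sum.inl i) (κ k) = 1 :=
      kappa_of_unramified (φ := (H.φ (Sum.inl i) : H.A →+* (pt (Sum.inl i)).R))
        (hRi (Sum.inl i)) (Lq k) (hCm k) (hκτ k) (W.unrU i k hi)
    rw [h3, map_one]
  have h2 : ∀ (i : sU) k, W.U.psi i (W.G.d k) ≠ 1 → χ i (κ k) ≠ 1 := by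
    intro i k hi h3
    apply W.ramU i k hi
    have h4 : H.φ (Sum.inl i) (κ k) = 1 := by
      apply (pt (Sum.inl i)).ι_inj
      rw [map_one]
      exact h3
    exact unipotent_of_kappa (φ := (H.φ (Sum.inl i) : H.A →+* (pt (Sum.inl i)).R))
      (H.φ_loc (Sum.inl i)) (hRi (Sum.inl i)) (Lq k) (hCm k) (hκκ' k) (hκτ k) (hq k).1 hp
      (hpR (Sum.inl i)) (fun σ hσ => hunr _ (hq k).1 (hq k).2.1 _ (Lq k).hP σ hσ) h4
  have hact𝒪 : ∀ c : 𝒪, act (algebraMap 𝒪 H.A c) =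
      algebraMap W.G.Λ _ (algebraMap 𝒪 W.G.Λ c) := by
    intro c
    refine LinearMap.ext fun m => ?_
    rw [← sub_eq_zero]
    apply sep
    intro i
    rw [map_sub, hact, sub_eq_zero, Module.algebraMap_end_apply]
    show (pt (Sum.inl i)).ι (H.φ (Sum.inl i) (algebraMap 𝒪 H.A c)) * _ = W.U.lam i _
    rw [AlgHom.commutes, W.U.lam_smul, ← RingHom.comp_apply (pt (Sum.inl i)).ι,
      (pt (Sum.inl i)).ι_comp, ← RingHom.comp_apply (W.U.psi i), W.U.psi_comp]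
  let K : DG p W.a →* H.A := dhom W.a κ hκp
  have hKd : ∀ k, K (dgen W.a k) = κ k := fun k => dhom_dgen W.a κ hκp hak0 k
  obtain ⟨b, hb⟩ := free_kappa hp𝒪 hak0 W.G (M := W.U.M) hpA act hact𝒪 lam (fun i => W.U.psi i) χ
    (fun i x m => W.U.lam_smul i x m) (fun i x m => hact x i m) sep (isPGroup_DG W.a)
    (card_DG W.a) K (dgen W.a) (fun k => by rw [hKd]; exact hκp k)
    (fun i k h => by rw [hKd]; exact h1 i k h) (fun i k h => by rw [hKd]; exact h2 i k h)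
  -- the module structure
  let mA : Module H.A W.U.M := Module.compHom W.U.M act
  have hsm : ∀ (x : H.A) (m : W.U.M), x • m = act x m := fun x m => rfl
  obtain ⟨hγm, hγgen⟩ := gen_of_surj γ hγ
  -- relations
  have h2A : ∀ x y : H.A, 2 * x = 2 * y → x = y := by
    intro x y h
    have h3 := congrArg (fun z => algebraMap 𝒪 H.A u * z) h
    simp only [← mul_assoc] at h3
    have h4 : algebraMap 𝒪 H.A u * 2 = 1 := by
      rw [← map_ofNat (algebraMap 𝒪 H.A) 2, ← map_mul, hu, map_one]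
    rwa [h4, one_mul, one_mul] at h3
  let fv : T → Bool → Fin 3 → H.A := fun l b i => γ (MvPowerSeries.X (Sum.inl (l, b, i)))
  have hfv : ∀ l b, 2 * fv l b 0 = R (if b then (L l).τ else (L l).φ) 0 0 -
        R (if b then (L l).τ else (L l).φ) 1 1 ∧
      fv l b 1 = R (if b then (L l).τ else (L l).φ) 0 1 ∧
      fv l b 2 = R (if b then (L l).τ else (L l).φ) 1 0 := fun l b => hγT l b
  have hfvφ : ∀ l, 2 * fv l false 0 = R (L l).φ 0 0 - R (L l).φ 1 1 ∧
      fv l false 1 = R (L l).φ 0 1 ∧ fv l false 2 = R (L l).φ 1 0 := fun l => by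
    simpa using hfv l false
  have hfvτ : ∀ l, 2 * fv l true 0 = R (L l).τ 0 0 - R (L l).τ 1 1 ∧
      fv l true 1 = R (L l).τ 0 1 ∧ fv l true 2 = R (L l).τ 1 0 := fun l => by
    simpa using hfv l true
  have hTp : ∀ l : T, (l : ℕ).Prime ∧ (l : ℕ) ≠ p := fun l =>
    ⟨(hT l l.2).1, fun h => (hT l l.2).2.1 (h ▸ hpS)⟩
  have hdetT : ∀ l : T, (R (L l).τ).det = 1 := fun l =>
    det_inertia hR hp hcondA.1.1 (hTp l).1 (hTp l).2 (L l).hP (L l).hτ
  have hpoint : ∀ (l : T) (i : sU),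
      (R (L l).φ).map (H.φ (Sum.inl i)) * (R (L l).τ).map (H.φ (Sum.inl i)) =
        (R (L l).τ).map (H.φ (Sum.inl i)) * (R (L l).φ).map (H.φ (Sum.inl i)) ∧
      ∃ b ∈ BSet (p ^ V) u, (algebraMap 𝒪 (pt (Sum.inl i)).R u *
        ((R (L l).τ).map (H.φ (Sum.inl i))).trace) ^ 2 - 1 =
          algebraMap 𝒪 (pt (Sum.inl i)).R b ^ 2 := by
    intro l i
    have hloc := H.φ_loc (Sum.inl i)
    refine t_point hj (pt (Sum.inl i)).ι (pt (Sum.inl i)).ι_inj (pt (Sum.inl i)).ι_comp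
      (hRi (Sum.inl i)) (L l) hp hp2 (hpR (Sum.inl i)) (hTp l).1 (hT l l.2).2.2 ?_ ?_
      (W.TU i l l.2) (hV l l.2) hμ hu
    · intro σ hσ x y
      have h5 := map_mem_maximalIdeal_pow (H.φ (Sum.inl i) : H.A →+* (pt (Sum.inl i)).R) hloc
        (n := 1) (by
          rw [pow_one]
          exact hunr _ (hTp l).1 (hT l l.2).2.1 _ (L l).hP σ hσ x y)
      rw [pow_one] at h5
      have h6 : ((R σ).map (H.φ (Sum.inl i)) - 1) x y =
          (H.φ (Sum.inl i) : H.A →+* (pt (Sum.inl i)).R) ((R σ - 1) x y) := by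
        rw [Matrix.sub_apply, Matrix.sub_apply, Matrix.map_apply, map_sub]
        congr 1
        rw [Matrix.one_apply, Matrix.one_apply]
        split_ifs <;> simp
      show ((R σ).map (H.φ (Sum.inl i)) - 1) x y ∈ _
      rw [h6]
      exact h5
    · show ((R (L l).τ).map (H.φ (Sum.inl i) : H.A →+* (pt (Sum.inl i)).R)).det = 1
      have h7 : ((R (L l).τ).map (H.φ (Sum.inl i) : H.A →+* (pt (Sum.inl i)).R)).det =
          (H.φ (Sum.inl i) : H.A →+* (pt (Sum.inl i)).R) (R (L l).τ).det := by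
        rw [RingHom.map_det]; rfl
      rw [h7, hdetT, map_one]
  have hzero : ∀ x : H.A, (∀ i : sU, H.φ (Sum.inl i) x = 0) → ∀ m : W.U.M, x • m = 0 := by
    intro x hx m
    rw [hsm]
    apply sep
    intro i
    rw [hact]
    show (pt (Sum.inl i)).ι (H.φ (Sum.inl i) x) * _ = 0
    rw [hx, map_zero, zero_mul]
  have hminor : ∀ (l : T) (i' j' : Fin 3) (m : W.U.M),
      (fv l false i' * fv l true j' - fv l false j' * fv l true i') • m = 0 := by
    intro l i' j' m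
    refine hzero _ (fun i => ?_) m
    let Φ : H.A →+* (pt (Sum.inl i)).R := H.φ (Sum.inl i)
    have h5 := minor_of_comm (A := (pt (Sum.inl i)).R) (fun x hx => by
        rcases mul_eq_zero.mp hx with h | h
        · exact absurd h two_ne_zero
        · exact h)
      (M := (R (L l).φ).map (H.φ (Sum.inl i))) (N := (R (L l).τ).map (H.φ (Sum.inl i)))
      (hpoint l i).1 (f := fun i' => Φ (fv l false i')) (s := fun i' => Φ (fv l true i'))
      (by
        show 2 * Φ (fv l false 0) = Φ _ - Φ _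
        rw [← map_sub, ← (hfvφ l).1, map_mul, map_ofNat])
      (by show Φ (fv l false 1) = Φ _; rw [(hfvφ l).2.1])
      (by show Φ (fv l false 2) = Φ _; rw [(hfvφ l).2.2])
      (by
        show 2 * Φ (fv l true 0) = Φ _ - Φ _
        rw [← map_sub, ← (hfvτ l).1, map_mul, map_ofNat])
      (by show Φ (fv l true 1) = Φ _; rw [(hfvτ l).2.1])
      (by show Φ (fv l true 2) = Φ _; rw [(hfvτ l).2.2]) i' j'
    show Φ _ = 0
    rw [map_sub, map_mul, map_mul]
    exact h5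
  have hUA : algebraMap 𝒪 H.A u * 2 = 1 := by
    rw [← map_ofNat (algebraMap 𝒪 H.A) 2, ← map_mul, hu, map_one]
  have hquad : ∀ (l : T) (m : W.U.M),
      (∏ b ∈ BSet (p ^ V) u, (fv l true 0 ^ 2 + fv l true 1 * fv l true 2 -
        algebraMap 𝒪 H.A b ^ 2)) • m = 0 := by
    intro l m
    refine hzero _ (fun i => ?_) m
    let Φ : H.A →+* (pt (Sum.inl i)).R := H.φ (Sum.inl i)
    obtain ⟨b, hb, hb2⟩ := (hpoint l i).2
    show Φ _ = 0
    rw [map_prod]
    refine Finset.prod_eq_zero hb ?_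
    rw [disc_eq hUA (hfvτ l).1 (hfvτ l).2.1 (hfvτ l).2.2, map_sub, map_sub, map_pow, map_mul,
      hdetT l, map_one]
    have h5 : Φ (algebraMap 𝒪 H.A u) = algebraMap 𝒪 (pt (Sum.inl i)).R u := AlgHom.commutes _ _
    have h6 : Φ (algebraMap 𝒪 H.A b) = algebraMap 𝒪 (pt (Sum.inl i)).R b := AlgHom.commutes _ _
    have h7 : Φ (R (L l).τ).trace = ((R (L l).τ).map (H.φ (Sum.inl i))).trace := by
      rw [Matrix.trace_fin_two, Matrix.trace_fin_two, map_add]; rfl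
    rw [map_pow, h5, h6, h7, hb2, sub_self]
  have hlow : ∀ m : W.U.M, ∃ z : W.U.M, (fv t₀ false 0 ^ 2 + fv t₀ false 1 * fv t₀ false 2 -
      algebraMap 𝒪 H.A ((u * ((t₀ : ℕ) - 1)) ^ 2)) • m = algebraMap 𝒪 H.A ϖ • z := by
    intro m
    obtain ⟨m', hm'⟩ := hcomp (fv t₀ false 0 ^ 2 + fv t₀ false 1 * fv t₀ false 2 -
      algebraMap 𝒪 H.A ((u * ((t₀ : ℕ) - 1)) ^ 2)) (fun i => by
        let Φ : H.A →+* (pt (Sum.inr i)).R := H.φ (Sum.inr i)
        have h5 : ∀ o, Φ (algebraMap 𝒪 H.A o) = algebraMap 𝒪 (pt (Sum.inr i)).R o :=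
          fun o => AlgHom.commutes _ _
        have h7 : Φ (R (L t₀).φ).trace = ((R (L t₀).φ).map (H.φ (Sum.inr i))).trace := by
          rw [Matrix.trace_fin_two, Matrix.trace_fin_two, map_add]; rfl
        have h8 : Φ (R (L t₀).φ).det = ((R (L t₀).φ).map (H.φ (Sum.inr i))).det := by
          rw [RingHom.map_det]; rfl
        have h9 : ∃ t : (pt (Sum.inr i)).R, t ^ 2 = (((t₀ : ℕ) : (pt (Sum.inr i)).R) + 1) ^ 2 ∧
            ((R (L t₀).φ).map (H.φ (Sum.inr i))).trace = t ∧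
            ((R (L t₀).φ).map (H.φ (Sum.inr i))).det = ((t₀ : ℕ) : (pt (Sum.inr i)).R) := by
          rcases W.TV i t₀ t₀.2 _ (L t₀).hP _ (L t₀).hφ with h | h
          · exact ⟨_, rfl, (charpoly_iff (hRi (Sum.inr i)) _ _ _).mp h⟩
          · refine ⟨-(((t₀ : ℕ) : (pt (Sum.inr i)).R) + 1), neg_sq _,
              (charpoly_iff (hRi (Sum.inr i)) _ _ _).mp ?_⟩
            rw [map_neg, neg_mul, sub_neg_eq_add]
            exact h
        obtain ⟨t, ht1, ht2, ht3⟩ := h9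
        show Φ _ = 0
        rw [disc_eq hUA (hfvφ t₀).1 (hfvφ t₀).2.1 (hfvφ t₀).2.2, map_sub, map_sub, map_pow,
          map_mul, h5, h5, h7, h8, ht2, ht3, mul_pow, ht1, map_pow, map_mul, map_sub, map_one,
          map_natCast]
        have h10 : algebraMap 𝒪 (pt (Sum.inr i)).R u * 2 = 1 := by
          rw [← map_ofNat (algebraMap 𝒪 (pt (Sum.inr i)).R) 2, ← map_mul, hu, map_one]
        linear_combination (((t₀ : ℕ) : (pt (Sum.inr i)).R) *
          (algebraMap 𝒪 (pt (Sum.inr i)).R u * 2 + 1)) * h10) m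
    refine ⟨m', ?_⟩
    rw [hsm, hsm, hm', hact𝒪, Module.algebraMap_end_apply]
  exact ⟨{
    R := H.A
    residue_surj := fun b => by
      obtain ⟨o, ho⟩ := H.res_surj (residue H.A b)
      refine ⟨o, ?_⟩
      rw [← Ideal.Quotient.eq_zero_iff_mem, map_sub, sub_eq_zero]
      exact ho
    f := fun l i => fv l false i
    s := fun l i => fv l true i
    x := fun j => γ (MvPowerSeries.X (Sum.inr j))
    f_mem := fun l i => hγm _ (X_mem_maximalIdeal _)
    s_mem := fun l i => hγm _ (X_mem_maximalIdeal _)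
    x_mem := fun j => hγm _ (X_mem_maximalIdeal _)
    gen := by
      refine hγgen.trans (le_trans ?_ le_sup_left)
      refine sup_le_sup_left (Ideal.span_mono ?_) _
      rintro _ ⟨q, rfl⟩
      rcases q with ⟨l, b, i⟩ | k
      · cases b
        · exact Or.inl (Or.inl ⟨l, i, rfl⟩)
        · exact Or.inl (Or.inr ⟨l, i, rfl⟩)
      · exact Or.inr ⟨k, rfl⟩
    Δ := DG p W.a
    isPGroup := isPGroup_DG W.a
    δ := dgen W.a
    closure_δ := closure_dgen W.a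
    χ := dproj W.a n (fun k => le_trans (Nat.le_succ n) (hak k))
    χ_δ := fun k => dproj_dgen W.a n _ k
    κ := K
    κ_mem := fun x => dhom_sub_one_mem W.a κ hκp hκm x
    N := W.U.M
    instModule := mA
    d := Module.finrank W.G.Λ W.U.M
    d_pos := W.rank_pos
    d_le := W.rank_le
    b := b
    b_basis := hb
    minor := fun l i j y => hminor l i j y
    quad := fun l y => hquad l y
    low := fun y => hlow y }⟩

end Fermat.Agent.LL
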