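import Fermat.Agent.LL.GalLem2

set_option autoImplicit false

/-!
# Points: the character `κ` and the relations at the primes of `T`
-/

open IsLocalRing GaloisRep Polynomial

namespace Fermat.Agent.LL

open Fermat.Agent.DefRing Fermat.Agent

local notation "Γℚ" => (AlgebraicClosure ℚ ≃ₐ[ℚ] AlgebraicClosure ℚ)
local notation "M₂" => Matrix (Fin 2) (Fin 2)
local notation "Qb" => AlgebraicClosure ℚ

section Kappa

variable {A : Type} [CommRing A] [IsLocalRing A] {r : Γℚ → M₂ A}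
  {A' : Type} [CommRing A'] [IsLocalRing A'] [IsHausdorff (maximalIdeal A') A'] {φ : A →+* A'}
  (hφ : IsLocalHom φ) {ρ' : GaloisRepAdic A'} (hr' : Realizes ρ' (fun σ => (r σ).map φ))
  {q p : ℕ} (L : LocGen q p) {κ κ' : A} {C : M₂ A} (hC : IsUnit C.det) (hκ : κ * κ' = 1)
  (hτ : r L.τ * C = C * Matrix.diagonal ![κ, κ'])

include hr' hC hτ in
omit [IsLocalRing A] [IsHausdorff (maximalIdeal A') A'] in
theorem kappa_of_unramified (h : ρ'.IsUnramifiedAt q) : φ κ = 1 := by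
  have h1 : (r L.τ).map φ = 1 := (Realizes.eq_one_iff hr' _).mp (h L.P L.hP _ L.hτ)
  have h2 := congrArg (fun M : M₂ A => M.map φ) hτ
  simp only [Matrix.map_mul] at h2
  rw [h1, Matrix.one_mul] at h2
  have hC' : IsUnit (C.map φ).det := by
    have : (C.map φ).det = φ C.det := by rw [RingHom.map_det]; rfl
    rw [this]; exact hC.map φ
  have h3 : (Matrix.diagonal ![κ, κ']).map φ = 1 := by
    have h4 := congrArg (fun M => (C.map φ)⁻¹ * M) h2
    rw [← Matrix.mul_assoc, Matrix.nonsing_inv_mul _ hC', Matrix.one_mul] at h4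
    exact h4.symm
  have h4 := congrFun (congrFun h3 0) 0
  simpa using h4

include hr' hC hτ hκ hφ in
theorem unipotent_of_kappa (hq : q.Prime) (hp : p.Prime) (hpA : (p : A') ∈ maximalIdeal A')
    (hres : ∀ σ ∈ L.P.inertiaSubgroupIn ℚ, MI (maximalIdeal A) (r σ - 1)) (h : φ κ = 1) :
    ρ'.IsUnipotentOnInertiaAt q := by
  have hκ' : φ κ' = 1 := by
    have := congrArg φ hκ
    rwa [map_mul, h, one_mul, map_one] at this
  have hC' : IsUnit (C.map φ).det := by
    have : (C.map φ).det = φ C.det := by rw [RingHom.map_det]; rfl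
    rw [this]; exact hC.map φ
  have h2 := congrArg (fun M : M₂ A => M.map φ) hτ
  simp only [Matrix.map_mul] at h2
  have h3 : (Matrix.diagonal ![κ, κ']).map φ = 1 := by
    ext i k
    fin_cases i <;> fin_cases k <;> simp [h, hκ']
  rw [h3, Matrix.mul_one] at h2
  have h4 : (r L.τ).map φ = 1 := by
    have h5 := congrArg (fun M => M * (C.map φ)⁻¹) h2
    rwa [Matrix.mul_assoc, Matrix.mul_nonsing_inv _ hC', Matrix.mul_one] at h5
  have hres' : ∀ σ ∈ L.P.inertiaSubgroupIn ℚ, MI (maximalIdeal A') ((r σ).map φ - 1) := by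
    intro σ hσ a b
    have h5 := map_mem_maximalIdeal_pow φ hφ (n := 1) (by rw [pow_one]; exact hres σ hσ a b)
    rw [pow_one] at h5
    have h6 : ((r σ).map φ - 1) a b = φ ((r σ - 1) a b) := by
      rw [Matrix.sub_apply, Matrix.sub_apply, Matrix.map_apply, map_sub]
      congr 1
      rw [Matrix.one_apply, Matrix.one_apply]
      split_ifs <;> simp
    rw [h6]
    exact h5
  refine isUnipotentOnInertiaAt_of_one hq L.hP fun σ hσ => ?_
  rw [charpoly_unip_iff hr']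
  have h7 : (r σ).map φ = 1 := inertia_trivial hr' L hp hpA hres' h4 hσ
  show ((r σ).map φ).trace = 2 ∧ ((r σ).map φ).det = 1
  rw [h7]
  simp

end Kappa

/-- **the relations at a prime of `T`, at one point.** -/
theorem t_point {𝒪 : Type} [CommRing 𝒪] [IsDomain 𝒪] {j : 𝒪 →+* ℂ} (hj : Function.Injective j)
    {A' : Type} [CommRing A'] [IsDomain A'] [IsLocalRing A'] [IsHausdorff (maximalIdeal A') A']
    [Algebra 𝒪 A'] (ι : A' →+* ℂ) (hι : Function.Injective ι)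
    (hιj : ι.comp (algebraMap 𝒪 A') = j) {ρ' : GaloisRepAdic A'} {r' : Γℚ → M₂ A'}
    (hr' : Realizes ρ' r') {l p : ℕ} (L : LocGen l p) (hp : p.Prime) (hp2 : p ≠ 2)
    (hpA : (p : A') ∈ maximalIdeal A') (hl : l.Prime) (hpl : p ∣ l - 1)
    (hres : ∀ σ ∈ L.P.inertiaSubgroupIn ℚ, MI (maximalIdeal A') (r' σ - 1))
    (hdet : (r' L.τ).det = 1) (hun : ¬ ρ'.IsUnipotentOnInertiaAt l) {V : ℕ}
    (hV : ∀ v, p ^ v ∣ l - 1 → v ≤ V) (hμ : ∀ z : ℂ, z ^ p ^ V = 1 → ∃ o : 𝒪, j o = z)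
    {u : 𝒪} (hu : u * 2 = 1) :
    r' L.φ * r' L.τ = r' L.τ * r' L.φ ∧
      ∃ b ∈ BSet (p ^ V) u, (algebraMap 𝒪 A' u * (r' L.τ).trace) ^ 2 - 1 = algebraMap 𝒪 A' b ^ 2 := by
  classical
  have hl1 : l - 1 ≠ 0 := by have := hl.two_le; omega
  obtain ⟨v, hv, hv'⟩ : ∃ v, p ^ v ∣ l - 1 ∧ ¬ p ^ (v + 1) ∣ l - 1 := by
    refine ⟨(l - 1).factorization p, Nat.ordProj_dvd _ _, Nat.pow_succ_factorization_not_dvd hl1 hp⟩
  have htr : (r' L.τ).trace ≠ 2 := by
    intro h
    apply hun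
    refine isUnipotentOnInertiaAt_of_one hl L.hP fun σ hσ => ?_
    rw [charpoly_unip_iff hr']
    exact inertia_unipotent hr' L hp hpA hres ⟨h, hdet⟩ hσ
  have hΦ : IsUnit (r' L.φ).det := by
    have h2 : r' L.φ * r' L.φ⁻¹ = 1 := by rw [← hr'.map_mul, mul_inv_cancel, hr'.map_one]
    have h3 := congrArg Matrix.det h2
    rw [Matrix.det_mul, Matrix.det_one] at h3
    exact IsUnit.of_mul_eq_one _ h3
  obtain ⟨h1, ζ, hζ0, hζ, hζ1, hζt⟩ := t_rel hp hp2 hpA ι hι hΦ (hres _ L.hτ) hdet hl.ne_zero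
    (loc_rel' hr' L hp hpA hres) hpl hv hv' htr
  refine ⟨h1, ?_⟩
  have hN : 0 < p ^ V := pow_pos hp.pos _
  have hζV : ζ ^ p ^ V = 1 := by
    obtain ⟨c, hc⟩ := pow_dvd_pow p (hV v hv)
    rw [hc, pow_mul, hζ, one_pow]
  obtain ⟨z, rfl⟩ := hμ ζ hζV
  have hz : z ^ p ^ V = 1 := by
    apply hj
    rw [map_pow, hζV, map_one]
  have hz1 : z ≠ 1 := by
    rintro rfl
    exact hζ1 (map_one j)
  refine ⟨_, mem_BSet hN hz hz1, ?_⟩
  apply hι
  have hιa : ∀ o, ι (algebraMap 𝒪 A' o) = j o := fun o => by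
    rw [← RingHom.comp_apply, hιj]
  have hzi : j z ^ (p ^ V - 1) = (j z)⁻¹ := by
    apply eq_inv_of_mul_eq_one_left
    rw [← pow_succ, Nat.sub_add_cancel hN, hζV]
  have hju : j u = 1 / 2 := by
    have h2 := congrArg j hu
    rw [map_mul, map_one, map_ofNat] at h2
    field_simp
    exact h2
  rw [map_sub, map_pow, map_mul, hιa, hζt, map_one, map_pow, hιa, map_mul, map_sub, map_pow, hzi,
    hju]
  field_simp
  ring

end Fermat.Agent.LL
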