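import Fermat.Agent.LL.Blocks
import Fermat.Agent.Patch.TraceDense
import Fermat.Prelude.Def_GaloisRep_ComplexConjugation

set_option autoImplicit false

/-!
# Block GLUE
-/

namespace Fermat.Agent.LL

open IsLocalRing Polynomial Fermat.Agent.DefRing Fermat.Agent

local notation "Γℚ" => (AlgebraicClosure ℚ ≃ₐ[ℚ] AlgebraicClosure ℚ)

/-! ### normal form of a representation in terms of its trace -/

section NF

/-- the `(0,0)` entry in a basis where `c = diag (1, -1)`; `u = 1/2` -/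
noncomputable def ea {A : Type} [CommRing A] (u : A) (c : Γℚ) (t : Γℚ → A) (σ : Γℚ) : A :=
  u * (t σ + t (c * σ))

/-- the `(1,1)` entry -/
noncomputable def ed {A : Type} [CommRing A] (u : A) (c : Γℚ) (t : Γℚ → A) (σ : Γℚ) : A :=
  u * (t σ - t (c * σ))

/-- products of off diagonal entries -/
noncomputable def ex {A : Type} [CommRing A] (u : A) (c : Γℚ) (t : Γℚ → A) (σ τ : Γℚ) : A :=
  ea u c t (σ * τ) - ea u c t σ * ea u c t τ

/-- the normal form -/
noncomputable def nf {A : Type} [CommRing A] (u v : A) (c g h : Γℚ) (t : Γℚ → A) (σ : Γℚ) :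
    Matrix (Fin 2) (Fin 2) A :=
  !![ea u c t σ, ex u c t σ h * v; ex u c t g σ, ed u c t σ]

variable {A : Type} [CommRing A] {u v : A} {c g h : Γℚ} {r : Γℚ → Matrix (Fin 2) (Fin 2) A}

theorem nf_map {B : Type} [CommRing B] (φ : A →+* B) (u v : A) (c g h : Γℚ) (t : Γℚ → A)
    (σ : Γℚ) : (nf u v c g h t σ).map φ = nf (φ u) (φ v) c g h (fun σ => φ (t σ)) σ := by
  ext i j
  fin_cases i <;> fin_cases j <;> simp [nf, ea, ed, ex]

theorem ea_eq (hu : u * 2 = 1) (hmul : ∀ σ τ, r (σ * τ) = r σ * r τ)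
    (hc : r c = Matrix.diagonal ![1, -1]) (σ : Γℚ) :
    ea u c (fun σ => (r σ).trace) σ = r σ 0 0 := by
  simp only [ea, hmul, hc, Matrix.trace_fin_two, Matrix.mul_apply, Fin.sum_univ_two,
    Matrix.diagonal_apply_eq, Matrix.diagonal_apply_ne _ (show (0 : Fin 2) ≠ 1 by decide),
    Matrix.diagonal_apply_ne _ (show (1 : Fin 2) ≠ 0 by decide)]
  simp only [Matrix.cons_val_zero, Matrix.cons_val_one]
  linear_combination (r σ 0 0) * hu

theorem ed_eq (hu : u * 2 = 1) (hmul : ∀ σ τ, r (σ * τ) = r σ * r τ)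
    (hc : r c = Matrix.diagonal ![1, -1]) (σ : Γℚ) :
    ed u c (fun σ => (r σ).trace) σ = r σ 1 1 := by
  simp only [ed, hmul, hc, Matrix.trace_fin_two, Matrix.mul_apply, Fin.sum_univ_two,
    Matrix.diagonal_apply_eq, Matrix.diagonal_apply_ne _ (show (0 : Fin 2) ≠ 1 by decide),
    Matrix.diagonal_apply_ne _ (show (1 : Fin 2) ≠ 0 by decide)]
  simp only [Matrix.cons_val_zero, Matrix.cons_val_one]
  linear_combination (r σ 1 1) * hu

theorem ex_eq (hu : u * 2 = 1) (hmul : ∀ σ τ, r (σ * τ) = r σ * r τ)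
    (hc : r c = Matrix.diagonal ![1, -1]) (σ τ : Γℚ) :
    ex u c (fun σ => (r σ).trace) σ τ = r σ 0 1 * r τ 1 0 := by
  rw [ex, ea_eq hu hmul hc, ea_eq hu hmul hc, ea_eq hu hmul hc, hmul, Matrix.mul_apply,
    Fin.sum_univ_two]
  ring

theorem nf_eq (hu : u * 2 = 1) (hmul : ∀ σ τ, r (σ * τ) = r σ * r τ)
    (hc : r c = Matrix.diagonal ![1, -1]) (hg : r g 0 1 = 1)
    (hv : ex u c (fun σ => (r σ).trace) g h * v = 1) (σ : Γℚ) :
    nf u v c g h (fun σ => (r σ).trace) σ = r σ := by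
  rw [ex_eq hu hmul hc, hg, one_mul] at hv
  ext i j
  fin_cases i <;> fin_cases j
  · simp [nf, ea_eq hu hmul hc]
  · simp [nf, ex_eq hu hmul hc, mul_assoc, hv]
  · simp [nf, ex_eq hu hmul hc, hg]
  · simp [nf, ed_eq hu hmul hc]

theorem exists_diag [IsLocalRing A] (hu : u * 2 = 1) (M : Matrix (Fin 2) (Fin 2) A)
    (hM : M * M = 1) (hd : M.det = -1) :
    ∃ P : Matrix (Fin 2) (Fin 2) A, IsUnit P.det ∧ M * P = P * Matrix.diagonal ![1, -1] := by
  have h00 := congrFun (congrFun hM 0) 0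
  have h01 := congrFun (congrFun hM 0) 1
  have h10 := congrFun (congrFun hM 1) 0
  have h11 := congrFun (congrFun hM 1) 1
  simp only [Matrix.mul_apply, Fin.sum_univ_two, Matrix.one_apply_eq,
    Matrix.one_apply_ne (show (0 : Fin 2) ≠ 1 by decide),
    Matrix.one_apply_ne (show (1 : Fin 2) ≠ 0 by decide)] at h00 h01 h10 h11
  rw [Matrix.det_fin_two] at hd
  have h2 : IsUnit (2 : A) := IsUnit.of_mul_eq_one_right _ hu
  -- trace zero
  have htr : M 0 0 + M 1 1 = 0 := by
    have e1 : (M 0 0 + M 1 1) * M 0 0 = 0 := by linear_combination h00 + hd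
    have e2 : (M 0 0 + M 1 1) * M 0 1 = 0 := by linear_combination h01
    have e3 : (M 0 0 + M 1 1) * M 1 0 = 0 := by linear_combination h10
    have e4 : (M 0 0 + M 1 1) * M 1 1 = 0 := by linear_combination h11 + hd
    linear_combination (M 0 0) * e1 + M 1 0 * e2 - (M 0 0 + M 1 1) * h00
  have hs : IsUnit (1 + M 0 0) ∨ IsUnit (1 - M 0 0) := by
    by_contra hcon
    push Not at hcon
    have h3 : (1 + M 0 0) + (1 - M 0 0) ∈ nonunits A :=
      IsLocalRing.nonunits_add hcon.1 hcon.2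
    apply h3
    convert h2 using 1
    ring
  have hM11 : M 1 1 = - M 0 0 := by linear_combination htr
  rcases hs with hs | hs
  · refine ⟨!![1 + M 0 0, M 0 1; M 1 0, - (1 + M 0 0)], ?_, ?_⟩
    · rw [Matrix.det_fin_two_of]
      have : (1 + M 0 0) * -(1 + M 0 0) - M 0 1 * M 1 0 = - (2 * (1 + M 0 0)) := by
        linear_combination - h00
      rw [this]
      exact (h2.mul hs).neg
    · ext i j
      fin_cases i <;> fin_cases j <;>
        simp [Matrix.mul_apply, Fin.sum_univ_two]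
      · linear_combination h00
      · ring
      · rw [hM11]; ring
      · rw [hM11]; linear_combination h00
  · refine ⟨!![M 0 1, M 0 0 - 1; 1 - M 0 0, M 1 0], ?_, ?_⟩
    · rw [Matrix.det_fin_two_of]
      have : M 0 1 * M 1 0 - (M 0 0 - 1) * (1 - M 0 0) = 2 * (1 - M 0 0) := by
        linear_combination h00
      rw [this]
      exact h2.mul hs
    · ext i j
      fin_cases i <;> fin_cases j <;>
        simp [Matrix.mul_apply, Fin.sum_univ_two]
      · ring
      · linear_combination h00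
      · rw [hM11]; linear_combination h00
      · rw [hM11]; ring

/-- conjugating into the basis where `c = diag (1, -1)` -/
theorem exists_realizes_diag [IsLocalRing A] (hu : u * 2 = 1) (ρ : GaloisRepAdic A)
    (hcc : c * c = 1) (hdet : LinearMap.det (ρ.ρ c) = -1) :
    ∃ r, Realizes ρ r ∧ r c = Matrix.diagonal ![1, -1] := by
  obtain ⟨r0, hr0⟩ := exists_realizes ρ
  obtain ⟨P, hP, hPc⟩ := exists_diag hu (r0 c) (by rw [← hr0.map_mul, hcc, hr0.map_one]) (by
    obtain ⟨b, hb⟩ := hr0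
    rw [← hb, LinearMap.det_toMatrix, hdet])
  refine ⟨_, hr0.conj P hP, ?_⟩
  show P⁻¹ * r0 c * P = _
  rw [Matrix.mul_assoc, hPc, ← Matrix.mul_assoc, Matrix.nonsing_inv_mul _ hP, Matrix.one_mul]

theorem realizes_nf [IsLocalRing A] (hu : u * 2 = 1) (ρ : GaloisRepAdic A)
    (hcc : c * c = 1) (hdet : LinearMap.det (ρ.ρ c) = -1)
    (hv : ex u c ρ.trace g h * v = 1) : Realizes ρ (nf u v c g h ρ.trace) := by
  obtain ⟨r, hr, hrc⟩ := exists_realizes_diag hu ρ hcc hdet
  have htr : (fun σ => (r σ).trace) = ρ.trace := funext fun σ => hr.trace_eq σ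
  have hgh : r g 0 1 * r h 1 0 * v = 1 := by
    rw [← ex_eq hu hr.map_mul hrc, htr, hv]
  have hs : IsUnit (r g 0 1) := by
    rw [mul_assoc] at hgh
    exact IsUnit.of_mul_eq_one _ hgh
  set P : Matrix (Fin 2) (Fin 2) A := Matrix.diagonal ![r g 0 1, 1] with hP
  have hPd : IsUnit P.det := by
    rw [hP, Matrix.det_diagonal, Fin.prod_univ_two]
    simpa using hs
  obtain ⟨s, hs⟩ := hs
  have hPinv : P⁻¹ = Matrix.diagonal ![((s⁻¹ : Aˣ) : A), 1] := by
    apply Matrix.inv_eq_left_inv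
    rw [hP, Matrix.diagonal_mul_diagonal, ← Matrix.diagonal_one]
    congr 1
    ext i
    fin_cases i
    · simp [← hs]
    · simp
  have hr' := hr.conj P hPd
  set r' : Γℚ → Matrix (Fin 2) (Fin 2) A := fun σ => P⁻¹ * r σ * P with hr'def
  have htr' : (fun σ => (r' σ).trace) = ρ.trace := funext fun σ => hr'.trace_eq σ
  have hc' : r' c = Matrix.diagonal ![1, -1] := by
    rw [hr'def]
    show P⁻¹ * r c * P = _
    rw [hPinv, hrc, hP, Matrix.diagonal_mul_diagonal, Matrix.diagonal_mul_diagonal]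
    congr 1
    ext i
    fin_cases i
    · simp [← hs]
    · simp
  have hg' : r' g 0 1 = 1 := by
    rw [hr'def]
    show (P⁻¹ * r g * P) 0 1 = 1
    rw [hPinv, hP, Matrix.mul_diagonal, Matrix.diagonal_mul]
    simp [← hs]
  have h1 : nf u v c g h ρ.trace = r' := by
    funext σ
    rw [← htr']
    exact nf_eq hu hr'.map_mul hc' hg' (by rw [htr']; exact hv) σ
  rw [h1]
  exact hr'

end NF

/-- compactness of complete noetherian local rings with finite residue field -/
theorem exists_clusterPt {T : Type*} [CommRing T] (m : Ideal T) [IsAdicComplete m T]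
    (hfin : ∀ n, Finite (T ⧸ m ^ n)) (y : ℕ → T) :
    ∃ x : T, ∀ n : ℕ, ∃ N ≥ n, y N - x ∈ m ^ n := by
  classical
  let U : Ultrafilter ℕ := Filter.hyperfilter ℕ
  have h1 : ∀ n, ∃ z : T, ∀ᶠ N in (U : Filter ℕ), y N - z ∈ m ^ n := by
    intro n
    have hf := hfin n
    have h2 : ∃ z : T ⧸ m ^ n, ∀ᶠ N in (U : Filter ℕ), (Ideal.Quotient.mk (m ^ n) (y N)) = z := by
      have h3 : ∀ᶠ N in (U : Filter ℕ), ∃ z ∈ (Set.univ : Set (T ⧸ m ^ n)),
          (Ideal.Quotient.mk (m ^ n) (y N)) = z :=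
        Filter.Eventually.of_forall fun N => ⟨_, trivial, rfl⟩
      rw [Ultrafilter.eventually_exists_mem_iff Set.finite_univ] at h3
      obtain ⟨z, -, hz⟩ := h3
      exact ⟨z, hz⟩
    obtain ⟨z, hz⟩ := h2
    obtain ⟨z, rfl⟩ := Ideal.Quotient.mk_surjective z
    exact ⟨z, hz.mono fun N hN => Ideal.Quotient.eq.mp hN⟩
  choose z hz using h1
  obtain ⟨x, hx⟩ := IsPrecomplete.prec' (I := m) (M := T) z (by
    intro i j hij
    rw [SModEq.sub_mem, smul_eq_mul, Ideal.mul_top]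
    obtain ⟨N, hN1, hN2⟩ := ((hz i).and (hz j)).exists
    have := Ideal.sub_mem _ (Ideal.pow_le_pow_right hij hN2) hN1
    convert this using 1
    ring)
  refine ⟨x, fun n => ?_⟩
  obtain ⟨N, hN, hNn⟩ := ((hz n).and (Filter.hyperfilter_le_cofinite
    (Nat.cofinite_eq_atTop ▸ Filter.eventually_ge_atTop n))).exists
  refine ⟨N, hNn, ?_⟩
  have h2 := hx n
  rw [SModEq.sub_mem, smul_eq_mul, Ideal.mul_top] at h2
  have := Ideal.add_mem _ hN h2
  convert this using 1
  ring

theorem map_mem_maximalIdeal_pow {A B : Type*} [CommRing A] [IsLocalRing A] [CommRing B]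
    [IsLocalRing B] (φ : A →+* B) (hφ : IsLocalHom φ) {n : ℕ} {x : A}
    (hx : x ∈ maximalIdeal A ^ n) : φ x ∈ maximalIdeal B ^ n := by
  have h1 : (maximalIdeal A ^ n).map φ ≤ maximalIdeal B ^ n := by
    rw [Ideal.map_pow]
    exact Ideal.pow_right_mono (Ideal.map_le_iff_le_comap.mpr fun a ha =>
      Ideal.mem_comap.mpr (map_nonunit φ a ha)) n
  exact h1 (Ideal.mem_map_of_mem φ hx)

/-- Chevalley's theorem for a finite jointly injective family of local homomorphisms -/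
theorem exists_chevalley {T : Type*} [CommRing T] [IsLocalRing T]
    [IsAdicComplete (maximalIdeal T) T] (hfin : ∀ n, Finite (T ⧸ maximalIdeal T ^ n))
    {I : Type*} {O : I → Type*} [∀ i, CommRing (O i)] [∀ i, IsLocalRing (O i)]
    [∀ i, IsHausdorff (maximalIdeal (O i)) (O i)] (φ : ∀ i, T →+* O i)
    (hφ : ∀ i, IsLocalHom (φ i)) (hinj : ∀ x : T, (∀ i, φ i x = 0) → x = 0) (n : ℕ) :
    ∃ m : ℕ, ∀ x : T, (∀ i, φ i x ∈ maximalIdeal (O i) ^ m) → x ∈ maximalIdeal T ^ n := by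
  by_contra hcon
  push Not at hcon
  choose y hy1 hy2 using hcon
  obtain ⟨x, hx⟩ := exists_clusterPt (maximalIdeal T) hfin y
  have hx0 : x = 0 := by
    apply hinj
    intro i
    apply IsHausdorff.haus' (I := maximalIdeal (O i)) (φ i x)
    intro k
    rw [SModEq.zero, smul_eq_mul, Ideal.mul_top]
    obtain ⟨N, hN, hN'⟩ := hx k
    have h1 : φ i (y N - x) ∈ maximalIdeal (O i) ^ k := map_mem_maximalIdeal_pow (φ i) (hφ i) hN'
    have h2 := Ideal.sub_mem _ (Ideal.pow_le_pow_right hN (hy1 N i)) h1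
    rw [map_sub] at h2
    simpa using h2
  obtain ⟨N, hN, hN'⟩ := hx n
  rw [hx0, sub_zero] at hN'
  exact hy2 N hN'

theorem poly2_inj {A : Type*} [CommRing A] {t d t' d' : A}
    (h : (X ^ 2 - C t * X + C d : Polynomial A) = X ^ 2 - C t' * X + C d') : t = t' ∧ d = d' := by
  have h1 := congrArg (fun f => Polynomial.coeff f 1) h
  have h0 := congrArg (fun f => Polynomial.coeff f 0) h
  simp [Polynomial.coeff_X, Polynomial.coeff_C] at h0 h1
  exact ⟨h1, h0⟩

theorem charpoly_iff {A : Type} [CommRing A] [IsLocalRing A] {ρ : GaloisRepAdic A}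
    {r : Γℚ → Matrix (Fin 2) (Fin 2) A} (h : Realizes ρ r) (σ : Γℚ) (t d : A) :
    LinearMap.charpoly (ρ.ρ σ) = X ^ 2 - C t * X + C d ↔ (r σ).trace = t ∧ (r σ).det = d := by
  rcases subsingleton_or_nontrivial A with hA | hA
  · exact ⟨fun _ => ⟨Subsingleton.elim _ _, Subsingleton.elim _ _⟩, fun _ => Subsingleton.elim _ _⟩
  obtain ⟨b, hb⟩ := h
  rw [← LinearMap.charpoly_toMatrix (ρ.ρ σ) b, hb, Matrix.charpoly_fin_two]
  constructor
  · intro h
    exact poly2_inj h
  · rintro ⟨rfl, rfl⟩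
    rfl

theorem Realizes.det_eq {A : Type} [CommRing A] [IsLocalRing A] {ρ : GaloisRepAdic A}
    {r : Γℚ → Matrix (Fin 2) (Fin 2) A} (h : Realizes ρ r) (σ : Γℚ) :
    (r σ).det = LinearMap.det (ρ.ρ σ) := by
  obtain ⟨b, hb⟩ := h
  rw [← hb, LinearMap.det_toMatrix]

theorem exists_frobenius_family {k : Type} [Field k] (ρbar : ResidualGaloisRep k)
    {I : Type} [Finite I] {O : I → Type} [∀ i, CommRing (O i)] [∀ i, IsLocalRing (O i)]
    {r : ∀ i, Γℚ → Matrix (Fin 2) (Fin 2) (O i)} (h1 : ∀ i, r i 1 = 1)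
    (hmul : ∀ i σ τ, r i (σ * τ) = r i σ * r i τ) (hc : ∀ i, MatCont (r i)) (n : ℕ) (σ : Γℚ)
    (S : Finset ℕ) :
    ∃ ℓ : ℕ, ℓ.Prime ∧ ℓ ∉ S ∧ ∃ P : ValuationSubring (AlgebraicClosure ℚ), P.LiesOverPrime ℓ ∧
      ∃ φ : Γℚ, P.IsFrobeniusAt φ ℓ ∧ ρbar.ρ φ = ρbar.ρ σ ∧
        ∀ i a b, r i φ a b - r i σ a b ∈ maximalIdeal (O i) ^ n := by
  classical
  let R : ∀ i, Γℚ →* Matrix (Fin 2) (Fin 2) (O i ⧸ maximalIdeal (O i) ^ n) := fun i =>
    { toFun := fun σ => (r i σ).map (Ideal.Quotient.mk _)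
      map_one' := by rw [h1 i, Matrix.map_one _ (map_zero _) (map_one _)]
      map_mul' := fun σ τ => by rw [hmul i, Matrix.map_mul] }
  let H : Γℚ →* (Module.End k ρbar.V) × (∀ i, Matrix (Fin 2) (Fin 2) (O i ⧸ maximalIdeal (O i) ^ n)) :=
    ρbar.ρ.prod (MonoidHom.pi R)
  obtain ⟨L0, hL0, hL0'⟩ := ρbar.factorsThroughFiniteLevel
  choose L hL hL' using fun i => hc i n
  have hfd : FiniteDimensional ℚ (L0 ⊔ ⨆ i, L i : IntermediateField ℚ (AlgebraicClosure ℚ)) := by
    have := hL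
    have : FiniteDimensional ℚ (⨆ i, L i : IntermediateField ℚ (AlgebraicClosure ℚ)) :=
      IntermediateField.finiteDimensional_iSup_of_finite
    exact IntermediateField.finiteDimensional_sup _ _
  obtain ⟨ℓ, hℓ, hℓS, -, P, hP, φ, hφ, hφσ⟩ := ChebFull.exists_frobenius_eq_of_factors H
    ⟨L0 ⊔ ⨆ i, L i, hfd, fun τ hτ => by
      refine Prod.ext (hL0' τ fun x hx => hτ x (le_sup_left (a := L0) hx)) ?_
      funext i
      show (r i τ).map (Ideal.Quotient.mk _) = 1
      ext a b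
      have h2 := hL' i τ (fun x hx => hτ x (le_sup_right (a := L0) (le_iSup L i hx))) a b
      rw [Matrix.map_apply, ← sub_eq_zero]
      rw [← Ideal.Quotient.eq_zero_iff_mem, Matrix.sub_apply, map_sub] at h2
      rw [← h2]
      congr 1
      rw [Matrix.one_apply, Matrix.one_apply]
      split_ifs <;> simp⟩ σ S
  refine ⟨ℓ, hℓ, hℓS, P, hP, φ, hφ, congrArg Prod.fst hφσ, fun i a b => ?_⟩
  have h3 : (r i φ).map (Ideal.Quotient.mk (maximalIdeal (O i) ^ n)) = (r i σ).map (Ideal.Quotient.mk _) :=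
    congrFun (congrArg Prod.snd hφσ) i
  have h4 := congrFun (congrFun h3 a) b
  exact Ideal.Quotient.eq.mp h4

theorem complexConjugation_ne_one : complexConjugation ≠ 1 := by
  intro h
  obtain ⟨x, hx⟩ := IsAlgClosed.exists_pow_nat_eq (-1 : AlgebraicClosure ℚ) (n := 2) two_pos
  have h1 := complexEmbedding_complexConjugation x
  rw [h] at h1
  have h2 : (complexEmbedding x) ^ 2 = -1 := by rw [← map_pow, hx, map_neg, map_one]
  have h3 : complexEmbedding ((1 : Γℚ) x) = complexEmbedding x := rfl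
  rw [h3] at h1
  have h4 : (complexEmbedding x).im = 0 := Complex.conj_eq_iff_im.mp h1.symm
  have h5 := congrArg Complex.re h2
  rw [sq, Complex.mul_re, h4] at h5
  simp at h5
  nlinarith [mul_self_nonneg (complexEmbedding x).re]

/-- **Gluing**, strong form. -/
theorem glue {𝒪 : Type} [CommRing 𝒪] [IsDomain 𝒪] [IsDiscreteValuationRing 𝒪]
    [IsAdicComplete (maximalIdeal 𝒪) 𝒪] [Finite (ResidueField 𝒪)]
    (ρbar : ResidualGaloisRep (ResidueField 𝒪)) (h2 : (2 : ResidueField 𝒪) ≠ 0)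
    (habs : ρbar.IsAbsolutelyIrreducible)
    (hdetb : LinearMap.det (ρbar.ρ complexConjugation) = -1)
    (T : Type) [CommRing T] [IsLocalRing T] [IsNoetherianRing T]
    [IsAdicComplete (maximalIdeal T) T] [Algebra 𝒪 T] [IsLocalHom (algebraMap 𝒪 T)]
    (hTsurj : Function.Surjective (residue T ∘ algebraMap 𝒪 T))
    (S : Finset ℕ) (t : ℕ → T) (a : ℕ → ResidueField 𝒪) (hbar : FrobCharRes ρbar S a)
    (hta : ∀ ℓ : ℕ, ℓ.Prime → ℓ ∉ S →
      residue T (t ℓ) = ResidueField.map (algebraMap 𝒪 T) (a ℓ))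
    (I : Type) [Finite I] (O : I → Type) [∀ i, CommRing (O i)] [∀ i, IsLocalRing (O i)]
    [∀ i, IsAdicComplete (maximalIdeal (O i)) (O i)]
    (φ : ∀ i, T →+* O i) (hφ : ∀ i, IsLocalHom (φ i))
    (hinj : ∀ x : T, (∀ i, φ i x = 0) → x = 0) (ρ : ∀ i, GaloisRepAdic (O i))
    (hρF : ∀ i, FrobChar (ρ i) S (fun ℓ => φ i (t ℓ))) :
    ∃ (ρT : GaloisRepAdic T) (R : Γℚ → Matrix (Fin 2) (Fin 2) T), Realizes ρT R ∧
      FrobChar ρT S t ∧
      ρT.residual.IsEquiv (ρbar.baseChangeAlong (ResidueField.map (algebraMap 𝒪 T))) ∧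
      ∀ i, Realizes (ρ i) (fun σ => (R σ).map (φ i)) := by
  classical
  choose r hr using fun i => exists_realizes (ρ i)
  have hfin : ∀ n, Finite (T ⧸ maximalIdeal T ^ n) := fun n =>
    finite_quotient_maximalIdeal_pow (𝒪 := 𝒪) hTsurj n
  have hfrob := fun n σ => exists_frobenius_family ρbar (fun i => (hr i).map_one)
    (fun i => (hr i).map_mul) (fun i => (hr i).matCont) n σ S
  set c : Γℚ := complexConjugation with hc
  have hcc : c * c = 1 := complexConjugation_mul_self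
  set ρb : GaloisRepAdic (ResidueField 𝒪) := GaloisRepAdic.ofResidualGaloisRep ρbar with hρb
  obtain ⟨rb, hrb⟩ := exists_realizes ρb
  -- one half
  have h2u : IsUnit (2 : 𝒪) := by
    by_contra hcon
    apply h2
    have h3 : (2 : 𝒪) ∈ maximalIdeal 𝒪 := hcon
    rw [← residue_eq_zero_iff] at h3
    rw [← h3, map_ofNat]
  obtain ⟨u0, hu0⟩ := h2u.exists_left_inv
  set uT : T := algebraMap 𝒪 T u0 with huT
  have huT2 : uT * 2 = 1 := by rw [huT, ← map_ofNat (algebraMap 𝒪 T) 2, ← map_mul, hu0, map_one]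
  set ub : ResidueField 𝒪 := residue 𝒪 u0 with hub
  have hub2 : ub * 2 = 1 := by rw [hub, ← map_ofNat (residue 𝒪) 2, ← map_mul, hu0, map_one]
  have hui : ∀ i, φ i uT * 2 = 1 := fun i => by
    rw [← map_ofNat (φ i) 2, ← map_mul, huT2, map_one]
  -- Frobenius data
  have hFb : ∀ ℓ : ℕ, ℓ.Prime → ℓ ∉ S → ∀ P : ValuationSubring (AlgebraicClosure ℚ),
      P.LiesOverPrime ℓ → ∀ σ : Γℚ, P.IsFrobeniusAt σ ℓ →
      (rb σ).trace = a ℓ ∧ (rb σ).det = ℓ := fun ℓ h1 h2 P h3 σ h4 =>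
    (charpoly_iff hrb σ _ _).mp (hbar ℓ h1 h2 P h3 σ h4)
  have hFi : ∀ i, ∀ ℓ : ℕ, ℓ.Prime → ℓ ∉ S → ∀ P : ValuationSubring (AlgebraicClosure ℚ),
      P.LiesOverPrime ℓ → ∀ σ : Γℚ, P.IsFrobeniusAt σ ℓ →
      (r i σ).trace = φ i (t ℓ) ∧ (r i σ).det = ℓ := fun i ℓ h1 h2 P h3 σ h4 =>
    (charpoly_iff (hr i) σ _ _).mp (hρF i ℓ h1 h2 P h3 σ h4)
  have hrbρ : ∀ σ τ : Γℚ, ρbar.ρ σ = ρbar.ρ τ → rb σ = rb τ := by
    intro σ τ h
    obtain ⟨b, hb⟩ := hrb
    rw [← hb, ← hb]
    exact congrArg _ h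
  -- determinant of complex conjugation
  have hdet : ∀ i, LinearMap.det ((ρ i).ρ c) = -1 := by
    intro i
    obtain ⟨ℓ, hℓ, hℓS, P, hP, f, hf, hfc, hfi⟩ := hfrob 1 c
    have h3 : (ℓ : ResidueField 𝒪) = -1 := by
      rw [← (hFb ℓ hℓ hℓS P hP f hf).2, hrbρ _ _ hfc, Realizes.det_eq hrb]
      exact hdetb
    have h4 : ((ℓ : 𝒪) + 1) ∈ maximalIdeal 𝒪 := by
      rw [← residue_eq_zero_iff, map_add, map_natCast, h3, map_one, neg_add_cancel]
    have hloc : IsLocalHom ((φ i).comp (algebraMap 𝒪 T)) := by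
      have := hφ i
      infer_instance
    have h5 : ((ℓ : O i) + 1) ∈ maximalIdeal (O i) := by
      have := map_mem_maximalIdeal_pow ((φ i).comp (algebraMap 𝒪 T)) hloc
        (n := 1) (by rw [pow_one]; exact h4)
      rw [pow_one, map_add, map_natCast, map_one] at this
      exact this
    have h6 : (r i f).det - (r i c).det ∈ maximalIdeal (O i) := by
      have e := hfi i
      simp only [pow_one] at e
      rw [Matrix.det_fin_two, Matrix.det_fin_two]
      have h7 : r i f 0 0 * r i f 1 1 - r i f 0 1 * r i f 1 0 -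
          (r i c 0 0 * r i c 1 1 - r i c 0 1 * r i c 1 0) =
          (r i f 0 0 - r i c 0 0) * r i f 1 1 + (r i f 1 1 - r i c 1 1) * r i c 0 0
          - ((r i f 0 1 - r i c 0 1) * r i f 1 0 + (r i f 1 0 - r i c 1 0) * r i c 0 1) := by ring
      rw [h7]
      exact Ideal.sub_mem _ (Ideal.add_mem _ (Ideal.mul_mem_right _ _ (e 0 0))
        (Ideal.mul_mem_right _ _ (e 1 1))) (Ideal.add_mem _ (Ideal.mul_mem_right _ _ (e 0 1))
        (Ideal.mul_mem_right _ _ (e 1 0)))
    rw [(hFi i ℓ hℓ hℓS P hP f hf).2] at h6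
    have h8 : (r i c).det + 1 ∈ maximalIdeal (O i) := by
      have := Ideal.sub_mem _ h5 h6
      convert this using 1
      ring
    have h9 : ((r i c).det - 1) * ((r i c).det + 1) = 0 := by
      have : (r i c).det * (r i c).det = 1 := by
        rw [← Matrix.det_mul, ← (hr i).map_mul, hcc, (hr i).map_one, Matrix.det_one]
      linear_combination this
    have h10 : IsUnit ((r i c).det - 1) := by
      by_contra hcon
      have h11 : (r i c).det - 1 ∈ maximalIdeal (O i) := hcon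
      have h12 := Ideal.sub_mem _ h8 h11
      have h13 : IsUnit (2 : O i) := IsUnit.of_mul_eq_one_right _ (hui i)
      apply h12
      convert h13 using 1
      ring
    have h11 := (h10.mul_right_eq_zero).mp h9
    rw [← Realizes.det_eq (hr i)]
    exact eq_neg_of_add_eq_zero_left h11
  -- the trace over `T`
  set ψ : ResidueField 𝒪 →+* ResidueField T := ResidueField.map (algebraMap 𝒪 T) with hψ
  have hτ : ∀ σ, ∃ x : T, (∀ i, φ i x = (ρ i).trace σ) ∧ residue T x = ψ (ρb.trace σ) := by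
    intro σ
    choose ℓ hℓ hℓS P hP f hf hfb hfi using fun n => hfrob n σ
    obtain ⟨x, hx⟩ := exists_clusterPt (maximalIdeal T) hfin (fun n => t (ℓ n))
    refine ⟨x, fun i => ?_, ?_⟩
    · rw [← sub_eq_zero]
      apply IsHausdorff.haus' (I := maximalIdeal (O i)) (φ i x - (ρ i).trace σ)
      intro k
      rw [SModEq.zero, smul_eq_mul, Ideal.mul_top]
      obtain ⟨N, hN, hN'⟩ := hx k
      have h1 := map_mem_maximalIdeal_pow (φ i) (hφ i) hN'
      rw [map_sub, ← (hFi i _ (hℓ N) (hℓS N) _ (hP N) _ (hf N)).1] at h1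
      have h3 : (r i (f N)).trace - (r i σ).trace ∈ maximalIdeal (O i) ^ k := by
        rw [Matrix.trace_fin_two, Matrix.trace_fin_two, add_sub_add_comm]
        exact Ideal.pow_le_pow_right hN (Ideal.add_mem _ (hfi N i 0 0) (hfi N i 1 1))
      rw [← (hr i).trace_eq]
      have h4 := Ideal.sub_mem _ h3 h1
      convert h4 using 1
      ring
    · obtain ⟨N, hN, hN'⟩ := hx 1
      rw [pow_one, ← residue_eq_zero_iff, map_sub, sub_eq_zero] at hN'
      rw [← hN', hta _ (hℓ N) (hℓS N), ← (hFb _ (hℓ N) (hℓS N) _ (hP N) _ (hf N)).1,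
        hrbρ _ _ (hfb N), hrb.trace_eq]
  choose τ hτi hτr using hτ
  -- elements with nonzero off diagonal entries
  obtain ⟨rd, hrd, hrdc⟩ := exists_realizes_diag hub2 ρb hcc hdetb
  have hspan := span_range_matrix_eq_top ρbar habs (r := rd) hrd
  have hentry : ∀ i j : Fin 2, ∃ g : Γℚ, rd g i j ≠ 0 := by
    intro i j
    by_contra hcon
    push Not at hcon
    have h3 : (Matrix.single i j (1 : ResidueField 𝒪)) ∈ Submodule.span (ResidueField 𝒪)
        (Set.range rd) := by rw [hspan]; trivial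
    have h4 : Submodule.span (ResidueField 𝒪) (Set.range rd) ≤
        LinearMap.ker (Matrix.entryLinearMap (ResidueField 𝒪) (ResidueField 𝒪) i j) := by
      rw [Submodule.span_le]
      rintro _ ⟨σ, rfl⟩
      exact hcon σ
    have h5 := h4 h3
    rw [LinearMap.mem_ker, Matrix.entryLinearMap_apply, Matrix.single_apply_same] at h5
    exact one_ne_zero h5
  obtain ⟨g, hg⟩ := hentry 0 1
  obtain ⟨h, hh⟩ := hentry 1 0
  have hexb : ex ub c ρb.trace g h ≠ 0 := by
    have htr : (fun σ => (rd σ).trace) = ρb.trace := funext fun σ => hrd.trace_eq σ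
    rw [← htr, ex_eq hub2 hrd.map_mul hrdc]
    exact mul_ne_zero hg hh
  have hmapex : ∀ {A B : Type} [CommRing A] [CommRing B] (f : A →+* B) (u : A) (t : Γℚ → A)
      (σ τ : Γℚ), f (ex u c t σ τ) = ex (f u) c (fun σ => f (t σ)) σ τ := by
    intro A B _ _ f u t σ τ
    simp [ex, ea]
  have hψu : ψ ub = residue T uT := by
    rw [hψ, hub, huT, ResidueField.map_residue]
  have hτψ : (fun σ => residue T (τ σ)) = fun σ => ψ (ρb.trace σ) := funext hτr
  have hτφ : ∀ i, (fun σ => φ i (τ σ)) = (ρ i).trace := fun i => funext fun σ => hτi σ i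
  have hexT : IsUnit (ex uT c τ g h) := by
    by_contra hcon
    have h3 : ex uT c τ g h ∈ maximalIdeal T := hcon
    rw [← residue_eq_zero_iff, hmapex, hτψ, ← hψu, ← hmapex] at h3
    exact hexb ((map_eq_zero ψ).mp h3)
  obtain ⟨v, hv⟩ := hexT.exists_right_inv
  set R : Γℚ → Matrix (Fin 2) (Fin 2) T := nf uT v c g h τ with hR
  have hRi : ∀ i, Realizes (ρ i) (fun σ => (R σ).map (φ i)) := by
    intro i
    have h3 : (fun σ => (R σ).map (φ i)) = nf (φ i uT) (φ i v) c g h (ρ i).trace := by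
      funext σ
      rw [hR, nf_map, hτφ]
    rw [h3]
    refine realizes_nf (hui i) (ρ i) hcc (hdet i) ?_
    rw [← hτφ, ← hmapex, ← map_mul, hv, map_one]
  have hext : ∀ M N : Matrix (Fin 2) (Fin 2) T, (∀ i, M.map (φ i) = N.map (φ i)) → M = N := by
    intro M N h
    ext a b
    rw [← sub_eq_zero]
    apply hinj
    intro i
    rw [map_sub, sub_eq_zero]
    exact congrFun (congrFun (h i) a) b
  have hR1 : R 1 = 1 := by
    apply hext
    intro i
    rw [(hRi i).map_one, Matrix.map_one _ (map_zero _) (map_one _)]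
  have hRmul : ∀ σ τ, R (σ * τ) = R σ * R τ := by
    intro σ τ
    apply hext
    intro i
    rw [(hRi i).map_mul, Matrix.map_mul]
  have hRc : MatCont R := by
    intro n
    obtain ⟨m, hm⟩ := exists_chevalley hfin φ hφ hinj n
    choose L hL hL' using fun i => (hRi i).matCont m
    refine ⟨⨆ i, L i, ?_, fun σ hσ a b => ?_⟩
    · have := hL
      exact IntermediateField.finiteDimensional_iSup_of_finite
    · apply hm
      intro i
      have h3 : ((R σ).map (φ i) - 1) a b ∈ maximalIdeal (O i) ^ m :=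
        hL' i σ (fun x hx => hσ x (le_iSup L i hx)) a b
      have h4 : ((R σ).map (φ i) - 1) a b = φ i ((R σ - 1) a b) := by
        rw [Matrix.sub_apply, Matrix.sub_apply, Matrix.map_apply, map_sub]
        congr 1
        rw [Matrix.one_apply, Matrix.one_apply]
        split_ifs <;> simp
      rw [← h4]
      exact h3
  obtain ⟨ρT, hρT⟩ := exists_of_matrices R hR1 hRmul hRc
  refine ⟨ρT, R, hρT, ?_, ?_, hRi⟩
  · intro ℓ hℓ hℓS P hP σ hσ
    rw [charpoly_iff hρT]
    have h3 : ∀ i, φ i (R σ).trace = φ i (t ℓ) ∧ φ i (R σ).det = φ i (ℓ : T) := by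
      intro i
      have h4 := (charpoly_iff (hRi i) σ _ _).mp (hρF i ℓ hℓ hℓS P hP σ hσ)
      have h5 : ((R σ).map (φ i)).trace = φ i (t ℓ) := h4.1
      have h6 : ((R σ).map (φ i)).det = (ℓ : O i) := h4.2
      rw [← h5, map_natCast, ← h6]
      refine ⟨?_, ?_⟩
      · rw [Matrix.trace_fin_two, Matrix.trace_fin_two, map_add]; rfl
      · rw [RingHom.map_det]; rfl
    refine ⟨?_, ?_⟩
    · rw [← sub_eq_zero]
      apply hinj
      intro i
      rw [map_sub, (h3 i).1, sub_self]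
    · rw [← sub_eq_zero]
      apply hinj
      intro i
      rw [map_sub, (h3 i).2, sub_self]
  · have hvb : ex ub c ρb.trace g h * (ex ub c ρb.trace g h)⁻¹ = 1 := mul_inv_cancel₀ hexb
    have h3 : RealizesRes ρbar (nf ub (ex ub c ρb.trace g h)⁻¹ c g h ρb.trace) :=
      realizes_nf hub2 ρb hcc hdetb hvb
    have h4 := h3.baseChangeAlong ψ
    have h5 := hρT.residual
    refine h5.isEquiv ?_
    convert h4 using 2 with σ
    rw [hR, nf_map, nf_map, hτψ, hψu]
    congr 1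
    have h6 : residue T (ex uT c τ g h) * residue T v = 1 := by rw [← map_mul, hv, map_one]
    have h7 : ψ (ex ub c ρb.trace g h) * ψ (ex ub c ρb.trace g h)⁻¹ = 1 := by
      rw [← map_mul, hvb, map_one]
    rw [hmapex, hτψ, ← hψu, ← hmapex] at h6
    exact mul_left_cancel₀ (left_ne_zero_of_mul_eq_one h7) (h6.trans h7.symm)

theorem glueStmt : GlueStmt := by
  intro 𝒪 _ _ _ _ _ ρbar h2 habs hodd T _ _ _ _ _ _ hTsurj S t a hbar hta I _ O _ _ _ _ _ φ hφ
    hinj hρ
  choose ρ hρF using hρ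
  obtain ⟨ρT, R, -, h1, h3, -⟩ := glue ρbar h2 habs
    (hodd _ complexConjugation_mul_self complexConjugation_ne_one) T hTsurj S t a hbar hta I O φ hφ
    hinj ρ hρF
  exact ⟨ρT, h1, h3⟩

end Fermat.Agent.LL
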