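import Fermat.Agent.LL.AutOut
import Fermat.Agent.LL.Glue

set_option autoImplicit false

/-!
# The Hecke ring of a finite family of points
-/

open IsLocalRing Polynomial

namespace Fermat.Agent.LL

open Fermat.Agent.DefRing Fermat.Agent

local notation "Γℚ" => (AlgebraicClosure ℚ ≃ₐ[ℚ] AlgebraicClosure ℚ)

/-- good primes -/
abbrev PL (S : Finset ℕ) : Type := {ℓ : ℕ // ℓ.Prime ∧ ℓ ∉ S}

variable {𝒪 : Type} [CommRing 𝒪] [IsDomain 𝒪] [IsDiscreteValuationRing 𝒪]
  [IsAdicComplete (maximalIdeal 𝒪) 𝒪] [Finite (ResidueField 𝒪)] {j : 𝒪 →+* ℂ}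
  {ρbar : ResidualGaloisRep (ResidueField 𝒪)} {S : Finset ℕ} {I : Type} {ev : I → ℕ → ℂ}

/-- The Hecke ring of a family of points. -/
structure HRing (pt : ∀ i, Pt j ρbar S (ev i)) (a : ℕ → ResidueField 𝒪) where
  A : Type
  [commRing : CommRing A]
  [isLocalRing : IsLocalRing A]
  [isNoetherianRing : IsNoetherianRing A]
  [isAdicComplete : IsAdicComplete (maximalIdeal A) A]
  [algebra : Algebra 𝒪 A]
  [finite : Module.Finite 𝒪 A]
  [isLocalHom : IsLocalHom (algebraMap 𝒪 A)]
  res_surj : Function.Surjective (residue A ∘ algebraMap 𝒪 A)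
  /-- the evaluation map from the polynomial ring -/
  π : MvPolynomial (PL S) 𝒪 →ₐ[𝒪] A
  π_surj : Function.Surjective π
  /-- the points -/
  φ : ∀ i, A →ₐ[𝒪] (pt i).R
  φ_loc : ∀ i, IsLocalHom (φ i : A →+* (pt i).R)
  φ_π : ∀ i (ℓ : PL S), φ i (π (MvPolynomial.X ℓ)) = (pt i).tr ℓ
  φ_inj : ∀ x : A, (∀ i, φ i x = 0) → x = 0
  res_π : ∀ ℓ : PL S, residue A (π (MvPolynomial.X ℓ)) = ResidueField.map (algebraMap 𝒪 A) (a ℓ)

attribute [instance] HRing.commRing HRing.isLocalRing HRing.isNoetherianRing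
  HRing.isAdicComplete HRing.algebra HRing.finite HRing.isLocalHom

theorem nonempty_hRing [Finite I] [Nonempty I] (pt : ∀ i, Pt j ρbar S (ev i))
    (a : ℕ → ResidueField 𝒪)
    (ha : ∀ i (ℓ : ℕ), ℓ.Prime → ℓ ∉ S →
      residue (pt i).R ((pt i).tr ℓ) = ResidueField.map (algebraMap 𝒪 (pt i).R) (a ℓ)) :
    Nonempty (HRing pt a) := by
  classical
  let θ : ∀ i, MvPolynomial (PL S) 𝒪 →ₐ[𝒪] (pt i).R := fun i =>
    MvPolynomial.aeval (fun ℓ : PL S => (pt i).tr ℓ)
  let Θ : MvPolynomial (PL S) 𝒪 →ₐ[𝒪] (∀ i, (pt i).R) := AlgHom.pi θ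
  let K : Ideal (MvPolynomial (PL S) 𝒪) := RingHom.ker Θ
  let A : Type := MvPolynomial (PL S) 𝒪 ⧸ K
  have hK : ∀ f, f ∈ K ↔ ∀ i, θ i f = 0 := fun f => by
    show Θ f = 0 ↔ _
    rw [funext_iff]
    rfl
  let φ : ∀ i, A →ₐ[𝒪] (pt i).R := fun i => Ideal.Quotient.liftₐ K (θ i) fun f hf => (hK f).1 hf i
  have hφ : ∀ i f, φ i (Ideal.Quotient.mk K f) = θ i f := fun i f => rfl
  have hinj : ∀ x : A, (∀ i, φ i x = 0) → x = 0 := by
    intro x hx
    obtain ⟨f, rfl⟩ := Ideal.Quotient.mk_surjective x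
    rw [Ideal.Quotient.eq_zero_iff_mem, hK]
    exact hx
  -- finiteness
  have hfin : Module.Finite 𝒪 A := by
    refine Module.Finite.of_injective (AlgHom.pi φ).toLinearMap ?_
    rw [injective_iff_map_eq_zero]
    intro x hx
    apply hinj
    intro i
    exact congrFun hx i
  have hnoeth : IsNoetherianRing A := IsNoetherianRing.of_finite 𝒪 A
  -- the residue map
  let e0 : MvPolynomial (PL S) 𝒪 →ₐ[𝒪] ResidueField 𝒪 := MvPolynomial.aeval (fun ℓ : PL S => a ℓ)
  have he0 : ∀ i f, ResidueField.map (algebraMap 𝒪 (pt i).R) (e0 f) = residue (pt i).R (θ i f) := by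
    intro i f
    induction f using MvPolynomial.induction_on with
    | C c =>
      show ResidueField.map (algebraMap 𝒪 (pt i).R) (MvPolynomial.aeval _ (MvPolynomial.C c)) =
        residue (pt i).R (MvPolynomial.aeval _ (MvPolynomial.C c))
      rw [MvPolynomial.aeval_C, MvPolynomial.aeval_C]
      exact ResidueField.map_residue _ c
    | add f g hf hg => rw [map_add, map_add, map_add, map_add, hf, hg]
    | mul_X f ℓ hf =>
      rw [map_mul, map_mul, map_mul, map_mul, hf]
      congr 1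
      show ResidueField.map (algebraMap 𝒪 (pt i).R) (MvPolynomial.aeval _ (MvPolynomial.X ℓ)) =
        residue (pt i).R (MvPolynomial.aeval _ (MvPolynomial.X ℓ))
      rw [MvPolynomial.aeval_X, MvPolynomial.aeval_X]
      exact (ha i ℓ ℓ.2.1 ℓ.2.2).symm
  obtain ⟨i₀⟩ := ‹Nonempty I›
  let ε : A →ₐ[𝒪] ResidueField 𝒪 := Ideal.Quotient.liftₐ K e0 fun f hf => by
    have h1 := he0 i₀ f
    rw [(hK f).1 hf i₀, map_zero] at h1
    exact (map_eq_zero _).mp h1
  have hε : ∀ i x, ResidueField.map (algebraMap 𝒪 (pt i).R) (ε x) = residue (pt i).R (φ i x) := by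
    intro i x
    obtain ⟨f, rfl⟩ := Ideal.Quotient.mk_surjective x
    exact he0 i f
  have hεloc : IsLocalHom (ε : A →+* ResidueField 𝒪) := by
    constructor
    intro x hx
    by_contra hxu
    obtain ⟨𝔪, h𝔪, hx𝔪⟩ := exists_max_ideal_of_mem_nonunits hxu
    have := h𝔪.isPrime
    have h1 : (⨅ i ∈ (Set.univ : Set I), RingHom.ker (φ i : A →+* (pt i).R)) ≤ 𝔪 := by
      intro y hy
      have : y = 0 := by
        apply hinj
        intro i
        have h2 := (Submodule.mem_iInf _).mp hy i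
        have h3 := (Submodule.mem_iInf _).mp h2 trivial
        exact h3
      rw [this]
      exact Ideal.zero_mem _
    have h2 : ∃ i, RingHom.ker (φ i : A →+* (pt i).R) ≤ 𝔪 := by
      have := Fintype.ofFinite I
      have h3 : (Finset.univ.inf fun i => RingHom.ker (φ i : A →+* (pt i).R)) ≤ 𝔪 := by
        refine le_trans ?_ h1
        rw [Finset.inf_eq_iInf]
        refine iInf_mono fun i => ?_
        simp
      obtain ⟨i, -, hi⟩ := (Ideal.IsPrime.inf_le' h𝔪.isPrime).mp h3
      exact ⟨i, hi⟩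
    obtain ⟨i, hi⟩ := h2
    let _ : Algebra A (pt i).R := (φ i : A →+* (pt i).R).toAlgebra
    have htower : IsScalarTower 𝒪 A (pt i).R := IsScalarTower.of_algebraMap_eq fun c =>
      ((φ i).commutes c).symm
    have hfin' : Module.Finite A (pt i).R := Module.Finite.of_restrictScalars_finite 𝒪 A (pt i).R
    have hint : Algebra.IsIntegral A (pt i).R := Algebra.IsIntegral.of_finite A (pt i).R
    obtain ⟨Q, hQ, hQc⟩ := Ideal.exists_ideal_over_maximal_of_isIntegral (S := (pt i).R) 𝔪 hi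
    rw [IsLocalRing.eq_maximalIdeal hQ] at hQc
    have h4 : φ i x ∈ maximalIdeal (pt i).R := by
      rw [← hQc] at hx𝔪
      exact hx𝔪
    have h5 := hε i x
    rw [(residue_eq_zero_iff _).mpr h4] at h5
    have h6 : ε x = 0 := (map_eq_zero _).mp h5
    have h7 : IsUnit (ε x) := hx
    rw [h6] at h7
    exact not_isUnit_zero h7
  have hlocal : IsLocalRing A := RingHom.domain_isLocalRing (ε : A →+* ResidueField 𝒪)
  have hmem : ∀ x : A, x ∈ maximalIdeal A ↔ ε x = 0 := by
    intro x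
    rw [mem_maximalIdeal, mem_nonunits_iff]
    constructor
    · intro h
      by_contra h0
      exact h (hεloc.map_nonunit x (isUnit_iff_ne_zero.mpr h0))
    · intro h hu
      have := hu.map ε
      rw [h] at this
      exact not_isUnit_zero this
  have hlh : IsLocalHom (algebraMap 𝒪 A) := by
    constructor
    intro c hc
    have h1 := hc.map ε
    rw [AlgHom.commutes] at h1
    exact isUnit_of_map_unit (residue 𝒪) c h1
  have hcompl : IsAdicComplete (maximalIdeal A) A :=
    IsLocalRing.isAdicComplete_of_module_finite (𝒪 := 𝒪)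
  refine ⟨{
    A := A
    commRing := inferInstance
    isLocalRing := hlocal
    isNoetherianRing := hnoeth
    isAdicComplete := hcompl
    algebra := inferInstance
    finite := hfin
    isLocalHom := hlh
    res_surj := ?_
    π := Ideal.Quotient.mkₐ 𝒪 K
    π_surj := Ideal.Quotient.mkₐ_surjective 𝒪 K
    φ := φ
    φ_loc := ?_
    φ_π := ?_
    φ_inj := hinj
    res_π := ?_ }⟩
  · intro y
    obtain ⟨x, rfl⟩ := residue_surjective y
    obtain ⟨c, hc⟩ := residue_surjective (ε x)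
    refine ⟨c, ?_⟩
    rw [Function.comp_apply, ← sub_eq_zero, ← map_sub, residue_eq_zero_iff, hmem, map_sub,
      AlgHom.commutes, sub_eq_zero]
    exact hc
  · intro i
    constructor
    intro x hx
    apply hεloc.map_nonunit x
    have h1 : IsUnit (residue (pt i).R (φ i x)) := hx.map _
    rw [← hε] at h1
    have h2 : ε x ≠ 0 := by
      intro h0
      rw [h0, map_zero] at h1
      exact not_isUnit_zero h1
    exact isUnit_iff_ne_zero.mpr h2
  · intro i ℓ
    show MvPolynomial.aeval _ (MvPolynomial.X ℓ) = _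
    rw [MvPolynomial.aeval_X]
  · intro ℓ
    obtain ⟨c, hc⟩ := residue_surjective (a ℓ)
    rw [← hc, ResidueField.map_residue, ← sub_eq_zero, ← map_sub, residue_eq_zero_iff, hmem,
      map_sub, AlgHom.commutes]
    have h1 : ε (Ideal.Quotient.mkₐ 𝒪 K (MvPolynomial.X ℓ)) = a ℓ := by
      show MvPolynomial.aeval _ (MvPolynomial.X ℓ) = _
      rw [MvPolynomial.aeval_X]
    rw [h1, ← hc]
    exact sub_self _

end Fermat.Agent.LL
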