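import Fermat.Agent.TWMod.Points

set_option autoImplicit false
set_option linter.unusedSectionVars false

/-!
# Eigenvectors at points `ψ : Λ → K` give points of the local Hecke algebra
-/

open CongruenceSubgroup Fermat.Agent.Top MvPolynomial IsLocalRing Fermat.Agent.TWMod
open scoped MatrixGroups TensorProduct

namespace Fermat.Agent.LL

section ev

variable {Λ : Type} [CommRing Λ] {K : Type} [Field K] (ψ : Λ →+* K)
variable {N : ℕ} (χ : DirichletCharacter Λ N) (S : Set ℕ)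

/-- `x` is an eigenvector at the point `ψ` -/
def IsEigP (α : Pr S → K) (x : H1 (kap (χ.ringHomComp ψ)) (PtMod ψ)) : Prop :=
  ∀ ℓ : Pr S, hk (χ.ringHomComp ψ) (PtMod ψ) ℓ.2.1 x = α ℓ • x

variable {ψ χ S}

theorem IsEigP.ev_eq {α : Pr S → K} {x : H1 (kap (χ.ringHomComp ψ)) (PtMod ψ)}
    (hx : IsEigP ψ χ S α x) (P : MvPolynomial (Pr S) K) :
    ev (χ.ringHomComp ψ) S (PtMod ψ) P x = (MvPolynomial.eval α P) • x :=
  ev_eigen (Λ := K) (χ := χ.ringHomComp ψ) (S := S) (A := PtMod ψ) hx P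

theorem ev_map_eq_zero [NeZero N] (h2 : IsUnit (2 : Λ)) (h3 : Three Λ N)
    {P : MvPolynomial (Pr S) Λ} (hP : ev χ S Λ P = 0) :
    ev (χ.ringHomComp ψ) S (PtMod ψ) (MvPolynomial.map ψ P) = 0 := by
  refine LinearMap.ext fun x ↦ ?_
  obtain ⟨y, rfl⟩ := (chg (sameOn_pt ψ χ)).surjective x
  rw [← chg_ev_pt, ev_eq_zero_of χ S (PtMod ψ) h2 h3 hP]
  simp

theorem IsEigP.eval_eq_zero [NeZero N] (h2 : IsUnit (2 : Λ)) (h3 : Three Λ N)
    {α : Pr S → K} {x : H1 (kap (χ.ringHomComp ψ)) (PtMod ψ)}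
    (hx : IsEigP ψ χ S α x) (hx0 : x ≠ 0) {P : MvPolynomial (Pr S) Λ} (hP : ev χ S Λ P = 0) :
    eval₂ ψ α P = 0 := by
  have h1 := hx.ev_eq (MvPolynomial.map ψ P)
  rw [ev_map_eq_zero h2 h3 hP, LinearMap.zero_apply, MvPolynomial.eval_map] at h1
  exact (smul_eq_zero.1 h1.symm).resolve_right hx0

end ev

section Local

variable {Λ : Type} [CommRing Λ] [IsLocalRing Λ] {K : Type} [Field K] {ψ : Λ →+* K}
variable {N : ℕ} [NeZero N] {χ₁ χ₂ : DirichletCharacter Λ N} {S : Set ℕ}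
variable {a : Pr S → ResidueField Λ} {E : MvPolynomial (Pr S) Λ} (hE : IsLoc χ₁ χ₂ S a E)
  {χ : DirichletCharacter Λ N} (hχ : χ ∈ ({χ₁, χ₂} : Set (DirichletCharacter Λ N)))
  {α : Pr S → K} {x : H1 (kap (χ.ringHomComp ψ)) (PtMod ψ)}
  (hx : IsEigP ψ χ S α x) (hx0 : x ≠ 0)

include hE hχ

theorem eval_idem (hx : IsEigP ψ χ S α x) (hx0 : x ≠ 0) :
    eval₂ ψ α E * eval₂ ψ α E = eval₂ ψ α E := by
  have h := hE.idem χ hχ
  rw [← sub_eq_zero, ← map_sub] at h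
  have h1 := hx.eval_eq_zero hE.two hE.three hx0 h
  rw [eval₂_sub, eval₂_mul, sub_eq_zero] at h1
  exact h1

/-- in the local component the projector has value one -/
theorem eval_E (hx : IsEigP ψ χ S α x) (hx0 : x ≠ 0) (hxM : x ∈ MP ψ χ S E) :
    eval₂ ψ α E = 1 := by
  have h1 := eval_idem hE hχ hx hx0
  have h2 : ev (χ.ringHomComp ψ) S (PtMod ψ) (MvPolynomial.map ψ E) x = x := by
    obtain ⟨y, rfl⟩ := hxM
    obtain ⟨z, rfl⟩ := (chg (sameOn_pt ψ χ)).surjective y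
    rw [← chg_ev_pt, ← chg_ev_pt, hE.idemA hE.two hE.three hχ]
  rw [hx.ev_eq, MvPolynomial.eval_map] at h2
  by_contra hne
  have h3 : eval₂ ψ α E = 0 := by
    have h4 : eval₂ ψ α E * (eval₂ ψ α E - 1) = 0 := by rw [mul_sub, h1, mul_one, sub_self]
    exact (mul_eq_zero.1 h4).resolve_right (sub_ne_zero.2 hne)
  rw [h3, zero_smul] at h2
  exact hx0 h2.symm

/-- the point of the local Hecke algebra -/
noncomputable def ptT (hx : IsEigP ψ χ S α x) (hx0 : x ≠ 0) (hxM : x ∈ MP ψ χ S E) :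
    TT χ₁ χ₂ S E →+* K :=
  Ideal.Quotient.lift _ (eval₂Hom ψ α) (fun P hP ↦ by
    have h1 := ev_mul_eq_zero (mem_annT.2 (mem_annT.1 hP)) χ hχ
    have h2 := hx.eval_eq_zero hE.two hE.three hx0 h1
    rw [eval₂_mul, eval_E hE hχ hx hx0 hxM, mul_one] at h2
    exact h2)

@[simp] theorem ptT_mk (hxM : x ∈ MP ψ χ S E) (P : MvPolynomial (Pr S) Λ) :
    ptT hE hχ hx hx0 hxM (Ideal.Quotient.mk _ P) = eval₂ ψ α P := rfl

theorem ptT_algebraMap (hxM : x ∈ MP ψ χ S E) (r : Λ) :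
    ptT hE hχ hx hx0 hxM (algebraMap Λ _ r) = ψ r := by
  rw [algebraMap_TT, ptT_mk, eval₂_C]

/-- A system of eigenvalues in the local component is not congruent to another one. -/
theorem ne_of_res (hx : IsEigP ψ χ S α x) (hx0 : x ≠ 0) (hxM : x ∈ MP ψ χ S E) (P : MvPolynomial (Pr S) Λ) (hP : resE S a P ≠ 0) :
    eval₂ ψ α P ≠ 0 := by
  have := isLocalHom_resT hE
  have hu : IsUnit (Ideal.Quotient.mk (annT χ₁ χ₂ S E) P) := by
    refine isUnit_of_map_unit (resT hE) _ ?_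
    rw [resT_mk]
    exact isUnit_iff_ne_zero.2 hP
  have h1 := hu.map (ptT hE hχ hx hx0 hxM)
  rw [ptT_mk] at h1
  exact h1.ne_zero

end Local

end Fermat.Agent.LL
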