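import Fermat.Agent.LL.AutOut
import Fermat.Agent.LL.BN
import Fermat.Agent.LL.FinDVR

set_option autoImplicit false
set_option linter.style.haveILetI false

/-!
# Representations attached to points of the Hecke algebra
-/

open IsLocalRing Polynomial

namespace Fermat.Agent.LL

local notation "Γℚ" => (AlgebraicClosure ℚ ≃ₐ[ℚ] AlgebraicClosure ℚ)

/-- Local properties of representations attached to newforms of level `M`. -/
structure NFProps (p M : ℕ) {R : Type} [CommRing R] [IsLocalRing R] (ρ : GaloisRepAdic R) :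
    Prop where
  det : ρ.DetIsCyclotomic p
  unr : ∀ q : ℕ, q.Prime → q ≠ p → ¬ q ∣ M → ρ.IsUnramifiedAt q
  st : ∀ q : ℕ, q.Prime → q ≠ p → q ∣ M → ¬ q ^ 2 ∣ M → ρ.IsUnipotentOnInertiaAt q ∧
    ∀ P : ValuationSubring (AlgebraicClosure ℚ), P.LiesOverPrime q →
      ∀ σ : Γℚ, P.IsFrobeniusAt σ q →
        LinearMap.charpoly (ρ.ρ σ) = X ^ 2 - C ((q : R) + 1) * X + C (q : R) ∨
        LinearMap.charpoly (ρ.ρ σ) = X ^ 2 + C ((q : R) + 1) * X + C (q : R)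
  ram : ∀ q : ℕ, q.Prime → q ≠ p → M.factorization q = 2 → ¬ ρ.IsUnipotentOnInertiaAt q
  flat : ¬ p ∣ M → ρ.IsFlatAt p

theorem NFStmt.props (hNF : NFStmt) {M : ℕ} [NeZero M]
    {g : CuspForm (CongruenceSubgroup.Gamma0 M) 2} (hg : g.IsNewform)
    {p : ℕ} (hp : p.Prime) (hp2 : p ≠ 2) {S : Finset ℕ} (hpS : p ∈ S)
    (hMS : ∀ q : ℕ, q.Prime → q ∣ M → q ∈ S)
    {R : Type} [CommRing R] [IsDomain R] [IsDiscreteValuationRing R]
    [IsAdicComplete (maximalIdeal R) R] [Finite (ResidueField R)] [CharZero R]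
    (hpR : (p : R) ∈ maximalIdeal R) {D : Subring ℂ} (ι : D →+* R)
    (hD : ∀ ℓ : ℕ, ℓ.Prime → ℓ ∉ S → ModularFormClass.qCoeff g ℓ ∈ D)
    (ρ : GaloisRepAdic R)
    (h : ∀ ℓ : ℕ, ∀ hℓ : ℓ.Prime, ∀ hS : ℓ ∉ S, ∀ P : ValuationSubring (AlgebraicClosure ℚ),
        P.LiesOverPrime ℓ → ∀ σ : Γℚ, P.IsFrobeniusAt σ ℓ →
        LinearMap.charpoly (ρ.ρ σ) = X ^ 2 - C (ι ⟨_, hD ℓ hℓ hS⟩) * X + C (ℓ : R))
    (habs : ρ.residual.IsAbsolutelyIrreducible) (hodd : ρ.residual.IsOdd) : NFProps p M ρ := by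
  obtain ⟨h1, h2, h3, h4, h5⟩ := hNF hg p hp hp2 S hpS hMS R hpR D ι hD ρ h habs hodd
  exact ⟨h1, h2, h3, h4, h5⟩

theorem charpoly_baseChangeAlong {k k' : Type} [Field k] [Field k'] (φ : k →+* k')
    (ρ : ResidualGaloisRep k) (σ : Γℚ) :
    LinearMap.charpoly ((ρ.baseChangeAlong φ).ρ σ) = (LinearMap.charpoly (ρ.ρ σ)).map φ := by
  let _ : Algebra k k' := φ.toAlgebra
  exact LinearMap.charpoly_baseChange (ρ.ρ σ) k'

theorem charpoly_residual {R : Type} [CommRing R] [IsLocalRing R] (ρ : GaloisRepAdic R) (σ : Γℚ) :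
    LinearMap.charpoly (ρ.residual.ρ σ) = (LinearMap.charpoly (ρ.ρ σ)).map (residue R) :=
  LinearMap.charpoly_baseChange (ρ.ρ σ) (ResidueField R)

theorem isOdd_of_isEquiv {k k' : Type} [Field k] [Field k'] (φ : k →+* k')
    {ρ : ResidualGaloisRep k} (h : ρ.IsOdd) {ρ' : ResidualGaloisRep k'}
    (e : ρ'.IsEquiv (ρ.baseChangeAlong φ)) : ρ'.IsOdd := by
  intro c hc hc1
  have h1 := h c hc hc1
  obtain ⟨e⟩ := e
  have h2 : LinearMap.charpoly (ρ'.ρ c) = LinearMap.charpoly ((ρ.baseChangeAlong φ).ρ c) := by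
    rw [← LinearEquiv.charpoly_conj e.toLinearEquiv]
    congr 1
    ext x
    simp [LinearEquiv.conj_apply, e.map_apply]
  rw [charpoly_baseChangeAlong, Cheb.charpoly_eq ρ.finrank_eq, h1] at h2
  have h3 := Cheb.trace_det_of_charpoly_eq ρ'.finrank_eq (ρ'.ρ c) (t := φ (LinearMap.trace k ρ.V (ρ.ρ c)))
    (d := -1) (by rw [h2]; simp)
  exact h3.2

theorem exists_pt (hDVR : DVRExtStmt) (hNF0 : NF0Stmt) (hNF : NFStmt)
    {p : ℕ} (hp : p.Prime) (hp2 : p ≠ 2)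
    {𝒪 : Type} [CommRing 𝒪] [IsDomain 𝒪] [IsDiscreteValuationRing 𝒪]
    [IsAdicComplete (maximalIdeal 𝒪) 𝒪] [Finite (ResidueField 𝒪)] [CharZero 𝒪]
    (hp𝒪 : (p : 𝒪) ∈ maximalIdeal 𝒪) {j : 𝒪 →+* ℂ} (hj : Function.Injective j)
    {ρbar : ResidualGaloisRep (ResidueField 𝒪)} (habs : ρbar.IsAbsolutelyIrreducible)
    (hodd : ρbar.IsOdd) {S : Finset ℕ} (hpS : p ∈ S) {b : ℕ → 𝒪}
    (hb : FrobCharRes ρbar S (fun ℓ ↦ residue 𝒪 (b ℓ)))
    {A : Type} [CommRing A] [IsLocalRing A] [Algebra 𝒪 A] [Module.Finite 𝒪 A]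
    [IsLocalHom (algebraMap 𝒪 A)] {φ : A →+* ℂ} (hφ : φ.comp (algebraMap 𝒪 A) = j) {t : ℕ → A}
    (ht : ∀ ℓ : ℕ, ℓ.Prime → ℓ ∉ S → t ℓ - algebraMap 𝒪 A (b ℓ) ∈ maximalIdeal A)
    {M : ℕ} [NeZero M] {g : CuspForm (CongruenceSubgroup.Gamma0 M) 2} (hg : g.IsNewform)
    (hMS : ∀ q : ℕ, q.Prime → q ∣ M → q ∈ S)
    (hgt : ∀ ℓ : ℕ, ℓ.Prime → ℓ ∉ S → ModularFormClass.qCoeff g ℓ = φ (t ℓ)) :
    ∃ P : Pt j ρbar S (fun ℓ ↦ φ (t ℓ)), NFProps p M P.ρ := by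
  classical
  -- the image of `A`
  let D : Subring ℂ := φ.range
  let φD : A →+* D := φ.rangeRestrict
  have hφD : Function.Surjective φD := φ.rangeRestrict_surjective
  let _ : Algebra 𝒪 D := (φD.comp (algebraMap 𝒪 A)).toAlgebra
  have halg : ∀ a : 𝒪, ((algebraMap 𝒪 D a : D) : ℂ) = j a := fun a ↦ by
    rw [← hφ]; rfl
  have hDfin : Module.Finite 𝒪 D := by
    let l : A →ₗ[𝒪] D :=
      { toFun := φD
        map_add' := map_add φD
        map_smul' := fun r x ↦ by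
          rw [Algebra.smul_def, map_mul, Algebra.smul_def]
          rfl }
    exact Module.Finite.of_surjective l hφD
  have hDinj : Function.Injective (algebraMap 𝒪 D) := by
    intro x y hxy
    apply hj
    rw [← halg, ← halg, hxy]
  obtain ⟨R₁, _, _, _, _, _, _, f₁, hf₁, hf₁l, hf₁l'⟩ := hDVR D hDinj
  have hpR₁ : (p : R₁) ∈ maximalIdeal R₁ := by
    have h1 : (f₁.comp (algebraMap 𝒪 D)) (p : 𝒪) ∈ maximalIdeal R₁ :=
      map_nonunit (f₁.comp (algebraMap 𝒪 D)) _ hp𝒪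
    rwa [map_natCast] at h1
  have hDg : ∀ ℓ : ℕ, ℓ.Prime → ℓ ∉ S → ModularFormClass.qCoeff g ℓ ∈ D := fun ℓ hℓ hS ↦ by
    rw [hgt ℓ hℓ hS]
    exact ⟨_, rfl⟩
  obtain ⟨R, _, _, _, _, _, _, f₂, hf₂, hf₂l, ρ, hρ⟩ :=
    hNF0 hg p hp S hpS hMS R₁ hpR₁ D f₁ hDg
  let f : D →+* R := f₂.comp f₁
  have hf : Function.Injective f := hf₂.comp hf₁
  let _ : Algebra 𝒪 R := (f.comp (algebraMap 𝒪 D)).toAlgebra
  have hlocR : IsLocalHom (algebraMap 𝒪 R) := by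
    have h1 : IsLocalHom (f₂.comp (f₁.comp (algebraMap 𝒪 D))) := RingHom.isLocalHom_comp _ _
    exact h1
  have hpR : (p : R) ∈ maximalIdeal R := by
    have h1 := map_nonunit f₂ _ hpR₁
    rwa [map_natCast] at h1
  have hfin : Module.Finite 𝒪 R := finite_of_dvr hp.ne_zero hp𝒪
  have hfint : f.IsIntegral := by
    intro x
    have h1 : IsIntegral 𝒪 x := Algebra.IsIntegral.isIntegral x
    exact RingHom.IsIntegralElem.of_comp (f := algebraMap 𝒪 D) (g := f) h1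
  obtain ⟨e, he, hef⟩ := exists_embedding hp.ne_zero hpR f hf hfint D.subtype
    Subtype.val_injective
  -- the local maps
  have hlocA : ∀ x ∈ maximalIdeal A, f (φD x) ∈ maximalIdeal R := by
    intro x hx
    rw [mem_maximalIdeal, mem_nonunits_iff] at hx ⊢
    intro hu
    apply hx
    -- `φD x` is a unit in `D`
    have h1 : IsUnit (f₁ (φD x)) := isUnit_of_map_unit f₂ _ hu
    have h2 : IsUnit (φD x) := isUnit_of_map_unit f₁ _ h1
    obtain ⟨v, hv⟩ := h2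
    obtain ⟨y, hy⟩ := hφD ((v⁻¹ : Dˣ) : D)
    by_contra hx'
    have h3 : x * y ∈ maximalIdeal A :=
      Ideal.mul_mem_right _ _ ((mem_maximalIdeal _).2 (mem_nonunits_iff.2 hx'))
    have h4 : IsUnit (1 - x * y) := by
      by_contra h5
      have h6 := Ideal.add_mem _ ((mem_maximalIdeal _).2 (mem_nonunits_iff.2 h5)) h3
      rw [sub_add_cancel] at h6
      exact (Ideal.ne_top_iff_one _).1 (maximalIdeal.isMaximal A).ne_top h6
    have h5 := h4.map φD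
    rw [map_sub, map_one, map_mul, ← hv, hy, Units.mul_inv, sub_self] at h5
    exact not_isUnit_zero h5
  let tr : ℕ → R := fun ℓ ↦ f (φD (t ℓ))
  have hFrob : FrobChar ρ S tr := by
    intro ℓ hℓ hS P hP σ hσ
    rw [hρ ℓ hℓ hS P hP σ hσ]
    congr 4
    change f₂ (f₁ _) = f₂ (f₁ _)
    congr 2
    exact Subtype.ext (hgt ℓ hℓ hS)
  have hres : ρ.residual.IsEquiv (ρbar.baseChangeAlong (ResidueField.map (algebraMap 𝒪 R))) := by
    refine residual_isEquiv_of_frob _ ρbar habs ρ.residual S fun ℓ hℓ hS P hP σ hσ ↦ ?_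
    rw [charpoly_baseChangeAlong, charpoly_residual, hb ℓ hℓ hS P hP σ hσ, hFrob ℓ hℓ hS P hP σ hσ]
    have h1 : residue R (tr ℓ) = ResidueField.map (algebraMap 𝒪 R) (residue 𝒪 (b ℓ)) := by
      rw [ResidueField.map_residue, ← sub_eq_zero, ← map_sub, residue_eq_zero_iff]
      have h2 := hlocA _ (ht ℓ hℓ hS)
      rw [map_sub, map_sub] at h2
      exact h2
    simp [h1]
  obtain ⟨eq⟩ := id hres
  have habs' : ρ.residual.IsAbsolutelyIrreducible := absIrr_of_isEquiv _ habs hres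
  have hodd' : ρ.residual.IsOdd := isOdd_of_isEquiv _ hodd hres
  have hD' : ∀ ℓ : ℕ, ∀ hℓ : ℓ.Prime, ∀ hS : ℓ ∉ S, ∀ P : ValuationSubring (AlgebraicClosure ℚ),
        P.LiesOverPrime ℓ → ∀ σ : Γℚ, P.IsFrobeniusAt σ ℓ →
        LinearMap.charpoly (ρ.ρ σ) = X ^ 2 - C (f ⟨_, hDg ℓ hℓ hS⟩) * X + C (ℓ : R) := hρ
  refine ⟨{ R := R, ι := e, ι_inj := he, ι_comp := ?_, ρ := ρ, tr := tr, ι_tr := ?_,
            frob := hFrob, residual := hres }, ?_⟩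
  · ext a
    change e (f (algebraMap 𝒪 D a)) = j a
    rw [← RingHom.comp_apply, hef, ← halg]
    rfl
  · intro ℓ _ _
    change e (f (φD (t ℓ))) = φ (t ℓ)
    rw [← RingHom.comp_apply, hef]
    rfl
  · exact hNF.props hg hp hp2 hpS hMS hpR f hDg ρ hD' habs' hodd'

end Fermat.Agent.LL
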