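import Fermat.Agent.LL.Functional
import Fermat.Agent.LL.PtExists
import Fermat.Agent.Twist.Spec
import Fermat.Agent.TWNew.Main
import Fermat.Agent.TWMod.SS

set_option autoImplicit false
set_option linter.unusedSectionVars false

/-!
# The local components at a level with characters
-/

open CongruenceSubgroup Fermat.Agent.Top IsLocalRing Fermat.Agent.TWMod
open scoped MatrixGroups TensorProduct

namespace Fermat.Agent.LL

local notation "Γℚ" => (AlgebraicClosure ℚ ≃ₐ[ℚ] AlgebraicClosure ℚ)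

/-- Blocks used as inputs. -/
structure Inputs : Prop where
  dvr : DVRExtStmt
  nf0 : NF0Stmt
  nf : NFStmt

/-- The residual system. -/
structure Ctx (p : ℕ) {𝒪 : Type} [CommRing 𝒪] [IsDomain 𝒪] [IsDiscreteValuationRing 𝒪]
    [IsAdicComplete (maximalIdeal 𝒪) 𝒪] [Finite (ResidueField 𝒪)] [CharZero 𝒪] (j : 𝒪 →+* ℂ)
    (ρbar : ResidualGaloisRep (ResidueField 𝒪)) (S0 : Finset ℕ) (b : ℕ → 𝒪) : Prop where
  prime : p.Prime
  ne2 : p ≠ 2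
  mem : (p : 𝒪) ∈ maximalIdeal 𝒪
  inj : Function.Injective j
  abs : ρbar.IsAbsolutelyIrreducible
  odd : ρbar.IsOdd
  frob : FrobCharRes ρbar S0 (fun ℓ ↦ residue 𝒪 (b ℓ))
  pS : p ∈ S0
  noneis : ∀ (S : Finset ℕ) (m : ℕ), 0 < m → ∃ ℓ : ℕ, ℓ.Prime ∧ ℓ ∉ S ∧ ℓ ≡ 1 [MOD m] ∧
    residue 𝒪 (b ℓ) ≠ 1 + ℓ

section Units

variable {R : Type} [CommRing R] [IsLocalRing R] {p : ℕ}

theorem isUnit_natCast_of_coprime (hpR : (p : R) ∈ maximalIdeal R) {m : ℕ} (h : Nat.Coprime m p) :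
    IsUnit (m : R) := by
  by_contra hm
  have h1 : (m : R) ∈ maximalIdeal R := (mem_maximalIdeal _).2 hm
  have h2 := Nat.gcd_eq_gcd_ab m p
  rw [h] at h2
  have h3 : (1 : R) = m * ((Nat.gcdA m p : ℤ) : R) + p * ((Nat.gcdB m p : ℤ) : R) := by
    exact_mod_cast congrArg (Int.cast : ℤ → R) h2
  have h4 : (1 : R) ∈ maximalIdeal R := by
    rw [h3]
    exact Ideal.add_mem _ (Ideal.mul_mem_right _ _ h1) (Ideal.mul_mem_right _ _ hpR)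
  exact (Ideal.ne_top_iff_one _).1 (maximalIdeal.isMaximal R).ne_top h4

theorem isUnit_two (hp : p.Prime) (hp2 : p ≠ 2) (hpR : (p : R) ∈ maximalIdeal R) :
    IsUnit (2 : R) := by
  have h := isUnit_natCast_of_coprime hpR (m := 2)
    ((Nat.coprime_primes Nat.prime_two hp).2 hp2.symm)
  exact_mod_cast h

theorem isUnit_three (hp : p.Prime) (hp5 : 5 ≤ p) (hpR : (p : R) ∈ maximalIdeal R) :
    IsUnit (3 : R) := by
  have h := isUnit_natCast_of_coprime hpR (m := 3)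
    ((Nat.coprime_primes Nat.prime_three hp).2 (by omega))
  exact_mod_cast h

end Units

section Level

variable {p : ℕ} {𝒪 : Type} [CommRing 𝒪] [IsDomain 𝒪] [IsDiscreteValuationRing 𝒪]
    [IsAdicComplete (maximalIdeal 𝒪) 𝒪] [Finite (ResidueField 𝒪)] [CharZero 𝒪] {j : 𝒪 →+* ℂ}
    {ρbar : ResidualGaloisRep (ResidueField 𝒪)} {S0 : Finset ℕ} {b : ℕ → 𝒪}
    {r : ℕ} {av : Fin r → ℕ}

/-- A level with characters. -/
structure Lev (G : GrpRing 𝒪 p av) (S : Finset ℕ) (N : ℕ) (F : Finset ℕ) (z : ℕ → G.Λ) :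
    Prop where
  sqf : Squarefree N
  mem : ∀ q : ℕ, q.Prime → q ∣ N → q ∈ S
  three : Three G.Λ N
  dvd : ∀ q ∈ F, q ∣ N
  prime : ∀ q ∈ F, q.Prime
  one : ∀ q ∈ F, p ∣ q - 1
  pow : ∀ q ∈ F, ∃ a : ℕ, p ^ a ∣ q - 1 ∧ z q ^ p ^ a = 1
  res : ∀ q ∈ F, residue G.Λ (z q) = 1

variable {G : GrpRing 𝒪 p av} {S : Finset ℕ} {N : ℕ} {F : Finset ℕ} {z : ℕ → G.Λ}

theorem Lev.pow' (L : Lev G S N F z) : ∀ q ∈ F, z q ^ (q - 1) = 1 := by
  intro q hq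
  obtain ⟨a, ⟨m, hm⟩, ha⟩ := L.pow q hq
  rw [hm, pow_mul, ha, one_pow]

theorem Lev.ne_zero (L : Lev G S N F z) : N ≠ 0 := L.sqf.ne_zero

/-- values of the character are residually trivial -/
theorem Lev.res_apply [NeZero N] (L : Lev G S N F z) {u : ZMod N} (hu : IsUnit u) :
    residue G.Λ (chz N F z u) = 1 := by
  have h := chz_sub_mem (z := fun _ ↦ 1) (z' := z) (I := maximalIdeal G.Λ) L.dvd L.prime
    (fun _ _ ↦ one_pow _) L.pow' (fun q hq ↦ by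
      rw [← residue_eq_zero_iff, map_sub, L.res q hq, map_one, sub_self]) u
  rw [chz_eq_one L.dvd L.prime (fun _ _ ↦ rfl), MulChar.one_apply hu] at h
  rw [← sub_eq_zero, ← map_one (residue G.Λ), ← map_sub]
  exact (residue_eq_zero_iff _).2 h

theorem Lev.res_eis [NeZero N] (L : Lev G S N F z) (ℓ : Pr (↑S : Set ℕ)) :
    residue G.Λ (eis (chz N F z) ↑S ℓ) = 1 + (ℓ.1 : ResidueField G.Λ) := by
  have hu : IsUnit ((ℓ.1 : ℕ) : ZMod N) := by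
    rw [ZMod.isUnit_iff_coprime]
    exact (Nat.Prime.coprime_iff_not_dvd ℓ.2.1).2 fun h ↦ ℓ.2.2 (L.mem _ ℓ.2.1 h)
  have h1 : chz N F z ((ℓ.1 : ℕ) : ZMod N) * (chz N F z)⁻¹ ((ℓ.1 : ℕ) : ZMod N) = 1 :=
    char_mul_inv _ hu
  have h2 := congrArg (residue G.Λ) h1
  rw [map_mul, L.res_apply hu, one_mul, map_one] at h2
  rw [eis, map_add, map_mul, L.res_apply hu, h2, map_natCast, mul_one, add_comm]

/-- the residual system, as a system over `Λ` -/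
noncomputable def aL (G : GrpRing 𝒪 p av) (S : Finset ℕ) (b : ℕ → 𝒪) (ℓ : Pr (↑S : Set ℕ)) :
    ResidueField G.Λ :=
  residue G.Λ (algebraMap 𝒪 G.Λ (b ℓ.1))

theorem pΛ (C : Ctx p j ρbar S0 b) (G : GrpRing 𝒪 p av) : (p : G.Λ) ∈ maximalIdeal G.Λ := by
  have h := map_nonunit (algebraMap 𝒪 G.Λ) _ C.mem
  rwa [map_natCast] at h

theorem exists_noneis (C : Ctx p j ρbar S0 b) (G : GrpRing 𝒪 p av) (S : Finset ℕ) {m : ℕ}
    (hm : 0 < m) : ∃ ℓ : Pr (↑S : Set ℕ), ℓ.1 ≡ 1 [MOD m] ∧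
      aL G S b ℓ ≠ 1 + (ℓ.1 : ResidueField G.Λ) := by
  obtain ⟨ℓ, hℓ, hℓS, hℓm, hne⟩ := C.noneis S m hm
  refine ⟨⟨ℓ, hℓ, fun h ↦ hℓS (Finset.mem_coe.1 h)⟩, hℓm, fun h ↦ hne ?_⟩
  rw [aL] at h
  have h1 : ResidueField.map (algebraMap 𝒪 G.Λ) (residue 𝒪 (b ℓ)) =
      ResidueField.map (algebraMap 𝒪 G.Λ) (1 + ℓ) := by
    rw [ResidueField.map_residue, map_add, map_one, map_natCast]
    exact h
  exact (ResidueField.map (algebraMap 𝒪 G.Λ)).injective h1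

/-- existence of the local component -/
theorem exists_isLoc [NeZero N] (C : Ctx p j ρbar S0 b) (h3 : Three G.Λ N)
    {χ₁ χ₂ : DirichletCharacter G.Λ N}
    (h : ∀ P, ev χ₁ ↑S G.Λ P = 0 → ev χ₂ ↑S G.Λ P = 0 → resE ↑S (aL G S b) P = 0) :
    ∃ E, IsLoc χ₁ χ₂ ↑S (aL G S b) E := by
  have h2 := isUnit_two C.prime C.ne2 (pΛ C G)
  obtain ⟨E, hE⟩ := exists_isProj χ₁ χ₂ ↑S (aL G S b) h2 h3 h
  exact ⟨E, ⟨hE, h2, h3, h⟩⟩

variable {χ₁ χ₂ : DirichletCharacter G.Λ N} {E : MvPolynomial (Pr (↑S : Set ℕ)) G.Λ}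

/-- freeness of the local component -/
theorem Lev.free [NeZero N] (L : Lev G S N F z) (C : Ctx p j ρbar S0 b)
    (hE : IsLoc χ₁ χ₂ ↑S (aL G S b) E)
    (hχ : chz N F z ∈ ({χ₁, χ₂} : Set (DirichletCharacter G.Λ N))) :
    Module.Free G.Λ (MM G.Λ (chz N F z) ↑S E) := by
  obtain ⟨ℓ, -, hℓ⟩ := exists_noneis C G S one_pos
  refine free_MM hE.toIsProj hE.two hE.three hχ (fun q hq hqN ↦ L.mem q hq hqN) (ℓ := ℓ) ?_
  rw [L.res_eis]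
  exact hℓ

theorem finite_MM [NeZero N] {χ : DirichletCharacter G.Λ N}
    (hE : IsLoc χ₁ χ₂ ↑S (aL G S b) E) : Module.Finite G.Λ (MM G.Λ χ ↑S E) := by
  have := finite_H1 (isGood_kap χ hE.two hE.three) G.Λ
  infer_instance

variable {ψ : G.Λ →+* ℂ}

theorem Lev.twHyp (L : Lev G S N F z) (C : Ctx p j ρbar S0 b) :
    TwHyp N (cond F (fun q ↦ ψ (z q))) (chz N F (fun q ↦ ψ (z q))) := by
  refine LL.twHyp C.prime C.ne2 (Nat.pos_of_ne_zero L.ne_zero) L.sqf L.dvd L.prime L.one ?_ ?_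
  · intro q hq
    rw [← map_pow, L.pow' q hq, map_one]
  · intro q hq
    obtain ⟨a, -, ha⟩ := L.pow q hq
    exact ⟨a, by rw [← map_pow, ha, map_one]⟩

theorem Lev.comp [NeZero N] (L : Lev G S N F z) :
    (chz N F z).ringHomComp ψ = chz N F (fun q ↦ ψ (z q)) :=
  chz_ringHomComp ψ L.dvd L.prime L.pow'

open MvPolynomial in
theorem ev_map_sub [NeZero N] {χ : DirichletCharacter G.Λ N} (ℓ : Pr (↑S : Set ℕ)) (c : G.Λ)
    (x : H1 (kap (χ.ringHomComp ψ)) (PtMod ψ)) :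
    ev (χ.ringHomComp ψ) ↑S (PtMod ψ) (MvPolynomial.map ψ (X ℓ - C c)) x =
      hk (χ.ringHomComp ψ) (PtMod ψ) ℓ.2.1 x - ψ c • x := by
  rw [map_sub, map_X, map_C, map_sub, LinearMap.sub_apply, ev_X, ev_C_apply]
  rfl

open MvPolynomial in
theorem resE_sub (ℓ : Pr (↑S : Set ℕ)) (h : aL G S b ℓ ≠ 1 + (ℓ.1 : ResidueField G.Λ)) :
    resE ↑S (aL G S b) (X ℓ - C (1 + (ℓ.1 : G.Λ))) ≠ 0 := by
  rw [map_sub, resE_X, resE_C, map_add, map_one, map_natCast, sub_ne_zero]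
  exact h

open MvPolynomial in
/-- semisimplicity at points -/
theorem Lev.ss [NeZero N] (L : Lev G S N F z) (C : Ctx p j ρbar S0 b) (hSS : SpecSS)
    (hE : IsLoc χ₁ χ₂ ↑S (aL G S b) E)
    (hχ : chz N F z ∈ ({χ₁, χ₂} : Set (DirichletCharacter G.Λ N))) :
    MP ψ (chz N F z) ↑S E = Submodule.span ℂ
      {x | x ∈ MP ψ (chz N F z) ↑S E ∧ ∃ α, IsEigP ψ (chz N F z) ↑S α x} := by
  have hT : TwHyp N (cond F (fun q ↦ ψ (z q))) ((chz N F z).ringHomComp ψ) := by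
    rw [L.comp]
    exact L.twHyp C
  let W : Submodule ℂ (H1 (kap ((chz N F z).ringHomComp ψ)) ℂ) := MP ψ (chz N F z) ↑S E
  have hc : 0 < N * cond F (fun q ↦ ψ (z q)) :=
    Nat.mul_pos hT.pos (Nat.pos_of_ne_zero hT.sqf.ne_zero)
  obtain ⟨ℓ, hℓ1, hℓ2⟩ := exists_noneis C G S hc
  have h := hSS N _ _ hT S L.mem W (fun ℓ hℓ hS x hx ↦
      hk_mem_MP (ψ := ψ) (χ := chz N F z) (E := E) ⟨ℓ, hℓ, fun h ↦ hS (Finset.mem_coe.1 h)⟩ hx)
    ⟨ℓ.1, ℓ.2.1, fun h ↦ ℓ.2.2 (Finset.mem_coe.2 h), hℓ1, fun x hx hxe ↦ by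
      refine eq_zero_of_MP hE hχ (resE_sub ℓ hℓ2) (x := x) hx ?_
      refine (ev_map_sub ℓ _ x).trans (sub_eq_zero.2 ?_)
      have h1 : ψ (1 + (ℓ.1 : G.Λ)) = 1 + (ℓ.1 : ℂ) := by rw [map_add, map_one, map_natCast]
      exact hxe.trans (congrArg (· • x) h1.symm)⟩
  change W = _
  rw [h]
  apply le_antisymm
  · refine Submodule.span_mono ?_
    rintro x ⟨hx, α, hα⟩
    exact ⟨hx, fun ℓ ↦ α ℓ.1, fun ℓ ↦ hα ℓ.1 ℓ.2.1 fun h ↦ ℓ.2.2 (Finset.mem_coe.2 h)⟩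
  · refine Submodule.span_mono ?_
    rintro x ⟨hx, α, hα⟩
    classical
    refine ⟨hx, fun ℓ ↦ if h : ℓ.Prime ∧ ℓ ∉ (↑S : Set ℕ) then α ⟨ℓ, h⟩ else 0, fun ℓ hℓ hS ↦ ?_⟩
    have h' : ℓ.Prime ∧ ℓ ∉ (↑S : Set ℕ) := ⟨hℓ, fun h ↦ hS (Finset.mem_coe.1 h)⟩
    beta_reduce
    rw [dif_pos h']
    exact hα ⟨ℓ, h'⟩

end Level

end Fermat.Agent.LL
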