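import Fermat.Agent.LL.Level

set_option autoImplicit false
set_option linter.unusedSectionVars false

/-!
# Newforms and Galois representations attached to points of the local component
-/

open CongruenceSubgroup Fermat.Agent.Top IsLocalRing Fermat.Agent.TWMod
open scoped MatrixGroups TensorProduct

namespace Fermat.Agent.LL

local notation "Γℚ" => (AlgebraicClosure ℚ ≃ₐ[ℚ] AlgebraicClosure ℚ)

/-- The system `t` is congruent to `b`. -/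
def CongTo {𝒪 : Type} [CommRing 𝒪] (j : 𝒪 →+* ℂ) (b : ℕ → 𝒪) (S : Finset ℕ) (t : ℕ → ℂ) : Prop :=
  ∃ (A : Type) (_ : CommRing A) (_ : IsLocalRing A) (_ : Algebra 𝒪 A) (_ : Module.Finite 𝒪 A)
    (_ : IsLocalHom (algebraMap 𝒪 A)) (φ : A →+* ℂ) (t' : ℕ → A),
    φ.comp (algebraMap 𝒪 A) = j ∧ ∀ ℓ : ℕ, ℓ.Prime → ℓ ∉ S →
      t' ℓ - algebraMap 𝒪 A (b ℓ) ∈ maximalIdeal A ∧ φ (t' ℓ) = t ℓ

/-- change of the system away from the relevant primes -/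
def Pt.congr {𝒪 : Type} [CommRing 𝒪] [IsLocalRing 𝒪] {j : 𝒪 →+* ℂ}
    {ρbar : ResidualGaloisRep (ResidueField 𝒪)} {S : Finset ℕ} {t t' : ℕ → ℂ} (P : Pt j ρbar S t)
    (h : ∀ ℓ : ℕ, ℓ.Prime → ℓ ∉ S → t ℓ = t' ℓ) : Pt j ρbar S t' :=
  { R := P.R, ι := P.ι, ι_inj := P.ι_inj, ι_comp := P.ι_comp, ρ := P.ρ, tr := P.tr,
    ι_tr := fun ℓ h1 h2 ↦ (P.ι_tr ℓ h1 h2).trans (h ℓ h1 h2), frob := P.frob,
    residual := P.residual }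

section

variable {p : ℕ} {𝒪 : Type} [CommRing 𝒪] [IsDomain 𝒪] [IsDiscreteValuationRing 𝒪]
    [IsAdicComplete (maximalIdeal 𝒪) 𝒪] [Finite (ResidueField 𝒪)] [CharZero 𝒪] {j : 𝒪 →+* ℂ}
    {ρbar : ResidualGaloisRep (ResidueField 𝒪)} {S0 : Finset ℕ} {b : ℕ → 𝒪}

theorem FrobCharRes.mono {k : Type} [Field k] {ρ : ResidualGaloisRep k} {S S' : Finset ℕ}
    {t : ℕ → k} (h : FrobCharRes ρ S t) (hS : S ⊆ S') : FrobCharRes ρ S' t :=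
  fun ℓ hℓ hS' ↦ h ℓ hℓ fun h' ↦ hS' (hS h')

theorem exists_pt_of_congTo (C : Ctx p j ρbar S0 b) (I : Inputs) {S : Finset ℕ} (hS0 : S0 ⊆ S)
    {t : ℕ → ℂ} (hc : CongTo j b S t) {M : ℕ} [NeZero M] {g : CuspForm (Gamma0 M) 2}
    (hg : g.IsNewform) (hMS : ∀ q : ℕ, q.Prime → q ∣ M → q ∈ S)
    (hgt : ∀ ℓ : ℕ, ℓ.Prime → ℓ ∉ S → ModularFormClass.qCoeff g ℓ = t ℓ) :
    ∃ P : Pt j ρbar S t, NFProps p M P.ρ := by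
  obtain ⟨A, _, _, _, _, _, φ, t', hφ, ht⟩ := hc
  obtain ⟨P, hP⟩ := exists_pt I.dvr I.nf0 I.nf C.prime C.ne2 C.mem C.inj
    C.abs C.odd (hS0 C.pS) (C.frob.mono hS0) hφ (t := t') (fun ℓ h1 h2 ↦ (ht ℓ h1 h2).1) hg hMS
    (fun ℓ h1 h2 ↦ (hgt ℓ h1 h2).trans (ht ℓ h1 h2).2.symm)
  exact ⟨P.congr fun ℓ h1 h2 ↦ (ht ℓ h1 h2).2, hP⟩

variable {r : ℕ} {av : Fin r → ℕ}
  {G : GrpRing 𝒪 p av} {S : Finset ℕ} {N : ℕ} {F : Finset ℕ} {z : ℕ → G.Λ}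
  {χ₁ χ₂ : DirichletCharacter G.Λ N} {E : MvPolynomial (Pr (↑S : Set ℕ)) G.Λ} {ψ : G.Λ →+* ℂ}

/-- Eigenvalues in the local component are congruent to `b`. -/
theorem congTo_of_eig [NeZero N] (hE : IsLoc χ₁ χ₂ ↑S (aL G S b) E)
    {χ : DirichletCharacter G.Λ N} (hχ : χ ∈ ({χ₁, χ₂} : Set (DirichletCharacter G.Λ N)))
    (hψ : ψ.comp (algebraMap 𝒪 G.Λ) = j) {α : Pr (↑S : Set ℕ) → ℂ}
    {x : H1 (kap (χ.ringHomComp ψ)) (PtMod ψ)} (hx : IsEigP ψ χ ↑S α x) (hx0 : x ≠ 0)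
    (hxM : x ∈ MP ψ χ ↑S E) {t : ℕ → ℂ} (ht : ∀ ℓ (h : ℓ.Prime ∧ ℓ ∉ (↑S : Set ℕ)),
      t ℓ = α ⟨ℓ, h⟩) : CongTo j b S t := by
  classical
  have hloc := isLocalRing_TT hE
  have hfinΛ := finite_TT hE
  have hlocΛ := isLocalHom_algebraMap_TT hE
  have hfin : Module.Finite 𝒪 (TT χ₁ χ₂ ↑S E) := Module.Finite.trans G.Λ _
  have halg : algebraMap 𝒪 (TT χ₁ χ₂ ↑S E) = (algebraMap G.Λ (TT χ₁ χ₂ ↑S E)).comp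
      (algebraMap 𝒪 G.Λ) := IsScalarTower.algebraMap_eq 𝒪 G.Λ _
  have hlocO : IsLocalHom (algebraMap 𝒪 (TT χ₁ χ₂ ↑S E)) := by
    rw [halg]
    exact RingHom.isLocalHom_comp _ _
  refine ⟨TT χ₁ χ₂ ↑S E, inferInstance, hloc, inferInstance, hfin, hlocO,
    ptT hE hχ hx hx0 hxM, fun ℓ ↦ if h : ℓ.Prime ∧ ℓ ∉ (↑S : Set ℕ) then
      Ideal.Quotient.mk _ (MvPolynomial.X ⟨ℓ, h⟩) else 0, ?_, ?_⟩
  · rw [halg, ← RingHom.comp_assoc, ← hψ]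
    congr 1
    ext u
    exact ptT_algebraMap hE hχ hx hx0 hxM u
  · intro ℓ hℓ hℓS
    have h : ℓ.Prime ∧ ℓ ∉ (↑S : Set ℕ) := ⟨hℓ, fun h ↦ hℓS (Finset.mem_coe.1 h)⟩
    beta_reduce
    rw [dif_pos h]
    constructor
    · rw [mem_maximalIdeal_TT hE, map_sub, resT_mk, resE_X, halg, RingHom.comp_apply,
        resT_algebraMap, aL, sub_self]
    · rw [ptT_mk, MvPolynomial.eval₂_X, ht ℓ h]

theorem nonEis_of_eig [NeZero N] (C : Ctx p j ρbar S0 b) (hE : IsLoc χ₁ χ₂ ↑S (aL G S b) E)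
    {χ : DirichletCharacter G.Λ N} (hχ : χ ∈ ({χ₁, χ₂} : Set (DirichletCharacter G.Λ N)))
    {α : Pr (↑S : Set ℕ) → ℂ}
    {x : H1 (kap (χ.ringHomComp ψ)) (PtMod ψ)} (hx : IsEigP ψ χ ↑S α x) (hx0 : x ≠ 0)
    (hxM : x ∈ MP ψ χ ↑S E) {t : ℕ → ℂ} (ht : ∀ ℓ (h : ℓ.Prime ∧ ℓ ∉ (↑S : Set ℕ)),
      t ℓ = α ⟨ℓ, h⟩) : NonEis S t := by
  intro m hm
  obtain ⟨ℓ, hℓ1, hℓ2⟩ := exists_noneis C G S hm
  refine ⟨ℓ.1, ℓ.2.1, fun h ↦ ℓ.2.2 (Finset.mem_coe.2 h), hℓ1, fun h ↦ ?_⟩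
  have h1 := ne_of_res hE hχ hx hx0 hxM _ (resE_sub ℓ hℓ2)
  apply h1
  rw [MvPolynomial.eval₂_sub, MvPolynomial.eval₂_X, MvPolynomial.eval₂_C, map_add, map_one,
    map_natCast, ← ht ℓ.1 ℓ.2, h, sub_self]

/-- **Points of the local component.** -/
theorem Lev.point [NeZero N] (L : Lev G S N F z) (C : Ctx p j ρbar S0 b) (I : Inputs)
    (hS0 : S0 ⊆ S) (hNew : SpecNew) (hE : IsLoc χ₁ χ₂ ↑S (aL G S b) E)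
    (hχ : chz N F z ∈ ({χ₁, χ₂} : Set (DirichletCharacter G.Λ N)))
    (hψ : ψ.comp (algebraMap 𝒪 G.Λ) = j) {α : Pr (↑S : Set ℕ) → ℂ}
    {x : H1 (kap ((chz N F z).ringHomComp ψ)) (PtMod ψ)} (hx : IsEigP ψ (chz N F z) ↑S α x)
    (hx0 : x ≠ 0)
    (hxM : x ∈ MP ψ (chz N F z) ↑S E) {t : ℕ → ℂ} (ht : ∀ ℓ (h : ℓ.Prime ∧ ℓ ∉ (↑S : Set ℕ)),
      t ℓ = α ⟨ℓ, h⟩) :
    ∃ (M : ℕ) (_ : NeZero M) (g : CuspForm (Gamma0 M) 2), g.IsNewform ∧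
      M ∣ N * cond F (fun q ↦ ψ (z q)) ∧
      (∀ q : ℕ, q.Prime → q ∣ cond F (fun q ↦ ψ (z q)) → q ^ 2 ∣ M) ∧
      (∀ ℓ : ℕ, ℓ.Prime → ℓ ∉ S → ModularFormClass.qCoeff g ℓ = t ℓ) ∧
      ∃ P : Pt j ρbar S t, NFProps p M P.ρ := by
  have hT : TwHyp N (cond F (fun q ↦ ψ (z q))) ((chz N F z).ringHomComp ψ) := by
    rw [L.comp]
    exact L.twHyp C
  have hNE := nonEis_of_eig C hE hχ hx hx0 hxM ht
  obtain ⟨M, hM, g, hMd, hg, hgt, hsq⟩ := hNew N _ _ hT S L.mem t hNE x hx0 (fun ℓ hℓ hℓS ↦ by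
    have h : ℓ.Prime ∧ ℓ ∉ (↑S : Set ℕ) := ⟨hℓ, fun h ↦ hℓS (Finset.mem_coe.1 h)⟩
    rw [ht ℓ h]
    exact hx ⟨ℓ, h⟩)
  have hMS : ∀ q : ℕ, q.Prime → q ∣ M → q ∈ S := by
    intro q hq hqM
    rcases hq.dvd_mul.1 (hqM.trans hMd) with h | h
    · exact L.mem q hq h
    · exact L.mem q hq (h.trans hT.dvd)
  exact ⟨M, hM, g, hg, hMd, hsq, hgt,
    exists_pt_of_congTo C I hS0 (congTo_of_eig hE hχ hψ hx hx0 hxM ht) hg hMS hgt⟩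

end

end Fermat.Agent.LL
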