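import Fermat.Agent.LL.Blocks
import Fermat.Agent.Patch.TamePair

set_option autoImplicit false

/-!
# Block LOCGEN
-/

namespace Fermat.Agent.LL

open Fermat.Agent.CFT Fermat.Agent.CFT.Loc Fermat.Agent.Patch
open scoped Pointwise

local notation "Γℚ" => (AlgebraicClosure ℚ ≃ₐ[ℚ] AlgebraicClosure ℚ)

theorem finite_range_of_finiteLevel {M : Type} [Group M] (h : Γℚ →* M) (F : IntermediateField ℚ
    (AlgebraicClosure ℚ)) [FiniteDimensional ℚ F] (hF : ∀ σ : Γℚ, (∀ x ∈ F, σ x = x) → h σ = 1) :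
    Finite h.range := by
  have hfin : Finite (F →ₐ[ℚ] AlgebraicClosure ℚ) := inferInstance
  have hinj : Function.Injective (fun x : h.range => (Classical.choose x.2 : Γℚ).toAlgHom.comp F.val) := by
    intro x y hxy
    have h1 : ∀ z : F, (Classical.choose x.2 : Γℚ) z = (Classical.choose y.2 : Γℚ) z := fun z =>
      DFunLike.congr_fun hxy z
    have h2 : h ((Classical.choose y.2)⁻¹ * Classical.choose x.2) = 1 := hF _ (fun z hz => by
      show (Classical.choose y.2 : Γℚ)⁻¹ ((Classical.choose x.2 : Γℚ) z) = z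
      rw [h1 ⟨z, hz⟩]
      exact inv_smul_smul (Classical.choose y.2 : Γℚ) (z : AlgebraicClosure ℚ))
    rw [map_mul, map_inv, inv_mul_eq_one] at h2
    apply Subtype.ext
    rw [← Classical.choose_spec x.2, ← Classical.choose_spec y.2, h2]
  exact Finite.of_injective _ hinj

theorem nonempty_locGen {l p : ℕ} (hl : l.Prime) (hp : p.Prime) (hlp : l ≠ p)
    {A : ValuationSubring (AlgebraicClosure ℚ)} (hA : A.LiesOverPrime l) :
    ∃ L : LocGen l p, L.P = A := by
  have : Fact p.Prime := ⟨hp⟩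
  obtain ⟨φ, τ, h⟩ := exists_tamePair (p := p) hl hlp hA
  refine ⟨⟨A, hA, φ, h.frob, τ, h.inertia, ?_⟩, rfl⟩
  intro M _ f ⟨F, hF, hFf⟩ hp
  have hfin : Finite f.range := finite_range_of_finiteLevel f F hFf
  have hlev : ∃ F : IntermediateField ℚ (AlgebraicClosure ℚ), FiniteDimensional ℚ F ∧
      F.fixingSubgroup ≤ f.rangeRestrict.ker := ⟨F, hF, fun σ hσ => by
    rw [MonoidHom.mem_ker]
    apply Subtype.ext
    show f σ = 1
    exact hFf σ (fun x hx => (IntermediateField.mem_fixingSubgroup_iff _ _).1 hσ x hx)⟩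
  have hp' : ∀ t ∈ A.inertiaSubgroupIn ℚ, ∃ k : ℕ, f.rangeRestrict t ^ p ^ k = 1 := by
    intro t ht
    obtain ⟨k, hk⟩ := hp t ht
    exact ⟨k, Subtype.ext hk⟩
  refine ⟨fun σ hσ => ?_, ?_, fun σ hσ => ?_⟩
  · obtain ⟨k, hk⟩ := h.zpow f.rangeRestrict hlev hp' σ hσ
    exact ⟨k, congrArg Subtype.val hk⟩
  · have h1 := congrArg Subtype.val (h.rel f.rangeRestrict hlev hp')
    rw [map_mul, map_mul, map_inv]
    exact h1
  · have h1 := h.gen f.rangeRestrict hlev hp' σ hσ
    have h2 : f.range.subtype (f.rangeRestrict σ) ∈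
        (Subgroup.closure {f.rangeRestrict φ, f.rangeRestrict τ}).map f.range.subtype :=
      Subgroup.mem_map_of_mem _ h1
    rw [MonoidHom.map_closure, Set.image_pair] at h2
    exact h2

theorem locGenStmt : LocGenStmt := by
  intro l p hl hp hlp
  have : Fact l.Prime := ⟨hl⟩
  obtain ⟨L, -⟩ := nonempty_locGen hl hp hlp (smul_padicPlace_liesOverPrime l 1)
  exact ⟨L⟩

end Fermat.Agent.LL
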