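import Fermat.Agent.LL.AutPt

set_option autoImplicit false
set_option linter.unusedSectionVars false

/-!
# Minimality at a prime with trivial character, when other characters are nontrivial
-/

open CongruenceSubgroup Fermat.Agent.Top IsLocalRing Fermat.Agent.TWMod
open scoped MatrixGroups TensorProduct

namespace Fermat.Agent.LL

section

variable {p : ℕ} {𝒪 : Type} [CommRing 𝒪] [IsDomain 𝒪] [IsDiscreteValuationRing 𝒪]
    [IsAdicComplete (maximalIdeal 𝒪) 𝒪] [Finite (ResidueField 𝒪)] [CharZero 𝒪] {j : 𝒪 →+* ℂ}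
    {ρbar : ResidualGaloisRep (ResidueField 𝒪)} {S0 : Finset ℕ} {b : ℕ → 𝒪}
    {r : ℕ} {av : Fin r → ℕ}
    {G : GrpRing 𝒪 p av} {S : Finset ℕ}

/-- **Minimality.** A point with trivial character at `l` whose newform has level prime to `l`
gives a newform of level dividing `N / l`. The characters `z` at the primes of `F` are congruent
to characters `z₀` which are trivial at a point. -/
theorem exists_newform_lower₂ {N : ℕ} [NeZero N] {F : Finset ℕ} {z z₀ : ℕ → G.Λ}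
    {χ₁ χ₂ : DirichletCharacter G.Λ N} {E : MvPolynomial (Pr (↑S : Set ℕ)) G.Λ}
    (L : Lev G S N F z) (L₀ : Lev G S N F z₀) {π : G.Λ} (hπ : π ∈ maximalIdeal G.Λ)
    (hzz : ∀ q ∈ F, z q - z₀ q ∈ Ideal.span {π})
    (C : Ctx p j ρbar S0 b) (I : Inputs)
    (hS0 : S0 ⊆ S) (hSS : SpecSS) (hNew : SpecNew) (hLow : SpecLower)
    (hE : IsLoc χ₁ χ₂ ↑S (aL G S b) E)
    (hχ : chz N F z ∈ ({χ₁, χ₂} : Set (DirichletCharacter G.Λ N)))
    {ψ ψ₀ : G.Λ →+* ℂ}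
    (hψ₀ : ψ₀.comp (algebraMap 𝒪 G.Λ) = j) (hz : ∀ q ∈ F, ψ₀ (z₀ q) = 1)
    {α : Pr (↑S : Set ℕ) → ℂ} {x : H1 (kap ((chz N F z).ringHomComp ψ)) (PtMod ψ)}
    (hx : IsEigP ψ (chz N F z) ↑S α x) (hx0 : x ≠ 0)
    (hxM : x ∈ MP ψ (chz N F z) ↑S E) {l : ℕ} (hl : l.Prime)
    (h3 : IsUnit (3 : G.Λ) ∨ l % 3 ≠ 2) (hlN : l ∣ N) (hzl : z l = 1)
    {M : ℕ} [NeZero M] {g : CuspForm (Gamma0 M) 2} (hg : g.IsNewform)
    (hgt : ∀ ℓ (h : ℓ.Prime ∧ ℓ ∉ (↑S : Set ℕ)), ModularFormClass.qCoeff g ℓ = α ⟨ℓ, h⟩)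
    (hlM : ¬ l ∣ M) :
    ∃ (M' : ℕ) (_ : NeZero M') (g' : CuspForm (Gamma0 M') 2), g'.IsNewform ∧ M' * l ∣ N ∧
      CongTo j b S (fun ℓ ↦ ModularFormClass.qCoeff g' ℓ) ∧
      ∀ q : ℕ, q.Prime → q ≠ p → p ∣ q - 1 → DistAt ρbar q → ¬ q ∣ M' := by
  classical
  obtain ⟨N', hN'⟩ : ∃ N', N = N' * l := by
    obtain ⟨c, hc⟩ := hlN
    exact ⟨c, by rw [hc, mul_comm]⟩
  subst hN'
  have hN'0 : NeZero N' := ⟨fun h ↦ NeZero.ne (N' * l) (by rw [h, zero_mul])⟩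
  have L' := L.erase hl h3
  have L₀' := L₀.erase hl h3
  have hlN' : ¬ l ∣ N' := by
    intro h
    have h1 := Nat.squarefree_iff_prime_squarefree.1 L.sqf l hl
    exact h1 (Nat.mul_dvd_mul h dvd_rfl)
  have hT : TwHyp (N' * l) (cond F (fun q ↦ ψ (z q))) ((chz (N' * l) F z).ringHomComp ψ) := by
    rw [L.comp]
    exact L.twHyp C
  have hNE := nonEis_of_eig C hE hχ hx hx0 hxM (t := extS α) (fun ℓ h ↦ extS_of h)
  obtain ⟨y, hy0, hy⟩ := hLow N' l _ ((chz (N' * l) F z).ringHomComp ψ)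
    ((chz N' (F.erase l) z).ringHomComp ψ) hT hl hlN' (fun u hu ↦ by
      rw [MulChar.ringHomComp_apply, MulChar.ringHomComp_apply,
        chz_erase L.dvd L'.dvd hl hzl hu]) S L.mem (extS α) hNE x hx0 (fun ℓ hℓ hℓS ↦ by
      have h : ℓ.Prime ∧ ℓ ∉ (↑S : Set ℕ) := ⟨hℓ, fun h ↦ hℓS (Finset.mem_coe.1 h)⟩
      rw [extS_of h]
      exact hx ⟨ℓ, h⟩) M inferInstance g hg (fun ℓ hℓ hℓS ↦ by
      have h : ℓ.Prime ∧ ℓ ∉ (↑S : Set ℕ) := ⟨hℓ, fun h ↦ hℓS (Finset.mem_coe.1 h)⟩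
      rw [extS_of h]
      exact hgt ℓ h) hlM
  have hyP : IsEigP ψ (chz N' (F.erase l) z) ↑S α y := by
    intro ℓ
    have h1 := hy ℓ.1 ℓ.2.1 (fun h ↦ ℓ.2.2 (Finset.mem_coe.2 h))
    exact h1.trans (congrArg (· • y) (extS_of ℓ.2))
  -- the local Hecke algebra at level `N' * l`
  have hloc := isLocalRing_TT hE
  have hlocΛ := isLocalHom_algebraMap_TT hE
  have hψ' : (ptT hE hχ hx hx0 hxM).comp (algebraMap G.Λ (TT χ₁ χ₂ ↑S E)) = ψ := by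
    ext u
    exact ptT_algebraMap hE hχ hx hx0 hxM u
  have ht : ∀ ℓ : Pr (↑S : Set ℕ), residue (TT χ₁ χ₂ ↑S E)
      (Ideal.Quotient.mk _ (MvPolynomial.X ℓ)) =
      ResidueField.map (algebraMap G.Λ (TT χ₁ χ₂ ↑S E)) (aL G S b ℓ) := by
    intro ℓ
    rw [aL, ResidueField.map_residue, ← sub_eq_zero, ← map_sub, residue_eq_zero_iff,
      mem_maximalIdeal_TT hE, map_sub, resT_mk, resE_X, resT_algebraMap, aL, sub_self]
  have hα : ∀ ℓ : Pr (↑S : Set ℕ), ptT hE hχ hx hx0 hxM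
      (Ideal.Quotient.mk _ (MvPolynomial.X ℓ)) = α ℓ := by
    intro ℓ
    rw [ptT_mk, MvPolynomial.eval₂_X]
  have hocc := occ_of_eig hψ' (S := (↑S : Set ℕ)) (a := aL G S b) ht
    (χ := chz N' (F.erase l) z) hα hE.two L'.three hyP hy0
  obtain ⟨E', hE'⟩ := exists_isLoc (N := N') (S := S) C L'.three
    (χ₁ := chz N' (F.erase l) z₀) (χ₂ := chz N' (F.erase l) z) (fun P _ h ↦ hocc P h)
  have hyM := mem_MP_of_eig hψ' ht hα hE' (Or.inr rfl) hyP hy0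
  -- comparison of the characters
  have hfree := L'.free C hE' (Or.inr rfl)
  have hfree₀ := L₀'.free C hE' (Or.inl rfl)
  have hfin := finite_MM (χ := chz N' (F.erase l) z) hE'
  have hfin₀ := finite_MM (χ := chz N' (F.erase l) z₀) hE'
  have h12 : ∀ u : ZMod N', chz N' (F.erase l) z u - chz N' (F.erase l) z₀ u ∈
      Ideal.span {π} := chz_sub_mem L'.dvd L'.prime L₀'.pow' L'.pow' fun q hq ↦
    hzz q (Finset.mem_of_mem_erase hq)
  have hrank := finrank_MM_eq hE' hπ h12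
  rw [finrank_MM_eq_MP hE' (Or.inr rfl) ψ, finrank_MM_eq_MP hE' (Or.inl rfl) ψ₀] at hrank
  have hpos : 0 < Module.finrank ℂ (MP ψ₀ (chz N' (F.erase l) z₀) ↑S E') := by
    rw [← hrank]
    have : Module.Finite ℂ (H1 (kap ((chz N' (F.erase l) z).ringHomComp ψ)) (PtMod ψ)) :=
      finite_H1C ((chz N' (F.erase l) z).ringHomComp ψ)
    exact Module.finrank_pos_iff_exists_ne_zero.2
      ⟨⟨y, hyM⟩, fun h ↦ hy0 (congrArg Subtype.val h)⟩
  have : Module.Finite ℂ (H1 (kap ((chz N' (F.erase l) z₀).ringHomComp ψ₀)) (PtMod ψ₀)) :=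
    finite_H1C ((chz N' (F.erase l) z₀).ringHomComp ψ₀)
  obtain ⟨⟨y₀, hy₀M⟩, hy₀⟩ := Module.finrank_pos_iff_exists_ne_zero.1 hpos
  obtain ⟨M', hM', g', h1, h2, h3, h4⟩ := exists_newform_zero L₀' C I hS0 hSS hNew hE'
    (Or.inl rfl) hψ₀ (fun q hq ↦ hz q (Finset.mem_of_mem_erase hq)) hy₀M
    (fun h ↦ hy₀ (Subtype.ext h))
  exact ⟨M', hM', g', h1, Nat.mul_dvd_mul h2 dvd_rfl, h3, h4⟩

end

end Fermat.Agent.LL
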