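import Fermat.Agent.LL.Blocks
import Fermat.Prelude.Def_GaloisRep_StrictOrdinary

/-!
# Block NFOrd (R5): strict ordinarity at `p ∥ M`
-/

set_option autoImplicit false

open IsLocalRing Polynomial

namespace Fermat.Agent.LL

local notation "Γℚ" => (AlgebraicClosure ℚ ≃ₐ[ℚ] AlgebraicClosure ℚ)

/-- **Block NFOrd** (R5): every `p`-adic representation attached to a newform of level `M`
with `p ∥ M`, `p` odd, is strictly ordinary at `p`. -/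
def NFOrdStmt : Prop :=
  ∀ {M : ℕ} [NeZero M] {g : CuspForm (CongruenceSubgroup.Gamma0 M) 2}, g.IsNewform →
  ∀ (p : ℕ), p.Prime → p ≠ 2 → p ∣ M → ¬ p ^ 2 ∣ M →
  ∀ (S : Finset ℕ), p ∈ S → (∀ q : ℕ, q.Prime → q ∣ M → q ∈ S) →
  ∀ (R : Type) [CommRing R] [IsDomain R] [IsDiscreteValuationRing R]
    [IsAdicComplete (maximalIdeal R) R] [Finite (ResidueField R)] [CharZero R],
    (p : R) ∈ maximalIdeal R → ∀ (D : Subring ℂ) (ι : D →+* R)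
    (hD : ∀ ℓ : ℕ, ℓ.Prime → ℓ ∉ S → ModularFormClass.qCoeff g ℓ ∈ D)
    (ρ : GaloisRepAdic R),
    (∀ ℓ : ℕ, ∀ hℓ : ℓ.Prime, ∀ hS : ℓ ∉ S, ∀ P : ValuationSubring (AlgebraicClosure ℚ),
        P.LiesOverPrime ℓ → ∀ σ : Γℚ, P.IsFrobeniusAt σ ℓ →
        LinearMap.charpoly (ρ.ρ σ) = X ^ 2 - C (ι ⟨_, hD ℓ hℓ hS⟩) * X + C (ℓ : R)) →
    ρ.residual.IsAbsolutelyIrreducible →
  ρ.IsStrictOrdinaryAt p

end Fermat.Agent.LL
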