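import Fermat.Agent.LL.DVRExt
import Fermat.Agent.Frob.Basic

set_option autoImplicit false

/-!
# Complete discrete valuation rings inside `ℂ`
-/

open IsLocalRing Cardinal Polynomial

namespace Fermat.Agent.LL

section Steinitz

/-- Steinitz: two algebraically closed extensions of a countable field of the same uncountable
cardinality are isomorphic over it. -/
theorem exists_equiv_of_card {Q : Type} [Field Q] (hQ : #Q ≤ ℵ₀) {K L : Type} [Field K] [Field L]
    [IsAlgClosed K] [IsAlgClosed L] (a : Q →+* K) (b : Q →+* L) (hK : ℵ₀ < #K) (hKL : #K = #L) :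
    ∃ e : K ≃+* L, ∀ x, e (a x) = b x := by
  letI := a.toAlgebra
  letI := b.toAlgebra
  obtain ⟨s, hs⟩ := exists_isTranscendenceBasis Q K
  obtain ⟨t, ht⟩ := exists_isTranscendenceBasis Q L
  have h1 := IsAlgClosed.cardinal_eq_cardinal_transcendence_basis_of_aleph0_lt' _ hs hQ hK
  have h2 := IsAlgClosed.cardinal_eq_cardinal_transcendence_basis_of_aleph0_lt' _ ht hQ (hKL ▸ hK)
  have h3 : #s = #t := by rw [← h1, ← h2, hKL]
  obtain ⟨e⟩ := Cardinal.eq.mp h3
  letI := IsAlgClosed.isAlgClosure_of_transcendence_basis _ hs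
  letI := IsAlgClosed.isAlgClosure_of_transcendence_basis _ ht
  let e1 : Algebra.adjoin Q (Set.range ((↑) : s → K)) ≃ₐ[Q]
      Algebra.adjoin Q (Set.range ((↑) : t → L)) :=
    (hs.1.aevalEquiv.symm.trans (MvPolynomial.renameEquiv Q e)).trans ht.1.aevalEquiv
  refine ⟨IsAlgClosure.equivOfEquiv K L e1.toRingEquiv, fun x ↦ ?_⟩
  have h4 : a x = algebraMap (Algebra.adjoin Q (Set.range ((↑) : s → K))) K
    (algebraMap Q _ x) := rfl
  rw [h4, IsAlgClosure.equivOfEquiv_algebraMap]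
  change algebraMap _ L (e1 (algebraMap Q _ x)) = _
  rw [e1.commutes]
  rfl

end Steinitz

section Card

variable (p : ℕ) [Fact p.Prime]

theorem card_padic : #ℚ_[p] = 𝔠 := by
  apply le_antisymm
  · have h1 : #ℚ_[p] ≤ #(CauSeq ℚ (padicNorm p)) :=
      mk_le_of_surjective (f := (fun x ↦ (Quotient.mk _ x : ℚ_[p]))) Quotient.mk_surjective
    refine h1.trans ((mk_subtype_le _).trans ?_)
    simp
  · exact continuum_le_cardinal_of_nontriviallyNormedField ℚ_[p]

theorem card_Om : #(AlgebraicClosure ℚ_[p]) = 𝔠 := by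
  apply le_antisymm
  · refine (Algebra.IsAlgebraic.cardinalMk_le_max ℚ_[p] (AlgebraicClosure ℚ_[p])).trans ?_
    rw [card_padic]
    exact max_le le_rfl aleph0_le_continuum
  · rw [← card_padic p]
    exact mk_le_of_injective (algebraMap ℚ_[p] (AlgebraicClosure ℚ_[p])).injective

end Card

section Embed

theorem exists_galois {L : Type*} [Field L] [CharZero L] [Algebra ℚ L] [IsGalois ℚ L]
    (p : ℕ) [hp : Fact p.Prime] (P Q : Ideal (integralClosure ℤ L)) [P.IsPrime] [Q.IsPrime]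
    (hP : (p : integralClosure ℤ L) ∈ P) (hQ : (p : integralClosure ℤ L) ∈ Q) :
    ∃ σ : L ≃ₐ[ℚ] L, ∀ (x y : integralClosure ℤ L), (y : L) = σ x → (x ∈ P ↔ y ∈ Q) := by
  letI : TopologicalSpace (integralClosure ℤ L) :=
    Frob.instTopologicalSpaceSubtypeMemSubalgebraIntIntegralClosure_fermat
  haveI : DiscreteTopology (integralClosure ℤ L) :=
    Frob.instDiscreteTopologySubtypeMemSubalgebraIntIntegralClosure_fermat
  have := Frob.continuousSMul_integralClosure (L := L)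
  have := Frob.isInvariant_integralClosure (L := L)
  have key : ∀ (P : Ideal (integralClosure ℤ L)) [P.IsPrime], (p : integralClosure ℤ L) ∈ P →
      P.under ℤ = Ideal.span {(p : ℤ)} := by
    intro P _ hP
    symm
    apply Ideal.IsMaximal.eq_of_le
    · exact (Int.ideal_span_isMaximal_of_prime p)
    · exact Ideal.IsPrime.ne_top inferInstance
    · rw [Ideal.span_singleton_le_iff_mem, Ideal.mem_comap]
      simpa using hP
  obtain ⟨σ, hσ⟩ := Algebra.IsInvariant.exists_smul_of_under_eq_of_profinite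
    (A := ℤ) (G := L ≃ₐ[ℚ] L) P Q (by rw [key P hP, key Q hQ])
  refine ⟨σ, fun x y hxy ↦ ?_⟩
  have hy : y = σ • x := Subtype.ext hxy
  rw [hσ, hy, Ideal.smul_mem_pointwise_smul_iff]

variable (p : ℕ) [hp : Fact p.Prime]

theorem exists_compat_aux (Qb : Type) [Field Qb] [CharZero Qb] [Algebra ℚ Qb] [IsAlgClosed Qb]
    [Algebra.IsAlgebraic ℚ Qb] [IsGalois ℚ Qb] (𝔪 : Ideal (integralClosure ℤ ℂ)) [𝔪.IsPrime]
    (hpm : (p : integralClosure ℤ ℂ) ∈ 𝔪)
    (𝔐 : Ideal (integralClosure ℤ_[p] (AlgebraicClosure ℚ_[p]))) [𝔐.IsPrime]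
    (hp𝔐 : (p : integralClosure ℤ_[p] (AlgebraicClosure ℚ_[p])) ∈ 𝔐) :
    ∃ e : ℂ ≃+* AlgebraicClosure ℚ_[p], ∀ (z : integralClosure ℤ ℂ)
      (y : integralClosure ℤ_[p] (AlgebraicClosure ℚ_[p])),
      (y : AlgebraicClosure ℚ_[p]) = e z → (z ∈ 𝔪 ↔ y ∈ 𝔐) := by
  let a : Qb →ₐ[ℚ] ℂ := IsAlgClosed.lift
  let i : Qb →ₐ[ℚ] AlgebraicClosure ℚ_[p] := IsAlgClosed.lift
  let a' : (integralClosure ℤ Qb) →+* integralClosure ℤ ℂ :=
    ((a : Qb →+* ℂ).comp (algebraMap (integralClosure ℤ Qb) Qb)).codRestrict (integralClosure ℤ ℂ) (fun x ↦ by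
      exact x.2.map (a.restrictScalars ℤ))
  let i' : (integralClosure ℤ Qb) →+* integralClosure ℤ_[p] (AlgebraicClosure ℚ_[p]) :=
    ((i : Qb →+* AlgebraicClosure ℚ_[p]).comp (algebraMap (integralClosure ℤ Qb) Qb)).codRestrict
      (integralClosure ℤ_[p] (AlgebraicClosure ℚ_[p])) (fun x ↦ by
      have h : IsIntegral ℤ (i x) := x.2.map (i.restrictScalars ℤ)
      exact h.tower_top)
  obtain ⟨σ, hσ⟩ := exists_galois p (𝔪.comap a') (𝔐.comap i')
    (by rw [Ideal.mem_comap, map_natCast]; exact hpm)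
    (by rw [Ideal.mem_comap, map_natCast]; exact hp𝔐)
  obtain ⟨e, he⟩ := exists_equiv_of_card (Q := Qb) (K := ℂ) (L := AlgebraicClosure ℚ_[p])
    (by
      refine (Algebra.IsAlgebraic.cardinalMk_le_max ℚ Qb).trans ?_
      simp) (a : Qb →+* ℂ) ((i : Qb →+* AlgebraicClosure ℚ_[p]).comp (σ : Qb →+* Qb))
    (by rw [mk_complex]; exact aleph0_lt_continuum) (by rw [mk_complex, card_Om])
  refine ⟨e, fun z y hyz ↦ ?_⟩
  -- `z` comes from `(integralClosure ℤ Qb)`
  obtain ⟨x, hx⟩ : ∃ x : (integralClosure ℤ Qb), a' x = z := by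
    obtain ⟨P, hP, hP'⟩ := z.2
    have h1 : (z : ℂ) ∈ (P.map (algebraMap ℤ ℂ)).roots := by
      rw [mem_roots (hP.map _).ne_zero, IsRoot, eval_map]
      exact hP'
    have h2 : (P.map (algebraMap ℤ Qb)).Splits := IsAlgClosed.splits _
    have h3 : (P.map (algebraMap ℤ ℂ)).roots = ((P.map (algebraMap ℤ Qb)).roots).map a := by
      have h4 := h2.roots_map_of_injective (a : Qb →+* ℂ).injective
      rw [Polynomial.map_map] at h4
      have h5 : (a : Qb →+* ℂ).comp (algebraMap ℤ Qb) = algebraMap ℤ ℂ := RingHom.ext_int _ _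
      rw [h5] at h4
      exact h4
    rw [h3, Multiset.mem_map] at h1
    obtain ⟨x, hx, hxz⟩ := h1
    refine ⟨⟨x, P, hP, ?_⟩, Subtype.ext hxz⟩
    rw [mem_roots (hP.map _).ne_zero, IsRoot, eval_map] at hx
    exact hx
  obtain ⟨x', hx'⟩ : ∃ x' : (integralClosure ℤ Qb), (x' : Qb) = σ x := ⟨σ • x, rfl⟩
  have h5 := hσ x x' hx'
  rw [Ideal.mem_comap, Ideal.mem_comap, hx] at h5
  rw [h5]
  have h6 : i' x' = y := by
    apply Subtype.ext
    change i x' = y
    rw [hyz, ← hx, hx']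
    exact (he x).symm
  rw [h6]

theorem exists_compat (𝔪 : Ideal (integralClosure ℤ ℂ)) [𝔪.IsPrime]
    (hpm : (p : integralClosure ℤ ℂ) ∈ 𝔪)
    (𝔐 : Ideal (integralClosure ℤ_[p] (AlgebraicClosure ℚ_[p]))) [𝔐.IsPrime]
    (hp𝔐 : (p : integralClosure ℤ_[p] (AlgebraicClosure ℚ_[p])) ∈ 𝔐) :
    ∃ e : ℂ ≃+* AlgebraicClosure ℚ_[p], ∀ (z : integralClosure ℤ ℂ)
      (y : integralClosure ℤ_[p] (AlgebraicClosure ℚ_[p])),
      (y : AlgebraicClosure ℚ_[p]) = e z → (z ∈ 𝔪 ↔ y ∈ 𝔐) :=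
  exists_compat_aux p (AlgebraicClosure ℚ) 𝔪 hpm 𝔐 hp𝔐

local notation "Ω" => AlgebraicClosure ℚ_[p]

theorem exists_monic_int {P : ℤ_[p][X]} (hP : P.Monic) :
    ∃ P' : ℤ[X], P'.Monic ∧ C (p : ℤ_[p]) ∣ P'.map (algebraMap ℤ ℤ_[p]) - P := by
  obtain ⟨P', h1, -, h2⟩ := lifts_and_natDegree_eq_and_monic
    (p := P.map (PadicInt.toZMod (p := p))) (f := Int.castRingHom (ZMod p)) (by
      rw [Polynomial.mem_lifts]
      exact Polynomial.map_surjective _ (ZMod.intCast_surjective) _) (hP.map _)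
  refine ⟨P', h2, ?_⟩
  rw [C_dvd_iff_dvd_coeff]
  intro n
  rw [← Ideal.mem_span_singleton, ← PadicInt.maximalIdeal_eq_span_p, ← PadicInt.ker_toZMod,
    RingHom.mem_ker, coeff_sub, map_sub, coeff_map, sub_eq_zero]
  have h3 := congrArg (fun Q : (ZMod p)[X] ↦ Q.coeff n) h1
  simp only [coeff_map] at h3
  rw [← h3]
  simp

theorem exists_near (e : ℂ ≃+* Ω) (𝔐 : Ideal (integralClosure ℤ_[p] Ω)) [𝔐.IsPrime]
    (hp𝔐 : (p : integralClosure ℤ_[p] Ω) ∈ 𝔐) (y : integralClosure ℤ_[p] Ω) :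
    ∃ (z : integralClosure ℤ ℂ) (r : integralClosure ℤ_[p] Ω), (r : Ω) = e z ∧ y - r ∈ 𝔐 := by
  obtain ⟨P, hP, hPy⟩ := y.2
  obtain ⟨P', hP', D, hD⟩ := exists_monic_int p hP
  have h1 : (P'.map (algebraMap ℤ Ω)).Splits := IsAlgClosed.splits _
  have h2 := h1.eq_prod_roots_of_monic (hP'.map _)
  have h3 : ∀ r ∈ (P'.map (algebraMap ℤ Ω)).roots, IsIntegral ℤ r := by
    intro r hr
    rw [mem_roots (hP'.map _).ne_zero, IsRoot, eval_map] at hr
    exact ⟨P', hP', hr⟩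
  obtain ⟨t, ht⟩ : ∃ t : Multiset (integralClosure ℤ_[p] Ω),
      t.map (Subtype.val : integralClosure ℤ_[p] Ω → Ω) = (P'.map (algebraMap ℤ Ω)).roots := by
    have h3' : ∀ r ∈ (P'.map (algebraMap ℤ Ω)).roots, IsIntegral ℤ_[p] r :=
      fun r hr ↦ (h3 r hr).tower_top
    refine ⟨(P'.map (algebraMap ℤ Ω)).roots.attach.map
      (fun r ↦ (⟨r.1, h3' r.1 r.2⟩ : integralClosure ℤ_[p] Ω)), ?_⟩
    rw [Multiset.map_map]
    exact Multiset.attach_map_val _
  have h4 : (t.map (fun r ↦ y - r)).prod ∈ 𝔐 := by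
    have h5 : (t.map (fun r ↦ y - r)).prod = (p : integralClosure ℤ_[p] Ω) * aeval y D := by
      apply Subtype.ext
      have h6 : (((t.map (fun r ↦ y - r)).prod : integralClosure ℤ_[p] Ω) : Ω) =
          (P'.map (algebraMap ℤ Ω)).eval (y : Ω) := by
        conv_rhs => rw [h2, ← ht]
        rw [eval_multiset_prod, Multiset.map_map, Multiset.map_map]
        have h7 := map_multiset_prod (integralClosure ℤ_[p] Ω).val (t.map (fun r ↦ y - r))
        rw [Multiset.map_map] at h7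
        refine h7.trans ?_
        congr 1
        apply Multiset.map_congr rfl
        intro r hr
        simp
      rw [h6]
      have h8 : (P'.map (algebraMap ℤ Ω)).eval (y : Ω) =
          aeval (y : Ω) (P'.map (algebraMap ℤ ℤ_[p]) - P) := by
        rw [map_sub]
        have h9 : aeval (y : Ω) P = 0 := hPy
        rw [h9, sub_zero, aeval_def, eval₂_map, eval_map]
        rfl
      rw [h8, hD, map_mul, aeval_C]
      have h10 : aeval (y : Ω) D = ((aeval y D : integralClosure ℤ_[p] Ω) : Ω) :=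
        (aeval_algHom_apply (integralClosure ℤ_[p] Ω).val y D)
      rw [h10]
      simp
    rw [h5]
    exact 𝔐.mul_mem_right _ hp𝔐
  obtain ⟨w, hw, hw'⟩ := (Ideal.IsPrime.multiset_prod_mem_iff_exists_mem ‹_› _).mp h4
  obtain ⟨r, hr, rfl⟩ := Multiset.mem_map.mp hw
  refine ⟨⟨e.symm r, ?_⟩, r, by simp, hw'⟩
  have h11 : IsIntegral ℤ (r : Ω) := h3 _ (by rw [← ht]; exact Multiset.mem_map_of_mem _ hr)
  exact h11.map (e.symm : Ω →+* ℂ).toIntAlgHom

theorem natCast_mem_maximalIdeal_padicInt : (p : ℤ_[p]) ∈ maximalIdeal ℤ_[p] := by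
  rw [PadicInt.maximalIdeal_eq_span_p]
  exact Ideal.mem_span_singleton_self _

theorem exists_prime_Om : ∃ 𝔐 : Ideal (integralClosure ℤ_[p] Ω), 𝔐.IsMaximal ∧
    (p : integralClosure ℤ_[p] Ω) ∈ 𝔐 := by
  obtain ⟨𝔐, h𝔐⟩ := Ideal.exists_maximal (integralClosure ℤ_[p] Ω)
  refine ⟨𝔐, h𝔐, ?_⟩
  have h1 : (𝔐.comap (algebraMap ℤ_[p] (integralClosure ℤ_[p] Ω))).IsMaximal :=
    Ideal.isMaximal_comap_of_isIntegral_of_isMaximal 𝔐
  have h2 := IsLocalRing.eq_maximalIdeal h1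
  have h3 := natCast_mem_maximalIdeal_padicInt p
  rw [← h2, Ideal.mem_comap, map_natCast] at h3
  exact h3

end Embed

/-- **Block OJ**. -/
theorem oj : OJStmt := by
  intro p hp 𝔪 h𝔪 hpm F
  haveI : Fact p.Prime := ⟨hp⟩
  obtain ⟨𝔐, h𝔐, hp𝔐⟩ := exists_prime_Om p
  obtain ⟨e, he⟩ := exists_compat p 𝔪 hpm 𝔐 hp𝔐
  let L : IntermediateField ℚ_[p] (AlgebraicClosure ℚ_[p]) :=
    IntermediateField.adjoin ℚ_[p] ((fun z : integralClosure ℤ ℂ ↦ e z) '' (F : Set (integralClosure ℤ ℂ)))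
  haveI : FiniteDimensional ℚ_[p] L := by
    have h1 : (((fun z : integralClosure ℤ ℂ ↦ e z) '' (F : Set (integralClosure ℤ ℂ)))).Finite :=
      F.finite_toSet.image _
    haveI := h1.to_subtype
    exact IntermediateField.finiteDimensional_adjoin (fun x _ ↦ Algebra.IsIntegral.isIntegral x)
  haveI : Finite (ResidueField ℤ_[p]) := Finite.of_equiv (ZMod p) (PadicInt.residueField (p := p)).symm.toEquiv
  have hdvr := isDVR_integralClosure (𝒪 := ℤ_[p]) ℚ_[p] L
  have hcomp := isAdicComplete_integralClosure (𝒪 := ℤ_[p]) ℚ_[p] L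
  have hfin := finite_residueField_integralClosure (𝒪 := ℤ_[p]) ℚ_[p] L
  haveI : IsScalarTower ℤ_[p] L (AlgebraicClosure ℚ_[p]) :=
    IsScalarTower.of_algebraMap_eq (fun x ↦ rfl)
  -- inclusion
  let inc : integralClosure ℤ_[p] L →+* integralClosure ℤ_[p] (AlgebraicClosure ℚ_[p]) :=
    ((algebraMap L (AlgebraicClosure ℚ_[p])).comp
      (algebraMap (integralClosure ℤ_[p] L) L)).codRestrict _ (fun x ↦
        x.2.map (IsScalarTower.toAlgHom ℤ_[p] L (AlgebraicClosure ℚ_[p])))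
  have hinc : ∀ x, ((inc x : integralClosure ℤ_[p] (AlgebraicClosure ℚ_[p])) :
      AlgebraicClosure ℚ_[p]) = algebraMap L (AlgebraicClosure ℚ_[p]) x := fun x ↦ rfl
  have hinc_inj : Function.Injective inc := by
    intro x y hxy
    apply Subtype.ext
    apply (algebraMap L (AlgebraicClosure ℚ_[p])).injective
    rw [← hinc, ← hinc, hxy]
  have hmax : 𝔐.comap inc = maximalIdeal (integralClosure ℤ_[p] L) := by
    have h1 : (𝔐.comap inc).IsPrime := Ideal.comap_isPrime inc 𝔐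
    have h2 : 𝔐.comap inc ≠ ⊥ := by
      intro h
      have h3 : (p : integralClosure ℤ_[p] L) ∈ 𝔐.comap inc := by
        rw [Ideal.mem_comap, map_natCast]; exact hp𝔐
      rw [h, Ideal.mem_bot] at h3
      exact (Nat.cast_ne_zero.mpr hp.ne_zero) h3
    exact IsLocalRing.eq_maximalIdeal (h1.isMaximal h2)
  -- the residue fields
  let emb : integralClosure ℤ ℂ →+* integralClosure ℤ_[p] (AlgebraicClosure ℚ_[p]) :=
    ((e : ℂ →+* AlgebraicClosure ℚ_[p]).comp (algebraMap (integralClosure ℤ ℂ) ℂ)).codRestrict _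
      (fun x ↦ by
        have h : IsIntegral ℤ (e (x : ℂ)) := x.2.map (e : ℂ →+* AlgebraicClosure ℚ_[p]).toIntAlgHom
        exact h.tower_top)
  have hemb : ∀ z, ((emb z : integralClosure ℤ_[p] (AlgebraicClosure ℚ_[p])) :
      AlgebraicClosure ℚ_[p]) = e z := fun z ↦ rfl
  let r : (integralClosure ℤ ℂ ⧸ 𝔪) →+* (integralClosure ℤ_[p] (AlgebraicClosure ℚ_[p]) ⧸ 𝔐) :=
    Ideal.quotientMap 𝔐 emb (fun z hz ↦ (he z (emb z) rfl).mp hz)
  letI : Field (integralClosure ℤ ℂ ⧸ 𝔪) := Ideal.Quotient.field 𝔪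
  haveI : Nontrivial (integralClosure ℤ_[p] (AlgebraicClosure ℚ_[p]) ⧸ 𝔐) :=
    Ideal.Quotient.nontrivial_iff.mpr h𝔐.ne_top
  have hrmk : ∀ z, r (Ideal.Quotient.mk 𝔪 z) = Ideal.Quotient.mk 𝔐 (emb z) := fun z ↦ rfl
  have hr : Function.Bijective r := by
    constructor
    · exact r.injective
    · intro y
      obtain ⟨y, rfl⟩ := Ideal.Quotient.mk_surjective y
      obtain ⟨z, w, hzw, hyw⟩ := exists_near p e 𝔐 hp𝔐 y
      refine ⟨Ideal.Quotient.mk 𝔪 z, ?_⟩
      have h1 : emb z = w := Subtype.ext hzw.symm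
      rw [hrmk, h1]
      exact ((Ideal.Quotient.mk_eq_mk_iff_sub_mem _ _).mpr hyw).symm
  let re := RingEquiv.ofBijective r hr
  let ι₀ : ResidueField (integralClosure ℤ_[p] L) →+*
      (integralClosure ℤ_[p] (AlgebraicClosure ℚ_[p]) ⧸ 𝔐) :=
    Ideal.quotientMap 𝔐 inc hmax.ge
  let j : integralClosure ℤ_[p] L →+* ℂ := (e.symm : AlgebraicClosure ℚ_[p] →+* ℂ).comp
    ((algebraMap L (AlgebraicClosure ℚ_[p])).comp (algebraMap (integralClosure ℤ_[p] L) L))
  refine ⟨integralClosure ℤ_[p] L, inferInstance, inferInstance, hdvr, hcomp, hfin, inferInstance,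
    ?_, j, (re.symm : _ →+* _).comp ι₀, ?_, ?_, ?_⟩
  · rw [← hmax, Ideal.mem_comap, map_natCast]
    exact hp𝔐
  · intro x y hxy
    apply Subtype.ext
    apply (algebraMap L (AlgebraicClosure ℚ_[p])).injective
    exact e.symm.injective hxy
  · intro z hz
    have h1 : e (z : ℂ) ∈ L := IntermediateField.subset_adjoin _ _ ⟨z, hz, rfl⟩
    have h2 : IsIntegral ℤ (e (z : ℂ)) := z.2.map (e : ℂ →+* AlgebraicClosure ℚ_[p]).toIntAlgHom
    have h3 : IsIntegral ℤ_[p] (e (z : ℂ)) := h2.tower_top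
    have h4 : IsIntegral ℤ_[p] (⟨e (z : ℂ), h1⟩ : L) := by
      have h5 := (isIntegral_algHom_iff (IsScalarTower.toAlgHom ℤ_[p] L (AlgebraicClosure ℚ_[p]))
        (algebraMap L (AlgebraicClosure ℚ_[p])).injective (x := (⟨e (z : ℂ), h1⟩ : L))).mp h3
      exact h5
    refine ⟨⟨⟨e (z : ℂ), h1⟩, h4⟩, ?_⟩
    exact e.symm_apply_apply (z : ℂ)
  · intro a z haz
    have h1 : inc a = emb z := by
      apply Subtype.ext
      rw [hinc, hemb, ← haz]
      exact (e.apply_symm_apply _).symm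
    change re.symm (Ideal.Quotient.mk 𝔐 (inc a)) = _
    rw [RingEquiv.symm_apply_eq, h1]
    exact (hrmk z).symm

end Fermat.Agent.LL
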