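import Fermat.Agent.LL.HeckePoint
import Fermat.Agent.LL.Char
import Fermat.Agent.Newform.MultOne
import Fermat.Agent.Ihara.NewSub
import Fermat.Agent.Twist.Spec

set_option autoImplicit false
set_option linter.unusedSectionVars false

/-!
# Occurrence of residual eigensystems
-/

open CongruenceSubgroup Fermat.Agent.Top MvPolynomial IsLocalRing Fermat.Agent.TWMod
open Fermat.Agent.Newform Fermat.Agent.Period
open scoped MatrixGroups TensorProduct

namespace Fermat.Agent.LL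

section Occ

variable {Λ A : Type} [CommRing Λ] [IsLocalRing Λ] [CommRing A] [IsLocalRing A] {K : Type} [Field K]
  {i : Λ →+* A} [IsLocalHom i] {φ : A →+* K} {ψ : Λ →+* K} (hψ : φ.comp i = ψ)
  {N : ℕ} [NeZero N] {S : Set ℕ} {a : Pr S → ResidueField Λ} {t : Pr S → A}
  (ht : ∀ ℓ, residue A (t ℓ) = ResidueField.map i (a ℓ)) {χ : DirichletCharacter Λ N}

include ht

theorem residue_eval₂ (P : MvPolynomial (Pr S) Λ) :
    residue A (eval₂ i t P) = ResidueField.map i (resE S a P) := by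
  induction P using MvPolynomial.induction_on with
  | C r => rw [eval₂_C, resE_C, ResidueField.map_residue]
  | add p q hp hq => rw [eval₂_add, map_add, hp, hq, map_add, map_add]
  | mul_X p j hp => rw [eval₂_mul, map_mul, hp, eval₂_X, ht, map_mul, map_mul, resE_X]

include hψ

omit [IsLocalRing Λ] [IsLocalRing A] [IsLocalHom i] [NeZero N] ht in
theorem map_eval₂ (P : MvPolynomial (Pr S) Λ) :
    φ (eval₂ i t P) = eval₂ ψ (fun ℓ ↦ φ (t ℓ)) P := by
  rw [← hψ, MvPolynomial.eval₂_comp_left]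
  rfl

variable {α : Pr S → K} (hα : ∀ ℓ, φ (t ℓ) = α ℓ)
  {x : H1 (kap (χ.ringHomComp ψ)) (PtMod ψ)}

include hα

/-- A residual eigensystem which lifts to an eigenvector occurs. -/
theorem occ_of_eig (h2 : IsUnit (2 : Λ)) (h3 : Three Λ N) (hx : IsEigP ψ χ S α x)
    (hx0 : x ≠ 0) (P : MvPolynomial (Pr S) Λ) (hP : ev χ S Λ P = 0) : resE S a P = 0 := by
  obtain rfl : (fun ℓ ↦ φ (t ℓ)) = α := funext hα
  have h1 := hx.eval_eq_zero h2 h3 hx0 hP
  rw [← map_eval₂ hψ] at h1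
  have h4 : ¬ IsUnit (eval₂ i t P) := fun hu ↦ (hu.map φ).ne_zero h1
  have h5 : residue A (eval₂ i t P) = 0 := by
    rw [residue_eq_zero_iff, mem_maximalIdeal]
    exact h4
  rw [residue_eval₂ ht] at h5
  exact (map_eq_zero _).1 h5

/-- Such an eigenvector lies in the local component. -/
theorem mem_MP_of_eig {χ₁ χ₂ : DirichletCharacter Λ N} {E : MvPolynomial (Pr S) Λ}
    (hE : IsLoc χ₁ χ₂ S a E) (hχ : χ ∈ ({χ₁, χ₂} : Set (DirichletCharacter Λ N)))
    (hx : IsEigP ψ χ S α x) (hx0 : x ≠ 0) : x ∈ MP ψ χ S E := by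
  obtain rfl : (fun ℓ ↦ φ (t ℓ)) = α := funext hα
  have h1 := eval_idem hE hχ hx hx0
  have h4 : residue A (eval₂ i t E) = 1 := by
    rw [residue_eval₂ ht, hE.res, map_one]
  have h5 : IsUnit (eval₂ i t E) := by
    by_contra h
    have h6 : residue A (eval₂ i t E) = 0 := by
      rw [residue_eq_zero_iff, mem_maximalIdeal]
      exact h
    rw [h4] at h6
    exact one_ne_zero h6
  have h7 := (h5.map φ).ne_zero
  rw [map_eval₂ hψ] at h7
  have h8 : eval₂ ψ (fun ℓ ↦ φ (t ℓ)) E = 1 := by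
    have h9 : eval₂ ψ (fun ℓ ↦ φ (t ℓ)) E * (eval₂ ψ (fun ℓ ↦ φ (t ℓ)) E - 1) = 0 := by
      rw [mul_sub, h1, mul_one, sub_self]
    exact sub_eq_zero.1 ((mul_eq_zero.1 h9).resolve_left h7)
  refine ⟨x, ?_⟩
  rw [hx.ev_eq, MvPolynomial.eval_map, h8, one_smul]

end Occ

section Newform

/-- Eigenforms give eigenvectors in cohomology. -/
theorem exists_eig_of_form {M N : ℕ} [NeZero N] (hMN : M ∣ N)
    {f : CuspForm (Gamma0 M) 2} (hf : f.IsNormalizedEigenform) {χ : DirichletCharacter ℂ N}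
    (hχ : χ = 1) : ∃ x : H1 (kap χ) ℂ, x ≠ 0 ∧ ∀ (ℓ : ℕ) (hℓ : ℓ.Prime), ¬ ℓ ∣ N →
      hk χ ℂ hℓ x = ModularFormClass.qCoeff f ℓ • x := by
  obtain ⟨f₁, hf₁, hff⟩ := raise hMN hf
  have h1 : ∀ γ, kap χ γ = 1 := Twist.kap_eq_one_of_one hχ
  let F : Additive (Gamma0 N) →+ ℂ := periodLin N f₁
  let c : Z1 (kap χ) ℂ := ⟨fun γ ↦ F (Additive.ofMul γ), fun γ γ' ↦ by
    rw [h1, one_smul]
    exact F.map_add _ _⟩
  have hc : Twist.homOfH h1 (cls (kap χ) ℂ c) = F := by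
    rw [Twist.homOfH_cls]
    exact AddMonoidHom.ext fun γ ↦ rfl
  refine ⟨cls (kap χ) ℂ c, ?_, fun ℓ hℓ hℓN ↦ ?_⟩
  · intro h0
    rw [h0, map_zero] at hc
    have h2 : f₁ = 0 := periodLin_injective N (by rw [map_zero]; exact hc.symm)
    exact hf₁.ne_zero h2
  · apply Twist.homOfH_injective h1
    have h3 := (Ihara.periodLin_hOp N ⟨ℓ, hℓ⟩ f₁).symm.trans
      ((congrArg (periodLin N) (hOp_eigen hf₁ ⟨ℓ, hℓ⟩)).trans (map_smul _ _ _))
    rw [Twist.homOfH_hk h1 hℓ (Twist.hw_eq_one_of_one hχ hℓ hℓN), map_smul, hc,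
      ← hff ℓ hℓ (Or.inr hℓN)]
    exact h3

end Newform

end Fermat.Agent.LL
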