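import Fermat.Agent.LL.CBase
import Fermat.Agent.LL.NFOrdDef

/-!
# The strict condition at `p` at the points of newforms of level exactly divisible by `p`
-/

set_option autoImplicit false
set_option linter.unusedSectionVars false

open CongruenceSubgroup IsLocalRing

namespace Fermat.Agent.LL

section

variable {𝒪 : Type} [CommRing 𝒪] [IsDomain 𝒪] [IsDiscreteValuationRing 𝒪]
    [IsAdicComplete (maximalIdeal 𝒪) 𝒪] [Finite (ResidueField 𝒪)] [CharZero 𝒪]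

/-- A point attached to a newform of level `M` with `p ∥ M` is strictly ordinary at `p`. -/
theorem Pt.isStrictOrdinaryAt (h : NFOrdStmt) {p : ℕ} (hp : p.Prime) (hp2 : p ≠ 2)
    {j : 𝒪 →+* ℂ} {ρbar : ResidualGaloisRep (ResidueField 𝒪)}
    (hmem : (p : 𝒪) ∈ maximalIdeal 𝒪) (habs : ρbar.IsAbsolutelyIrreducible) {S : Finset ℕ}
    {t : ℕ → ℂ} (P : Pt j ρbar S t) {M : ℕ} [NeZero M] {g : CuspForm (Gamma0 M) 2}
    (hg : g.IsNewform) (hpS : p ∈ S) (hMS : ∀ q : ℕ, q.Prime → q ∣ M → q ∈ S)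
    (hgt : ∀ ℓ : ℕ, ℓ.Prime → ℓ ∉ S → ModularFormClass.qCoeff g ℓ = t ℓ)
    (hpM : p ∣ M) (hpM2 : ¬ p ^ 2 ∣ M) : P.ρ.IsStrictOrdinaryAt p := by
  let e : P.R ≃+* P.ι.range := RingEquiv.ofBijective P.ι.rangeRestrict
    ⟨fun x y hxy => P.ι_inj (congrArg Subtype.val hxy), P.ι.rangeRestrict_surjective⟩
  have hD : ∀ ℓ : ℕ, ℓ.Prime → ℓ ∉ S → ModularFormClass.qCoeff g ℓ ∈ P.ι.range :=
    fun ℓ hℓ hS => ⟨P.tr ℓ, by rw [P.ι_tr ℓ hℓ hS, hgt ℓ hℓ hS]⟩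
  have htr : ∀ (ℓ : ℕ) (hℓ : ℓ.Prime) (hS : ℓ ∉ S),
      (e.symm : P.ι.range →+* P.R) ⟨_, hD ℓ hℓ hS⟩ = P.tr ℓ := by
    intro ℓ hℓ hS
    change e.symm _ = _
    rw [RingEquiv.symm_apply_eq]
    apply Subtype.ext
    change ModularFormClass.qCoeff g ℓ = P.ι (P.tr ℓ)
    rw [P.ι_tr ℓ hℓ hS, hgt ℓ hℓ hS]
  have hpR : (p : P.R) ∈ maximalIdeal P.R := by
    have h1 := map_nonunit (algebraMap 𝒪 P.R) _ hmem
    rwa [map_natCast] at h1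
  refine h hg p hp hp2 hpM hpM2 S hpS hMS P.R hpR P.ι.range (e.symm : P.ι.range →+* P.R) hD P.ρ
    (fun ℓ hℓ hS A hA σ hσ => ?_) (absIrr_of_isEquiv _ habs P.residual)
  rw [htr ℓ hℓ hS]
  exact P.frob ℓ hℓ hS A hA σ hσ

theorem pcond_strict (h : NFOrdStmt) {p : ℕ} (hp : p.Prime) (hp2 : p ≠ 2) {j : 𝒪 →+* ℂ}
    {ρbar : ResidualGaloisRep (ResidueField 𝒪)} (hmem : (p : 𝒪) ∈ maximalIdeal 𝒪)
    (habs : ρbar.IsAbsolutelyIrreducible) {H : ℕ → Prop} (hH : ∀ M, H M → p ∣ M) :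
    PCond p j ρbar (fun _ _ _ ρ' => ρ'.IsStrictOrdinaryAt p) H :=
  fun _ _ P M _ _ hg hpS hMS hgt _ hpM2 hM =>
    P.isStrictOrdinaryAt h hp hp2 hmem habs hg hpS hMS hgt (hH M hM) hpM2

theorem pcond_flat_or_strict (h : NFOrdStmt) {p : ℕ} (hp : p.Prime) (hp2 : p ≠ 2) {j : 𝒪 →+* ℂ}
    {ρbar : ResidualGaloisRep (ResidueField 𝒪)} (hmem : (p : 𝒪) ∈ maximalIdeal 𝒪)
    (habs : ρbar.IsAbsolutelyIrreducible) {H : ℕ → Prop} :
    PCond p j ρbar (fun _ _ _ ρ' => ρ'.IsFlatAt p ∨ ρ'.IsStrictOrdinaryAt p) H := by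
  intro S t P M _ g hg hpS hMS hgt hP hpM2 _
  by_cases hpM : p ∣ M
  · exact Or.inr (P.isStrictOrdinaryAt h hp hp2 hmem habs hg hpS hMS hgt hpM hpM2)
  · exact Or.inl (hP.flat hpM)

end

end Fermat.Agent.LL
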