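import Fermat.Agent.LL.LevelPt
import Fermat.Agent.LL.NF

set_option autoImplicit false
set_option linter.style.haveILetI false

/-!
# Representations attached to newforms, with a small set of bad primes

The congruence is only known away from `S`; the representation is described away from a smaller
set `S'`.
-/

open IsLocalRing Polynomial

namespace Fermat.Agent.LL

local notation "Γℚ" => (AlgebraicClosure ℚ ≃ₐ[ℚ] AlgebraicClosure ℚ)

theorem isLocalHom_of_isIntegral {A R : Type*} [CommRing A] [IsLocalRing A] [CommRing R]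
    [Nontrivial R] (f : A →+* R) (hf : f.IsIntegral) : IsLocalHom f := by
  have h1 : IsLocalHom f.rangeRestrict :=
    IsLocalHom.of_surjective _ f.rangeRestrict_surjective
  have h2 : f.range.subtype.IsIntegral := by
    intro x
    exact RingHom.IsIntegralElem.of_comp (f := f.rangeRestrict) (g := f.range.subtype) (hf x)
  have h3 : IsLocalHom f.range.subtype := h2.isLocalHom Subtype.val_injective
  have h4 : f = f.range.subtype.comp f.rangeRestrict := rfl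
  rw [h4]
  exact RingHom.isLocalHom_comp _ _

theorem finite_of_adjoin {𝒪 : Type*} [CommRing 𝒪] (j : 𝒪 →+* ℂ) {D : Subring ℂ} [Algebra 𝒪 D]
    (halg : ∀ a : 𝒪, ((algebraMap 𝒪 D a : D) : ℂ) = j a)
    {V : letI := j.toAlgebra; Submodule 𝒪 ℂ} (hV : letI := j.toAlgebra; V.FG)
    (hVD : ∀ x : ℂ, x ∈ V ↔ x ∈ D) : Module.Finite 𝒪 D := by
  let _ : Algebra 𝒪 ℂ := j.toAlgebra
  obtain ⟨T, hT⟩ := hV
  have hTD : ∀ x ∈ T, x ∈ D := fun x hx ↦ (hVD x).1 (hT ▸ Submodule.subset_span hx)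
  have hfin : ({x : D | (x : ℂ) ∈ T}).Finite :=
    T.finite_toSet.preimage (Subtype.val_injective.injOn)
  refine ⟨⟨hfin.toFinset, ?_⟩⟩
  rw [Set.Finite.coe_toFinset, eq_top_iff]
  rintro ⟨x, hx⟩ -
  have hx' : x ∈ Submodule.span 𝒪 (T : Set ℂ) := hT ▸ (hVD x).2 hx
  have key : ∀ y ∈ Submodule.span 𝒪 (T : Set ℂ), ∀ hy : y ∈ D,
      (⟨y, hy⟩ : D) ∈ Submodule.span 𝒪 {x : D | (x : ℂ) ∈ T} := by
    intro y hy
    induction hy using Submodule.span_induction with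
    | mem y hy => exact fun _ ↦ Submodule.subset_span hy
    | zero => exact fun _ ↦ Submodule.zero_mem _
    | add y z hy hz ihy ihz =>
      intro _
      have hy' : y ∈ D := (hVD y).1 (hT ▸ hy)
      have hz' : z ∈ D := (hVD z).1 (hT ▸ hz)
      exact Submodule.add_mem _ (ihy hy') (ihz hz')
    | smul c y hy ih =>
      intro h
      have hy' : y ∈ D := (hVD y).1 (hT ▸ hy)
      have h1 := Submodule.smul_mem _ c (ih hy')
      have h2 : (⟨c • y, h⟩ : D) = c • (⟨y, hy'⟩ : D) := by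
        rw [Algebra.smul_def c (⟨y, hy'⟩ : D)]
        refine Subtype.ext ?_
        change c • y = ((algebraMap 𝒪 D c : D) : ℂ) * y
        rw [halg, Algebra.smul_def]
        rfl
      rw [h2]
      exact h1
  exact key x hx' hx

theorem exists_pt_ext (hDVR : DVRExtStmt) (hNF0 : NF0Stmt) (hNF : NFStmt)
    {p : ℕ} (hp : p.Prime) (hp2 : p ≠ 2)
    {𝒪 : Type} [CommRing 𝒪] [IsDomain 𝒪] [IsDiscreteValuationRing 𝒪]
    [IsAdicComplete (maximalIdeal 𝒪) 𝒪] [Finite (ResidueField 𝒪)] [CharZero 𝒪]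
    (hp𝒪 : (p : 𝒪) ∈ maximalIdeal 𝒪) {j : 𝒪 →+* ℂ} (hj : Function.Injective j)
    {ρbar : ResidualGaloisRep (ResidueField 𝒪)} (habs : ρbar.IsAbsolutelyIrreducible)
    (hodd : ρbar.IsOdd) {S S' : Finset ℕ} (hSS' : S' ⊆ S) (hpS : p ∈ S') {b : ℕ → 𝒪}
    (hb : FrobCharRes ρbar S (fun ℓ ↦ residue 𝒪 (b ℓ)))
    {A : Type} [CommRing A] [IsLocalRing A] [Algebra 𝒪 A] [Module.Finite 𝒪 A]
    [IsLocalHom (algebraMap 𝒪 A)] {φ : A →+* ℂ} (hφ : φ.comp (algebraMap 𝒪 A) = j) {t : ℕ → A}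
    (ht : ∀ ℓ : ℕ, ℓ.Prime → ℓ ∉ S → t ℓ - algebraMap 𝒪 A (b ℓ) ∈ maximalIdeal A)
    {M : ℕ} [NeZero M] {g : CuspForm (CongruenceSubgroup.Gamma0 M) 2} (hg : g.IsNewform)
    (hMS : ∀ q : ℕ, q.Prime → q ∣ M → q ∈ S')
    (hgt : ∀ ℓ : ℕ, ℓ.Prime → ℓ ∉ S → ModularFormClass.qCoeff g ℓ = φ (t ℓ)) :
    ∃ P : Pt j ρbar S' (fun ℓ ↦ ModularFormClass.qCoeff g ℓ), NFProps p M P.ρ := by
  classical
  -- the ring of coefficients
  let _ : Algebra 𝒪 ℂ := j.toAlgebra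
  have hj' : ∀ a : 𝒪, algebraMap 𝒪 ℂ a = j a := fun _ ↦ rfl
  obtain ⟨n, e, he⟩ := Module.Finite.exists_fin (R := 𝒪) (M := A)
  let s : Set ℂ := Set.range (fun i : Fin n ↦ φ (e i)) ∪
    (fun ℓ ↦ ModularFormClass.qCoeff g ℓ) '' {ℓ | ℓ ∈ S ∧ ℓ.Prime}
  have hφa : ∀ (c : 𝒪) (x : A), φ (c • x) = algebraMap 𝒪 ℂ c * φ x := by
    intro c x
    rw [Algebra.smul_def, map_mul, hj', ← hφ]
    rfl
  have hsfin : s.Finite := (Set.finite_range _).union
    ((S.finite_toSet.subset fun ℓ hℓ ↦ hℓ.1).image _)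
  have hsint : ∀ x ∈ s, IsIntegral 𝒪 x := by
    rintro x (⟨i, rfl⟩ | ⟨ℓ, hℓ, rfl⟩)
    · have h1 : IsIntegral 𝒪 (e i) := Algebra.IsIntegral.isIntegral _
      obtain ⟨P, hP, hPe⟩ := h1
      refine ⟨P, hP, ?_⟩
      have h2 := congrArg φ hPe
      rw [map_zero, Polynomial.hom_eval₂] at h2
      rw [← h2, hφ]
      rfl
    · have h1 : IsIntegral ℤ (ModularFormClass.qCoeff g ℓ) :=
        Eigenform.isIntegral_qCoeff_prime hg.isNormalizedEigenform hℓ.2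
      exact h1.tower_top
  let D' : Subalgebra 𝒪 ℂ := Algebra.adjoin 𝒪 s
  let D : Subring ℂ := D'.toSubring
  have hDA : ∀ x, φ x ∈ D := by
    intro x
    have hx : x ∈ Submodule.span 𝒪 (Set.range e) := he ▸ Submodule.mem_top
    change φ x ∈ D'
    induction hx using Submodule.span_induction with
    | mem x hx =>
      obtain ⟨i, rfl⟩ := hx
      exact Algebra.subset_adjoin (Or.inl ⟨i, rfl⟩)
    | zero => rw [map_zero]; exact Subalgebra.zero_mem _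
    | add x y _ _ hx hy => rw [map_add]; exact Subalgebra.add_mem _ hx hy
    | smul c x _ hx =>
      rw [hφa]
      exact Subalgebra.mul_mem _ (Subalgebra.algebraMap_mem _ c) hx
  let φD : A →+* D := φ.codRestrict D hDA
  let _ : Algebra 𝒪 D := (φD.comp (algebraMap 𝒪 A)).toAlgebra
  have halg : ∀ a : 𝒪, ((algebraMap 𝒪 D a : D) : ℂ) = j a := fun a ↦ by
    rw [← hφ]; rfl
  have hDfin : Module.Finite 𝒪 D :=
    finite_of_adjoin j (D := D) halg (fg_adjoin_of_finite hsfin hsint) fun x ↦ Iff.rfl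
  have hDinj : Function.Injective (algebraMap 𝒪 D) := by
    intro x y hxy
    apply hj
    rw [← halg, ← halg, hxy]
  obtain ⟨R₁, _, _, _, _, _, _, f₁, hf₁, hf₁l, hf₁l'⟩ := hDVR D hDinj
  have hpR₁ : (p : R₁) ∈ maximalIdeal R₁ := by
    have h1 : (f₁.comp (algebraMap 𝒪 D)) (p : 𝒪) ∈ maximalIdeal R₁ :=
      map_nonunit (f₁.comp (algebraMap 𝒪 D)) _ hp𝒪
    rwa [map_natCast] at h1
  have hDg : ∀ ℓ : ℕ, ℓ.Prime → ℓ ∉ S' → ModularFormClass.qCoeff g ℓ ∈ D := fun ℓ hℓ _ ↦ by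
    by_cases hS : ℓ ∈ S
    · exact Algebra.subset_adjoin (Or.inr ⟨ℓ, ⟨hS, hℓ⟩, rfl⟩)
    · rw [hgt ℓ hℓ hS]
      exact hDA _
  obtain ⟨R, _, _, _, _, _, _, f₂, hf₂, hf₂l, ρ, hρ⟩ :=
    hNF0 hg p hp S' hpS hMS R₁ hpR₁ D f₁ hDg
  let f : D →+* R := f₂.comp f₁
  have hf : Function.Injective f := hf₂.comp hf₁
  let _ : Algebra 𝒪 R := (f.comp (algebraMap 𝒪 D)).toAlgebra
  have hlocR : IsLocalHom (algebraMap 𝒪 R) := by
    have h1 : IsLocalHom (f₂.comp (f₁.comp (algebraMap 𝒪 D))) := RingHom.isLocalHom_comp _ _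
    exact h1
  have hpR : (p : R) ∈ maximalIdeal R := by
    have h1 := map_nonunit f₂ _ hpR₁
    rwa [map_natCast] at h1
  have hfin : Module.Finite 𝒪 R := finite_of_dvr hp.ne_zero hp𝒪
  have hfint : f.IsIntegral := by
    intro x
    have h1 : IsIntegral 𝒪 x := Algebra.IsIntegral.isIntegral x
    exact RingHom.IsIntegralElem.of_comp (f := algebraMap 𝒪 D) (g := f) h1
  obtain ⟨e', he', hef⟩ := exists_embedding hp.ne_zero hpR f hf hfint D.subtype
    Subtype.val_injective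
  -- the local maps
  have hlocA : ∀ x ∈ maximalIdeal A, f (φD x) ∈ maximalIdeal R := by
    intro x hx
    have h1 : (f.comp φD).IsIntegral := by
      intro y
      have h2 : IsIntegral 𝒪 y := Algebra.IsIntegral.isIntegral y
      exact RingHom.IsIntegralElem.of_comp (f := algebraMap 𝒪 A) (g := f.comp φD) h2
    have h2 : IsLocalHom (f.comp φD) := isLocalHom_of_isIntegral _ h1
    exact map_nonunit (f.comp φD) x hx
  let tr : ℕ → R := fun ℓ ↦ if h : ℓ.Prime ∧ ℓ ∉ S' then f ⟨_, hDg ℓ h.1 h.2⟩ else 0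
  have htr : ∀ ℓ (hℓ : ℓ.Prime) (hS : ℓ ∉ S'), tr ℓ = f ⟨_, hDg ℓ hℓ hS⟩ := fun ℓ hℓ hS ↦
    dif_pos ⟨hℓ, hS⟩
  have hFrob : FrobChar ρ S' tr := by
    intro ℓ hℓ hS P hP σ hσ
    rw [hρ ℓ hℓ hS P hP σ hσ, htr ℓ hℓ hS]
    rfl
  have hres : ρ.residual.IsEquiv (ρbar.baseChangeAlong (ResidueField.map (algebraMap 𝒪 R))) := by
    refine residual_isEquiv_of_frob _ ρbar habs ρ.residual S fun ℓ hℓ hS P hP σ hσ ↦ ?_
    have hS' : ℓ ∉ S' := fun h ↦ hS (hSS' h)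
    rw [charpoly_baseChangeAlong, charpoly_residual, hb ℓ hℓ hS P hP σ hσ,
      hFrob ℓ hℓ hS' P hP σ hσ]
    have h1 : residue R (tr ℓ) = ResidueField.map (algebraMap 𝒪 R) (residue 𝒪 (b ℓ)) := by
      rw [ResidueField.map_residue, ← sub_eq_zero, ← map_sub, residue_eq_zero_iff, htr ℓ hℓ hS']
      have h2 := hlocA _ (ht ℓ hℓ hS)
      rw [map_sub, map_sub] at h2
      have h3 : (⟨ModularFormClass.qCoeff g ℓ, hDg ℓ hℓ hS'⟩ : D) = φD (t ℓ) :=
        Subtype.ext (hgt ℓ hℓ hS)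
      rw [h3]
      exact h2
    simp [h1]
  obtain ⟨eq⟩ := id hres
  have habs' : ρ.residual.IsAbsolutelyIrreducible := absIrr_of_isEquiv _ habs hres
  have hodd' : ρ.residual.IsOdd := isOdd_of_isEquiv _ hodd hres
  refine ⟨{ R := R, ι := e', ι_inj := he', ι_comp := ?_, ρ := ρ, tr := tr, ι_tr := ?_,
            frob := hFrob, residual := hres }, ?_⟩
  · ext a
    change e' (f (algebraMap 𝒪 D a)) = j a
    rw [← RingHom.comp_apply, hef, ← halg]
    rfl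
  · intro ℓ hℓ hS
    rw [htr ℓ hℓ hS, ← RingHom.comp_apply, hef]
    rfl
  · exact hNF.props hg hp hp2 hpS hMS hpR f hDg ρ hρ habs' hodd'

end Fermat.Agent.LL
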