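import Fermat.Agent.LL.ChainGen
import Fermat.Agent.Supp.Final

set_option autoImplicit false
set_option linter.unusedSectionVars false

/-!
# Level raising: the contradiction (general form)
-/

open IsLocalRing GaloisRep Polynomial

namespace Fermat.Agent.LL

open Fermat.Agent.DefRing Fermat.Agent

local notation "Γℚ" => (AlgebraicClosure ℚ ≃ₐ[ℚ] AlgebraicClosure ℚ)
local notation "M₂" => Matrix (Fin 2) (Fin 2)
local notation "Qb" => AlgebraicClosure ℚ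

theorem FrobChar.mono' {A : Type} [CommRing A] [IsLocalRing A] {ρ : GaloisRepAdic A}
    {S S' : Finset ℕ} {t : ℕ → A} (h : FrobChar ρ S t) (hS : S ⊆ S') : FrobChar ρ S' t :=
  fun ℓ hℓ hℓS => h ℓ hℓ fun hh => hℓS (hS hh)

theorem condType_mono_set {𝒪 : Type} [CommRing 𝒪] {p : ℕ} {Smin Q Q' : Finset ℕ} {P : TW.LCond}
    {R : Type} [CommRing R] [IsLocalRing R] [Algebra 𝒪 R] {ρ : GaloisRepAdic R} (hQ : Q ⊆ Q')
    (h : TW.CondType 𝒪 p Smin P Q ρ) : TW.CondType 𝒪 p Smin P Q' ρ :=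
  ⟨⟨h.1.1, h.1.2.1, fun q hq hqn => h.1.2.2 q hq fun hh => hqn
    (Finset.union_subset_union_right hQ hh)⟩, h.2⟩

/-- **Level raising, general form.** -/
theorem raise_of_blocks {𝒪 : Type} [CommRing 𝒪] [IsDomain 𝒪] [IsDiscreteValuationRing 𝒪]
    [IsAdicComplete (maximalIdeal 𝒪) 𝒪] [Finite (ResidueField 𝒪)] [CharZero 𝒪]
    {p : ℕ} [hpp : Fact p.Prime] {j : 𝒪 →+* ℂ} (hj : Function.Injective j)
    {ρbar : ResidualGaloisRep (ResidueField 𝒪)} {Smin : Finset ℕ} {m : ℕ} {ql : Fin m → ℕ}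
    (hinj : Function.Injective ql) {P : ℕ → TW.LCond} {P' : TW.LCond} (hP' : GlueStable p P')
    (hPP : ∀ i ≤ m, ∀ ⦃A : Type⦄ [CommRing A] [IsLocalRing A] (ρ : GaloisRepAdic A),
      P i ρ → P' ρ)
    (scal : Fin m → Prop) [DecidablePred scal] {Tsc Tns : Finset ℕ}
    (hG : TW.GenWHyp p ρbar Smin Tsc Tns) (hTsc : Tsc = (Finset.univ.filter scal).image ql)
    (hTns : ∀ l ∈ Tns, ∃ k, ¬ scal k ∧ ql k = l) {wp : ℕ}
    (hcard : Tns.card + wp = Fintype.card {k // ¬ scal k})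
    (hqlm : ∀ k, ql k ∈ Smin ∪ (Tsc ∪ Tns)) (L : ∀ l, l ∈ Tsc ∪ Tns → LocGen l p)
    {Kp : (Γℚ → M₂ (DualNumber (ResidueField 𝒪))) → Prop}
    (hGen : TW.GenWConcl p ρbar Smin Tsc Tns L wp 0 P' Kp)
    (hKp : (∃ k, ¬ scal k ∧ ql k = p) ∨ ∀ R, Kp R)
    (h c : Fin m → 𝒪) (h_mem : ∀ t, h t ∈ maximalIdeal 𝒪) (c_mem : ∀ t, c t ∈ maximalIdeal 𝒪)
    (c_ne : ∀ t, c t ≠ 0)
    {ρW : GaloisRepAdic 𝒪} {tW : ℕ → 𝒪} {S₁ : Finset ℕ} (hW : FrobChar ρW S₁ tW)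
    (hWres : ρW.residual.IsEquiv (ρbar.baseChangeAlong (ResidueField.map (algebraMap 𝒪 𝒪))))
    (hWcond : TW.CondType 𝒪 p Smin P' (Finset.univ.image ql) ρW)
    {F : MvPolynomial ℕ 𝒪} (hF : MvPolynomial.eval tW F ≠ 0) (S₀ : Finset ℕ) (D : ℕ → ℕ)
    (Ex : ∀ (r : ℕ) (qv : Fin r → ℕ), AutChain p j ρbar P Smin ql qv F (D r) → Prop)
    (hchain : ∀ (r : ℕ) (qv : Fin r → ℕ), Function.Injective qv →
      (∀ i, (qv i).Prime ∧ qv i ∉ S₀ ∧ p ∣ qv i - 1) →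
      (∀ i, ∀ P : ValuationSubring Qb, P.LiesOverPrime (qv i) →
        ∀ σ : Γℚ, P.IsFrobeniusAt σ (qv i) → ∃ α β : ResidueField 𝒪, α ≠ β ∧
          LinearMap.charpoly (ρbar.ρ σ) = (X - C α) * (X - C β)) →
      ∃ W : AutChain p j ρbar P Smin ql qv F (D r), S₁ ⊆ W.SS m ∧ Ex r qv W)
    (hblkS : ∀ (r : ℕ) (qv : Fin r → ℕ) (W : AutChain p j ρbar P Smin ql qv F (D r)), Ex r qv W →
      ∀ (H : ChainRing W P' ρW tW) (k : Fin m), scal k → ∃ K : ScBlock H k (h k),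
        ∀ θ : H.A →ₐ[𝒪] DualNumber (ResidueField 𝒪), (∀ i, θ (K.f i) = 0) →
          (∀ i, θ (K.s i) = 0) → ∀ hl : ql k ∈ Tsc,
            TW.KSc (L (ql k) (Finset.mem_union_left _ hl)) (fun σ => (H.R σ).map θ))
    (hblkX : ∀ (r : ℕ) (qv : Fin r → ℕ) (W : AutChain p j ρbar P Smin ql qv F (D r)), Ex r qv W →
      ∀ (H : ChainRing W P' ρW tW) (k : Fin m), ¬ scal k → ∃ K : SBlock H k (c k),
        ∀ θ : H.A →ₐ[𝒪] DualNumber (ResidueField 𝒪),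
          IsLocalHom (θ : H.A →+* DualNumber (ResidueField 𝒪)) → θ K.x = 0 → θ K.nn = 0 →
          θ K.b = 0 → (∀ hl : ql k ∈ Tns, TW.KNs (L (ql k) (Finset.mem_union_right _ hl))
            (fun σ => (H.R σ).map θ)) ∧ (ql k = p → Kp (fun σ => (H.R σ).map θ))) :
    False := by
  classical
  obtain ⟨g, hg⟩ := GenWConcl.at hGen
  have hcS : Tsc.card = Fintype.card {k // scal k} := by
    rw [hTsc, Finset.card_image_of_injective _ hinj, Fintype.card_subtype]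
  have hr : 3 * Tsc.card + Tns.card + wp + g =
      3 * Fintype.card {k // scal k} + Fintype.card {k // ¬ scal k} + (g + 0) := by
    rw [hcS]; omega
  let Q : ChainPar 𝒪 p m (3 * Tsc.card + Tns.card + wp + g)
      (D (3 * Tsc.card + Tns.card + wp + g)) :=
    { p_prime := hpp.out
      p_mem := hG.hp𝒪
      scal := scal
      h := h
      h_mem := h_mem
      c := c
      c_mem := c_mem
      c_ne := c_ne
      g := g + 0
      r_eq := hr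
      cθ := MvPolynomial.eval tW F
      cθ_ne := hF }
  refine Supp.chainMain 𝒪 Q.toParams fun n => ?_
  obtain ⟨qv, hqinj, hq, hfr, hAt⟩ := hg (S₀ ∪ Smin ∪ Finset.univ.image ql) n
  have hq1 : ∀ i, qv i ∉ S₀ ∧ qv i ∉ Smin ∧ qv i ∉ Finset.univ.image ql := by
    intro i
    have h1 := (hq i).2.1
    simp only [Finset.mem_union, not_or] at h1
    exact ⟨h1.1.1, h1.1.2, h1.2⟩
  obtain ⟨W, hWS, hEx⟩ := hchain _ qv hqinj (fun i => ⟨(hq i).1, (hq1 i).1,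
    dvd_trans (dvd_pow_self p (Nat.succ_ne_zero n)) (hq i).2.2⟩) hfr
  obtain ⟨H⟩ := exists_chainRing hG.hp𝒪 hG.hp2 hj hG.habs hG.hdet hP' W hPP ρW tW
    (hW.mono' hWS) hWres (condType_mono_set Finset.subset_union_left hWcond)
  choose sc hsc using fun t : {k // scal k} => hblkS _ qv W hEx H t.1 t.2
  choose sb hsb using fun t : {k // ¬ scal k} => hblkX _ qv W hEx H t.1 t.2
  obtain ⟨y, hy, hgen⟩ := H.exists_gen hAt hqlm H.cond.1.2.1 (fun t => (sc t).f)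
    (fun t => (sc t).s) (fun t => (sb t).x) (fun t => (sb t).nn) (fun t => (sb t).b)
    (fun t => (sc t).f_mem) (fun t => (sc t).s_mem) (fun t => (sb t).x_mem)
    (fun t => (sb t).nn_mem) (fun t => (sb t).b_mem) (by
      intro θ hθ hf hs hx hn hb
      refine ⟨?_, ?_, ?_⟩
      · intro l hl
        have hl' := hl
        rw [hTsc] at hl'
        obtain ⟨k, hk, rfl⟩ := Finset.mem_image.mp hl'
        exact hsc ⟨k, (Finset.mem_filter.mp hk).2⟩ θ (hf _) (hs _) hl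
      · intro l hl
        obtain ⟨k, hk, rfl⟩ := hTns l hl
        exact (hsb ⟨k, hk⟩ θ hθ (hx _) (hn _) (hb _)).1 hl
      · rcases hKp with ⟨k, hk, hkp⟩ | hKp
        · exact (hsb ⟨k, hk⟩ θ hθ (hx _) (hn _) (hb _)).2 hkp
        · exact hKp _)
  have hWur : ∀ k, ρW.IsUnramifiedAt (qv k) := fun k => hWcond.1.2.2 (qv k) (hq k).1 (by
    rw [Finset.mem_union, not_or]
    exact ⟨(hq1 k).2.1, (hq1 k).2.2⟩)
  exact H.cdatum hG.hp2 hG.hp𝒪 hG.hpSmin hG.hmin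
    (fun i => ⟨(hq i).1, (hq1 i).2.1, (hq i).2.2⟩) hfr hWur Q sc sb y hy hgen rfl

end Fermat.Agent.LL
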