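import Fermat.Agent.LL.Raise
import Fermat.Agent.LL.ChainSc
import Fermat.Agent.LL.ChainNs
import Fermat.Agent.LL.GlueStrict

set_option autoImplicit false
set_option linter.unusedSectionVars false

/-!
# Level raising: flat and strict cases
-/

open IsLocalRing GaloisRep Polynomial

namespace Fermat.Agent.LL

open Fermat.Agent.DefRing Fermat.Agent

local notation "Γℚ" => (AlgebraicClosure ℚ ≃ₐ[ℚ] AlgebraicClosure ℚ)
local notation "M₂" => Matrix (Fin 2) (Fin 2)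
local notation "Qb" => AlgebraicClosure ℚ

/-- all the Frobenius elements at `q` are scalar -/
def ScalAt {k : Type} [Field k] (ρbar : ResidualGaloisRep k) (q : ℕ) : Prop :=
  ∀ P : ValuationSubring Qb, P.LiesOverPrime q → ∀ σ : Γℚ, P.IsFrobeniusAt σ q →
    ∃ c : k, ρbar.ρ σ = c • 1

theorem scalAt_of_one {k : Type} [Field k] {ρbar : ResidualGaloisRep k} {q : ℕ} (hq : q.Prime)
    (hur : ρbar.IsUnramifiedAt q) {P₀ : ValuationSubring Qb} (hP₀ : P₀.LiesOverPrime q) {σ₀ : Γℚ}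
    (hσ₀ : P₀.IsFrobeniusAt σ₀ q) {c : k} (hc : ρbar.ρ σ₀ = c • 1) : ScalAt ρbar q := by
  intro P hP σ hσ
  obtain ⟨g, rfl⟩ := Frob.exists_smul_eq hq hP₀ hP
  refine ⟨c, ?_⟩
  rw [Frob.isFrobeniusAt_smul_iff] at hσ
  have h1 := hur P₀ hP₀ _ (Frob.IsFrobeniusAt.mul_inv_mem_inertia hσ hσ₀)
  have h2 : ρbar.ρ (g⁻¹ * σ * g) = c • 1 := by
    have h3 : ρbar.ρ (g⁻¹ * σ * g) = ρbar.ρ ((g⁻¹ * σ * g) * σ₀⁻¹) * ρbar.ρ σ₀ := by
      rw [← map_mul, inv_mul_cancel_right]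
    rw [h3, h1, hc, one_mul]
  have h4 : ρbar.ρ σ = ρbar.ρ g * ρbar.ρ (g⁻¹ * σ * g) * ρbar.ρ g⁻¹ := by
    rw [← map_mul, ← map_mul]
    congr 1
    group
  rw [h4, h2, mul_smul_comm, mul_one, smul_mul_assoc, ← map_mul, mul_inv_cancel, map_one]

theorem not_scalAt {k : Type} [Field k] {ρbar : ResidualGaloisRep k} {q : ℕ} (hq : q.Prime)
    (hur : ρbar.IsUnramifiedAt q) (h : ¬ ScalAt ρbar q) (P : ValuationSubring Qb)
    (hP : P.LiesOverPrime q) (σ : Γℚ) (hσ : P.IsFrobeniusAt σ q) (c : k) :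
    ρbar.ρ σ ≠ c • 1 := fun hc => h (scalAt_of_one hq hur hP hσ hc)

/-- the sign of a Steinberg prime -/
theorem exists_sign {𝒪 : Type} [CommRing 𝒪] [IsLocalRing 𝒪] {ρW : GaloisRepAdic 𝒪} {q p : ℕ}
    (hst : IsSt ρW q) (L : LocGen q p) : ∃ e : 𝒪, e ^ 2 = 1 ∧
      LinearMap.charpoly (ρW.ρ L.φ) = X ^ 2 - C (e * ((q : 𝒪) + 1)) * X + C (q : 𝒪) := by
  rcases hst.2 L.P L.hP _ L.hφ with h | h
  · exact ⟨1, one_pow 2, by rw [one_mul]; exact h⟩
  · refine ⟨-1, by ring, ?_⟩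
    rw [h, map_mul, map_neg, map_one]
    ring

/-- scalar primes are congruent to `1` -/
theorem scalar_one {𝒪 : Type} [CommRing 𝒪] [IsDomain 𝒪] [IsDiscreteValuationRing 𝒪]
    [IsAdicComplete (maximalIdeal 𝒪) 𝒪] [Finite (ResidueField 𝒪)]
    {ρbar : ResidualGaloisRep (ResidueField 𝒪)} {ρW : GaloisRepAdic 𝒪}
    (hWres : ρW.residual.IsEquiv (ρbar.baseChangeAlong (ResidueField.map (algebraMap 𝒪 𝒪))))
    {q : ℕ} {σ : Γℚ} {c : ResidueField 𝒪} (hc : ρbar.ρ σ = c • 1) {e : 𝒪} (he : e ^ 2 = 1)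
    (h : LinearMap.charpoly (ρW.ρ σ) = X ^ 2 - C (e * ((q : 𝒪) + 1)) * X + C (q : 𝒪)) :
    (q : 𝒪) - 1 ∈ maximalIdeal 𝒪 := by
  obtain ⟨r, hr⟩ := exists_realizes ρW
  have h1 := TW.red_scalar (A := 𝒪) hr hWres hc
  set c' := ResidueField.map (algebraMap 𝒪 𝒪) c with hc'
  obtain ⟨h2, h3⟩ := (charpoly_iff hr σ _ _).mp h
  have h4 : residue 𝒪 (r σ).trace = 2 * c' := by
    rw [← trace_map', h1, Matrix.trace_smul, Matrix.trace_one, Fintype.card_fin, smul_eq_mul,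
      mul_comm]
    norm_num
  have h5 : residue 𝒪 (r σ).det = c' ^ 2 := by
    rw [← det_map', h1, Matrix.det_smul, Matrix.det_one, Fintype.card_fin, mul_one]
  have h6 : residue 𝒪 (((q : 𝒪) - 1) ^ 2) = 0 := by
    have h7 : ((q : 𝒪) - 1) ^ 2 = (r σ).trace ^ 2 - 4 * (r σ).det := by
      rw [h2, h3]; linear_combination (-((q : 𝒪) + 1) ^ 2) * he
    rw [h7, map_sub, map_pow, map_mul, h4, h5, map_ofNat]
    ring
  rw [residue_eq_zero_iff] at h6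
  exact Ideal.IsPrime.mem_of_pow_mem (maximalIdeal.isMaximal 𝒪).isPrime 2 h6

theorem exists_half {𝒪 : Type} [CommRing 𝒪] [IsLocalRing 𝒪] {p : ℕ} (hp : p.Prime) (hp2 : p ≠ 2)
    (hp𝒪 : (p : 𝒪) ∈ maximalIdeal 𝒪) : ∃ u : 𝒪, u * 2 = 1 := by
  have h2 : IsUnit (2 : 𝒪) := by
    have := isUnit_natCast_of_not_dvd (A := 𝒪) hp hp𝒪 (m := 2) (fun h =>
      hp2 ((Nat.prime_dvd_prime_iff_eq hp Nat.prime_two).mp h))
    exact_mod_cast this
  exact h2.exists_left_inv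

/-- **Level raising, flat or strict case.** -/
theorem raise_const {𝒪 : Type} [CommRing 𝒪] [IsDomain 𝒪] [IsDiscreteValuationRing 𝒪]
    [IsAdicComplete (maximalIdeal 𝒪) 𝒪] [Finite (ResidueField 𝒪)] [CharZero 𝒪]
    {p : ℕ} [hpp : Fact p.Prime] (hp2 : p ≠ 2) (hp𝒪 : (p : 𝒪) ∈ maximalIdeal 𝒪)
    {j : 𝒪 →+* ℂ} (hj : Function.Injective j)
    {ρbar : ResidualGaloisRep (ResidueField 𝒪)} (habs : ρbar.IsAbsolutelyIrreducible)
    (hdet : (GaloisRepAdic.ofResidualGaloisRep ρbar).DetIsCyclotomic p)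
    (hsplit : ∀ σ : Γℚ, ∃ α β : ResidueField 𝒪,
      LinearMap.charpoly (ρbar.ρ σ) = (X - C α) * (X - C β))
    (hind : ∀ (K : Type) [Field K] [Algebra (ResidueField 𝒪) K] (G : Subgroup Γℚ), G.index = 2 →
      ∀ V : Submodule K (ρbar.baseChange K).V,
        (∀ σ ∈ G, ∀ x ∈ V, (ρbar.baseChange K).ρ σ x ∈ V) → V = ⊥ ∨ V = ⊤)
    {Smin : Finset ℕ} (hpS : p ∈ Smin)
    (hSmin : ∀ q : ℕ, q.Prime → q ≠ p → (q ∈ Smin ↔ ¬ ρbar.IsUnramifiedAt q))
    {m : ℕ} {ql : Fin m → ℕ} (hinj : Function.Injective ql)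
    (hql : ∀ k, (ql k).Prime ∧ ql k ∉ Smin) {P : TW.LCond} (hP : GlueStable p P)
    (hGenW : ∀ (Tsc Tns : Finset ℕ) (_ : TW.GenWHyp p ρbar Smin Tsc Tns)
      (L : ∀ l : ℕ, l ∈ Tsc ∪ Tns → LocGen l p),
      TW.GenWConcl p ρbar Smin Tsc Tns L 0 0 P (fun _ => True))
    {ρW : GaloisRepAdic 𝒪} {tW : ℕ → 𝒪} {S₁ : Finset ℕ} (hW : FrobChar ρW S₁ tW)
    (hWres : ρW.residual.IsEquiv (ρbar.baseChangeAlong (ResidueField.map (algebraMap 𝒪 𝒪))))
    (hWcond : TW.CondType 𝒪 p Smin P (Finset.univ.image ql) ρW)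
    (hWst : ∀ k, IsSt ρW (ql k))
    {F : MvPolynomial ℕ 𝒪} (hF : MvPolynomial.eval tW F ≠ 0) (S₀ : Finset ℕ) (D : ℕ → ℕ)
    (hchain : ∀ (r : ℕ) (qv : Fin r → ℕ), Function.Injective qv →
      (∀ i, (qv i).Prime ∧ qv i ∉ S₀ ∧ p ∣ qv i - 1) →
      (∀ i, ∀ P : ValuationSubring Qb, P.LiesOverPrime (qv i) →
        ∀ σ : Γℚ, P.IsFrobeniusAt σ (qv i) → ∃ α β : ResidueField 𝒪, α ≠ β ∧
          LinearMap.charpoly (ρbar.ρ σ) = (X - C α) * (X - C β)) →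
      ∃ W : AutChain p j ρbar (fun _ => P) Smin ql qv F (D r), S₁ ⊆ W.SS m) : False := by
  classical
  have hp : p.Prime := hpp.out
  have hqp : ∀ k, ql k ≠ p := fun k h => (hql k).2 (h ▸ hpS)
  have hur : ∀ k, ρbar.IsUnramifiedAt (ql k) := fun k => by
    by_contra h
    exact (hql k).2 ((hSmin _ (hql k).1 (hqp k)).mpr h)
  let scal : Fin m → Prop := fun k => ScalAt ρbar (ql k)
  let Tsc : Finset ℕ := (Finset.univ.filter scal).image ql
  let Tns : Finset ℕ := (Finset.univ.filter fun k => ¬ scal k).image ql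
  have hsc : ∀ l ∈ Tsc, l.Prime ∧ l ∉ Smin ∧ ScalAt ρbar l := by
    intro l hl
    obtain ⟨k, hk, rfl⟩ := Finset.mem_image.mp hl
    exact ⟨(hql k).1, (hql k).2, (Finset.mem_filter.mp hk).2⟩
  have hns : ∀ l ∈ Tns, ∃ k, ¬ scal k ∧ ql k = l := by
    intro l hl
    obtain ⟨k, hk, rfl⟩ := Finset.mem_image.mp hl
    exact ⟨k, (Finset.mem_filter.mp hk).2, rfl⟩
  have hG : TW.GenWHyp p ρbar Smin Tsc Tns :=
    { hp2 := hp2
      hp𝒪 := hp𝒪
      habs := habs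
      hdet := hdet
      hsplit := hsplit
      hTW := hind
      hpSmin := hpS
      hmin := hSmin
      hsc := hsc
      hns := by
        intro l hl
        obtain ⟨k, hk, rfl⟩ := hns l hl
        exact ⟨(hql k).1, (hql k).2, fun P hP σ hσ c =>
          not_scalAt (hql k).1 (hur k) hk P hP σ hσ c⟩ }
  have hmem : ∀ k, ql k ∈ Tsc ∪ Tns := by
    intro k
    by_cases h : scal k
    · exact Finset.mem_union_left _ (Finset.mem_image_of_mem _
        (Finset.mem_filter.mpr ⟨Finset.mem_univ k, h⟩))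
    · exact Finset.mem_union_right _ (Finset.mem_image_of_mem _
        (Finset.mem_filter.mpr ⟨Finset.mem_univ k, h⟩))
  have hLn : ∀ l, l ∈ Tsc ∪ Tns → Nonempty (LocGen l p) := by
    intro l hl
    rcases Finset.mem_union.mp hl with h | h
    · exact locGenStmt l p (hsc l h).1 hp (fun hh => (hsc l h).2.1 (hh ▸ hpS))
    · obtain ⟨k, -, rfl⟩ := hns l h
      exact locGenStmt _ p (hql k).1 hp (hqp k)
  let L : ∀ l, l ∈ Tsc ∪ Tns → LocGen l p := fun l hl => (hLn l hl).some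
  obtain ⟨u, hu⟩ := exists_half (𝒪 := 𝒪) hp hp2 hp𝒪
  choose e he hWt using fun k => exists_sign (hWst k) (L (ql k) (hmem k))
  have hB : ∀ k, BlkHyp p ρbar Smin ρW (ql k) (L (ql k) (hmem k)) u (e k) := fun k =>
    { hp2 := hp2
      hp𝒪 := hp𝒪
      hpS := hpS
      hSmin := hSmin
      hq := (hql k).1
      hqS := (hql k).2
      hu := hu
      he := he k
      hWu := (hWst k).1
      hWt := hWt k }
  have hone : ∀ k, scal k → ((ql k : 𝒪) - 1) ∈ maximalIdeal 𝒪 := by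
    intro k hk
    obtain ⟨c, hc⟩ := hk _ (L (ql k) (hmem k)).hP _ (L (ql k) (hmem k)).hφ
    exact scalar_one hWres hc (he k) (hWt k)
  let hh : Fin m → 𝒪 := fun k => if scal k then u * e k * ((ql k : 𝒪) - 1) else 0
  have hhk : ∀ k, scal k → hh k = u * e k * ((ql k : 𝒪) - 1) := fun k hk => if_pos hk
  refine raise_of_blocks hj hinj (P := fun _ => P) (P' := P) hP (fun _ _ _ _ _ _ h => h) scal hG
    rfl hns (wp := 0) ?_ (fun k => Finset.mem_union_right _ (hmem k)) L (hGenW Tsc Tns hG L)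
    (Or.inr fun _ => trivial) hh (fun k => cPar p (ql k) (e k)) ?_
    (fun k => cPar_mem hp𝒪) (fun k => cPar_ne hp.ne_zero (he k)) hW hWres hWcond hF S₀ D
    (fun _ _ _ => True) ?_ ?_ ?_
  · rw [add_zero, Finset.card_image_of_injective _ hinj, Fintype.card_subtype]
  · intro k
    by_cases hk : scal k
    · rw [hhk k hk]
      exact Ideal.mul_mem_left _ _ (hone k hk)
    · have : hh k = 0 := if_neg hk
      rw [this]
      exact zero_mem _
  · intro r qv h1 h2 h3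
    obtain ⟨W, hW⟩ := hchain r qv h1 h2 h3
    exact ⟨W, hW, trivial⟩
  · intro r qv W _ H k hk
    obtain ⟨c, hc⟩ := hk _ (L (ql k) (hmem k)).hP _ (L (ql k) (hmem k)).hφ
    obtain ⟨K, hK⟩ := (hB k).exists_scBlock H hc (hone k hk)
    rw [hhk k hk]
    exact ⟨K, fun θ h1 h2 hl => hK θ h1 h2⟩
  · intro r qv W _ H k hk
    obtain ⟨K, hK⟩ := (hB k).exists_sBlock H (fun c => not_scalAt (hql k).1 (hur k) hk _
      (L (ql k) (hmem k)).hP _ (L (ql k) (hmem k)).hφ c)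
    exact ⟨K, fun θ hθ h1 h2 h3 => ⟨fun hl => hK θ hθ h1 h2 h3, fun hkp => trivial⟩⟩

end Fermat.Agent.LL
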