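import Fermat.Agent.LL.Level

set_option autoImplicit false
set_option linter.unusedSectionVars false

/-!
# Reduction of the local component modulo an element, and comparison of two characters
-/

open CongruenceSubgroup Fermat.Agent.Top IsLocalRing Fermat.Agent.TWMod MvPolynomial
open scoped MatrixGroups TensorProduct

namespace Fermat.Agent.LL

/-- two free modules with the same reduction have the same rank -/
theorem finrank_eq_of_red {Λ : Type} [CommRing Λ] (I : Ideal Λ) [Nontrivial (Λ ⧸ I)] {M M' : Type}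
    [AddCommGroup M] [Module Λ M] [Module.Free Λ M] [AddCommGroup M'] [Module Λ M']
    [Module.Free Λ M'] (e : (M ⧸ (I • ⊤ : Submodule Λ M)) ≃ₗ[Λ] (M' ⧸ (I • ⊤ : Submodule Λ M'))) :
    Module.finrank Λ M = Module.finrank Λ M' := by
  have : Nontrivial Λ := (Ideal.Quotient.mk I).domain_nontrivial
  let e1 : ((Λ ⧸ I) ⊗[Λ] M) ≃ₗ[Λ] ((Λ ⧸ I) ⊗[Λ] M') :=
    ((TensorProduct.quotTensorEquivQuotSMul M I).trans e).trans
      (TensorProduct.quotTensorEquivQuotSMul M' I).symm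
  let e2 := e1.extendScalarsOfSurjective (S := Λ ⧸ I) Ideal.Quotient.mk_surjective
  rw [← Module.finrank_baseChange (R := Λ ⧸ I) (S := Λ) (M' := M),
    ← Module.finrank_baseChange (R := Λ ⧸ I) (S := Λ) (M' := M')]
  exact e2.finrank_eq

section Red

variable {Λ : Type} [CommRing Λ] [IsLocalRing Λ] {N : ℕ} [NeZero N] {S : Set ℕ}
  {a : Pr S → ResidueField Λ} {χ₁ χ₂ χ : DirichletCharacter Λ N} {E : MvPolynomial (Pr S) Λ}

theorem mapH_mem_MM {A A' : Type} [AddCommGroup A] [Module Λ A] [AddCommGroup A'] [Module Λ A']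
    (f : A →ₗ[Λ] A') {x : H1 (kap χ) A} (hx : x ∈ MM A χ S E) : mapH f x ∈ MM A' χ S E := by
  obtain ⟨y, rfl⟩ := hx
  exact ⟨mapH f y, ev_mapH χ S f E y⟩

/-- the reduction map -/
noncomputable def redM (χ : DirichletCharacter Λ N) (S : Set ℕ) (E : MvPolynomial (Pr S) Λ)
    (I : Ideal Λ) : MM Λ χ S E →ₗ[Λ] MM (Λ ⧸ I) χ S E :=
  (mapH I.mkQ).restrict fun _ hx ↦ mapH_mem_MM _ hx

theorem coe_redM (I : Ideal Λ) (x : MM Λ χ S E) :
    ((redM χ S E I x : MM (Λ ⧸ I) χ S E) : H1 (kap χ) (Λ ⧸ I)) = mapH I.mkQ x.1 := rfl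

variable (hE : IsLoc χ₁ χ₂ S a E) (hχ : χ ∈ ({χ₁, χ₂} : Set (DirichletCharacter Λ N)))

include hE in
theorem redM_surjective (I : Ideal Λ) : Function.Surjective (redM χ S E I) := by
  rintro ⟨_, ⟨y, rfl⟩⟩
  obtain ⟨x, rfl⟩ := mapH_surjective (isGood_kap χ hE.two hE.three) I.mkQ_surjective y
  exact ⟨⟨ev χ S Λ E x, ⟨x, rfl⟩⟩, Subtype.ext (ev_mapH χ S I.mkQ E x).symm⟩

include hE hχ in
theorem redM_eq_zero {ϖ : Λ} {x : MM Λ χ S E} (h : redM χ S E (Ideal.span {ϖ}) x = 0) :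
    ∃ x' : MM Λ χ S E, x = ϖ • x' := by
  have h1 : mapH (Ideal.span {ϖ}).mkQ x.1 = 0 := congrArg Subtype.val h
  have hgood := isGood_kap χ hE.two hE.three
  have hex : Function.Exact (LinearMap.toSpanSingleton Λ Λ ϖ) (Ideal.span {ϖ}).mkQ := by
    intro y
    rw [Submodule.mkQ_apply, Submodule.Quotient.mk_eq_zero, Ideal.mem_span_singleton']
    rfl
  obtain ⟨w, hw⟩ := (exact_mapH hgood hex (Submodule.mkQ_surjective _) x.1).1 h1
  have e : LinearMap.toSpanSingleton Λ Λ ϖ = ϖ • (LinearMap.id : Λ →ₗ[Λ] Λ) := by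
    ext
    simp
  rw [e, mapH_smul_id] at hw
  refine ⟨⟨ev χ S Λ E w, ⟨w, rfl⟩⟩, Subtype.ext ?_⟩
  have h2 := hE.eq_of_mem hE.two hE.three hχ Λ x.2
  rw [← hw, map_smul] at h2
  exact hw.symm.trans h2.symm

theorem redM_smul_self (ϖ : Λ) (x : MM Λ χ S E) : redM χ S E (Ideal.span {ϖ}) (ϖ • x) = 0 := by
  apply Subtype.ext
  rw [coe_redM]
  change mapH (Ideal.span {ϖ}).mkQ (ϖ • x.1) = 0
  rw [← mapH_smul_id, ← mapH_comp]
  have e : (Ideal.span {ϖ}).mkQ.comp (ϖ • (LinearMap.id : Λ →ₗ[Λ] Λ)) = 0 := by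
    ext
    simp only [LinearMap.comp_apply, LinearMap.smul_apply, LinearMap.id_apply, smul_eq_mul,
      mul_one, LinearMap.zero_apply, Submodule.mkQ_apply]
    rw [Submodule.Quotient.mk_eq_zero]
    exact Ideal.mem_span_singleton_self ϖ
  rw [e, mapH_zero]

section Cmp

variable {I : Ideal Λ} (h12 : ∀ u : ZMod N, χ₂ u - χ₁ u ∈ I)

include h12 in
theorem sameOn_quot : SameOn χ₂ χ₁ (Λ ⧸ I) := by
  refine sameOn_of fun u x ↦ ?_
  obtain ⟨y, rfl⟩ := Submodule.mkQ_surjective _ x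
  rw [← map_smul, ← map_smul, ← sub_eq_zero, ← map_sub, ← sub_smul, Submodule.mkQ_apply,
    Submodule.Quotient.mk_eq_zero, smul_eq_mul]
  refine Ideal.mul_mem_right _ _ ?_
  rw [← neg_sub]
  exact I.neg_mem (h12 u)

/-- comparison of the reductions for the two characters -/
noncomputable def cmpH : H1 (kap χ₂) (Λ ⧸ I) →ₗ[Λ] H1 (kap χ₁) (Λ ⧸ I) where
  toFun := chg (sameOn_quot h12)
  map_add' := map_add _
  map_smul' r x := chgH_smul _ (r := r) (r' := r) (fun _ ↦ rfl) x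

theorem cmpH_apply (x : H1 (kap χ₂) (Λ ⧸ I)) : cmpH h12 x = chg (sameOn_quot h12) x := rfl

theorem cmpH_ev (P : MvPolynomial (Pr S) Λ) (x : H1 (kap χ₂) (Λ ⧸ I)) :
    cmpH h12 (ev χ₂ S (Λ ⧸ I) P x) = ev χ₁ S (Λ ⧸ I) P (cmpH h12 x) := by
  have h := chg_ev (S := S) (sameOn_quot h12) (φ := RingHom.id Λ) (fun _ _ ↦ rfl) P x
  rwa [MvPolynomial.map_id] at h

theorem cmpH_mem {x : H1 (kap χ₂) (Λ ⧸ I)} (hx : x ∈ MM (Λ ⧸ I) χ₂ S E) :
    cmpH h12 x ∈ MM (Λ ⧸ I) χ₁ S E := by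
  obtain ⟨y, rfl⟩ := hx
  exact ⟨cmpH h12 y, (cmpH_ev h12 E y).symm⟩

/-- comparison of the reductions of the local components -/
noncomputable def cmpM (S : Set ℕ) (E : MvPolynomial (Pr S) Λ) :
    MM (Λ ⧸ I) χ₂ S E →ₗ[Λ] MM (Λ ⧸ I) χ₁ S E :=
  (cmpH h12).restrict fun _ hx ↦ cmpH_mem h12 hx

theorem coe_cmpM (x : MM (Λ ⧸ I) χ₂ S E) :
    ((cmpM h12 S E x : MM (Λ ⧸ I) χ₁ S E) : H1 (kap χ₁) (Λ ⧸ I)) = chg (sameOn_quot h12) x.1 := rfl

theorem cmpM_injective : Function.Injective (cmpM h12 S E) := by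
  intro x y h
  apply Subtype.ext
  exact (chg (sameOn_quot h12)).injective (congrArg Subtype.val h)

theorem cmpM_surjective : Function.Surjective (cmpM h12 S E) := by
  rintro ⟨_, ⟨y, rfl⟩⟩
  obtain ⟨x, rfl⟩ := (chg (sameOn_quot h12)).surjective y
  exact ⟨⟨ev χ₂ S (Λ ⧸ I) E x, ⟨x, rfl⟩⟩, Subtype.ext (cmpH_ev h12 E x)⟩

end Cmp

include hE in
/-- equality of ranks -/
theorem finrank_MM_eq {ϖ : Λ} (hϖ : ϖ ∈ maximalIdeal Λ)
    (h12 : ∀ u : ZMod N, χ₂ u - χ₁ u ∈ Ideal.span {ϖ})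
    [Module.Free Λ (MM Λ χ₁ S E)] [Module.Free Λ (MM Λ χ₂ S E)] :
    Module.finrank Λ (MM Λ χ₂ S E) = Module.finrank Λ (MM Λ χ₁ S E) := by
  have hI : Ideal.span {ϖ} ≠ ⊤ := by
    intro h
    exact (maximalIdeal.isMaximal Λ).ne_top (top_le_iff.1 (h ▸ (Ideal.span_singleton_le_iff_mem _).2 hϖ))
  have : Nontrivial (Λ ⧸ Ideal.span {ϖ}) := Ideal.Quotient.nontrivial_iff.2 hI
  have key : ∀ χ ∈ ({χ₁, χ₂} : Set (DirichletCharacter Λ N)),
      LinearMap.ker (redM χ S E (Ideal.span {ϖ})) = Ideal.span {ϖ} • ⊤ := by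
    intro χ hχ
    ext x
    rw [LinearMap.mem_ker, Submodule.ideal_span_singleton_smul]
    constructor
    · intro h
      obtain ⟨x', rfl⟩ := redM_eq_zero hE hχ h
      exact Submodule.smul_mem_pointwise_smul _ _ _ Submodule.mem_top
    · rintro ⟨x', -, rfl⟩
      exact redM_smul_self ϖ x'
  have k1 := key χ₁ (Or.inl rfl)
  have k2 := key χ₂ (Or.inr rfl)
  let e1 := LinearMap.quotKerEquivOfSurjective _ (redM_surjective (χ := χ₁) hE (Ideal.span {ϖ}))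
  let e2 := LinearMap.quotKerEquivOfSurjective _ (redM_surjective (χ := χ₂) hE (Ideal.span {ϖ}))
  let e3 := LinearEquiv.ofBijective _ ⟨cmpM_injective (S := S) (E := E) h12,
    cmpM_surjective (S := S) (E := E) h12⟩
  exact finrank_eq_of_red (Ideal.span {ϖ})
    ((((Submodule.quotEquivOfEq _ _ k2).symm.trans e2).trans e3).trans
      (e1.symm.trans (Submodule.quotEquivOfEq _ _ k1)))

end Red

end Fermat.Agent.LL
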