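import Fermat.Agent.LL.PtExists
import Fermat.Agent.LL.FreyRes
import Fermat.Agent.LL.OJ
import Fermat.Agent.LL.NF
import Fermat.Agent.Newform.Exist

set_option autoImplicit false
set_option linter.unusedSectionVars false

/-!
# Residual data and eigensystems congruent to them
-/

open IsLocalRing Polynomial
open CongruenceSubgroup ModularFormClass

namespace Fermat.Agent.LL

local notation "Γℚ" => (AlgebraicClosure ℚ ≃ₐ[ℚ] AlgebraicClosure ℚ)
local notation "Zbar" => integralClosure ℤ ℂ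

/-- A residual representation over the prime field with traces of Frobenius `t ℓ`. -/
structure ResData (p : ℕ) [Fact p.Prime] (ρ0 : ResidualGaloisRep (ZMod p)) (t : ℕ → ℤ)
    (S₁ : Finset ℕ) : Prop where
  ne2 : p ≠ 2
  abs : ∀ (k : Type) [Field k] [Algebra (ZMod p) k], (ρ0.baseChange k).IsAbsolutelyIrreducible
  odd : ∀ (k : Type) [Field k] [Algebra (ZMod p) k], (ρ0.baseChange k).IsOdd
  det : ∀ (k : Type) [Field k] [Algebra (ZMod p) k],
    (GaloisRepAdic.ofResidualGaloisRep (ρ0.baseChange k)).DetIsCyclotomic p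
  ind : ∀ (k : Type) [Field k] [Algebra (ZMod p) k] (K : Type) [Field K] [Algebra k K]
    (G : Subgroup Γℚ), G.index = 2 → ∀ V : Submodule K ((ρ0.baseChange k).baseChange K).V,
      (∀ σ ∈ G, ∀ x ∈ V, ((ρ0.baseChange k).baseChange K).ρ σ x ∈ V) → V = ⊥ ∨ V = ⊤
  pS : p ∈ S₁
  frob : FrobCharRes ρ0 S₁ (fun ℓ ↦ (t ℓ : ZMod p))
  unr : ∀ q : ℕ, q.Prime → q ∉ S₁ → ρ0.IsUnramifiedAt q
  noneis : ∀ (S : Finset ℕ) (m : ℕ), 0 < m → ∃ ℓ : ℕ, ℓ.Prime ∧ ℓ ∉ S ∧ ℓ ≡ 1 [MOD m] ∧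
    ¬ (p : ℤ) ∣ t ℓ - (ℓ + 1)

/-- the eigensystem of `f` is congruent to `t` modulo `𝔪` -/
def CongMod (t : ℕ → ℤ) {N : ℕ} (f : CuspForm (Gamma0 N) 2) (𝔪 : Ideal Zbar) : Prop :=
  ∃ S : Finset ℕ, ∀ ℓ : ℕ, ℓ.Prime → ℓ ∉ S → ∀ a : Zbar, (a : ℂ) = qCoeff f ℓ →
    a - ((t ℓ : ℤ) : Zbar) ∈ 𝔪

/-- the system `t` occurs modulo `p` at level `N` -/
def Occ (p : ℕ) (t : ℕ → ℤ) (N : ℕ) : Prop :=
  ∃ (f : CuspForm (Gamma0 N) 2) (𝔪 : Ideal Zbar), f.IsNormalizedEigenform ∧ 𝔪.IsMaximal ∧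
    (p : Zbar) ∈ 𝔪 ∧ CongMod t f 𝔪

/-- the Hecke eigenvalues as algebraic integers -/
theorem exists_int {N : ℕ} [NeZero N] {f : CuspForm (Gamma0 N) 2} (hf : f.IsNormalizedEigenform)
    {ℓ : ℕ} (hℓ : ℓ.Prime) : ∃ a : Zbar, (a : ℂ) = qCoeff f ℓ :=
  ⟨⟨_, Eigenform.isIntegral_qCoeff_prime hf hℓ⟩, rfl⟩

/-- the ring generated by the eigenvalues is finitely generated -/
theorem exists_coef {N : ℕ} [NeZero N] {f : CuspForm (Gamma0 N) 2}
    (hf : f.IsNormalizedEigenform) :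
    ∃ F : Finset Zbar, ∀ B : Subring ℂ, (∀ z ∈ F, (z : ℂ) ∈ B) →
      ∀ ℓ : ℕ, ℓ.Prime → qCoeff f ℓ ∈ B := by
  classical
  obtain ⟨χ, hχ⟩ := Eigenform.exists_eigenChar hf ∅
  have hf0 := Eigenform.ne_zero_of_isNormalizedEigenform hf
  have huniq : ∀ {x y : ℂ}, x • f = y • f → x = y := fun h => smul_left_injective ℂ hf0 h
  have hfin : Module.Finite ℤ (CuspForm.heckeAlgebra N 2 (∅ : Set ℕ)) :=
    Eichler.moduleFinite_heckeAlgebra 2 ∅
  obtain ⟨s, hs⟩ := hfin.fg_top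
  refine ⟨s.image χ, fun B hB ℓ hℓ ↦ ?_⟩
  have key : ∀ x : CuspForm.heckeAlgebra N 2 (∅ : Set ℕ), (χ x : ℂ) ∈ B := by
    intro x
    have hx : x ∈ Submodule.span ℤ (s : Set (CuspForm.heckeAlgebra N 2 (∅ : Set ℕ))) := by
      rw [hs]; trivial
    induction hx using Submodule.span_induction with
    | mem x hx => exact hB _ (Finset.mem_image_of_mem _ hx)
    | zero => rw [map_zero]; exact B.zero_mem
    | add x y _ _ h h' => rw [map_add]; exact B.add_mem h h'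
    | smul a x _ h =>
      rw [zsmul_eq_mul, map_mul, map_intCast]
      have : (((a : Zbar) * χ x : Zbar) : ℂ) = (a : ℂ) * (χ x : ℂ) := by push_cast; rfl
      rw [this]
      exact B.mul_mem (intCast_mem B a) h
  by_cases hℓN : ℓ ∣ N
  · have h1 := hχ (CuspForm.heckeAlgebra.U hℓ hℓN (Set.notMem_empty ℓ))
    rw [CuspForm.heckeAlgebra.coe_U, Eigenform.heckeULin_eigen hf hℓ hℓN] at h1
    rw [huniq h1]
    exact key _
  · have h1 := hχ (CuspForm.heckeAlgebra.T hℓ hℓN (Set.notMem_empty ℓ))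
    rw [CuspForm.heckeAlgebra.coe_T, Eigenform.heckeTLin_eigen hf hℓ hℓN] at h1
    rw [huniq h1]
    exact key _

/-- prime ideals of `Zbar` containing `p` are maximal -/
theorem ker_isMaximal {p : ℕ} (hp : p.Prime) {L : Type} [Field L] (ψ : Zbar →+* L)
    (h : (p : L) = 0) : (RingHom.ker ψ).IsMaximal := by
  have h1 : (RingHom.ker ψ).IsPrime := RingHom.ker_isPrime ψ
  have h2 : Ideal.comap (algebraMap ℤ Zbar) (RingHom.ker ψ) = Ideal.span {(p : ℤ)} := by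
    have h3 : (Ideal.comap (algebraMap ℤ Zbar) (RingHom.ker ψ)).IsPrime := inferInstance
    have h4 : Ideal.span {(p : ℤ)} ≤ Ideal.comap (algebraMap ℤ Zbar) (RingHom.ker ψ) := by
      rw [Ideal.span_singleton_le_iff_mem, Ideal.mem_comap, RingHom.mem_ker]
      simp [h]
    have h5 : (Ideal.span {(p : ℤ)}).IsMaximal :=
      PrincipalIdealRing.isMaximal_of_irreducible (Nat.prime_iff_prime_int.1 hp).irreducible
    exact (h5.eq_of_le h3.ne_top h4).symm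
  have h5 : (Ideal.span {(p : ℤ)}).IsMaximal :=
    PrincipalIdealRing.isMaximal_of_irreducible (Nat.prime_iff_prime_int.1 hp).irreducible
  have h6 : (Ideal.comap (algebraMap ℤ Zbar) (RingHom.ker ψ)).IsMaximal := by
    rw [h2]
    exact h5
  exact Ideal.isMaximal_of_isIntegral_of_isMaximal_comap _ h6

end Fermat.Agent.LL
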