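import Fermat.Agent.LL.S43Frey
import Fermat.Agent.LL.S59Ram
import Fermat.Agent.MazurQ.MPAll
import Fermat.Agent.MazurS.Core
import Fermat.Agent.MazurS.Front

set_option autoImplicit false

/-!
# Level lowering for the Frey curve
-/

namespace Fermat.Agent.LL

/-- **Level lowering for the Frey curve at odd primes `q ≠ p`.** -/
theorem stmt43 : Wiring.Stmt43 :=
  stmt43_of inputs (fun p hp h5 N q _ hq hqp hqN hqN2 K _ _ ψ f hf ρbar habs hfr hun hno =>
    mpStmtGe5 N q p hq hp h5 hqp hqN hqN2 K ψ f hf ρbar habs hfr hun hno)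
    (fun P {_} hcond hpN hirr hmod => MazurS.s44_of_core MazurS.core44 P hcond hpN hirr hmod)

end Fermat.Agent.LL
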