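import Fermat.Agent.LL.S43Of
import Fermat.Agent.Wiring.Top

set_option autoImplicit false
set_option linter.unusedSectionVars false

/-!
# Level lowering for the Frey curve
-/

open IsLocalRing Polynomial WeierstrassCurve Fermat.Agent.ECRep
open CongruenceSubgroup ModularFormClass

namespace Fermat.Agent.LL

local notation "Γℚ" => (AlgebraicClosure ℚ ≃ₐ[ℚ] AlgebraicClosure ℚ)
local notation "Qb" => AlgebraicClosure ℚ
local notation "Zbar" => integralClosure ℤ ℂ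

section Frey

variable (P : FreyPackage)

local instance factP : Fact P.p.Prime := ⟨P.pp⟩

theorem model_Δ_ne_zero {W : WeierstrassCurve ℤ} (hW : W.IsIntegralModelOf P.freyCurve) :
    W.Δ ≠ 0 := by
  obtain ⟨C, hC⟩ := hW
  rw [← Wiring.freyCurveInt_map] at hC
  intro h0
  have h1 := congrArg WeierstrassCurve.Δ hC
  rw [variableChange_Δ, map_Δ W, h0, map_zero] at h1
  have h3 : (C.u⁻¹ : ℚˣ) ≠ (0 : ℚ) := C.u⁻¹.ne_zero
  exact (mul_ne_zero (pow_ne_zero _ h3) (frey_Δ_ne_zero P)) h1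

theorem charpoly_frob_model {W : WeierstrassCurve ℤ} (hW : W.IsIntegralModelOf P.freyCurve)
    {ℓ : ℕ} (hℓ : ℓ.Prime) (hg : W.IsGoodPrimeFor ℓ) (hℓp : ℓ ≠ P.p) {A : ValuationSubring Qb}
    (hA : A.LiesOverPrime ℓ) {τ : Γℚ} (hτ : A.IsFrobeniusAt τ ℓ) :
    LinearMap.charpoly ((rho0 P).ρ τ) =
      X ^ 2 - C ((W.apOfModel ℓ : ℤ) : ZMod P.p) * X + C (ℓ : ZMod P.p) := by
  have hΔW := model_Δ_ne_zero P hW
  obtain ⟨C, hC⟩ := hW
  rw [← Wiring.freyCurveInt_map] at hC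
  have h1 := charpoly_resRep_smul (l := P.p) C hC (frey_Δ_ne_zero P) (toRat_Δ_ne_zero hΔW) τ
  rw [rho0, ← h1, charpoly_frob_res W hΔW hℓ hℓp hA hg hτ]

theorem mem_primeFactors_Δ {W : WeierstrassCurve ℤ} (hΔ : W.Δ ≠ 0) {ℓ : ℕ} (hℓ : ℓ.Prime)
    (h : ℓ ∉ W.Δ.natAbs.primeFactors) : W.IsGoodPrimeFor ℓ := by
  intro h1
  exact h (Nat.mem_primeFactors.2 ⟨hℓ, Int.natCast_dvd.1 h1, Int.natAbs_ne_zero.2 hΔ⟩)

/-- The bad primes. -/
def badF (W : WeierstrassCurve ℤ) : Finset ℕ :=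
  insert P.p (W.Δ.natAbs.primeFactors ∪ P.freyCurveInt.Δ.natAbs.primeFactors)

/-- The residual data of the Frey curve. -/
theorem resData_frey (hirr : WeierstrassCurve.Affine.Point.GaloisRepIsIrreducible
    (K := AlgebraicClosure ℚ) ℚ P.freyCurve P.p) {W : WeierstrassCurve ℤ}
    (hW : W.IsIntegralModelOf P.freyCurve) :
    ResData P.p (rho0 P) (fun ℓ ↦ W.apOfModel ℓ) (badF P W) := by
  have hp5 := P.hp5
  have hp2 : P.p ≠ 2 := by omega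
  have hirr0 := rho0_irr P hirr
  obtain ⟨σ, hσ, hσ1⟩ := exists_transvection P
  have hΔ := Wiring.freyCurveInt_Δ_ne_zero P
  refine ⟨hp2, ?_, ?_, ?_, ?_, ?_, ?_, ?_, ?_⟩
  · intro k _ _ V hV
    exact irr_of_transvection (rho0 P) k (AlgebraicClosure k) hirr0 hp2 hσ hσ1 ⊤
      (fun _ => Subgroup.mem_top _) V (fun τ _ x hx => hV τ x hx)
  · intro k _ _ c hc hc1
    rw [det_baseChange, rho0, resRep_isOdd _ _ hΔ c hc hc1, map_neg, map_one]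
  · intro k _ _
    have : CharP k P.p := by
      refine (CharP.charP_iff_prime_eq_zero P.pp).2 ?_
      rw [← map_natCast (algebraMap (ZMod P.p) k), ZMod.natCast_self, map_zero]
    refine detIsCyclotomic_ofResidual P.p _ (fun τ a ha => ?_)
    rw [det_baseChange, rho0, det_resRep_eq _ _ hΔ τ a ha, map_natCast]
  · intro k _ _ K _ _ G hG V hV
    have := Subgroup.normal_of_index_eq_two hG
    exact irr_of_transvection (rho0 P) k K hirr0 hp2 hσ hσ1 G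
      (fun γ => this.conj_mem _ (Subgroup.sq_mem_of_index_two hG σ) γ) V hV
  · exact Finset.mem_insert_self _ _
  · intro ℓ hℓ hS A hA τ hτ
    rw [badF, Finset.mem_insert, Finset.mem_union, not_or, not_or] at hS
    exact charpoly_frob_model P hW hℓ (mem_primeFactors_Δ (model_Δ_ne_zero P hW) hℓ hS.2.1) hS.1
      hA hτ
  · intro q hq hS
    rw [badF, Finset.mem_insert, Finset.mem_union, not_or, not_or] at hS
    exact resRep_isUnramifiedAt P.freyCurveInt hΔ hq hS.1 (mem_primeFactors_Δ hΔ hq hS.2.2)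
  · intro S m hm
    have hΔ' : P.freyCurve.Δ ≠ 0 := by
      rw [← Wiring.freyCurveInt_map]
      exact frey_Δ_ne_zero P
    have : P.freyCurve.IsElliptic := ⟨isUnit_iff_ne_zero.2 hΔ'⟩
    obtain ⟨ℓ, h1, h2, h3, -, h4⟩ := Ihara.exists_prime_ap_of_model hW hp2 hirr hm.ne' S
    exact ⟨ℓ, h1, h2, h3, h4⟩

theorem exists_frob_at {ℓ : ℕ} (hℓ : ℓ.Prime) : ∃ (A : ValuationSubring Qb) (τ : Γℚ),
    A.LiesOverPrime ℓ ∧ A.IsFrobeniusAt τ ℓ := by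
  obtain ⟨A, hA⟩ := Frob.exists_liesOverPrime Qb hℓ
  obtain ⟨τ, hτ⟩ := Frob.exists_isFrobeniusAt A hℓ hA
  exact ⟨A, τ, hA, hτ⟩

/-- occurrence and modularity of the representation -/
theorem modularRep_of_occ (hirr : WeierstrassCurve.Affine.Point.GaloisRepIsIrreducible
    (K := AlgebraicClosure ℚ) ℚ P.freyCurve P.p) {W : WeierstrassCurve ℤ}
    (hW : W.IsIntegralModelOf P.freyCurve) {M : ℕ} (hM : M ≠ 0)
    (h : Occ P.p (fun ℓ ↦ W.apOfModel ℓ) M) : P.ModularRepOfLevel M := by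
  have : NeZero M := ⟨hM⟩
  obtain ⟨g, 𝔪, hg, h𝔪, hp𝔪, hc⟩ := h
  refine ⟨g, W, 𝔪, hg, hW, h𝔪, hp𝔪, fun ℓ hℓ hgood hℓM hℓp ↦ ?_⟩
  obtain ⟨a, ha⟩ := exists_int hg hℓ
  refine ⟨a, ha, ?_⟩
  obtain ⟨A, τ, hA, hτ⟩ := exists_frob_at hℓ
  let _ : Field (Zbar ⧸ 𝔪) := Ideal.Quotient.field 𝔪
  have hpK : (P.p : Zbar ⧸ 𝔪) = 0 := by
    rw [← map_natCast (Ideal.Quotient.mk 𝔪), Ideal.Quotient.eq_zero_iff_mem]
    exact hp𝔪
  have : CharP (Zbar ⧸ 𝔪) P.p := (CharP.charP_iff_prime_eq_zero P.pp).2 hpK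
  let _ : Algebra (ZMod P.p) (Zbar ⧸ 𝔪) := ZMod.algebra _ P.p
  have h1 := frob_of_congMod (resData_frey P hirr hW) hg h𝔪 hp𝔪 hc (Ideal.Quotient.mk 𝔪)
    Ideal.mk_ker hℓ hℓM hℓp hA hτ ha
  rw [charpoly_baseChange, charpoly_frob_model P hW hℓ hgood hℓp hA hτ] at h1
  have h2 := congrArg (fun f ↦ f.coeff 1) h1
  simp [coeff_X, coeff_C] at h2
  rw [← Ideal.Quotient.eq_zero_iff_mem, map_sub, map_intCast, ← h2, sub_self]

theorem occ_of_modularRep {W : WeierstrassCurve ℤ}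
    (hW : W.IsIntegralModelOf P.freyCurve) {M : ℕ} (hM : M ≠ 0)
    (h : P.ModularRepOfLevel M) : Occ P.p (fun ℓ ↦ W.apOfModel ℓ) M := by
  have : NeZero M := ⟨hM⟩
  obtain ⟨g, W', 𝔪, hg, hW', h𝔪, hp𝔪, hc⟩ := h
  refine ⟨g, 𝔪, hg, h𝔪, hp𝔪, badF P W ∪ badF P W' ∪ M.primeFactors, fun ℓ hℓ hS a ha ↦ ?_⟩
  simp only [Finset.mem_union, badF, Finset.mem_insert, not_or] at hS
  have hg1 : W.IsGoodPrimeFor ℓ := mem_primeFactors_Δ (model_Δ_ne_zero P hW) hℓ hS.1.1.2.1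
  have hg2 : W'.IsGoodPrimeFor ℓ := mem_primeFactors_Δ (model_Δ_ne_zero P hW') hℓ hS.1.2.2.1
  obtain ⟨a', ha', h2⟩ := hc ℓ hℓ hg2 (fun h ↦ hS.2 (Nat.mem_primeFactors.2 ⟨hℓ, h, hM⟩))
    hS.1.1.1
  have h3 : a' = a := Subtype.ext (ha'.trans ha.symm)
  subst h3
  obtain ⟨A, τ, hA, hτ⟩ := exists_frob_at hℓ
  have h4 := (charpoly_frob_model P hW hℓ hg1 hS.1.1.1 hA hτ).symm.trans
    (charpoly_frob_model P hW' hℓ hg2 hS.1.1.1 hA hτ)
  have h5 := congrArg (fun f ↦ f.coeff 1) h4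
  simp [coeff_X, coeff_C] at h5
  have h6 : (P.p : ℤ) ∣ W'.apOfModel ℓ - W.apOfModel ℓ := by
    rw [← ZMod.intCast_zmod_eq_zero_iff_dvd]
    push_cast
    rw [h5, sub_self]
  obtain ⟨c, hc⟩ := h6
  have h7 : a' - ((W.apOfModel ℓ : ℤ) : Zbar) =
      (a' - ((W'.apOfModel ℓ : ℤ) : Zbar)) + (c : Zbar) * (P.p : Zbar) := by
    have h8 : ((W'.apOfModel ℓ : ℤ) : Zbar) - ((W.apOfModel ℓ : ℤ) : Zbar) =
        (c : Zbar) * (P.p : Zbar) := by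
      rw [← Int.cast_sub, hc]
      push_cast
      ring
    rw [← h8]
    ring
  change a' - ((W.apOfModel ℓ : ℤ) : Zbar) ∈ 𝔪
  rw [h7]
  exact 𝔪.add_mem h2 (𝔪.mul_mem_left _ hp𝔪)

/-- **S43** from Mazur's principle and S44. -/
theorem stmt43_of (I : Inputs) (hMP : ∀ p : ℕ, p.Prime → 5 ≤ p → MPFor p)
    (h44 : Wiring.Stmt44) : Wiring.Stmt43 := by
  classical
  intro P N q hcond hq hq2 hqp hqN hirr hmod hunr
  obtain ⟨f, W, 𝔪, hf, hW, h𝔪, hp𝔪, hcong⟩ := id hmod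
  have hN : N ≠ 0 := hcond.pos.ne'
  have hex : ∃ M, M ∣ N ∧ Occ P.p (fun ℓ ↦ W.apOfModel ℓ) M :=
    ⟨N, dvd_rfl, occ_of_modularRep P hW hN hmod⟩
  obtain ⟨N0, hN0⟩ : ∃ N0, N0 = Nat.find hex := ⟨_, rfl⟩
  have hspec := Nat.find_spec hex
  rw [← hN0] at hspec
  obtain ⟨hN0N, hocc⟩ := hspec
  have hN00 : N0 ≠ 0 := fun h ↦ hN (Nat.eq_zero_of_zero_dvd (h ▸ hN0N))
  have hmin : ∀ M, M ∣ N0 → M ≠ N0 → ¬ Occ P.p (fun ℓ ↦ W.apOfModel ℓ) M := by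
    intro M hM hne hocc'
    have hlt : M < N0 := lt_of_le_of_ne (Nat.le_of_dvd hN00.bot_lt hM) hne
    rw [hN0] at hlt
    exact Nat.find_min hex hlt ⟨hM.trans hN0N, hocc'⟩
  have hcond0 : P.IsConductorLevel N0 := hcond.of_dvd hN0N hN00.bot_lt
  have hmod0 : P.ModularRepOfLevel N0 := modularRep_of_occ P hirr hW hN00 hocc
  have hpN0 : ¬ P.p ∣ N0 := by
    intro h
    obtain ⟨M, hM, hpM, hmodM⟩ := h44 P hcond0 h hirr hmod0
    have hM0 : M ≠ 0 := fun h ↦ hN00 (Nat.eq_zero_of_zero_dvd (h ▸ hM))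
    refine hmin M hM (fun h' ↦ hpM (h' ▸ h)) (occ_of_modularRep P hW hM0 hmodM)
  refine ⟨N0, hN0N, fun hqN0 ↦ ?_, hmod0⟩
  exact not_unramified_of_minimal (resData_frey P hirr hW) P.hp5 I (hMP _ P.pp P.hp5)
    hcond0.squarefree hpN0 hocc hmin hq hqN0 ((inertia_iff P q).2 hunr)

end Frey

end Fermat.Agent.LL
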