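import Fermat.Agent.LL.Ext
import Fermat.Agent.LL.NoTBase
import Fermat.Agent.TWNew.Main
import Fermat.Agent.TWLow.Main
import Fermat.Agent.TWMod.SS
import Fermat.Agent.Twist.Spec

set_option autoImplicit false
set_option linter.unusedSectionVars false

/-!
# Level lowering
-/

open IsLocalRing Polynomial Fermat.Agent.TWMod
open CongruenceSubgroup ModularFormClass

namespace Fermat.Agent.LL

local notation "Γℚ" => (AlgebraicClosure ℚ ≃ₐ[ℚ] AlgebraicClosure ℚ)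
local notation "Zbar" => integralClosure ℤ ℂ

/-- a form congruent to `b` is congruent to `t` -/
theorem occ_of_congTo {p : ℕ} (hp : p.Prime) {𝒪 : Type} [CommRing 𝒪] [IsLocalRing 𝒪]
    (hp𝒪 : (p : 𝒪) ∈ maximalIdeal 𝒪) {j : 𝒪 →+* ℂ} {b : ℕ → 𝒪} {t : ℕ → ℤ} {S : Finset ℕ}
    (hbt : ∀ ℓ : ℕ, ℓ.Prime → ℓ ∉ S → b ℓ - ((t ℓ : ℤ) : 𝒪) ∈ maximalIdeal 𝒪) {M : ℕ}
    {g : CuspForm (Gamma0 M) 2} (hg : g.IsNormalizedEigenform)
    (h : CongTo j b S (fun ℓ ↦ qCoeff g ℓ)) : Occ p t M := by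
  obtain ⟨A, _, _, _, _, _, φ, t', hφ, ht'⟩ := h
  let _ : Algebra A ℂ := φ.toAlgebra
  have hint : ∀ z : Zbar, IsIntegral A (z : ℂ) := fun z ↦ z.2.tower_top
  let ψ₀ : Zbar →+* integralClosure A ℂ :=
    { toFun := fun z ↦ ⟨z, hint z⟩
      map_one' := rfl
      map_mul' := fun _ _ ↦ rfl
      map_zero' := rfl
      map_add' := fun _ _ ↦ rfl }
  have hker : RingHom.ker (algebraMap A (integralClosure A ℂ)) ≤ maximalIdeal A := by
    refine le_maximalIdeal ?_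
    exact (RingHom.ker_isPrime (algebraMap A (integralClosure A ℂ))).ne_top
  obtain ⟨Q, hQ, hQ'⟩ := Ideal.exists_ideal_over_maximal_of_isIntegral
    (S := integralClosure A ℂ) (maximalIdeal A) hker
  let _ : Field (integralClosure A ℂ ⧸ Q) := Ideal.Quotient.field Q
  let ψ : Zbar →+* (integralClosure A ℂ ⧸ Q) := (Ideal.Quotient.mk Q).comp ψ₀
  have hpA : (p : A) ∈ maximalIdeal A := by
    have h1 := map_nonunit (algebraMap 𝒪 A) _ hp𝒪
    rwa [map_natCast] at h1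
  have hmem : ∀ x : A, x ∈ maximalIdeal A → algebraMap A (integralClosure A ℂ) x ∈ Q := by
    intro x hx
    rw [← hQ'] at hx
    exact hx
  have hp0 : (p : integralClosure A ℂ ⧸ Q) = 0 := by
    have h1 := Ideal.Quotient.eq_zero_iff_mem.2 (hmem _ hpA)
    rwa [map_natCast, map_natCast] at h1
  refine ⟨g, RingHom.ker ψ, hg, ker_isMaximal hp ψ hp0, ?_, S, fun ℓ hℓ hℓS a ha ↦ ?_⟩
  · rw [RingHom.mem_ker, map_natCast]
    exact hp0
  · obtain ⟨h1, h2⟩ := ht' ℓ hℓ hℓS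
    have h3 : t' ℓ - ((t ℓ : ℤ) : A) ∈ maximalIdeal A := by
      have h4 := map_nonunit (algebraMap 𝒪 A) _ (hbt ℓ hℓ hℓS)
      rw [map_sub, map_intCast] at h4
      have h5 := Ideal.add_mem _ h1 ((mem_maximalIdeal _).2 h4)
      rwa [sub_add_sub_cancel] at h5
    rw [RingHom.mem_ker]
    change Ideal.Quotient.mk Q (ψ₀ _) = 0
    rw [Ideal.Quotient.eq_zero_iff_mem]
    have h4 : ψ₀ (a - ((t ℓ : ℤ) : Zbar)) = algebraMap A (integralClosure A ℂ)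
        (t' ℓ - ((t ℓ : ℤ) : A)) := by
      apply Subtype.ext
      change ((a - ((t ℓ : ℤ) : Zbar) : Zbar) : ℂ) = φ (t' ℓ - ((t ℓ : ℤ) : A))
      rw [map_sub, map_intCast, h2]
      push_cast
      rw [ha]
    rw [h4]
    exact hmem _ h3

section Scalar

variable {l : ℕ} [hl : Fact l.Prime] (ρ : ResidualGaloisRep (ZMod l))
variable (k : Type) [Field k] [Algebra (ZMod l) k]

theorem baseChange_end_eq_one_iff (T : Module.End (ZMod l) ρ.V) :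
    T.baseChange k = 1 ↔ T = 1 := by
  constructor
  · intro h
    apply (LinearMap.toMatrix (rb ρ) (rb ρ)).injective
    have h4 := LinearMap.toMatrix_baseChange (A := k) T (rb ρ) (rb ρ)
    rw [h, LinearMap.toMatrix_one] at h4
    rw [LinearMap.toMatrix_one]
    have h6 : (1 : Matrix (Fin 2) (Fin 2) (ZMod l)).map (algebraMap (ZMod l) k) = 1 :=
      map_one ((algebraMap (ZMod l) k).mapMatrix)
    rw [← h6] at h4
    exact (Matrix.map_injective (algebraMap (ZMod l) k).injective h4).symm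
  · intro h
    rw [h, LinearMap.baseChange_one]

theorem baseChange_eq_neg_one_iff (σ : Γℚ) : (ρ.baseChange k).ρ σ = -1 ↔ ρ.ρ σ = -1 := by
  have h1 : (-(ρ.ρ σ)).baseChange k = -((ρ.baseChange k).ρ σ) :=
    LinearMap.baseChange_neg (ρ.ρ σ)
  rw [← neg_eq_iff_eq_neg, ← neg_eq_iff_eq_neg (a := ρ.ρ σ), ← h1, baseChange_end_eq_one_iff]

end Scalar

/-- Mazur's principle, as needed. -/
def MPFor (p : ℕ) : Prop :=
  ∀ (N q : ℕ) [NeZero N], q.Prime → q ≠ p → q ∣ N → ¬ q ^ 2 ∣ N →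
  ∀ (K : Type) [Field K] [CharP K p] (ψ : integralClosure ℤ ℂ →+* K)
    (f : CuspForm (CongruenceSubgroup.Gamma0 N) 2), f.IsNormalizedEigenform →
  ∀ ρbar : ResidualGaloisRep K, ρbar.IsAbsolutelyIrreducible →
    (∀ ℓ : ℕ, ℓ.Prime → ¬ ℓ ∣ N → ℓ ≠ p → ∀ P : ValuationSubring (AlgebraicClosure ℚ),
      P.LiesOverPrime ℓ → ∀ σ : Γℚ, P.IsFrobeniusAt σ ℓ → ∀ a : integralClosure ℤ ℂ,
      (a : ℂ) = ModularFormClass.qCoeff f ℓ →
      LinearMap.charpoly (ρbar.ρ σ) = X ^ 2 - C (ψ a) * X + C (ℓ : K)) →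
    ρbar.IsUnramifiedAt q →
    (∀ (L : Type) [Field L] [Algebra K L] (ψ' : integralClosure ℤ ℂ →+* L)
      (g : CuspForm (CongruenceSubgroup.Gamma0 (N / q)) 2), g.IsNormalizedEigenform →
      ∃ ℓ : ℕ, ℓ.Prime ∧ ¬ ℓ ∣ N ∧ ℓ ≠ p ∧ ∃ a b : integralClosure ℤ ℂ,
        (a : ℂ) = ModularFormClass.qCoeff f ℓ ∧ (b : ℂ) = ModularFormClass.qCoeff g ℓ ∧
        ψ' b ≠ algebraMap K L (ψ a)) →
  (q : K) = 1 ∧ ∀ P : ValuationSubring (AlgebraicClosure ℚ), P.LiesOverPrime q →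
    ∀ σ : Γℚ, P.IsFrobeniusAt σ q → ρbar.ρ σ = 1 ∨ ρbar.ρ σ = -1

section Main

variable {p : ℕ} [hpp : Fact p.Prime] {ρ0 : ResidualGaloisRep (ZMod p)} {t : ℕ → ℤ}
  {S₁ : Finset ℕ} (H : ResData p ρ0 t S₁)

include H

/-- Mazur's principle at a minimal level -/
theorem mp_of_minimal (hMP : MPFor p) {N0 : ℕ} (hsq : Squarefree N0)
    {f : CuspForm (Gamma0 N0) 2} (hf : f.IsNormalizedEigenform) {𝔪 : Ideal Zbar}
    (h𝔪 : 𝔪.IsMaximal) (hp𝔪 : (p : Zbar) ∈ 𝔪) (hc : CongMod t f 𝔪)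
    (hmin : ∀ M, M ∣ N0 → M ≠ N0 → ¬ Occ p t M) {l : ℕ} (hl : l.Prime) (hlN : l ∣ N0)
    (hlp : l ≠ p) (hunr : ρ0.IsUnramifiedAt l) :
    p ∣ l - 1 ∧ ∀ P : ValuationSubring (AlgebraicClosure ℚ), P.LiesOverPrime l →
      ∀ σ : Γℚ, P.IsFrobeniusAt σ l → ρ0.ρ σ = 1 ∨ ρ0.ρ σ = -1 := by
  classical
  have hp : p.Prime := hpp.out
  have : NeZero N0 := ⟨hsq.ne_zero⟩
  let _ : Field (Zbar ⧸ 𝔪) := Ideal.Quotient.field 𝔪
  have hpK : (p : Zbar ⧸ 𝔪) = 0 := by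
    rw [← map_natCast (Ideal.Quotient.mk 𝔪), Ideal.Quotient.eq_zero_iff_mem]
    exact hp𝔪
  have : CharP (Zbar ⧸ 𝔪) p := (CharP.charP_iff_prime_eq_zero hp).2 hpK
  let _ : Algebra (ZMod p) (Zbar ⧸ 𝔪) := ZMod.algebra _ p
  obtain ⟨h1, h2⟩ := hMP N0 l hl hlp hlN (fun h ↦
      Nat.squarefree_iff_prime_squarefree.1 hsq l hl (by rwa [← pow_two])) (Zbar ⧸ 𝔪)
    (Ideal.Quotient.mk 𝔪) f hf (ρ0.baseChange (Zbar ⧸ 𝔪)) (H.abs _)
    (fun ℓ hℓ hℓN hℓp P hP σ hσ a ha ↦ frob_of_congMod H hf h𝔪 hp𝔪 hc (Ideal.Quotient.mk 𝔪)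
      Ideal.mk_ker hℓ hℓN hℓp hP hσ ha)
    (fun A hA τ hτ ↦ (baseChange_eq_one_iff ρ0 (Zbar ⧸ 𝔪) τ).2 (hunr A hA τ hτ)) (by
    intro L _ _ ψ' g hg
    by_contra hcon
    push Not at hcon
    have hne : N0 / l ≠ N0 := (Nat.div_lt_self hsq.ne_zero.bot_lt hl.one_lt).ne
    refine hmin (N0 / l) (Nat.div_dvd_of_dvd hlN) hne ?_
    have hpL : (p : L) = 0 := by
      rw [← map_natCast (algebraMap (Zbar ⧸ 𝔪) L), hpK, map_zero]
    obtain ⟨S, hS⟩ := hc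
    refine ⟨g, RingHom.ker ψ', hg, ker_isMaximal hp ψ' hpL, ?_,
      S ∪ insert p N0.primeFactors, fun ℓ hℓ hℓS a ha ↦ ?_⟩
    · rw [RingHom.mem_ker, map_natCast]
      exact hpL
    · simp only [Finset.mem_union, Finset.mem_insert, Nat.mem_primeFactors, not_or, not_and]
        at hℓS
      obtain ⟨a', ha'⟩ := exists_int hf hℓ
      have h3 := hcon ℓ hℓ (fun h ↦ hℓS.2.2 hℓ h hsq.ne_zero) hℓS.2.1 a' a ha' ha
      have h4 : Ideal.Quotient.mk 𝔪 a' = ((t ℓ : ℤ) : Zbar ⧸ 𝔪) := by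
        rw [← sub_eq_zero, ← map_intCast (Ideal.Quotient.mk 𝔪), ← map_sub,
          Ideal.Quotient.eq_zero_iff_mem]
        exact hS ℓ hℓ hℓS.1 a' ha'
      rw [RingHom.mem_ker, map_sub, h3, h4, map_intCast, map_intCast, sub_self])
  refine ⟨?_, fun P hP σ hσ ↦ ?_⟩
  · rw [← CharP.cast_eq_zero_iff (Zbar ⧸ 𝔪) p, Nat.cast_sub hl.one_le, h1, Nat.cast_one, sub_self]
  · exact (h2 P hP σ hσ).imp (baseChange_eq_one_iff ρ0 _ σ).1
      (baseChange_eq_neg_one_iff ρ0 _ σ).1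

set_option maxHeartbeats 1000000 in
/-- **Level lowering**: all primes of a minimal level prime to `p` are ramified. -/
theorem not_unramified_of_minimal (h5 : 5 ≤ p) (I : Inputs) (hMP : MPFor p)
    {N0 : ℕ} (hsq : Squarefree N0) (hpN0 : ¬ p ∣ N0) (hocc : Occ p t N0)
    (hmin : ∀ M, M ∣ N0 → M ≠ N0 → ¬ Occ p t M) {q : ℕ} (hq : q.Prime) (hqN : q ∣ N0) :
    ¬ ρ0.IsUnramifiedAt q := by
  classical
  intro hunr
  have hp : p.Prime := hpp.out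
  have : NeZero N0 := ⟨hsq.ne_zero⟩
  obtain ⟨f, 𝔪, hf, h𝔪, hp𝔪, hc⟩ := hocc
  have hMPl := fun (l : ℕ) (hl : l.Prime) (hlN : l ∣ N0) (hlp : l ≠ p) hunr ↦
    mp_of_minimal H hMP hsq hf h𝔪 hp𝔪 hc hmin hl hlN hlp hunr
  obtain ⟨V, hVN⟩ : ∃ V, V = N0 + 1 := ⟨_, rfl⟩
  obtain ⟨𝒪, _, _, _, _, _, _, hp𝒪, j, ι, b, hj, hb, hι, hμ, hsplit⟩ := exists_setup hf h𝔪 hp𝔪 V
  obtain ⟨S, hS⟩ := hc
  have hk : (p : ResidueField 𝒪) = 0 := by
    rw [← map_natCast (residue 𝒪)]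
    exact (residue_eq_zero_iff _).2 hp𝒪
  have : CharP (ResidueField 𝒪) p := (CharP.charP_iff_prime_eq_zero hp).2 hk
  let _ : Algebra (ZMod p) (ResidueField 𝒪) := ZMod.algebra _ p
  have hιinj : Function.Injective ι := by
    have : Nontrivial (Zbar ⧸ 𝔪) := Ideal.Quotient.nontrivial_iff.2 h𝔪.ne_top
    exact ι.injective
  have hbt : ∀ ℓ : ℕ, ℓ.Prime → ℓ ∉ S → residue 𝒪 (b ℓ) = ((t ℓ : ℤ) : ResidueField 𝒪) := by
    intro ℓ hℓ h
    obtain ⟨a, ha⟩ := exists_int hf hℓ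
    apply hιinj
    rw [hι (b ℓ) a ((hb ℓ hℓ).trans ha.symm), map_intCast, ← sub_eq_zero,
      ← map_intCast (Ideal.Quotient.mk 𝔪), ← map_sub, Ideal.Quotient.eq_zero_iff_mem]
    exact hS ℓ hℓ h a ha
  -- the sets of primes
  obtain ⟨S0, hS0⟩ : ∃ S0, S0 = S₁ ∪ N0.primeFactors ∪ S := ⟨_, rfl⟩
  obtain ⟨Smin, hSmin⟩ : ∃ Smin, Smin = insert p (S₁.filter
    fun q ↦ q.Prime ∧ ¬ ρ0.IsUnramifiedAt q) := ⟨_, rfl⟩
  obtain ⟨T, hT⟩ : ∃ T, T = N0.primeFactors.filter fun l ↦ ρ0.IsUnramifiedAt l := ⟨_, rfl⟩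
  have memT : ∀ {l : ℕ}, l ∈ T ↔ (l.Prime ∧ l ∣ N0) ∧ ρ0.IsUnramifiedAt l := by
    intro l
    rw [hT, Finset.mem_filter, Nat.mem_primeFactors]
    exact ⟨fun h ↦ ⟨⟨h.1.1, h.1.2.1⟩, h.2⟩, fun h ↦ ⟨⟨h.1.1, h.1.2, hsq.ne_zero⟩, h.2⟩⟩
  have memSmin : ∀ {q : ℕ}, q.Prime → q ≠ p → (q ∈ Smin ↔ ¬ ρ0.IsUnramifiedAt q) := by
    intro q hq hqp
    rw [hSmin, Finset.mem_insert, Finset.mem_filter]
    constructor
    · rintro (h | h)
      · exact absurd h hqp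
      · exact h.2.2
    · intro h
      right
      refine ⟨?_, hq, h⟩
      by_contra h1
      exact h (H.unr q hq h1)
  have hTp : ∀ {l : ℕ}, l ∈ T → l ≠ p := fun hl h ↦ hpN0 (h ▸ (memT.1 hl).1.2)
  have hS₁0 : S₁ ⊆ S0 := fun x hx ↦ by
    rw [hS0]
    exact Finset.mem_union_left _ (Finset.mem_union_left _ hx)
  have hpS0 : p ∈ S0 := hS₁0 H.pS
  have hSS0 : S ⊆ S0 := fun x hx ↦ by
    rw [hS0]
    exact Finset.mem_union_right _ hx
  have hTne : q ∈ T := memT.2 ⟨⟨hq, hqN⟩, hunr⟩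
  -- roots of unity
  obtain ⟨ζ, hζ1, hζ2⟩ : ∃ ζ : 𝒪, ζ ^ p = 1 ∧ ζ ≠ 1 := by
    have h1 := Complex.isPrimitiveRoot_exp p hp.ne_zero
    obtain ⟨ζ, hζ⟩ := hμ _ (by
      have h2 : p ^ V = p * p ^ N0 := by rw [hVN, pow_succ, mul_comm]
      rw [h2, pow_mul, h1.pow_eq_one, one_pow])
    refine ⟨ζ, hj ?_, fun h ↦ ?_⟩
    · rw [map_pow, hζ, h1.pow_eq_one, map_one]
    · rw [h, map_one] at hζ
      exact h1.ne_one hp.one_lt hζ.symm
  have hfrob : FrobCharRes (ρ0.baseChange (ResidueField 𝒪)) S0 (fun ℓ ↦ residue 𝒪 (b ℓ)) := by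
    intro ℓ hℓ hℓS P hP σ hσ
    rw [charpoly_baseChange, H.frob ℓ hℓ (fun h ↦ hℓS (hS₁0 h)) P hP σ hσ]
    change Polynomial.map _ (X ^ 2 - C ((t ℓ : ℤ) : ZMod p) * X + C (ℓ : ZMod p)) =
      X ^ 2 - C (residue 𝒪 (b ℓ)) * X + C (ℓ : ResidueField 𝒪)
    rw [hbt ℓ hℓ (fun h ↦ hℓS (hSS0 h))]
    simp
  have B : Base p j (ρ0.baseChange (ResidueField 𝒪)) S0 b N0 Smin T ζ := {
    prime := hp
    five := h5
    mem := hp𝒪
    inj := hj
    abs := H.abs _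
    odd := H.odd _
    frob := hfrob
    pS := hpS0
    noneis := by
      intro S' m hm
      obtain ⟨ℓ, h1, h2, h3, h4⟩ := H.noneis (S' ∪ S) m hm
      rw [Finset.mem_union, not_or] at h2
      refine ⟨ℓ, h1, h2.1, h3, fun h5 ↦ h4 ?_⟩
      rw [hbt ℓ h1 h2.2] at h5
      rw [← CharP.intCast_eq_zero_iff (ResidueField 𝒪) p]
      push_cast
      rw [h5]
      ring
    sqf := hsq
    pN0 := hpN0
    memS := fun q hq hqN ↦ by
      rw [hS0]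
      exact Finset.mem_union_left _ (Finset.mem_union_right _
        (Nat.mem_primeFactors.2 ⟨hq, hqN, hsq.ne_zero⟩))
    form := ⟨f, hf, fun ℓ hℓ _ ↦ (hb ℓ hℓ).symm⟩
    Tdvd := fun l hl ↦ (memT.1 hl).1.2
    Tpr := fun l hl ↦ (memT.1 hl).1.1
    Tone := fun l hl ↦ (hMPl l (memT.1 hl).1.1 (memT.1 hl).1.2 (hTp hl) (memT.1 hl).2).1
    ζpow := hζ1
    ζne := hζ2
    min := by
      intro S' hS' M _ g hg hMN hcong l hl
      have hocc : Occ p t M := occ_of_congTo hp hp𝒪 (fun ℓ hℓ hℓS ↦ by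
        rw [← residue_eq_zero_iff, map_sub, map_intCast, sub_eq_zero]
        exact hbt ℓ hℓ (fun h ↦ hℓS (hS' (hSS0 h)))) hg.isNormalizedEigenform hcong
      by_cases h : M = N0
      · rw [h]
        exact (memT.1 hl).1.2
      · exact absurd hocc (hmin M hMN h)
    Sp := by
      rw [hSmin]
      exact Finset.mem_insert_self _ _
    SS0 := by
      rw [hSmin]
      intro x hx
      rcases Finset.mem_insert.1 hx with rfl | h
      · exact hpS0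
      · exact hS₁0 (Finset.mem_filter.1 h).1
    ST := fun l hl hlT ↦ (memSmin (memT.1 hlT).1.1 (hTp hlT)).1 hl (memT.1 hlT).2
    SN := fun q hq hqN ↦ by
      by_cases h : ρ0.IsUnramifiedAt q
      · exact Or.inr (memT.2 ⟨⟨hq, hqN⟩, h⟩)
      · exact Or.inl ((memSmin hq (fun h ↦ hpN0 (h ▸ hqN))).2 h) }
  have hTemp : T = ∅ := by
    refine B.toBaseP.T_eq_empty_flat I (specSS Twist.specTwist) TWNew.specNew
      TWLow.specLowerStrong (H.det _) ?_ (H.ind _) ?_ ?_ ?_ (V := V) ?_ hμ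
    · intro σ
      obtain ⟨α, β, h⟩ := hsplit
        ((LinearMap.trace (ZMod p) ρ0.V (ρ0.ρ σ)).val : ℤ)
        ((LinearMap.det (ρ0.ρ σ)).val : ℤ)
      refine ⟨α, β, ?_⟩
      rw [charpoly_baseChange, Cheb.charpoly_eq ρ0.finrank_eq, ← h]
      have hval : ∀ a : ZMod p, algebraMap (ZMod p) (ResidueField 𝒪) a =
          ((a.val : ℤ) : ResidueField 𝒪) := by
        intro a
        conv_lhs => rw [← ZMod.natCast_zmod_val a]
        rw [map_natCast, Int.cast_natCast]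
      simp only [Polynomial.map_add, Polynomial.map_sub, Polynomial.map_mul, Polynomial.map_pow,
        Polynomial.map_X, Polynomial.map_C, hval]
    · intro q hq
      rw [hSmin] at hq
      rcases Finset.mem_insert.1 hq with rfl | h
      · exact hp
      · exact (Finset.mem_filter.1 h).2.1
    · intro q hq hqp
      rw [memSmin hq hqp, not_iff_not]
      constructor
      · exact fun h A hA τ hτ ↦ (baseChange_eq_one_iff ρ0 _ τ).2 (h A hA τ hτ)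
      · exact fun h A hA τ hτ ↦ (baseChange_eq_one_iff ρ0 _ τ).1 (h A hA τ hτ)
    · intro l hl P hP σ hσ
      obtain ⟨h1, h2⟩ := hMPl l (memT.1 hl).1.1 (memT.1 hl).1.2 (hTp hl) (memT.1 hl).2
      rcases h2 P hP σ hσ with h3 | h3
      · exact ⟨1, by rw [one_smul]; exact (baseChange_eq_one_iff ρ0 _ σ).2 h3⟩
      · exact ⟨-1, by rw [neg_smul, one_smul]; exact (baseChange_eq_neg_one_iff ρ0 _ σ).2 h3⟩
    · intro l hl v hv
      have h1 : p ^ v ≤ l - 1 := Nat.le_of_dvd (Nat.sub_pos_of_lt (B.Tpr l hl).one_lt) hv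
      have h2 : l ≤ N0 := Nat.le_of_dvd hsq.ne_zero.bot_lt (B.Tdvd l hl)
      have h3 : v < p ^ v := Nat.lt_pow_self hp.one_lt
      omega
  rw [hTemp] at hTne
  exact Finset.notMem_empty _ hTne

end Main

end Fermat.Agent.LL
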