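import Fermat.Agent.LL.S59Setup
import Fermat.Agent.LL.ChainBuild
import Fermat.Agent.LL.RaiseFS
import Fermat.Agent.LL.PCondStrict
import Fermat.Agent.ECRep.CurvePoint

set_option autoImplicit false

/-!
# The flat case and the strict case of (59C)
-/

open CongruenceSubgroup IsLocalRing Polynomial ModularFormClass

namespace Fermat.Agent.LL

open Fermat.Agent.TWMod

local notation "Γℚ" => (AlgebraicClosure ℚ ≃ₐ[ℚ] AlgebraicClosure ℚ)
local notation "Qb" => AlgebraicClosure ℚ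

section

variable {p : ℕ} [hpF : Fact p.Prime] {W : WeierstrassCurve ℤ} {N0 : ℕ}
  {𝒪 : Type} [CommRing 𝒪] [IsDomain 𝒪] [IsDiscreteValuationRing 𝒪]
  [IsAdicComplete (maximalIdeal 𝒪) 𝒪] [Finite (ResidueField 𝒪)] [CharZero 𝒪]
  [Algebra (ZMod p) (ResidueField 𝒪)] {j : 𝒪 →+* ℂ} {S0 Smin : Finset ℕ} {m : ℕ}
  {ql : Fin m → ℕ} {F : MvPolynomial ℕ 𝒪}

/-- A contradiction from the setup, if the condition at `p` is the same at all stages. -/
theorem Setup59.false_const (H : Hyp59 p W) (St : Setup59 p W H.Δ_ne N0 j S0 Smin ql F)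
    (I : Inputs) (hSS : SpecSS) (hNew : SpecNew) (hLow : TWLow.SpecLowerStrong)
    {P : TW.LCond} (hP : GlueStable p P)
    (hGenW : ∀ (Tsc Tns : Finset ℕ)
      (_ : TW.GenWHyp p (rhoBar59 p W H.Δ_ne 𝒪) Smin Tsc Tns)
      (L : ∀ l : ℕ, l ∈ Tsc ∪ Tns → LocGen l p),
      TW.GenWConcl p (rhoBar59 p W H.Δ_ne 𝒪) Smin Tsc Tns L 0 0 P (fun _ => True))
    (hqlp : ∀ k, ql k ≠ p)
    (hpc : ∀ i ≤ m, PCond p j (rhoBar59 p W H.Δ_ne 𝒪) P
      (fun M ↦ (p ∣ N0 → p ∣ M) ∧ (p ∣ M → p ∣ lvN N0 ql i)))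
    (hW : ∀ ρW : GaloisRepAdic 𝒪, ECRep.CurvePt p W H.Δ_ne ρW → P ρW) : False := by
  classical
  have hp2 : p ≠ 2 := by rcases H.h35 with rfl | rfl <;> norm_num
  obtain ⟨habs, hodd, hcyc, hspl, hind, -⟩ :=
    Wire.curveRes59 (k := ResidueField 𝒪) H.h35 H.Δ_ne H.ss H.two H.three H.irr St.split
  obtain ⟨ρW, hρW⟩ := ECRep.exists_curvePt p W H.Δ_ne 𝒪 St.mem
  have B := St.base (fun _ ↦ P) hpc
  choose D hD using fun r => exists_autChain B I hSS hNew hLow r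
  have hqlW : ∀ k, (ql k : ℤ) ∣ W.Δ := fun k ↦ by
    rw [← Wire.dvd_cond H.Δ_ne (St.ql_prime k), ← St.lev]
    exact (Finset.dvd_prod_of_mem ql (Finset.mem_univ k)).mul_left _
  refine raise_const hp2 St.mem St.inj habs hcyc hspl hind St.Smin_p St.Smin_iff St.ql_inj
    (fun k ↦ ⟨St.ql_prime k, St.ql_notMem k (hqlp k)⟩) hP hGenW
    (hρW.frobChar St.S0_p St.S0_bad) hρW.res' ?_ ?_ St.F_W (S0 ∪ F.vars) D ?_
  · refine hρW.condType H.ss (hW ρW hρW) ?_ (Finset.mem_union_left _ St.Smin_p)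
    intro q hq hqW
    by_cases hqp : q = p
    · exact Finset.mem_union_left _ (hqp ▸ St.Smin_p)
    · have h1 : q ∣ N0 * ∏ k, ql k := by
        rw [St.lev]
        exact (Wire.dvd_cond H.Δ_ne hq).2 hqW
      rcases hq.dvd_mul.1 h1 with h | h
      · exact Finset.mem_union_left _ ((St.dvd_iff q hq hqp).1 h)
      · obtain ⟨k, -, hk⟩ := (hq.prime.dvd_finsetProd_iff _).1 h
        rw [Nat.prime_dvd_prime_iff_eq hq (St.ql_prime k)] at hk
        exact Finset.mem_union_right _ (Finset.mem_image.2 ⟨k, Finset.mem_univ k, hk.symm⟩)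
  · intro k
    exact ⟨hρW.unip _ (St.ql_prime k) (hqlp k) (hqlW k) (H.ss _ (St.ql_prime k) (hqlW k)),
      hρW.frobSt _ (St.ql_prime k) (hqlp k) (hqlW k) (H.ss _ (St.ql_prime k) (hqlW k))⟩
  · intro r qv h1 h2 h3
    have hTW : TWP p (rhoBar59 p W H.Δ_ne 𝒪) S0 qv :=
      { inj := h1
        prime := fun k ↦ (h2 k).1
        notin := fun k h ↦ (h2 k).2.1 (Finset.mem_union_left _ h)
        one := fun k ↦ (h2 k).2.2
        dist := h3 }
    obtain ⟨C, hC, -⟩ := hD r qv hTW (fun ℓ hℓ k hk ↦ (h2 k).2.1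
      (Finset.mem_union_right _ (hk ▸ hℓ)))
    refine ⟨C, ?_⟩
    intro q hq
    have h4 : C.S m = S0 ∪ Finset.univ.image qv := (hC m).trans (sS_top le_rfl)
    have h5 : q ∈ insert p (C.S m) :=
      Finset.mem_insert_of_mem (h4 ▸ Finset.mem_union_left _ hq)
    exact h5

end

theorem caseFlat (I : Inputs) (hSS : SpecSS) (hNew : SpecNew) (hLow : TWLow.SpecLowerStrong) :
    CaseFlat := by
  intro p _ W H N0 𝒪 _ _ _ _ _ _ _ j S0 Smin m ql F St hp
  have hp2 : p ≠ 2 := by rcases H.h35 with rfl | rfl <;> norm_num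
  have hpN : ¬ p ∣ N0 * ∏ k, ql k := by
    rw [St.lev, Wire.dvd_cond H.Δ_ne Fact.out]
    exact hp
  refine St.false_const H I hSS hNew hLow (glueStable_flat p)
    (fun Tsc Tns h L ↦ TW.genW_flat h L) ?_ ?_ (fun ρW hρW ↦ hρW.flat hp2 hp)
  · intro k hk
    exact hpN ((hk ▸ Finset.dvd_prod_of_mem ql (Finset.mem_univ k)).mul_left _)
  · intro i _
    refine pcond_flat fun M hM hpM ↦ hpN ((hM.2 hpM).trans ?_)
    exact Nat.mul_dvd_mul_left _ (Finset.prod_dvd_prod_of_subset _ _ _ (Finset.subset_univ _))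

theorem caseStrict (I : Inputs) (hSS : SpecSS) (hNew : SpecNew) (hLow : TWLow.SpecLowerStrong)
    (hO : NFOrdStmt) : CaseStrict := by
  intro p _ W H N0 𝒪 _ _ _ _ _ _ _ j S0 Smin m ql F St hp
  have hpp : p.Prime := Fact.out
  have hp2 : p ≠ 2 := by rcases H.h35 with rfl | rfl <;> norm_num
  obtain ⟨habs, -⟩ :=
    Wire.curveRes59 (k := ResidueField 𝒪) H.h35 H.Δ_ne H.ss H.two H.three H.irr St.split
  have hsq : Squarefree (N0 * ∏ k, ql k) := by
    rw [St.lev]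
    exact Wire.squarefree_cond W
  have hpW : (p : ℤ) ∣ W.Δ := by
    rw [← Wire.dvd_cond H.Δ_ne hpp, ← St.lev]
    exact hp.mul_right _
  refine St.false_const H I hSS hNew hLow (glueStable_strict hp2)
    (fun Tsc Tns h L ↦ TW.genW_ord h L) ?_ ?_
    (fun ρW hρW ↦ hρW.strict hpW (H.ss p hpp hpW))
  · intro k hk
    have h1 : p ∣ ∏ k, ql k := hk ▸ Finset.dvd_prod_of_mem ql (Finset.mem_univ k)
    exact Nat.squarefree_iff_prime_squarefree.1 hsq p hpp (Nat.mul_dvd_mul hp h1)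
  · intro i _
    exact pcond_strict hO hpp hp2 St.mem habs fun M hM ↦ hM.1 hp

end Fermat.Agent.LL
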