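import Fermat.Agent.LL.PtExists
import Fermat.Agent.LL.OJ
import Fermat.Agent.Newform.Exist
import Fermat.Agent.Eigenform.Converse

set_option autoImplicit false

/-!
# Occurrence of an integral eigensystem modulo a prime; compatible discrete valuation rings
-/

open CongruenceSubgroup IsLocalRing Polynomial ModularFormClass

namespace Fermat.Agent.LL

local notation "Γℚ" => (AlgebraicClosure ℚ ≃ₐ[ℚ] AlgebraicClosure ℚ)

/-- The integral system `c` occurs modulo a maximal ideal above `p` at a newform of level `M`. -/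
def OccZ (p : ℕ) (c : ℕ → ℤ) (M : ℕ) : Prop :=
  ∃ (_ : NeZero M) (𝔪 : Ideal (integralClosure ℤ ℂ)) (_ : 𝔪.IsMaximal)
    (_ : (p : integralClosure ℤ ℂ) ∈ 𝔪) (g : CuspForm (Gamma0 M) 2) (S : Finset ℕ),
    g.IsNewform ∧ ∀ ℓ : ℕ, ℓ.Prime → ℓ ∉ S → ∀ z : integralClosure ℤ ℂ,
      (z : ℂ) = qCoeff g ℓ → z - (c ℓ : integralClosure ℤ ℂ) ∈ 𝔪

theorem isMaximal_ker {p : ℕ} (hp : p.Prime) {L : Type} [Field L]
    (ψ : integralClosure ℤ ℂ →+* L) (hpL : (p : L) = 0) : (RingHom.ker ψ).IsMaximal := by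
  have h1 : (RingHom.ker ψ).IsPrime := RingHom.ker_isPrime ψ
  refine Ideal.isMaximal_of_isIntegral_of_isMaximal_comap (R := ℤ) _ ?_
  have h2 : (Ideal.comap (algebraMap ℤ (integralClosure ℤ ℂ)) (RingHom.ker ψ)).IsPrime :=
    Ideal.comap_isPrime _ _
  have h3 : (p : ℤ) ∈ Ideal.comap (algebraMap ℤ (integralClosure ℤ ℂ)) (RingHom.ker ψ) := by
    rw [Ideal.mem_comap, RingHom.mem_ker, map_natCast, map_natCast, hpL]
  refine h2.isMaximal ?_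
  intro h
  rw [h, Ideal.mem_bot] at h3
  exact hp.ne_zero (by exact_mod_cast h3)

theorem OccZ.of_eigen {p : ℕ} (hp : p.Prime) {c : ℕ → ℤ} {L : Type} [Field L]
    (ψ : integralClosure ℤ ℂ →+* L) (hpL : (p : L) = 0) {M' : ℕ} [NeZero M']
    {f : CuspForm (Gamma0 M') 2} (hf : f.IsNormalizedEigenform) (S : Finset ℕ)
    (h : ∀ ℓ : ℕ, ℓ.Prime → ℓ ∉ S → ∀ z : integralClosure ℤ ℂ,
      (z : ℂ) = qCoeff f ℓ → ψ z = c ℓ) :
    ∃ M, M ∣ M' ∧ OccZ p c M := by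
  classical
  obtain ⟨M, hM, g, hg, hgf⟩ := Newform.exists_newform hf
  have hM0 : M ≠ 0 := fun h => NeZero.ne M' (Nat.eq_zero_of_zero_dvd (h ▸ hM))
  refine ⟨M, hM, ⟨hM0⟩, RingHom.ker ψ, isMaximal_ker hp ψ hpL, ?_, g, S ∪ M'.primeFactors, hg, ?_⟩
  · rw [RingHom.mem_ker, map_natCast, hpL]
  · intro ℓ hℓ hℓS z hz
    rw [Finset.mem_union, not_or] at hℓS
    have h1 : ¬ ℓ ∣ M' := fun hd => hℓS.2 (Nat.mem_primeFactors.2 ⟨hℓ, hd, NeZero.ne M'⟩)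
    rw [RingHom.mem_ker, map_sub, map_intCast, h ℓ hℓ hℓS.1 z (hz.trans (hgf ℓ hℓ h1)), sub_self]

theorem OccZ.ne_zero {p : ℕ} {c : ℕ → ℤ} {M : ℕ} (h : OccZ p c M) : M ≠ 0 := h.1.1

/-- A discrete valuation ring compatible with a maximal ideal and containing all eigenvalues of a
given eigenform and a finite set of algebraic integers. -/
theorem exists_dvr_eigen {p : ℕ} (hp : p.Prime) (𝔪 : Ideal (integralClosure ℤ ℂ)) (h𝔪 : 𝔪.IsMaximal)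
    (hpm : (p : integralClosure ℤ ℂ) ∈ 𝔪) {M : ℕ} [NeZero M] {f : CuspForm (Gamma0 M) 2}
    (hf : f.IsNormalizedEigenform) (F : Finset (integralClosure ℤ ℂ)) :
    ∃ (𝒪 : Type) (_ : CommRing 𝒪) (_ : IsDomain 𝒪) (_ : IsDiscreteValuationRing 𝒪)
    (_ : IsAdicComplete (maximalIdeal 𝒪) 𝒪) (_ : Finite (ResidueField 𝒪)) (_ : CharZero 𝒪)
    (_ : (p : 𝒪) ∈ maximalIdeal 𝒪) (j : 𝒪 →+* ℂ)
    (ι : ResidueField 𝒪 →+* (integralClosure ℤ ℂ ⧸ 𝔪)) (b : ℕ → 𝒪),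
    Function.Injective j ∧
    (∀ z ∈ F, ∃ a : 𝒪, j a = z) ∧
    (∀ (a : 𝒪) (z : integralClosure ℤ ℂ), j a = z → ι (residue 𝒪 a) = Ideal.Quotient.mk 𝔪 z) ∧
    (∀ ℓ : ℕ, ℓ.Prime → j (b ℓ) = qCoeff f ℓ) := by
  classical
  obtain ⟨χ, hχ⟩ := Eigenform.exists_eigenChar hf ∅
  have hf0 := Eigenform.ne_zero_of_isNormalizedEigenform hf
  have huniq : ∀ {x y : ℂ}, x • f = y • f → x = y := fun h => smul_left_injective ℂ hf0 h
  have hfin : Module.Finite ℤ (CuspForm.heckeAlgebra M 2 (∅ : Set ℕ)) :=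
    Eichler.moduleFinite_heckeAlgebra 2 ∅
  obtain ⟨G, hG⟩ := hfin.fg_top
  obtain ⟨𝒪, i1, i2, i3, i4, i5, i6, i7, j, ι, hj, hF, hc⟩ := oj p hp 𝔪 h𝔪 hpm (F ∪ G.image χ)
  have key : ∀ t : CuspForm.heckeAlgebra M 2 (∅ : Set ℕ), ∃ a : 𝒪, j a = χ t := by
    intro t
    have ht : t ∈ Submodule.span ℤ (G : Set (CuspForm.heckeAlgebra M 2 (∅ : Set ℕ))) := by
      rw [hG]; trivial
    induction ht using Submodule.span_induction with
    | mem x hx => exact hF _ (Finset.mem_union_right _ (Finset.mem_image_of_mem _ hx))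
    | zero => exact ⟨0, by rw [map_zero, map_zero]; rfl⟩
    | add x y _ _ hx hy =>
      obtain ⟨a, ha⟩ := hx
      obtain ⟨a', ha'⟩ := hy
      exact ⟨a + a', by rw [map_add, map_add, ha, ha']; rfl⟩
    | smul n x _ hx =>
      obtain ⟨a, ha⟩ := hx
      refine ⟨n • a, ?_⟩
      rw [map_zsmul, map_zsmul, ha]
      rfl
  have hco : ∀ ℓ : ℕ, ℓ.Prime → ∃ a : 𝒪, j a = qCoeff f ℓ := by
    intro ℓ hℓ
    by_cases hℓN : ℓ ∣ M
    · have h1 := hχ (CuspForm.heckeAlgebra.U hℓ hℓN (Set.notMem_empty ℓ))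
      rw [CuspForm.heckeAlgebra.coe_U, Eigenform.heckeULin_eigen hf hℓ hℓN] at h1
      rw [huniq h1]
      exact key _
    · have h1 := hχ (CuspForm.heckeAlgebra.T hℓ hℓN (Set.notMem_empty ℓ))
      rw [CuspForm.heckeAlgebra.coe_T, Eigenform.heckeTLin_eigen hf hℓ hℓN] at h1
      rw [huniq h1]
      exact key _
  choose b hb using hco
  refine ⟨𝒪, i1, i2, i3, i4, i5, i6, i7, j, ι, fun ℓ ↦ if h : ℓ.Prime then b ℓ h else 0, hj,
    fun z hz ↦ hF z (Finset.mem_union_left _ hz), hc, fun ℓ hℓ ↦ ?_⟩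
  beta_reduce
  rw [dif_pos hℓ, hb ℓ hℓ]

/-- **Extension of the congruence to all primes not dividing `Mp`**. -/
theorem frobCharRes_ext {p : ℕ} (hp : p.Prime) (hNF0 : NF0Stmt)
    {𝒪 : Type} [CommRing 𝒪] [IsDomain 𝒪] [IsDiscreteValuationRing 𝒪]
    [IsAdicComplete (maximalIdeal 𝒪) 𝒪] [Finite (ResidueField 𝒪)] [CharZero 𝒪]
    (hp𝒪 : (p : 𝒪) ∈ maximalIdeal 𝒪) {j : 𝒪 →+* ℂ} (hj : Function.Injective j)
    {ρbar : ResidualGaloisRep (ResidueField 𝒪)} (habs : ρbar.IsAbsolutelyIrreducible)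
    {M : ℕ} [NeZero M] {f : CuspForm (Gamma0 M) 2} (hf : f.IsNewform) {b : ℕ → 𝒪}
    (hb : ∀ ℓ : ℕ, ℓ.Prime → j (b ℓ) = qCoeff f ℓ) {S : Finset ℕ}
    (h : FrobCharRes ρbar S (fun ℓ ↦ residue 𝒪 (b ℓ))) :
    FrobCharRes ρbar (insert p M.primeFactors) (fun ℓ ↦ residue 𝒪 (b ℓ)) := by
  classical
  let D : Subring ℂ := j.range
  let e : 𝒪 ≃+* D := RingEquiv.ofBijective j.rangeRestrict
    ⟨fun x y hxy ↦ hj (congrArg Subtype.val hxy), j.rangeRestrict_surjective⟩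
  have hD : ∀ ℓ : ℕ, ℓ.Prime → ℓ ∉ insert p M.primeFactors → qCoeff f ℓ ∈ D := fun ℓ hℓ _ ↦
    ⟨b ℓ, hb ℓ hℓ⟩
  obtain ⟨R', _, _, _, _, _, _, φ, hφ, hφl, ρ, hρ⟩ := hNF0 hf p hp (insert p M.primeFactors)
    (Finset.mem_insert_self _ _)
    (fun q hq hqM ↦ Finset.mem_insert_of_mem (Nat.mem_primeFactors.2 ⟨hq, hqM, NeZero.ne M⟩))
    𝒪 hp𝒪 D e.symm.toRingHom hD
  have hval : ∀ (ℓ : ℕ) (hℓ : ℓ.Prime) (hS : ℓ ∉ insert p M.primeFactors),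
      e.symm.toRingHom ⟨_, hD ℓ hℓ hS⟩ = b ℓ := by
    intro ℓ hℓ hS
    change e.symm _ = _
    rw [RingEquiv.symm_apply_eq]
    exact Subtype.ext (hb ℓ hℓ).symm
  have hρ' : ∀ ℓ : ℕ, ℓ.Prime → ℓ ∉ insert p M.primeFactors →
      ∀ P : ValuationSubring (AlgebraicClosure ℚ), P.LiesOverPrime ℓ →
      ∀ σ : Γℚ, P.IsFrobeniusAt σ ℓ →
        LinearMap.charpoly (ρ.residual.ρ σ) =
          (X ^ 2 - C (residue 𝒪 (b ℓ)) * X + C (ℓ : ResidueField 𝒪)).map (ResidueField.map φ) := by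
    intro ℓ hℓ hS P hP σ hσ
    rw [charpoly_residual, hρ ℓ hℓ hS P hP σ hσ, hval ℓ hℓ hS]
    simp [ResidueField.map_residue]
  have heq : ρ.residual.IsEquiv (ρbar.baseChangeAlong (ResidueField.map φ)) := by
    refine residual_isEquiv_of_frob _ ρbar habs ρ.residual (S ∪ insert p M.primeFactors)
      fun ℓ hℓ hS P hP σ hσ ↦ ?_
    rw [Finset.mem_union, not_or] at hS
    rw [charpoly_baseChangeAlong, h ℓ hℓ hS.1 P hP σ hσ, hρ' ℓ hℓ hS.2 P hP σ hσ]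
  obtain ⟨eq⟩ := heq
  intro ℓ hℓ hS P hP σ hσ
  have h2 : LinearMap.charpoly (ρ.residual.ρ σ) =
      LinearMap.charpoly ((ρbar.baseChangeAlong (ResidueField.map φ)).ρ σ) := by
    rw [← LinearEquiv.charpoly_conj eq.toLinearEquiv]
    congr 1
    ext x
    simp [LinearEquiv.conj_apply, eq.map_apply]
  rw [charpoly_baseChangeAlong, hρ' ℓ hℓ hS P hP σ hσ] at h2
  exact (Polynomial.map_injective _ (ResidueField.map φ).injective h2).symm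

end Fermat.Agent.LL
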