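import Fermat.Agent.LL.CBase
import Fermat.Agent.LL.S59Occ
import Fermat.Agent.Wire.CurveRes
import Fermat.Agent.Wire.NonEisW

set_option autoImplicit false
set_option linter.unusedSectionVars false

/-!
# Glue lemmas for (59C)
-/

open IsLocalRing Polynomial ModularFormClass CongruenceSubgroup

namespace Fermat.Agent.LL

local notation "Γℚ" => (AlgebraicClosure ℚ ≃ₐ[ℚ] AlgebraicClosure ℚ)

/-- a maximal ideal of the ring of algebraic integers from a local ring with a map to `ℂ` -/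
theorem exists_maximal_of_local {A : Type} [CommRing A] [IsLocalRing A] (φ : A →+* ℂ) {p : ℕ}
    (hp : p.Prime) (hpA : (p : A) ∈ maximalIdeal A) :
    ∃ 𝔪 : Ideal (integralClosure ℤ ℂ), 𝔪.IsMaximal ∧ (p : integralClosure ℤ ℂ) ∈ 𝔪 ∧
      ∀ (x : A) (z : integralClosure ℤ ℂ), x ∈ maximalIdeal A → φ x = z → z ∈ 𝔪 := by
  let _ : Algebra A ℂ := φ.toAlgebra
  let D := integralClosure A ℂ
  have hker : RingHom.ker (algebraMap A D) ≤ maximalIdeal A :=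
    le_maximalIdeal (RingHom.ker_ne_top _)
  obtain ⟨Q, hQ, hQA⟩ := Ideal.exists_ideal_over_maximal_of_isIntegral (S := D)
    (maximalIdeal A) hker
  have hint : ∀ x : integralClosure ℤ ℂ, (x : ℂ) ∈ D := fun x ↦ IsIntegral.tower_top x.2
  let g : integralClosure ℤ ℂ →+* D :=
    (algebraMap (integralClosure ℤ ℂ) ℂ).codRestrict D.toSubring hint
  have hg : ∀ x, ((g x : D) : ℂ) = x := fun _ ↦ rfl
  have key : ∀ (x : A) (z : integralClosure ℤ ℂ), x ∈ maximalIdeal A → φ x = z → g z ∈ Q := by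
    intro x z hx hz
    have h1 : g z = algebraMap A D x := Subtype.ext (by rw [hg, ← hz]; rfl)
    rw [h1]
    have h2 : x ∈ Q.comap (algebraMap A D) := by rw [hQA]; exact hx
    exact h2
  refine ⟨Q.comap g, ?_, ?_, fun x z hx hz ↦ key x z hx hz⟩
  · have hprime : (Q.comap g).IsPrime := Ideal.comap_isPrime g Q
    have hpm : (p : integralClosure ℤ ℂ) ∈ Q.comap g :=
      key (p : A) (p : integralClosure ℤ ℂ) hpA (by rw [map_natCast]; rfl)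
    have h1 : (Ideal.span {(p : ℤ)}).IsMaximal :=
      PrincipalIdealRing.isMaximal_of_irreducible (Nat.prime_iff_prime_int.1 hp).irreducible
    have hcomap : (Q.comap g).comap (algebraMap ℤ (integralClosure ℤ ℂ)) =
        Ideal.span {(p : ℤ)} := by
      refine (h1.eq_of_le (Ideal.comap_ne_top _ hprime.ne_top) ?_).symm
      rw [Ideal.span_singleton_le_iff_mem, Ideal.mem_comap]
      have h2 : algebraMap ℤ (integralClosure ℤ ℂ) p = (p : integralClosure ℤ ℂ) := by simp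
      rw [h2]
      exact hpm
    have hmax : ((Q.comap g).comap (algebraMap ℤ (integralClosure ℤ ℂ))).IsMaximal := by
      rw [hcomap]
      exact h1
    exact Ideal.isMaximal_of_isIntegral_of_isMaximal_comap _ hmax
  · exact key (p : A) (p : integralClosure ℤ ℂ) hpA (by rw [map_natCast]; rfl)

section Congr

variable {𝒪 : Type} [CommRing 𝒪] [IsDomain 𝒪] [IsDiscreteValuationRing 𝒪] {j : 𝒪 →+* ℂ}
  {p : ℕ}

/-- **(U1)** a newform congruent to the integral system `c` -/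
theorem occZ_of_congTo (hp : p.Prime) (hp𝒪 : (p : 𝒪) ∈ maximalIdeal 𝒪) {b : ℕ → 𝒪} {c : ℕ → ℤ}
    {S : Finset ℕ} (hb : ∀ ℓ : ℕ, ℓ.Prime → ℓ ∉ S → residue 𝒪 (b ℓ) = (c ℓ : ResidueField 𝒪))
    {M : ℕ} [hM : NeZero M] {g : CuspForm (Gamma0 M) 2} (hg : g.IsNewform)
    (h : CongTo j b S (fun ℓ ↦ qCoeff g ℓ)) : OccZ p c M := by
  obtain ⟨A, _, _, _, _, hloc, φ, t', hφ, ht⟩ := h
  have hpA : (p : A) ∈ maximalIdeal A := by
    have h1 := map_nonunit (algebraMap 𝒪 A) _ hp𝒪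
    rwa [map_natCast] at h1
  obtain ⟨𝔪, h𝔪, hpm, hx⟩ := exists_maximal_of_local φ hp hpA
  refine ⟨hM, 𝔪, h𝔪, hpm, g, S, hg, fun ℓ hℓ hℓS z hz ↦ ?_⟩
  obtain ⟨h1, h2⟩ := ht ℓ hℓ hℓS
  have h3 : b ℓ - (c ℓ : 𝒪) ∈ maximalIdeal 𝒪 := by
    rw [← residue_eq_zero_iff, map_sub, map_intCast, hb ℓ hℓ hℓS, sub_self]
  have h4 := map_nonunit (algebraMap 𝒪 A) _ h3
  have h5 := Ideal.add_mem _ h1 h4
  rw [map_sub, map_intCast, sub_add_sub_cancel] at h5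
  refine hx _ _ h5 ?_
  beta_reduce at h2
  rw [map_sub, h2, map_intCast, ← hz]
  push_cast
  rfl

/-- **(U2)** the congruence over a discrete valuation ring containing the eigenvalues -/
theorem residue_of_dvr {𝔪 : Ideal (integralClosure ℤ ℂ)}
    {ι : ResidueField 𝒪 →+* (integralClosure ℤ ℂ ⧸ 𝔪)} (h𝔪 : 𝔪 ≠ ⊤)
    (hι : ∀ (a : 𝒪) (z : integralClosure ℤ ℂ), j a = z →
      ι (residue 𝒪 a) = Ideal.Quotient.mk 𝔪 z) {M : ℕ} [NeZero M]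
    {f : CuspForm (Gamma0 M) 2} (hf : f.IsNormalizedEigenform)
    {b' : ℕ → 𝒪} (hb' : ∀ ℓ : ℕ, ℓ.Prime → j (b' ℓ) = qCoeff f ℓ) {c : ℕ → ℤ} {ℓ : ℕ}
    (hℓ : ℓ.Prime) (hz : ∀ z : integralClosure ℤ ℂ, (z : ℂ) = qCoeff f ℓ →
      z - (c ℓ : integralClosure ℤ ℂ) ∈ 𝔪) :
    residue 𝒪 (b' ℓ) = (c ℓ : ResidueField 𝒪) := by
  have : Nontrivial (integralClosure ℤ ℂ ⧸ 𝔪) := Ideal.Quotient.nontrivial_iff.2 h𝔪
  apply ι.injective
  let z : integralClosure ℤ ℂ := ⟨_, Eigenform.isIntegral_qCoeff_prime hf hℓ⟩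
  rw [hι (b' ℓ) z (hb' ℓ hℓ), map_intCast, ← map_intCast (Ideal.Quotient.mk 𝔪),
    ← sub_eq_zero, ← map_sub, Ideal.Quotient.eq_zero_iff_mem]
  exact hz z rfl

theorem congTo_of_dvr {𝔪 : Ideal (integralClosure ℤ ℂ)}
    {ι : ResidueField 𝒪 →+* (integralClosure ℤ ℂ ⧸ 𝔪)} (h𝔪 : 𝔪 ≠ ⊤)
    (hι : ∀ (a : 𝒪) (z : integralClosure ℤ ℂ), j a = z →
      ι (residue 𝒪 a) = Ideal.Quotient.mk 𝔪 z) {M : ℕ} [NeZero M]
    {f : CuspForm (Gamma0 M) 2} (hf : f.IsNormalizedEigenform)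
    {b' : ℕ → 𝒪} (hb' : ∀ ℓ : ℕ, ℓ.Prime → j (b' ℓ) = qCoeff f ℓ) {c : ℕ → ℤ} {S : Finset ℕ}
    (hz : ∀ ℓ : ℕ, ℓ.Prime → ℓ ∉ S → ∀ z : integralClosure ℤ ℂ, (z : ℂ) = qCoeff f ℓ →
      z - (c ℓ : integralClosure ℤ ℂ) ∈ 𝔪) :
    CongTo j (fun ℓ ↦ (c ℓ : 𝒪)) S (fun ℓ ↦ qCoeff f ℓ) := by
  have hid : IsLocalHom (algebraMap 𝒪 𝒪) := isLocalHom_id 𝒪
  refine ⟨𝒪, inferInstance, inferInstance, inferInstance, inferInstance, hid, j, b', ?_,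
    fun ℓ hℓ hℓS ↦ ⟨?_, hb' ℓ hℓ⟩⟩
  · ext x; rfl
  · rw [← residue_eq_zero_iff, map_sub, residue_of_dvr h𝔪 hι hf hb' hℓ (hz ℓ hℓ hℓS)]
    change (c ℓ : ResidueField 𝒪) - residue 𝒪 (c ℓ : 𝒪) = 0
    rw [map_intCast, sub_self]

end Congr

section Curve

variable {p : ℕ} [Fact p.Prime] {W : WeierstrassCurve ℤ} {𝒪 : Type} [CommRing 𝒪] [IsDomain 𝒪]
  [IsDiscreteValuationRing 𝒪] [IsAdicComplete (maximalIdeal 𝒪) 𝒪] [Finite (ResidueField 𝒪)]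
  [CharZero 𝒪] [Algebra (ZMod p) (ResidueField 𝒪)] {j : 𝒪 →+* ℂ}

/-- **(U3)** the residual system of a curve -/
theorem ctxW (hp2 : p ≠ 2) (hp𝒪 : (p : 𝒪) ∈ maximalIdeal 𝒪) (hj : Function.Injective j)
    (hΔ : W.Δ ≠ 0) (hirr : W.ModRepIsIrreducible p) {S0 : Finset ℕ} (hpS : p ∈ S0)
    (hS : ∀ q : ℕ, q.Prime → (q : ℤ) ∣ W.Δ → q ∈ S0) {b : ℕ → 𝒪}
    (hb : ∀ ℓ : ℕ, ℓ.Prime → ℓ ∉ S0 →
      residue 𝒪 (b ℓ) = ((W.apOfModel ℓ : ℤ) : ResidueField 𝒪)) :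
    Ctx p j ((Wire.curveRho p W hΔ).baseChange (ResidueField 𝒪)) S0 b where
  prime := Fact.out
  ne2 := hp2
  mem := hp𝒪
  inj := hj
  abs := Wire.curve_absIrr W hp2 hΔ hirr _
  odd := Wire.curve_isOdd W _ hΔ
  frob := by
    intro ℓ hℓ hℓS A hA σ hσ
    have h1 := Wire.curve_charpoly_frob W (ResidueField 𝒪) hΔ hℓ (fun h ↦ hℓS (h ▸ hpS))
      (fun h ↦ hℓS (hS ℓ hℓ h)) hA hσ
    rw [h1]
    beta_reduce
    rw [hb ℓ hℓ hℓS]
  pS := hpS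
  noneis := by
    intro S m hm
    have : CharP (ResidueField 𝒪) p :=
      charP_of_injective_algebraMap (algebraMap (ZMod p) (ResidueField 𝒪)).injective p
    obtain ⟨ℓ, h1, h2, h3, -, h4⟩ := Wire.noneis_W W hp2 hΔ hirr (k := ResidueField 𝒪) (S ∪ S0) hm
    rw [Finset.mem_union, not_or] at h2
    exact ⟨ℓ, h1, h2.1, h3, by rw [hb ℓ h1 h2.2]; exact h4⟩

/-- **(U3)** for the integral system -/
theorem ctxW_int (hp2 : p ≠ 2) (hp𝒪 : (p : 𝒪) ∈ maximalIdeal 𝒪) (hj : Function.Injective j)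
    (hΔ : W.Δ ≠ 0) (hirr : W.ModRepIsIrreducible p) {S0 : Finset ℕ} (hpS : p ∈ S0)
    (hS : ∀ q : ℕ, q.Prime → (q : ℤ) ∣ W.Δ → q ∈ S0) :
    Ctx p j ((Wire.curveRho p W hΔ).baseChange (ResidueField 𝒪)) S0
      (fun ℓ ↦ ((W.apOfModel ℓ : ℤ) : 𝒪)) :=
  ctxW hp2 hp𝒪 hj hΔ hirr hpS hS fun ℓ _ _ ↦ by rw [map_intCast]

end Curve

end Fermat.Agent.LL
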