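import Fermat.Agent.LL.S59Setup

set_option autoImplicit false

/-!
# The modularity lifting theorem (59C) from its three cases
-/

open CongruenceSubgroup IsLocalRing Polynomial ModularFormClass

namespace Fermat.Agent.LL

/-- existence of the setup -/
def SetupStmt : Prop :=
  ∀ (p : ℕ) [Fact p.Prime] (W : WeierstrassCurve ℤ) (H : Hyp59 p W),
    ¬ Mlc1IsModularModelOfExactConductorLevel W →
  ∀ N0 : ℕ, OccZ p (cW W) N0 → LevOK W N0 →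
    (∀ q : ℕ, q.Prime → q ∣ N0 → q ≠ p → ¬ p ∣ padicValInt q W.Δ) →
    (p = 3 → 2 ∣ N0) →
    (p ∣ N0 → ∀ M : ℕ, LevOK W M → OccZ p (cW W) M → p ∣ M) →
  ∃ (𝒪 : Type) (_ : CommRing 𝒪) (_ : IsDomain 𝒪) (_ : IsDiscreteValuationRing 𝒪)
    (_ : IsAdicComplete (maximalIdeal 𝒪) 𝒪) (_ : Finite (ResidueField 𝒪)) (_ : CharZero 𝒪)
    (_ : Algebra (ZMod p) (ResidueField 𝒪)) (j : 𝒪 →+* ℂ) (S0 Smin : Finset ℕ) (m : ℕ)
    (ql : Fin m → ℕ) (F : MvPolynomial ℕ 𝒪), Setup59 p W H.Δ_ne N0 j S0 Smin ql F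

theorem stmt59C_of (hS : StartStmt) (hL : StepLStmt) (hsetup : SetupStmt) (h1 : CaseFlat)
    (h2 : CaseStrict) (h3 : CasePeu) : Wire.Stmt59C := by
  intro p hp W W₀ hΔ hW hirr htwo hthree hΔ₀ hW₀ hbad hp₀ hc hmod₀
  by_contra hmod
  have H : Hyp59 p W := ⟨hp, hΔ, hW, hirr, htwo, hthree⟩
  have hpp : p.Prime := by rcases hp with rfl | rfl <;> norm_num
  have : Fact p.Prime := ⟨hpp⟩
  obtain ⟨M₀, hsq, hocc, hpM⟩ := hS p W W₀ H hΔ₀ hp₀ hc hmod₀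
  obtain ⟨N0, h4, h5, h6, h7, h8⟩ := hL p W H M₀ hsq hocc hpM
  obtain ⟨𝒪, _, _, _, _, _, _, _, j, S0, Smin, m, ql, F, hset⟩ :=
    hsetup p W H hmod N0 h4 h5 h6 h7 h8
  by_cases hpW : (p : ℤ) ∣ W.Δ
  · by_cases hpN : p ∣ N0
    · exact h2 p W H N0 𝒪 j S0 Smin m ql F hset hpN
    · exact h3 p W H N0 𝒪 j S0 Smin m ql F hset ⟨hpN, hpW⟩
  · exact h1 p W H N0 𝒪 j S0 Smin m ql F hset hpW

end Fermat.Agent.LL
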