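import Fermat.Agent.LL.S59Def
import Fermat.Agent.LL.LevelPt
import Fermat.Agent.Wire.NonEisW
import Fermat.Agent.Wire.Start59

set_option autoImplicit false

/-!
# Tools for the modularity lifting theorem (59C)
-/

open CongruenceSubgroup IsLocalRing Polynomial ModularFormClass

namespace Fermat.Agent.LL

local notation "Γℚ" => (AlgebraicClosure ℚ ≃ₐ[ℚ] AlgebraicClosure ℚ)

theorem exists_finset_roots {n : ℕ} (hn : n ≠ 0) :
    ∃ F : Finset (integralClosure ℤ ℂ), ∀ z : ℂ, z ^ n = 1 → ∃ w ∈ F, (w : ℂ) = z := by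
  classical
  have hint : ∀ z : ℂ, z ^ n = 1 → IsIntegral ℤ z := fun z hz ↦
    IsIntegral.of_pow (Nat.pos_of_ne_zero hn) (by rw [hz]; exact isIntegral_one)
  have hfin : {z : ℂ | z ^ n = 1}.Finite := by
    have h1 : (X ^ n - 1 : ℂ[X]) ≠ 0 := (monic_X_pow_sub_C 1 hn).ne_zero
    refine (X ^ n - 1 : ℂ[X]).roots.toFinset.finite_toSet.subset fun z hz ↦ ?_
    rw [Finset.mem_coe, Multiset.mem_toFinset, mem_roots h1]
    simp only [IsRoot, eval_sub, eval_pow, eval_X, eval_one]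
    exact sub_eq_zero.2 hz
  have : Finite {z : ℂ // z ^ n = 1} := hfin.to_subtype
  have := Fintype.ofFinite {z : ℂ // z ^ n = 1}
  refine ⟨Finset.univ.image (fun z : {z : ℂ // z ^ n = 1} ↦ ⟨z.1, hint z.1 z.2⟩), fun z hz ↦
    ⟨⟨z, hint z hz⟩, Finset.mem_image_of_mem (fun z : {z : ℂ // z ^ n = 1} ↦
      (⟨z.1, hint z.1 z.2⟩ : integralClosure ℤ ℂ)) (Finset.mem_univ ⟨z, hz⟩), rfl⟩⟩

theorem exists_root_quad (a b : ℤ) : ∃ z : integralClosure ℤ ℂ, z ^ 2 - a * z + b = 0 := by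
  have hm : (X ^ 2 - C (a : ℂ) * X + C (b : ℂ) : ℂ[X]).natDegree = 2 := by compute_degree!
  obtain ⟨z, hz⟩ := IsAlgClosed.exists_root (X ^ 2 - C (a : ℂ) * X + C (b : ℂ) : ℂ[X])
    (by rw [degree_eq_natDegree (fun h ↦ by rw [h, natDegree_zero] at hm; omega), hm]; norm_num)
  have hz' : z ^ 2 - a * z + b = 0 := by simpa using hz
  have hint : IsIntegral ℤ z := by
    refine ⟨X ^ 2 - C a * X + C b, by monicity!, ?_⟩
    rw [eval₂_add, eval₂_sub, eval₂_mul, eval₂_pow, eval₂_X, eval₂_C, eval₂_C]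
    exact hz'
  exact ⟨⟨z, hint⟩, Subtype.ext (by push_cast; exact hz')⟩

theorem charP_residueField {p : ℕ} (hp : p.Prime) {𝒪 : Type} [CommRing 𝒪] [IsLocalRing 𝒪]
    (hp𝒪 : (p : 𝒪) ∈ maximalIdeal 𝒪) : CharP (ResidueField 𝒪) p := by
  have : Fact p.Prime := ⟨hp⟩
  have hpk : (p : ResidueField 𝒪) = 0 := by
    rw [← map_natCast (residue 𝒪), residue_eq_zero_iff]; exact hp𝒪
  exact (CharP.charP_iff_prime_eq_zero hp).2 hpk

/-- A compatible discrete valuation ring whose residue field contains the roots of all quadratic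
polynomials with integral coefficients. -/
theorem exists_dvr59 {p : ℕ} (hp : p.Prime) (𝔪 : Ideal (integralClosure ℤ ℂ)) (h𝔪 : 𝔪.IsMaximal)
    (hpm : (p : integralClosure ℤ ℂ) ∈ 𝔪) {M : ℕ} [NeZero M] {f : CuspForm (Gamma0 M) 2}
    (hf : f.IsNormalizedEigenform) (F : Finset (integralClosure ℤ ℂ)) :
    ∃ (𝒪 : Type) (_ : CommRing 𝒪) (_ : IsDomain 𝒪) (_ : IsDiscreteValuationRing 𝒪)
    (_ : IsAdicComplete (maximalIdeal 𝒪) 𝒪) (_ : Finite (ResidueField 𝒪)) (_ : CharZero 𝒪)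
    (_ : (p : 𝒪) ∈ maximalIdeal 𝒪) (j : 𝒪 →+* ℂ)
    (ι : ResidueField 𝒪 →+* (integralClosure ℤ ℂ ⧸ 𝔪)) (b : ℕ → 𝒪),
    Function.Injective j ∧
    (∀ z ∈ F, ∃ a : 𝒪, j a = z) ∧
    (∀ (a : 𝒪) (z : integralClosure ℤ ℂ), j a = z → ι (residue 𝒪 a) = Ideal.Quotient.mk 𝔪 z) ∧
    (∀ ℓ : ℕ, ℓ.Prime → j (b ℓ) = qCoeff f ℓ) ∧
    (∀ a b : ℤ, ∃ α β : ResidueField 𝒪, (X ^ 2 - C (a : ResidueField 𝒪) * X +
      C (b : ResidueField 𝒪) : Polynomial (ResidueField 𝒪)) = (X - C α) * (X - C β)) := by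
  classical
  choose w hw using exists_root_quad
  obtain ⟨𝒪, i1, i2, i3, i4, i5, i6, i7, j, ι, b, hj, hF, hc, hb⟩ := exists_dvr_eigen hp 𝔪 h𝔪 hpm
    hf (F ∪ (Finset.range p ×ˢ Finset.range p).image (fun x ↦ w x.1 x.2))
  refine ⟨𝒪, i1, i2, i3, i4, i5, i6, i7, j, ι, b, hj,
    fun z hz ↦ hF z (Finset.mem_union_left _ hz), hc, hb, ?_⟩
  have hchar : CharP (ResidueField 𝒪) p := charP_residueField hp i7
  have hmod : ∀ a : ℤ, ((a : ℤ) : ResidueField 𝒪) = (((a % p).toNat : ℕ) : ResidueField 𝒪) ∧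
      (a % p).toNat < p := by
    intro a
    have hp0 : (0 : ℤ) < p := by exact_mod_cast hp.pos
    have h1 : 0 ≤ a % p := Int.emod_nonneg _ hp0.ne'
    have h2 : a % p < p := Int.emod_lt_of_pos _ hp0
    refine ⟨?_, by omega⟩
    have h3 : (((a % p).toNat : ℕ) : ResidueField 𝒪) = ((a % p : ℤ) : ResidueField 𝒪) := by
      rw [← Int.cast_natCast, Int.toNat_of_nonneg h1]
    rw [h3, ← sub_eq_zero, ← Int.cast_sub, CharP.intCast_eq_zero_iff (ResidueField 𝒪) p]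
    exact Int.dvd_self_sub_emod
  intro a c
  obtain ⟨ha, ha'⟩ := hmod a
  obtain ⟨hc', hc''⟩ := hmod c
  rw [ha, hc']
  set a' := (a % p).toNat with ha'def
  set c' := (c % p).toNat with hc'def
  obtain ⟨z, hz⟩ := hF (w a' c') (Finset.mem_union_right _ (Finset.mem_image.2
    ⟨(a', c'), Finset.mem_product.2 ⟨Finset.mem_range.2 ha', Finset.mem_range.2 hc''⟩, rfl⟩))
  have hz2 : z ^ 2 - a' * z + c' = 0 := by
    apply hj
    have h1 := congrArg (Subtype.val : integralClosure ℤ ℂ → ℂ) (hw a' c')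
    have h2 : ((w a' c' : integralClosure ℤ ℂ) : ℂ) ^ 2 - ((a' : ℤ) : ℂ) * (w a' c' : integralClosure ℤ ℂ)
      + ((c' : ℤ) : ℂ) = 0 := by
      have h3 := h1
      push_cast at h3 ⊢
      exact h3
    rw [map_add, map_sub, map_mul, map_pow, map_natCast, map_natCast, map_zero, hz, ← h2]
    push_cast
    rfl
  have hz3 := congrArg (residue 𝒪) hz2
  rw [map_add, map_sub, map_mul, map_pow, map_natCast, map_natCast, map_zero] at hz3
  refine ⟨residue 𝒪 z, (a' : ResidueField 𝒪) - residue 𝒪 z, ?_⟩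
  have h4 : (c' : ResidueField 𝒪) = residue 𝒪 z * ((a' : ResidueField 𝒪) - residue 𝒪 z) := by
    linear_combination hz3
  rw [h4]
  simp only [C_mul, C_sub]
  ring

/-- a congruence in a finite local algebra gives an occurrence -/
theorem OccZ.of_congTo {p : ℕ} (hp : p.Prime) {𝒪 : Type} [CommRing 𝒪] [IsLocalRing 𝒪]
    (hp𝒪 : (p : 𝒪) ∈ maximalIdeal 𝒪) {j : 𝒪 →+* ℂ} {b : ℕ → 𝒪} {c : ℕ → ℤ} {S : Finset ℕ}
    (hb : ∀ ℓ : ℕ, ℓ.Prime → ℓ ∉ S → b ℓ - (c ℓ : 𝒪) ∈ maximalIdeal 𝒪)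
    {M : ℕ} [NeZero M] {g : CuspForm (Gamma0 M) 2} (hg : g.IsNewform)
    (h : CongTo j b S (fun ℓ ↦ qCoeff g ℓ)) : OccZ p c M := by
  obtain ⟨A, _, _, _, _, _, φ, t', hφ, ht⟩ := h
  let A' : Subring ℂ := φ.range
  let φ' : A →+* A' := φ.rangeRestrict
  have hφ' : Function.Surjective φ' := φ.rangeRestrict_surjective
  have : Nontrivial A' := inferInstance
  have hA' : IsLocalRing A' := IsLocalRing.of_surjective' φ' hφ'
  let B := integralClosure A' ℂ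
  obtain ⟨𝔓, h𝔓, hcomap⟩ := Ideal.exists_ideal_over_maximal_of_isIntegral (S := B)
    (maximalIdeal A') (by
      rw [(RingHom.injective_iff_ker_eq_bot _).1 (FaithfulSMul.algebraMap_injective A' B)]
      exact bot_le)
  let L := B ⧸ 𝔓
  let _ : Field L := Ideal.Quotient.field 𝔓
  have hinc : ∀ z : integralClosure ℤ ℂ, (z : ℂ) ∈ B := fun z ↦
    (z.2 : IsIntegral ℤ (z : ℂ)).tower_top
  let e : integralClosure ℤ ℂ →+* B :=
    { toFun := fun z ↦ ⟨z, hinc z⟩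
      map_one' := rfl
      map_mul' := fun _ _ ↦ rfl
      map_zero' := rfl
      map_add' := fun _ _ ↦ rfl }
  let ψ : integralClosure ℤ ℂ →+* L := (Ideal.Quotient.mk 𝔓).comp e
  -- elements of the maximal ideal of `A` go to zero
  have hm : ∀ x ∈ maximalIdeal A, (Ideal.Quotient.mk 𝔓) (algebraMap A' B (φ' x)) = 0 := by
    intro x hx
    rw [Ideal.Quotient.eq_zero_iff_mem, ← Ideal.mem_comap, hcomap]
    rw [mem_maximalIdeal, mem_nonunits_iff] at hx ⊢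
    intro hu
    obtain ⟨v, hv⟩ := hu
    obtain ⟨y, hy⟩ := hφ' ((v⁻¹ : A'ˣ) : A')
    have h3 : x * y ∈ maximalIdeal A :=
      Ideal.mul_mem_right _ _ ((mem_maximalIdeal _).2 (mem_nonunits_iff.2 hx))
    have h4 : IsUnit (1 - x * y) := by
      by_contra h5
      have h6 := Ideal.add_mem _ ((mem_maximalIdeal _).2 (mem_nonunits_iff.2 h5)) h3
      rw [sub_add_cancel] at h6
      exact (Ideal.ne_top_iff_one _).1 (maximalIdeal.isMaximal A).ne_top h6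
    have h5 := h4.map φ'
    rw [map_sub, map_one, map_mul, ← hv, hy, Units.mul_inv, sub_self] at h5
    exact not_isUnit_zero h5
  have hp0 : (p : L) = 0 := by
    have h1 : (p : A) ∈ maximalIdeal A := by
      rw [← map_natCast (algebraMap 𝒪 A)]
      exact map_nonunit _ _ hp𝒪
    have h2 := hm _ h1
    rwa [map_natCast, map_natCast, map_natCast] at h2
  refine ⟨inferInstance, RingHom.ker ψ, isMaximal_ker hp ψ hp0, ?_, g, S, hg, ?_⟩
  · rw [RingHom.mem_ker, map_natCast, hp0]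
  · intro ℓ hℓ hℓS z hz
    rw [RingHom.mem_ker, map_sub, map_intCast, sub_eq_zero]
    have h1 : t' ℓ - (c ℓ : A) ∈ maximalIdeal A := by
      have h2 : t' ℓ - (c ℓ : A) = (t' ℓ - algebraMap 𝒪 A (b ℓ)) +
          algebraMap 𝒪 A (b ℓ - c ℓ) := by
        rw [map_sub, map_intCast]; ring
      rw [h2]
      exact Ideal.add_mem _ (ht ℓ hℓ hℓS).1 (map_nonunit _ _ (hb ℓ hℓ hℓS))
    have h2 := hm _ h1
    rw [map_sub, map_sub, map_sub, map_intCast, map_intCast, map_intCast, sub_eq_zero] at h2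
    rw [← h2]
    change (Ideal.Quotient.mk 𝔓) (e z) = _
    congr 1
    apply Subtype.ext
    change (z : ℂ) = φ (t' ℓ)
    rw [(ht ℓ hℓ hℓS).2, hz]

/-- an occurrence, in a compatible discrete valuation ring -/
theorem congTo_of_occ {𝒪 : Type} [CommRing 𝒪] [IsLocalRing 𝒪] [IsDomain 𝒪]
    {𝔪 : Ideal (integralClosure ℤ ℂ)} (h𝔪 : 𝔪.IsMaximal) {j : 𝒪 →+* ℂ}
    {ι : ResidueField 𝒪 →+* (integralClosure ℤ ℂ ⧸ 𝔪)}
    (hι : ∀ (a : 𝒪) (z : integralClosure ℤ ℂ), j a = z → ι (residue 𝒪 a) = Ideal.Quotient.mk 𝔪 z)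
    {M : ℕ} [NeZero M] {g : CuspForm (Gamma0 M) 2} (hg : g.IsNormalizedEigenform) {b : ℕ → 𝒪}
    (hb : ∀ ℓ : ℕ, ℓ.Prime → j (b ℓ) = qCoeff g ℓ) {c : ℕ → ℤ} {S : Finset ℕ}
    (h : ∀ ℓ : ℕ, ℓ.Prime → ℓ ∉ S → ∀ z : integralClosure ℤ ℂ,
      (z : ℂ) = qCoeff g ℓ → z - (c ℓ : integralClosure ℤ ℂ) ∈ 𝔪) :
    (∀ ℓ : ℕ, ℓ.Prime → ℓ ∉ S → b ℓ - (c ℓ : 𝒪) ∈ maximalIdeal 𝒪) ∧
    CongTo j (fun ℓ ↦ (c ℓ : 𝒪)) S (fun ℓ ↦ qCoeff g ℓ) := by
  have key : ∀ ℓ : ℕ, ℓ.Prime → ℓ ∉ S → b ℓ - (c ℓ : 𝒪) ∈ maximalIdeal 𝒪 := by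
    intro ℓ hℓ hℓS
    have hint := Eigenform.isIntegral_qCoeff_prime hg hℓ
    have h1 := h ℓ hℓ hℓS ⟨qCoeff g ℓ, hint⟩ rfl
    have h2 := hι (b ℓ - c ℓ) (⟨qCoeff g ℓ, hint⟩ - (c ℓ : integralClosure ℤ ℂ)) (by
      rw [map_sub, map_intCast, hb ℓ hℓ]; rfl)
    rw [Ideal.Quotient.eq_zero_iff_mem.2 h1] at h2
    have : Nontrivial (integralClosure ℤ ℂ ⧸ 𝔪) := Ideal.Quotient.nontrivial_iff.2 h𝔪.ne_top
    rw [← residue_eq_zero_iff]
    exact ι.injective (h2.trans (map_zero ι).symm)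
  exact ⟨key, 𝒪, inferInstance, inferInstance, inferInstance, inferInstance, inferInstance, j, b,
    RingHom.comp_id j, fun ℓ hℓ hℓS ↦ ⟨key ℓ hℓ hℓS, hb ℓ hℓ⟩⟩

end Fermat.Agent.LL
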