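import Fermat.Agent.LL.Tame

set_option autoImplicit false

/-!
# Taylor--Wiles primes: the character `κ`
-/

open IsLocalRing GaloisRep Polynomial

namespace Fermat.Agent.LL

open Fermat.Agent.DefRing Fermat.Agent

local notation "Γℚ" => (AlgebraicClosure ℚ ≃ₐ[ℚ] AlgebraicClosure ℚ)
local notation "M₂" => Matrix (Fin 2) (Fin 2)
local notation "Qb" => AlgebraicClosure ℚ

section

variable {A : Type} [CommRing A] [IsLocalRing A]

/-- Hensel's lemma for quadratic polynomials -/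
theorem exists_roots [IsAdicComplete (maximalIdeal A) A] (t d : A) {α β : ResidueField A}
    (hαβ : α ≠ β) (ht : residue A t = α + β) (hd : residue A d = α * β) :
    ∃ x y : A, x + y = t ∧ x * y = d ∧ IsUnit (x - y) ∧ residue A x = α ∧ residue A y = β := by
  obtain ⟨a0, ha0⟩ := residue_surjective α
  let f : A[X] := X ^ 2 - C t * X + C d
  have hf : f.Monic := by
    have : f = X ^ 2 + (- (C t * X) + C d) := by ring
    rw [this]
    apply monic_X_pow_add
    refine lt_of_le_of_lt (degree_add_le _ _) (max_lt ?_ ?_)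
    · rw [degree_neg]
      exact lt_of_le_of_lt (degree_C_mul_X_le t) (by norm_num)
    · exact lt_of_le_of_lt degree_C_le (by norm_num)
  have h1 : f.eval a0 ∈ maximalIdeal A := by
    rw [← residue_eq_zero_iff]
    simp only [f, eval_add, eval_sub, eval_pow, eval_X, eval_mul, eval_C, map_add, map_sub,
      map_pow, map_mul, ha0, ht, hd]
    ring
  have h2 : IsUnit (Ideal.Quotient.mk (maximalIdeal A) (f.derivative.eval a0)) := by
    have h3 : residue A (f.derivative.eval a0) = α - β := by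
      have hder : f.derivative = C 2 * X - C t := by
        have h2 : (C 2 : A[X]) = 1 + 1 := by rw [map_ofNat]; norm_num
        simp [f, h2]
      rw [hder, eval_sub, eval_mul, eval_C, eval_X, eval_C, map_sub, map_mul, ha0, ht, map_ofNat]
      ring
    have h4 : IsUnit (residue A (f.derivative.eval a0)) := by
      rw [h3]; exact (sub_ne_zero.mpr hαβ).isUnit
    exact h4
  obtain ⟨x, hx, hxa⟩ := HenselianRing.is_henselian f hf a0 h1 h2
  have hx' : x ^ 2 - t * x + d = 0 := by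
    have := hx
    simpa [f, IsRoot.def] using this
  have hrx : residue A x = α := by
    rw [← ha0, ← sub_eq_zero, ← map_sub, residue_eq_zero_iff]
    exact hxa
  have hry : residue A (t - x) = β := by rw [map_sub, ht, hrx]; ring
  refine ⟨x, t - x, by ring, ?_, ?_, hrx, hry⟩
  · linear_combination -hx'
  · have h5 : IsUnit (residue A (x - (t - x))) := by
      rw [map_sub, hrx, hry]; exact (sub_ne_zero.mpr hαβ).isUnit
    exact isUnit_of_map_unit (residue A) _ h5

/-- diagonalisation of a matrix with distinct eigenvalues -/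
theorem exists_diag2 {u : A} (hu : u * 2 = 1) (Φ : M₂ A) {x y : A} (ht : x + y = Φ.trace)
    (hd : x * y = Φ.det) (hxy : IsUnit (x - y)) :
    ∃ P : M₂ A, IsUnit P.det ∧ Φ * P = P * Matrix.diagonal ![x, y] := by
  obtain ⟨w, hw⟩ := hxy.exists_left_inv
  have hCH : Φ * Φ = (x + y) • Φ - (x * y) • (1 : M₂ A) := by
    have h1 := Matrix.aeval_self_charpoly Φ
    rw [Matrix.charpoly_fin_two, ← ht, ← hd] at h1
    simp only [map_add, map_sub, map_mul, map_pow, aeval_X, aeval_C] at h1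
    simp only [Algebra.algebraMap_eq_smul_one, sq, add_mul, smul_mul_assoc, one_mul,
      smul_smul] at h1
    rw [← sub_eq_zero, ← h1]
    module
  obtain ⟨P, hP, hM⟩ := exists_diag hu (w • ((2 : A) • Φ - (x + y) • (1 : M₂ A))) (by
    have h1 : (w • ((2 : A) • Φ - (x + y) • (1 : M₂ A))) * (w • ((2 : A) • Φ - (x + y) • (1 : M₂ A))) =
      (w * w) • ((4 : A) • (Φ * Φ) - (4 * (x + y)) • Φ + ((x + y) * (x + y)) • (1 : M₂ A)) := by
      rw [smul_mul_smul_comm]
      congr 1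
      simp only [sub_mul, mul_sub, smul_mul_smul_comm, one_mul, mul_one]
      module
    rw [h1, hCH]
    have h2 : (4 : A) • ((x + y) • Φ - (x * y) • (1 : M₂ A)) - (4 * (x + y)) • Φ +
        ((x + y) * (x + y)) • (1 : M₂ A) = ((x - y) * (x - y)) • (1 : M₂ A) := by module
    rw [h2, smul_smul]
    have h3 : w * w * ((x - y) * (x - y)) = 1 := by
      linear_combination (w * (x - y) + 1) * hw
    rw [h3, one_smul]) (by
    rw [Matrix.det_fin_two]
    rw [Matrix.trace_fin_two] at ht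
    rw [Matrix.det_fin_two] at hd
    simp only [Matrix.smul_apply, Matrix.sub_apply, smul_eq_mul, Matrix.one_apply_eq,
      Matrix.one_apply_ne (show (0 : Fin 2) ≠ 1 by decide),
      Matrix.one_apply_ne (show (1 : Fin 2) ≠ 0 by decide)]
    linear_combination (-(w * (x - y) + 1)) * hw + w * w * (-4 * hd + 2 * (x + y) * ht))
  refine ⟨P, hP, ?_⟩
  have h1 : Φ = u • ((x - y) • (w • ((2 : A) • Φ - (x + y) • (1 : M₂ A))) + (x + y) • (1 : M₂ A)) := by
    rw [smul_smul (x - y) w, mul_comm (x - y) w, hw, one_smul, sub_add_cancel, smul_smul, hu,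
      one_smul]
  rw [h1, smul_mul_assoc, add_mul, smul_mul_assoc (x - y), hM, smul_mul_assoc (x + y), one_mul]
  have h2 : Matrix.diagonal ![x, y] = u • ((x - y) • Matrix.diagonal ![(1 : A), -1] +
      (x + y) • (1 : M₂ A)) := by
    ext i k
    fin_cases i <;> fin_cases k <;> simp
    · linear_combination (-x) * hu
    · linear_combination (-y) * hu
  rw [h2, Matrix.mul_smul, Matrix.mul_add, Matrix.mul_smul, Matrix.mul_smul, Matrix.mul_one]

theorem isUnit_natCast_of_not_dvd {p m : ℕ} (hp : p.Prime) (hpA : (p : A) ∈ maximalIdeal A)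
    (hm : ¬ p ∣ m) : IsUnit (m : A) := by
  have hcop : IsCoprime (m : ℤ) (p : ℤ) := by
    rw [Nat.isCoprime_iff_coprime]
    exact ((Nat.Prime.coprime_iff_not_dvd hp).mpr hm).symm
  obtain ⟨a, b, hab⟩ := hcop
  have h1 : (a : A) * m + b * p = 1 := by exact_mod_cast congrArg (fun z : ℤ => (z : A)) hab
  by_contra hcon
  have h2 : (m : A) ∈ maximalIdeal A := hcon
  have h3 : (1 : A) ∈ maximalIdeal A := by
    rw [← h1]
    exact Ideal.add_mem _ (Ideal.mul_mem_left _ _ h2) (Ideal.mul_mem_left _ _ hpA)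
  exact h3 isUnit_one

/-- roots of unity congruent to one have `p`-power order -/
theorem pow_eq_one_of_pow_mul {p v m : ℕ} (hp : p.Prime) (hpA : (p : A) ∈ maximalIdeal A)
    (hm : ¬ p ∣ m) {a : A} (ha : a - 1 ∈ maximalIdeal A) (h : a ^ (p ^ v * m) = 1) :
    a ^ p ^ v = 1 := by
  set z := a ^ p ^ v with hz
  have hz1 : z - 1 ∈ maximalIdeal A := by
    rw [hz, ← mul_geom_sum]
    exact Ideal.mul_mem_right _ _ ha
  have hzm : z ^ m = 1 := by rw [hz, ← pow_mul, h]
  have h1 : (z - 1) * ∑ i ∈ Finset.range m, z ^ i = 0 := by rw [mul_geom_sum, hzm, sub_self]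
  have h2 : IsUnit (∑ i ∈ Finset.range m, z ^ i) := by
    have h3 : (∑ i ∈ Finset.range m, z ^ i) - m ∈ maximalIdeal A := by
      have : (∑ i ∈ Finset.range m, z ^ i) - m = ∑ i ∈ Finset.range m, (z ^ i - 1) := by
        rw [Finset.sum_sub_distrib, Finset.sum_const, Finset.card_range, nsmul_eq_mul, mul_one]
      rw [this]
      refine Ideal.sum_mem _ fun i _ => ?_
      rw [← mul_geom_sum]
      exact Ideal.mul_mem_right _ _ hz1
    by_contra hcon
    have h4 : (∑ i ∈ Finset.range m, z ^ i) ∈ maximalIdeal A := hcon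
    have h5 := Ideal.sub_mem _ h4 h3
    rw [sub_sub_cancel] at h5
    exact h5 (isUnit_natCast_of_not_dvd hp hpA hm)
  rw [← sub_eq_zero]
  exact (h2.mul_left_eq_zero).mp h1

omit [IsLocalRing A] in
theorem off_diag_pow {Y : M₂ A} {m J : Ideal A} (hS : MI m (Y - 1)) (hb : Y 0 1 ∈ J)
    (hc : Y 1 0 ∈ J) (hJ : J ≤ m) (n : ℕ) :
    (Y ^ n) 0 0 - 1 ∈ m ∧ (Y ^ n) 1 1 - 1 ∈ m ∧ (Y ^ n) 0 1 - n * Y 0 1 ∈ m * J ∧
      (Y ^ n) 1 0 - n * Y 1 0 ∈ m * J := by
  have hS00 : Y 0 0 - 1 ∈ m := by have := hS 0 0; rwa [Matrix.sub_apply, Matrix.one_apply_eq] at this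
  have hS11 : Y 1 1 - 1 ∈ m := by have := hS 1 1; rwa [Matrix.sub_apply, Matrix.one_apply_eq] at this
  induction n with
  | zero => simp
  | succ n ih =>
    obtain ⟨h1, h2, h3, h4⟩ := ih
    have hmJ : m * J ≤ m := Ideal.mul_le_left
    have h01 : (Y ^ n) 0 1 ∈ J := by
      have : (Y ^ n) 0 1 = ((Y ^ n) 0 1 - n * Y 0 1) + n * Y 0 1 := by ring
      rw [this]
      exact Ideal.add_mem _ (Ideal.mul_le_right h3) (Ideal.mul_mem_left _ _ hb)
    have h10 : (Y ^ n) 1 0 ∈ J := by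
      have : (Y ^ n) 1 0 = ((Y ^ n) 1 0 - n * Y 1 0) + n * Y 1 0 := by ring
      rw [this]
      exact Ideal.add_mem _ (Ideal.mul_le_right h4) (Ideal.mul_mem_left _ _ hc)
    rw [pow_succ]
    simp only [Matrix.mul_apply, Fin.sum_univ_two]
    refine ⟨?_, ?_, ?_, ?_⟩
    · have : (Y ^ n) 0 0 * Y 0 0 + (Y ^ n) 0 1 * Y 1 0 - 1 =
          ((Y ^ n) 0 0 - 1) * Y 0 0 + (Y 0 0 - 1) + (Y ^ n) 0 1 * Y 1 0 := by ring
      rw [this]
      exact Ideal.add_mem _ (Ideal.add_mem _ (Ideal.mul_mem_right _ _ h1) hS00)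
        (Ideal.mul_mem_left _ _ (hJ hc))
    · have : (Y ^ n) 1 0 * Y 0 1 + (Y ^ n) 1 1 * Y 1 1 - 1 =
          ((Y ^ n) 1 1 - 1) * Y 1 1 + (Y 1 1 - 1) + (Y ^ n) 1 0 * Y 0 1 := by ring
      rw [this]
      exact Ideal.add_mem _ (Ideal.add_mem _ (Ideal.mul_mem_right _ _ h2) hS11)
        (Ideal.mul_mem_left _ _ (hJ hb))
    · have : (Y ^ n) 0 0 * Y 0 1 + (Y ^ n) 0 1 * Y 1 1 - (n + 1 : ℕ) * Y 0 1 =
          ((Y ^ n) 0 0 - 1) * Y 0 1 + (Y 1 1 - 1) * (Y ^ n) 0 1 +
            ((Y ^ n) 0 1 - n * Y 0 1) := by push_cast; ring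
      rw [this]
      exact Ideal.add_mem _ (Ideal.add_mem _ (Ideal.mul_mem_mul h1 hb)
        (Ideal.mul_mem_mul hS11 h01)) h3
    · have : (Y ^ n) 1 0 * Y 0 0 + (Y ^ n) 1 1 * Y 1 0 - (n + 1 : ℕ) * Y 1 0 =
          ((Y ^ n) 1 1 - 1) * Y 1 0 + (Y 0 0 - 1) * (Y ^ n) 1 0 +
            ((Y ^ n) 1 0 - n * Y 1 0) := by push_cast; ring
      rw [this]
      exact Ideal.add_mem _ (Ideal.add_mem _ (Ideal.mul_mem_mul h2 hc)
        (Ideal.mul_mem_mul hS00 h10)) h4

/-- `Σ` is diagonal when it is conjugated by a matrix with distinct eigenvalues to a power of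
itself -/
theorem diag_of_rel {Y : M₂ A} {x y : A} (hxy : IsUnit (x - y)) (hS : MI (maximalIdeal A) (Y - 1))
    {q : ℕ} (hq : (q : A) - 1 ∈ maximalIdeal A)
    (hrel : Matrix.diagonal ![x, y] * Y = Y ^ q * Matrix.diagonal ![x, y]) :
    Y 0 1 = 0 ∧ Y 1 0 = 0 := by
  classical
  set J : Ideal A := Ideal.span {Y 0 1, Y 1 0} with hJdef
  have hb : Y 0 1 ∈ J := Ideal.subset_span (by simp)
  have hc : Y 1 0 ∈ J := Ideal.subset_span (by simp)
  have hJ : J ≤ maximalIdeal A := by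
    rw [hJdef, Ideal.span_le]
    rintro z (rfl | rfl)
    · have := hS 0 1
      rwa [Matrix.sub_apply, Matrix.one_apply_ne (by decide), sub_zero] at this
    · have := hS 1 0
      rwa [Matrix.sub_apply, Matrix.one_apply_ne (by decide), sub_zero] at this
  obtain ⟨-, -, h01, h10⟩ := off_diag_pow hS hb hc hJ q
  have e01 := congrFun (congrFun hrel 0) 1
  have e10 := congrFun (congrFun hrel 1) 0
  rw [Matrix.diagonal_mul, Matrix.mul_diagonal] at e01 e10
  simp only [Matrix.cons_val_zero, Matrix.cons_val_one] at e01 e10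
  have h1 : Y 0 1 ∈ maximalIdeal A * J := by
    have h2 : (x - y) * Y 0 1 = y * ((Y ^ q) 0 1 - q * Y 0 1) + ((q : A) - 1) * (y * Y 0 1) := by
      linear_combination e01
    have h3 : (x - y) * Y 0 1 ∈ maximalIdeal A * J := by
      rw [h2]
      exact Ideal.add_mem _ (Ideal.mul_mem_left _ _ h01)
        (Ideal.mul_mem_mul hq (Ideal.mul_mem_left _ _ hb))
    obtain ⟨w, hw⟩ := hxy.exists_left_inv
    have h4 : Y 0 1 = w * ((x - y) * Y 0 1) := by rw [← mul_assoc, hw, one_mul]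
    rw [h4]
    exact Ideal.mul_mem_left _ _ h3
  have h1' : Y 1 0 ∈ maximalIdeal A * J := by
    have h2 : (x - y) * Y 1 0 = - (x * ((Y ^ q) 1 0 - q * Y 1 0) + ((q : A) - 1) * (x * Y 1 0)) := by
      linear_combination - e10
    have h3 : (x - y) * Y 1 0 ∈ maximalIdeal A * J := by
      rw [h2]
      exact neg_mem (Ideal.add_mem _ (Ideal.mul_mem_left _ _ h10)
        (Ideal.mul_mem_mul hq (Ideal.mul_mem_left _ _ hc)))
    obtain ⟨w, hw⟩ := hxy.exists_left_inv
    have h4 : Y 1 0 = w * ((x - y) * Y 1 0) := by rw [← mul_assoc, hw, one_mul]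
    rw [h4]
    exact Ideal.mul_mem_left _ _ h3
  have hJ0 : J = ⊥ := by
    refine Submodule.eq_bot_of_le_smul_of_le_jacobson_bot (maximalIdeal A) J ?_ ?_
      (IsLocalRing.maximalIdeal_le_jacobson _)
    · exact ⟨{Y 0 1, Y 1 0}, by rw [hJdef]; simp [Ideal.span]⟩
    · rw [smul_eq_mul]
      rw [hJdef, Ideal.span_le]
      rintro z (rfl | rfl)
      · exact h1
      · exact h1'
  rw [hJ0] at hb hc
  exact ⟨hb, hc⟩

end

/-- **Taylor--Wiles primes.** -/
theorem exists_kappa {A : Type} [CommRing A] [IsLocalRing A] [IsAdicComplete (maximalIdeal A) A]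
    {ρ : GaloisRepAdic A} {r : Γℚ → M₂ A} (hr : Realizes ρ r) {q p : ℕ} (L : LocGen q p)
    (hp : p.Prime) (hp2 : p ≠ 2) (hpA : (p : A) ∈ maximalIdeal A)
    (hres : ∀ σ ∈ L.P.inertiaSubgroupIn ℚ, MI (maximalIdeal A) (r σ - 1))
    (hdet : (r L.τ).det = 1) {α β : ResidueField A} (hαβ : α ≠ β)
    (hfrob : ((r L.φ).map (residue A)).charpoly = (X - C α) * (X - C β))
    {v : ℕ} (hv : p ^ v ∣ q - 1) (hv' : ¬ p ^ (v + 1) ∣ q - 1) (hpq : p ∣ q - 1) (hq : q ≠ 0) :
    ∃ (κ κ' : A) (C : M₂ A), IsUnit C.det ∧ κ - 1 ∈ maximalIdeal A ∧ κ ^ p ^ v = 1 ∧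
      κ * κ' = 1 ∧ r L.τ * C = C * Matrix.diagonal ![κ, κ'] := by
  have h2A : IsUnit (2 : A) := by
    have := isUnit_natCast_of_not_dvd (A := A) hp hpA (m := 2) (fun h =>
      hp2 ((Nat.prime_dvd_prime_iff_eq hp Nat.prime_two).mp h))
    exact_mod_cast this
  obtain ⟨u, hu⟩ := h2A.exists_left_inv
  have hpoly : (X - C α) * (X - C β) = (X ^ 2 - C (α + β) * X + C (α * β) : (ResidueField A)[X]) := by
    rw [map_add, map_mul]; ring
  rw [Matrix.charpoly_fin_two, hpoly] at hfrob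
  obtain ⟨htr, hde⟩ := poly2_inj hfrob
  obtain ⟨x, y, hxy1, hxy2, hxy3, -, -⟩ := exists_roots (r L.φ).trace (r L.φ).det hαβ (by
    rw [← htr, Matrix.trace_fin_two, Matrix.trace_fin_two, map_add]; rfl) (by
    rw [← hde, RingHom.map_det]; rfl)
  obtain ⟨P, hP, hPΦ⟩ := exists_diag2 hu (r L.φ) hxy1 hxy2 hxy3
  have hPi : P * P⁻¹ = 1 := Matrix.mul_nonsing_inv _ hP
  have hiP : P⁻¹ * P = 1 := Matrix.nonsing_inv_mul _ hP
  set Y : M₂ A := P⁻¹ * r L.τ * P with hY
  have hS : MI (maximalIdeal A) (Y - 1) := by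
    have : Y - 1 = P⁻¹ * (r L.τ - 1) * P := by
      rw [Matrix.mul_sub, Matrix.sub_mul, Matrix.mul_one, hiP]
    rw [this]
    exact ((hres _ L.hτ).mul_left).mul_right
  have hpow : ∀ n, Y ^ n = P⁻¹ * (r L.τ) ^ n * P := by
    intro n
    induction n with
    | zero => rw [pow_zero, pow_zero, Matrix.mul_one, hiP]
    | succ n ih =>
      rw [pow_succ, ih, hY, pow_succ]
      calc P⁻¹ * r L.τ ^ n * P * (P⁻¹ * r L.τ * P) = P⁻¹ * r L.τ ^ n * (P * P⁻¹) * r L.τ * P := by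
            simp only [Matrix.mul_assoc]
        _ = _ := by rw [hPi, Matrix.mul_one]; simp only [Matrix.mul_assoc]
  have hq1 : (q : A) - 1 ∈ maximalIdeal A := by
    obtain ⟨c, hc⟩ := hpq
    have h1 : q = p * c + 1 := by omega
    rw [h1]
    push_cast
    rw [add_sub_cancel_right]
    exact Ideal.mul_mem_right _ _ hpA
  have hΦ' : P⁻¹ * r L.φ * P = Matrix.diagonal ![x, y] := by
    rw [Matrix.mul_assoc, hPΦ, ← Matrix.mul_assoc, hiP, Matrix.one_mul]
  have hrel : Matrix.diagonal ![x, y] * Y = Y ^ q * Matrix.diagonal ![x, y] := by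
    rw [← hΦ', hpow, hY]
    have h1 := loc_rel' hr L hp hpA hres
    calc P⁻¹ * r L.φ * P * (P⁻¹ * r L.τ * P) = P⁻¹ * r L.φ * (P * P⁻¹) * r L.τ * P := by
          simp only [Matrix.mul_assoc]
      _ = P⁻¹ * (r L.φ * r L.τ) * P := by rw [hPi, Matrix.mul_one]; simp only [Matrix.mul_assoc]
      _ = P⁻¹ * (r L.τ ^ q * r L.φ) * P := by rw [h1]
      _ = P⁻¹ * r L.τ ^ q * (P * P⁻¹) * r L.φ * P := by
          rw [hPi, Matrix.mul_one]; simp only [Matrix.mul_assoc]
      _ = _ := by simp only [Matrix.mul_assoc]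
  obtain ⟨h01, h10⟩ := diag_of_rel hxy3 hS hq1 hrel
  have hdiag : Y = Matrix.diagonal ![Y 0 0, Y 1 1] := by
    ext i k
    fin_cases i <;> fin_cases k <;> simp [h01, h10]
  have hdetY : Y 0 0 * Y 1 1 = 1 := by
    have h1 : Y.det = 1 := by
      rw [hY, Matrix.det_mul, Matrix.det_mul, hdet, mul_one, ← Matrix.det_mul, hiP,
        Matrix.det_one]
    rw [Matrix.det_fin_two, h01, h10] at h1
    simpa using h1
  have ha1 : Y 0 0 - 1 ∈ maximalIdeal A := by
    have := hS 0 0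
    rwa [Matrix.sub_apply, Matrix.one_apply_eq] at this
  have haq : (Y 0 0) ^ q = Y 0 0 := by
    have e00 := congrFun (congrFun hrel 0) 0
    have hpd : (Y ^ q) 0 0 = (Y 0 0) ^ q := by
      conv_lhs => rw [hdiag, Matrix.diagonal_pow]
      simp
    rw [Matrix.diagonal_mul, Matrix.mul_diagonal, hpd] at e00
    simp only [Matrix.cons_val_zero] at e00
    have hxu : IsUnit x := by
      have h1 : IsUnit (r L.φ).det := by
        have h2 : r L.φ * r L.φ⁻¹ = 1 := by rw [← hr.map_mul, mul_inv_cancel, hr.map_one]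
        have h3 := congrArg Matrix.det h2
        rw [Matrix.det_mul, Matrix.det_one] at h3
        exact IsUnit.of_mul_eq_one _ h3
      rw [← hxy2] at h1
      exact isUnit_of_mul_isUnit_left h1
    have h1 : x * Y 0 0 = x * (Y 0 0) ^ q := by rw [e00, mul_comm]
    exact (hxu.mul_left_cancel h1).symm
  have haq1 : (Y 0 0) ^ (q - 1) = 1 := by
    have h1 : (Y 0 0) ^ (q - 1) * Y 0 0 = Y 0 0 := by
      rw [← pow_succ, Nat.sub_add_cancel (Nat.one_le_iff_ne_zero.mpr hq), haq]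
    calc (Y 0 0) ^ (q - 1) = (Y 0 0) ^ (q - 1) * (Y 0 0 * Y 1 1) := by rw [hdetY, mul_one]
      _ = _ := by rw [← mul_assoc, h1, hdetY]
  obtain ⟨c, hc⟩ := hv
  have hpc : ¬ p ∣ c := by
    rintro ⟨c', rfl⟩
    apply hv'
    rw [hc, pow_succ]
    exact ⟨c', by ring⟩
  refine ⟨Y 0 0, Y 1 1, P, hP, ha1, ?_, hdetY, ?_⟩
  · refine pow_eq_one_of_pow_mul hp hpA hpc ha1 ?_
    rw [← hc]; exact haq1
  · rw [← hdiag, hY, ← Matrix.mul_assoc, ← Matrix.mul_assoc, hPi, Matrix.one_mul]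

end Fermat.Agent.LL
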