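import Fermat.Agent.LL.CondGlue
import Fermat.Agent.LL.LocGen

set_option autoImplicit false

/-!
# Tame generators and matrices
-/

open IsLocalRing GaloisRep Polynomial

namespace Fermat.Agent.LL

open Fermat.Agent.DefRing Fermat.Agent

local notation "Γℚ" => (AlgebraicClosure ℚ ≃ₐ[ℚ] AlgebraicClosure ℚ)
local notation "M₂" => Matrix (Fin 2) (Fin 2)
local notation "Qb" => AlgebraicClosure ℚ

section MI

variable {A : Type*} [CommRing A]

/-- all entries in `J` -/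
def MI (J : Ideal A) (M : M₂ A) : Prop := ∀ a b, M a b ∈ J

variable {J K : Ideal A} {M N : M₂ A}

theorem MI.mono (h : MI J M) (hJK : J ≤ K) : MI K M := fun a b => hJK (h a b)

theorem MI.add (h : MI J M) (h' : MI J N) : MI J (M + N) := fun a b => J.add_mem (h a b) (h' a b)

theorem MI.sub (h : MI J M) (h' : MI J N) : MI J (M - N) := fun a b => J.sub_mem (h a b) (h' a b)

theorem MI.mul (h : MI J M) (h' : MI K N) : MI (J * K) (M * N) := fun a b => by
  rw [Matrix.mul_apply]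
  exact Ideal.sum_mem _ fun c _ => Ideal.mul_mem_mul (h a c) (h' c b)

theorem MI.mul_right (h : MI J M) : MI J (M * N) := fun a b => by
  rw [Matrix.mul_apply]
  exact Ideal.sum_mem _ fun c _ => Ideal.mul_mem_right _ _ (h a c)

theorem MI.mul_left (h : MI J M) : MI J (N * M) := fun a b => by
  rw [Matrix.mul_apply]
  exact Ideal.sum_mem _ fun c _ => Ideal.mul_mem_left _ _ (h c b)

theorem MI.smul (a : A) (h : MI J M) : MI J (a • M) := fun i k => by
  rw [Matrix.smul_apply, smul_eq_mul]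
  exact Ideal.mul_mem_left _ _ (h i k)

theorem MI.sum {ι : Type*} (s : Finset ι) (f : ι → M₂ A) (h : ∀ i ∈ s, MI J (f i)) :
    MI J (∑ i ∈ s, f i) := fun a b => by
  rw [Matrix.sum_apply]
  exact Ideal.sum_mem _ fun i hi => h i hi a b

theorem MI.pow_sub_one (h : MI J (M - 1)) (n : ℕ) : MI J (M ^ n - 1) := by
  rw [← mul_geom_sum]
  exact h.mul_right

theorem MI.of_natCast {n : ℕ} (h : (n : A) ∈ J) : MI J ((n : M₂ A)) := fun a b => by
  have : (n : M₂ A) = (n : A) • (1 : M₂ A) := by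
    ext i k
    rw [Matrix.smul_apply, smul_eq_mul]
    by_cases hik : i = k
    · subst hik; simp [Matrix.natCast_apply]
    · simp [Matrix.natCast_apply, Matrix.one_apply_ne hik, hik]
  rw [this, Matrix.smul_apply, smul_eq_mul]
  exact Ideal.mul_mem_right _ _ h

theorem MI.pow_prime {m : Ideal A} {p : ℕ} (hp : (p : A) ∈ m) {j : ℕ} (hj : 1 ≤ j)
    (h : MI (m ^ j) (M - 1)) : MI (m ^ (j + 1)) (M ^ p - 1) := by
  have h1 : MI m (∑ i ∈ Finset.range p, M ^ i) := by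
    have e : ∑ i ∈ Finset.range p, M ^ i = (p : M₂ A) + ∑ i ∈ Finset.range p, (M ^ i - 1) := by
      rw [Finset.sum_sub_distrib, Finset.sum_const, Finset.card_range, nsmul_eq_mul, mul_one]
      abel
    rw [e]
    refine (MI.of_natCast hp).add (MI.sum _ _ fun i _ => ?_)
    exact (h.mono (Ideal.pow_le_self (by omega))).pow_sub_one i
  rw [← mul_geom_sum, pow_succ]
  exact h.mul h1

theorem MI.pow_prime_pow {m : Ideal A} {p : ℕ} (hp : (p : A) ∈ m) (h : MI m (M - 1)) (n : ℕ) :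
    MI (m ^ (n + 1)) (M ^ p ^ n - 1) := by
  induction n with
  | zero => simpa using h
  | succ n ih =>
    rw [pow_succ p n, pow_mul]
    exact MI.pow_prime hp (by omega) ih

theorem MI.map_mk_eq (h : MI J (M - N)) : M.map (Ideal.Quotient.mk J) = N.map (Ideal.Quotient.mk J) := by
  ext a b
  rw [Matrix.map_apply, Matrix.map_apply, Ideal.Quotient.eq]
  exact h a b

theorem MI.of_map_mk_eq (h : M.map (Ideal.Quotient.mk J) = N.map (Ideal.Quotient.mk J)) :
    MI J (M - N) := fun a b => by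
  rw [Matrix.sub_apply, ← Ideal.Quotient.eq]
  exact congrFun (congrFun h a) b

theorem eq_of_MI_pow {m : Ideal A} [IsHausdorff m A] (h : ∀ n, MI (m ^ n) (M - N)) : M = N := by
  ext a b
  rw [← sub_eq_zero]
  apply IsHausdorff.haus' (I := m)
  intro n
  rw [SModEq.zero, smul_eq_mul, Ideal.mul_top]
  exact h n a b

end MI

section Gen

variable {A : Type} [CommRing A] [IsLocalRing A] [IsHausdorff (maximalIdeal A) A]
  {ρ : GaloisRepAdic A} {r : Γℚ → M₂ A} (hr : Realizes ρ r) {q p : ℕ} (L : LocGen q p)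
  (hp : p.Prime) (hpA : (p : A) ∈ maximalIdeal A)
  (hres : ∀ σ ∈ L.P.inertiaSubgroupIn ℚ, MI (maximalIdeal A) (r σ - 1))

include hr hp hpA hres

omit [IsHausdorff (maximalIdeal A) A] in
theorem loc_gen (n : ℕ) :
    (∀ σ ∈ L.P.inertiaSubgroupIn ℚ, ∃ k : ℕ, MI (maximalIdeal A ^ n) (r σ - r L.τ ^ k)) ∧
    MI (maximalIdeal A ^ n) (r (L.φ * L.τ * L.φ⁻¹) - r L.τ ^ q) := by
  let f : Γℚ →* (M₂ (A ⧸ maximalIdeal A ^ n))ˣ :=
    (mapRep (Ideal.Quotient.mk (maximalIdeal A ^ n)) (repHom hr)).toHomUnits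
  have hf : ∀ σ, ((f σ : (M₂ (A ⧸ maximalIdeal A ^ n))ˣ) : M₂ (A ⧸ maximalIdeal A ^ n)) =
      (r σ).map (Ideal.Quotient.mk _) := fun σ => rfl
  have hone : (1 : M₂ A).map (Ideal.Quotient.mk (maximalIdeal A ^ n)) = 1 :=
    Matrix.map_one _ (map_zero _) (map_one _)
  have hpw : ∀ (M : M₂ A) (k : ℕ), (M ^ k).map (Ideal.Quotient.mk (maximalIdeal A ^ n)) =
      (M.map (Ideal.Quotient.mk (maximalIdeal A ^ n))) ^ k := fun M k =>
    map_pow (Ideal.Quotient.mk (maximalIdeal A ^ n)).mapMatrix M k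
  have hfin : GaloisFactorsThroughFiniteLevel f := by
    obtain ⟨F, hF, hF'⟩ := hr.matCont n
    refine ⟨F, hF, fun σ hσ => Units.ext ?_⟩
    rw [hf, Units.val_one, ← hone]
    exact MI.map_mk_eq (hF' σ hσ)
  have hpp : ∀ σ ∈ L.P.inertiaSubgroupIn ℚ, f σ ^ p ^ n = 1 := by
    intro σ hσ
    apply Units.ext
    rw [Units.val_pow_eq_pow_val, hf, Units.val_one, ← hone, ← hpw]
    exact MI.map_mk_eq (((hres σ hσ).pow_prime_pow hpA n).mono (Ideal.pow_le_pow_right (by omega)))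
  obtain ⟨h1, h2, h3⟩ := L.gen _ f hfin fun σ hσ => ⟨n, hpp σ hσ⟩
  refine ⟨fun σ hσ => ?_, ?_⟩
  · obtain ⟨k, hk⟩ := h1 σ hσ
    have hpow : ∃ k : ℕ, f L.τ ^ k = f σ := by
      have hfo : IsOfFinOrder (f L.τ) :=
        isOfFinOrder_iff_pow_eq_one.mpr ⟨p ^ n, pow_pos hp.pos n, hpp _ L.hτ⟩
      exact (hfo.mem_powers_iff_mem_zpowers).mpr ⟨k, hk⟩
    obtain ⟨k, hk⟩ := hpow
    refine ⟨k, MI.of_map_mk_eq ?_⟩
    have h4 := congrArg (fun u : (M₂ (A ⧸ maximalIdeal A ^ n))ˣ => (u : M₂ (A ⧸ maximalIdeal A ^ n))) hk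
    rw [hpw, ← hf, ← hf]
    simpa using h4.symm
  · apply MI.of_map_mk_eq
    have h4 := congrArg (fun u : (M₂ (A ⧸ maximalIdeal A ^ n))ˣ => (u : M₂ (A ⧸ maximalIdeal A ^ n))) h2
    rw [hpw, ← hf, ← hf]
    simpa using h4

/-- the tame relation -/
theorem loc_rel : r (L.φ * L.τ * L.φ⁻¹) = r L.τ ^ q :=
  eq_of_MI_pow fun n => (loc_gen hr L hp hpA hres n).2

/-- the tame relation -/
theorem loc_rel' : r L.φ * r L.τ = r L.τ ^ q * r L.φ := by
  rw [← loc_rel hr L hp hpA hres, ← hr.map_mul, ← hr.map_mul]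
  congr 1
  group

/-- if `τ` acts trivially then so does inertia -/
theorem inertia_trivial (h : r L.τ = 1) {σ : Γℚ} (hσ : σ ∈ L.P.inertiaSubgroupIn ℚ) : r σ = 1 :=
  eq_of_MI_pow fun n => by
    obtain ⟨k, hk⟩ := (loc_gen hr L hp hpA hres n).1 σ hσ
    rwa [h, one_pow] at hk

/-- if `τ` acts unipotently then so does inertia -/
theorem inertia_unipotent (h : (r L.τ).trace = 2 ∧ (r L.τ).det = 1) {σ : Γℚ}
    (hσ : σ ∈ L.P.inertiaSubgroupIn ℚ) : (r σ).trace = 2 ∧ (r σ).det = 1 := by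
  set X := r L.τ with hX
  have hsq : (X - 1) * (X - 1) = 0 := by
    have h1 := Matrix.aeval_self_charpoly X
    rw [Matrix.charpoly_fin_two, h.1, h.2] at h1
    simp only [map_add, map_sub, map_mul, map_pow, aeval_X, aeval_C, map_ofNat, map_one] at h1
    rw [← h1]
    noncomm_ring
  have hpow : ∀ k : ℕ, X ^ k = 1 + k • (X - 1) := by
    intro k
    induction k with
    | zero => simp
    | succ k ih =>
      have hX1 : X = 1 + (X - 1) := by abel
      rw [pow_succ, ih]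
      nth_rewrite 2 [hX1]
      rw [add_mul, one_mul, mul_add, mul_one, smul_mul_assoc, hsq, smul_zero, add_zero, succ_nsmul]
      abel
  have htr : ∀ k : ℕ, (X ^ k).trace = 2 := by
    intro k
    rw [hpow, Matrix.trace_add, Matrix.trace_smul, Matrix.trace_sub, h.1, Matrix.trace_one]
    simp
  have hdet : ∀ k : ℕ, (X ^ k).det = 1 := by
    intro k
    rw [Matrix.det_pow, h.2, one_pow]
  refine ⟨?_, ?_⟩
  · rw [← sub_eq_zero]
    apply IsHausdorff.haus' (I := maximalIdeal A)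
    intro n
    rw [SModEq.zero, smul_eq_mul, Ideal.mul_top]
    obtain ⟨k, hk⟩ := (loc_gen hr L hp hpA hres n).1 σ hσ
    have h1 := Ideal.add_mem _ (hk 0 0) (hk 1 1)
    have h2 := htr k
    rw [Matrix.trace_fin_two] at h2 ⊢
    rw [Matrix.sub_apply, Matrix.sub_apply] at h1
    convert h1 using 1
    rw [← h2]; ring
  · rw [← sub_eq_zero]
    apply IsHausdorff.haus' (I := maximalIdeal A)
    intro n
    rw [SModEq.zero, smul_eq_mul, Ideal.mul_top]
    obtain ⟨k, hk⟩ := (loc_gen hr L hp hpA hres n).1 σ hσ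
    have h2 := hdet k
    have e := hk
    rw [Matrix.det_fin_two] at h2 ⊢
    rw [← h2]
    have h7 : r σ 0 0 * r σ 1 1 - r σ 0 1 * r σ 1 0 -
          ((X ^ k) 0 0 * (X ^ k) 1 1 - (X ^ k) 0 1 * (X ^ k) 1 0) =
          (r σ - X ^ k) 0 0 * r σ 1 1 + (r σ - X ^ k) 1 1 * (X ^ k) 0 0
          - ((r σ - X ^ k) 0 1 * r σ 1 0 + (r σ - X ^ k) 1 0 * (X ^ k) 0 1) := by
      simp only [Matrix.sub_apply]
      ring
    rw [h7]
    exact Ideal.sub_mem _ (Ideal.add_mem _ (Ideal.mul_mem_right _ _ (e 0 0))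
      (Ideal.mul_mem_right _ _ (e 1 1))) (Ideal.add_mem _ (Ideal.mul_mem_right _ _ (e 0 1))
      (Ideal.mul_mem_right _ _ (e 1 0)))

end Gen

/-- unipotence at one place implies unipotence at all places -/
theorem isUnipotentOnInertiaAt_of_one {A : Type} [CommRing A] [IsLocalRing A]
    {ρ : GaloisRepAdic A} {q : ℕ} (hq : q.Prime) {P : ValuationSubring Qb} (hP : P.LiesOverPrime q)
    (h : ∀ σ ∈ P.inertiaSubgroupIn ℚ, LinearMap.charpoly (ρ.ρ σ) = (X - 1) ^ 2) :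
    ρ.IsUnipotentOnInertiaAt q := by
  intro P' hP' σ hσ
  obtain ⟨g, rfl⟩ := Frob.exists_smul_eq hq hP hP'
  rw [Frob.mem_inertiaSubgroupIn_smul_iff] at hσ
  have h1 := h _ hσ
  obtain ⟨r, hr⟩ := exists_realizes ρ
  rw [charpoly_unip_iff hr] at h1 ⊢
  have h2 : r σ = r g * r (g⁻¹ * σ * g) * r g⁻¹ := by
    rw [← hr.map_mul, ← hr.map_mul]
    congr 1
    group
  have h3 : r g⁻¹ * r g = 1 := by rw [← hr.map_mul, inv_mul_cancel, hr.map_one]
  rw [h2]
  constructor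
  · rw [Matrix.trace_mul_comm, ← Matrix.mul_assoc, h3, Matrix.one_mul, h1.1]
  · rw [Matrix.det_mul, Matrix.det_mul, mul_comm, ← mul_assoc, ← Matrix.det_mul, h3,
      Matrix.det_one, one_mul, h1.2]

end Fermat.Agent.LL
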